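import Mathlib

/-!
# S14, package AN2 : the Dedekind zeta function at real `s > 1` as a sum over ideals
-/

set_option autoImplicit false

namespace Fermat.Agent.S14

open NumberField Ideal Filter Topology
open scoped Pointwise nonZeroDivisors

section AN

variable (K : Type*) [Field K] [NumberField K]

namespace Zeta

/-- number of ideals of norm `n` -/
noncomputable def cnt (n : ℕ) : ℝ := Nat.card {I : Ideal (𝓞 K) // absNorm I = n}

lemma cnt_nonneg (n : ℕ) : 0 ≤ cnt K n := Nat.cast_nonneg _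

lemma tendsto_cnt :
    Tendsto (fun n : ℕ => (∑ k ∈ Finset.Icc 1 n, cnt K k) / (n : ℝ)) atTop
      (𝓝 (dedekindZeta_residue K)) := by
  refine ((NumberField.Ideal.tendsto_norm_le_div_atTop₀ K).comp
    tendsto_natCast_atTop_atTop).congr fun n ↦ ?_
  simp only [Function.comp_apply, Nat.cast_le, cnt, ← Nat.cast_sum]
  congr
  rw [← add_left_inj 1, ← card_norm_le_eq_card_norm_le_add_one,
    show Finset.Icc 1 n = Finset.Ioc 0 n from Finset.Icc_succ_left_eq_Ioc _ _,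
    show 1 = Nat.card {I : Ideal (𝓞 K) // absNorm I = 0} by simp [Ideal.absNorm_eq_zero_iff],
    Finset.sum_Ioc_add_eq_sum_Icc (n.zero_le),
    ← Finset.card_preimage_eq_sum_card_image_eq (fun k _ ↦ finite_setOfPred_absNorm_eq k)]
  simp [Set.coe_eq_subtype]

lemma lseriesSummable_cnt {s : ℝ} (hs : 1 < s) :
    LSeriesSummable (fun n => (cnt K n : ℂ)) s := by
  refine LSeriesSummable_of_sum_norm_bigO_and_nonneg ?_ (cnt_nonneg K) zero_le_one
    (by simpa using hs)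
  exact Asymptotics.isBigO_atTop_natCast_rpow_of_tendsto_div_rpow (by simpa using tendsto_cnt K)

/-- the general term of the real Dirichlet series -/
noncomputable def trm (s : ℝ) (n : ℕ) : ℝ := if n = 0 then 0 else cnt K n * (n : ℝ) ^ (-s)

lemma ofReal_trm (s : ℝ) (n : ℕ) :
    ((trm K s n : ℝ) : ℂ) = LSeries.term (fun n => (cnt K n : ℂ)) s n := by
  unfold trm LSeries.term
  split_ifs with h
  · simp
  · rw [Real.rpow_neg (Nat.cast_nonneg n), Complex.ofReal_mul, Complex.ofReal_inv,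
      Complex.ofReal_cpow (Nat.cast_nonneg n), div_eq_mul_inv]
    simp

lemma summable_trm {s : ℝ} (hs : 1 < s) : Summable (trm K s) := by
  have h := lseriesSummable_cnt K hs
  unfold LSeriesSummable at h
  have h2 : Summable fun n => ((trm K s n : ℝ) : ℂ) := by
    simpa only [ofReal_trm] using h
  exact Complex.summable_ofReal.1 h2

/-- the nonzero ideals of norm `n` -/
abbrev Fib (n : ℕ) : Type _ := {I : (Ideal (𝓞 K))⁰ // absNorm (I : Ideal (𝓞 K)) = n}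

/-- for `n ≠ 0`, ideals of norm `n` are nonzero -/
noncomputable def fibEquiv {n : ℕ} (hn : n ≠ 0) : Fib K n ≃ {I : Ideal (𝓞 K) // absNorm I = n} where
  toFun I := ⟨I.1.1, I.2⟩
  invFun I := ⟨⟨I.1, mem_nonZeroDivisors_of_ne_zero (by
    intro h
    have := I.2
    rw [h] at this
    simp at this
    exact hn this.symm)⟩, I.2⟩
  left_inv _ := rfl
  right_inv _ := rfl

lemma tsum_fib (s : ℝ) (n : ℕ) :
    ∑' y : Fib K n, (absNorm ((y : (Ideal (𝓞 K))⁰) : Ideal (𝓞 K)) : ℝ) ^ (-s) = trm K s n := by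
  have h1 : ∀ y : Fib K n, (absNorm ((y : (Ideal (𝓞 K))⁰) : Ideal (𝓞 K)) : ℝ) ^ (-s)
      = (n : ℝ) ^ (-s) := fun y => by rw [y.2]
  simp_rw [h1]
  rw [tsum_const]
  unfold trm
  split_ifs with h
  · subst h
    have : IsEmpty (Fib K 0) := ⟨fun y => by
      have h2 := y.2
      rw [Ideal.absNorm_eq_zero_iff] at h2
      exact nonZeroDivisors.coe_ne_zero y.1 h2⟩
    simp
  · rw [Nat.card_congr (fibEquiv K h), nsmul_eq_mul]
    rfl

instance (n : ℕ) : Finite (Fib K n) := by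
  rcases eq_or_ne n 0 with rfl | h
  · have : IsEmpty (Fib K 0) := ⟨fun y => by
      have h2 := y.2
      rw [Ideal.absNorm_eq_zero_iff] at h2
      exact nonZeroDivisors.coe_ne_zero y.1 h2⟩
    infer_instance
  · have : Finite {I : Ideal (𝓞 K) // absNorm I = n} := finite_setOfPred_absNorm_eq n
    exact Finite.of_equiv _ (fibEquiv K h).symm

end Zeta

open Zeta

/-- [AN2] -/
theorem summable_absNorm_rpow {s : ℝ} (hs : 1 < s) :
    Summable fun I : (Ideal (𝓞 K))⁰ => (absNorm (I : Ideal (𝓞 K)) : ℝ) ^ (-s) := by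
  rw [← (Equiv.sigmaFiberEquiv fun I : (Ideal (𝓞 K))⁰ => absNorm (I : Ideal (𝓞 K))).summable_iff,
    summable_sigma_of_nonneg (fun x => by
      simp only [Function.comp_apply]
      positivity)]
  refine ⟨fun n => Summable.of_finite, ?_⟩
  have h := summable_trm K hs
  refine h.congr fun n => ?_
  exact (tsum_fib K s n).symm

/-- [AN2, def] the Dedekind zeta function at real `s`, as a sum over nonzero ideals. -/
noncomputable def zetaR (s : ℝ) : ℝ :=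
  ∑' I : (Ideal (𝓞 K))⁰, (absNorm (I : Ideal (𝓞 K)) : ℝ) ^ (-s)

namespace Zeta

lemma zetaR_eq_tsum_trm {s : ℝ} (hs : 1 < s) : zetaR K s = ∑' n, trm K s n := by
  unfold zetaR
  have h := summable_absNorm_rpow K hs
  rw [← (Equiv.sigmaFiberEquiv fun I : (Ideal (𝓞 K))⁰ => absNorm (I : Ideal (𝓞 K))).summable_iff] at h
  rw [← (Equiv.sigmaFiberEquiv fun I : (Ideal (𝓞 K))⁰ => absNorm (I : Ideal (𝓞 K))).tsum_eq]
  refine (h.tsum_sigma).trans ?_
  exact tsum_congr fun n => tsum_fib K s n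

lemma ofReal_zetaR {s : ℝ} (hs : 1 < s) : ((zetaR K s : ℝ) : ℂ) = dedekindZeta K s := by
  rw [zetaR_eq_tsum_trm K hs, Complex.ofReal_tsum]
  simp_rw [ofReal_trm]
  rfl

lemma one_le_absNorm (I : (Ideal (𝓞 K))⁰) : 1 ≤ absNorm (I : Ideal (𝓞 K)) := by
  rw [Nat.one_le_iff_ne_zero, Ne, Ideal.absNorm_eq_zero_iff]
  exact nonZeroDivisors.coe_ne_zero I

lemma one_le_absNorm' (I : (Ideal (𝓞 K))⁰) : (1 : ℝ) ≤ absNorm (I : Ideal (𝓞 K)) := by
  exact_mod_cast one_le_absNorm K I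

lemma one_le_zetaR {s : ℝ} (hs : 1 < s) : 1 ≤ zetaR K s := by
  have h := (summable_absNorm_rpow K hs).le_tsum (1 : (Ideal (𝓞 K))⁰) (fun I _ => by positivity)
  simpa [zetaR] using h

lemma zetaR_antitone {s t : ℝ} (hs : 1 < s) (hst : s ≤ t) : zetaR K t ≤ zetaR K s := by
  refine (summable_absNorm_rpow K (hs.trans_le hst)).tsum_le_tsum (fun I => ?_)
    (summable_absNorm_rpow K hs)
  exact Real.rpow_le_rpow_of_exponent_le (one_le_absNorm' K I) (by linarith)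

lemma tendsto_zetaR :
    Tendsto (fun s : ℝ => (s - 1) * zetaR K s) (𝓝[>] 1) (𝓝 (dedekindZeta_residue K)) := by
  have h := tendsto_sub_one_mul_dedekindZeta_nhdsGT K
  have h2 := (Complex.continuous_re.tendsto _).comp h
  simp only [Complex.ofReal_re] at h2
  refine h2.congr' ?_
  filter_upwards [self_mem_nhdsWithin] with s hs
  simp only [Function.comp_apply]
  rw [← ofReal_zetaR K hs, ← Complex.ofReal_one, ← Complex.ofReal_sub, ← Complex.ofReal_mul,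
    Complex.ofReal_re]

end Zeta

/-- [AN2] from `NumberField.tendsto_sub_one_mul_dedekindZeta_nhdsGT` + monotonicity. -/
theorem zetaR_bounds : ∃ c C : ℝ, 0 < c ∧ ∀ s : ℝ, 1 < s → s ≤ 2 →
    c / (s - 1) ≤ zetaR K s ∧ zetaR K s ≤ C / (s - 1) := by
  have hρ := dedekindZeta_residue_pos K
  set ρ := dedekindZeta_residue K
  have h := tendsto_zetaR K
  have h1 := (tendsto_order.1 h).1 (ρ / 2) (by linarith)
  have h2 := (tendsto_order.1 h).2 (2 * ρ) (by linarith)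
  obtain ⟨u, hu, hsub⟩ := mem_nhdsGT_iff_exists_Ioo_subset.1 (h1.and h2)
  have hu' : (1 : ℝ) < u := hu
  refine ⟨min (ρ / 2) (u - 1), max (2 * ρ) (zetaR K u), lt_min (by linarith) (by linarith),
    fun s hs hs2 => ?_⟩
  have hs' : 0 < s - 1 := by linarith
  rw [div_le_iff₀ hs', le_div_iff₀ hs']
  rcases lt_or_ge s u with hsu | hsu
  · obtain ⟨h3, h4⟩ := hsub ⟨hs, hsu⟩
    constructor
    · exact (min_le_left _ _).trans (by rw [mul_comm]; exact h3.le)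
    · exact le_trans (by rw [mul_comm]; exact h4.le) (le_max_left _ _)
  · have h5 := one_le_zetaR K hs
    have h6 := zetaR_antitone K hu' hsu
    constructor
    · refine (min_le_right _ _).trans ?_
      nlinarith
    · refine le_trans ?_ (le_max_right _ _)
      nlinarith

namespace Zeta

variable {K}

lemma dvd_mul_iff_of_ne {P Q : (Ideal (𝓞 K))⁰} (hP : (P : Ideal (𝓞 K)).IsPrime)
    (hQ : (Q : Ideal (𝓞 K)).IsPrime) (hPQ : Q ≠ P) (J : (Ideal (𝓞 K))⁰) :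
    (Q : Ideal (𝓞 K)) ∣ ((P * J : (Ideal (𝓞 K))⁰) : Ideal (𝓞 K)) ↔
      (Q : Ideal (𝓞 K)) ∣ (J : Ideal (𝓞 K)) := by
  rw [Submonoid.coe_mul, Ideal.dvd_iff_le, Ideal.dvd_iff_le, hQ.mul_le]
  constructor
  · rintro (h | h)
    · exfalso
      have hmax : (P : Ideal (𝓞 K)).IsMaximal := hP.isMaximal (nonZeroDivisors.coe_ne_zero P)
      exact hPQ (Subtype.ext (hmax.eq_of_le hQ.ne_top h).symm)
    · exact h
  · exact Or.inr

open scoped Classical in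
lemma sieve_step (f : (Ideal (𝓞 K))⁰ →* ℂ) (hf : Summable fun I => ‖f I‖)
    (F : Finset (Ideal (𝓞 K))⁰) (hF : ∀ P ∈ F, (P : Ideal (𝓞 K)).IsPrime)
    (P : (Ideal (𝓞 K))⁰) (hP : (P : Ideal (𝓞 K)).IsPrime) (hPF : P ∉ F) :
    (∑' I : (Ideal (𝓞 K))⁰, if (∀ Q ∈ insert P F, ¬ (Q : Ideal (𝓞 K)) ∣ I) then f I else 0)
      = (1 - f P) *
        ∑' I : (Ideal (𝓞 K))⁰, if (∀ Q ∈ F, ¬ (Q : Ideal (𝓞 K)) ∣ I) then f I else 0 := by
  set g : (Ideal (𝓞 K))⁰ → ℂ := fun I => if (∀ Q ∈ F, ¬ (Q : Ideal (𝓞 K)) ∣ I) then f I else 0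
    with hg
  set u : (Ideal (𝓞 K))⁰ → ℂ := fun I => if (P : Ideal (𝓞 K)) ∣ I then g I else 0 with hu
  have hgs : Summable g := Summable.of_norm_bounded hf (fun I => by
    simp only [hg]; split_ifs <;> simp)
  have hus : Summable u := Summable.of_norm_bounded hf (fun I => by
    simp only [hu, hg]; split_ifs <;> simp)
  have h1 : ∀ I : (Ideal (𝓞 K))⁰,
      (if (∀ Q ∈ insert P F, ¬ (Q : Ideal (𝓞 K)) ∣ I) then f I else 0) = g I - u I := by
    intro I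
    simp only [hu, hg, Finset.forall_mem_insert]
    by_cases h2 : (P : Ideal (𝓞 K)) ∣ I
    · simp [h2]
    · simp [h2]
  simp_rw [h1]
  rw [hgs.tsum_sub hus]
  have hinj : Function.Injective (fun J : (Ideal (𝓞 K))⁰ => P * J) := mul_right_injective P
  have hsupp : Function.support u ⊆ Set.range (fun J : (Ideal (𝓞 K))⁰ => P * J) := by
    intro I hI
    have h3 : (P : Ideal (𝓞 K)) ∣ I := by
      by_contra h3
      exact hI (by simp [hu, h3])
    obtain ⟨J, hJ⟩ := h3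
    have hJ0 : J ≠ 0 := by
      rintro rfl
      exact nonZeroDivisors.coe_ne_zero I (by simpa using hJ)
    exact ⟨⟨J, mem_nonZeroDivisors_of_ne_zero hJ0⟩, Subtype.ext (by simp [hJ])⟩
  rw [← hinj.tsum_eq hsupp]
  have h4 : ∀ J : (Ideal (𝓞 K))⁰, u (P * J) = f P * g J := by
    intro J
    have h5 : (P : Ideal (𝓞 K)) ∣ ((P * J : (Ideal (𝓞 K))⁰) : Ideal (𝓞 K)) := by
      rw [Submonoid.coe_mul]; exact Dvd.intro _ rfl
    simp only [hu, h5, if_true, hg]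
    have h6 : (∀ Q ∈ F, ¬ (Q : Ideal (𝓞 K)) ∣ ((P * J : (Ideal (𝓞 K))⁰) : Ideal (𝓞 K))) ↔
        (∀ Q ∈ F, ¬ (Q : Ideal (𝓞 K)) ∣ (J : Ideal (𝓞 K))) := by
      refine forall₂_congr fun Q hQ => ?_
      rw [dvd_mul_iff_of_ne hP (hF Q hQ) (fun h => hPF (h ▸ hQ))]
    simp only [h6, map_mul]
    split_ifs <;> simp
  simp_rw [h4]
  rw [tsum_mul_left]
  ring

end Zeta

open scoped Classical in
/-- [AN2] finite sieve identity (replaces the Euler product). -/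
theorem sieve (f : (Ideal (𝓞 K))⁰ →* ℂ) (hf : Summable fun I => ‖f I‖)
    (F : Finset (Ideal (𝓞 K))⁰) (hF : ∀ P ∈ F, (P : Ideal (𝓞 K)).IsPrime) :
    (∏ P ∈ F, (1 - f P)) * ∑' I, f I =
      ∑' I : (Ideal (𝓞 K))⁰, if (∀ P ∈ F, ¬ (P : Ideal (𝓞 K)) ∣ I) then f I else 0 := by
  induction F using Finset.induction_on with
  | empty => simp
  | insert P F hPF ih =>
    rw [sieve_step f hf F (fun Q hQ => hF Q (Finset.mem_insert_of_mem hQ)) P
      (hF P (Finset.mem_insert_self P F)) hPF,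
      ← ih (fun Q hQ => hF Q (Finset.mem_insert_of_mem hQ)), Finset.prod_insert hPF]
    ring

namespace Zeta

/-- `I ↦ N(I)^{-s}` as a monoid homomorphism -/
noncomputable def nrm (s : ℝ) : (Ideal (𝓞 K))⁰ →* ℂ where
  toFun I := (((absNorm (I : Ideal (𝓞 K)) : ℝ) ^ (-s) : ℝ) : ℂ)
  map_one' := by simp
  map_mul' I J := by
    rw [Submonoid.coe_mul, map_mul, Nat.cast_mul,
      Real.mul_rpow (Nat.cast_nonneg _) (Nat.cast_nonneg _), Complex.ofReal_mul]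

lemma nrm_apply (s : ℝ) (I : (Ideal (𝓞 K))⁰) :
    nrm K s I = (((absNorm (I : Ideal (𝓞 K)) : ℝ) ^ (-s) : ℝ) : ℂ) := rfl

lemma summable_norm_nrm {s : ℝ} (hs : 1 < s) : Summable fun I => ‖nrm K s I‖ := by
  refine (summable_absNorm_rpow K hs).congr fun I => ?_
  rw [nrm_apply, Complex.norm_real, Real.norm_of_nonneg (by positivity)]

open scoped Classical in
lemma sieve_real {s : ℝ} (hs : 1 < s) (F : Finset (Ideal (𝓞 K))⁰)
    (hF : ∀ P ∈ F, (P : Ideal (𝓞 K)).IsPrime) :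
    (∏ P ∈ F, (1 - (absNorm (P : Ideal (𝓞 K)) : ℝ) ^ (-s))) * zetaR K s =
      ∑' I : (Ideal (𝓞 K))⁰, if (∀ P ∈ F, ¬ (P : Ideal (𝓞 K)) ∣ I) then
        (absNorm (I : Ideal (𝓞 K)) : ℝ) ^ (-s) else 0 := by
  have h := sieve K (nrm K s) (summable_norm_nrm K hs) F hF
  apply Complex.ofReal_injective
  rw [Complex.ofReal_mul, Complex.ofReal_prod, Complex.ofReal_tsum, zetaR, Complex.ofReal_tsum]
  simp only [nrm_apply] at h
  simp only [Complex.ofReal_sub, Complex.ofReal_one]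
  rw [h]
  refine tsum_congr fun I => ?_
  split_ifs <;> simp

end Zeta

/-- [AN2] -/
theorem sum_primes_le_log_zetaR (F : Finset (Ideal (𝓞 K))) (hF : ∀ P ∈ F, P.IsPrime ∧ P ≠ ⊥)
    {s : ℝ} (hs : 1 < s) :
    ∑ P ∈ F, (absNorm P : ℝ) ^ (-s) ≤ Real.log (zetaR K s) := by
  classical
  have hmem : ∀ P ∈ F, P ∈ (Ideal (𝓞 K))⁰ := fun P hP =>
    mem_nonZeroDivisors_of_ne_zero (hF P hP).2
  set F' : Finset (Ideal (𝓞 K))⁰ := F.subtype (fun I => I ∈ (Ideal (𝓞 K))⁰) with hF'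
  have hF'p : ∀ P ∈ F', (P : Ideal (𝓞 K)).IsPrime := fun P hP =>
    (hF P (Finset.mem_subtype.1 hP)).1
  have hsum : ∑ P ∈ F', (absNorm (P : Ideal (𝓞 K)) : ℝ) ^ (-s) = ∑ P ∈ F, (absNorm P : ℝ) ^ (-s) :=
    Finset.sum_subtype_of_mem (fun P : Ideal (𝓞 K) => (absNorm P : ℝ) ^ (-s)) hmem
  rw [← hsum]
  have hζ : 0 < zetaR K s := lt_of_lt_of_le one_pos (one_le_zetaR K hs)
  rw [Real.le_log_iff_exp_le hζ]
  have h1 := sieve_real K hs F' hF'p
  have h2 : (1 : ℝ) ≤ ∑' I : (Ideal (𝓞 K))⁰, if (∀ P ∈ F', ¬ (P : Ideal (𝓞 K)) ∣ I) then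
        (absNorm (I : Ideal (𝓞 K)) : ℝ) ^ (-s) else 0 := by
    have hs' : Summable fun I : (Ideal (𝓞 K))⁰ => if (∀ P ∈ F', ¬ (P : Ideal (𝓞 K)) ∣ I) then
        (absNorm (I : Ideal (𝓞 K)) : ℝ) ^ (-s) else 0 :=
      Summable.of_nonneg_of_le (fun I => by split_ifs <;> positivity)
        (fun I => by split_ifs <;> [exact le_rfl; positivity]) (summable_absNorm_rpow K hs)
    have h3 := hs'.le_tsum (1 : (Ideal (𝓞 K))⁰) (fun I _ => by split_ifs <;> positivity)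
    have h4 : ∀ P ∈ F', ¬ (P : Ideal (𝓞 K)) ∣ ((1 : (Ideal (𝓞 K))⁰) : Ideal (𝓞 K)) := by
      intro P hP hd
      rw [Ideal.dvd_iff_le] at hd
      exact (hF'p P hP).ne_top (by simpa using hd)
    rw [if_pos h4] at h3
    simpa using h3
  rw [← h1] at h2
  have h5 : ∏ P ∈ F', (1 - (absNorm (P : Ideal (𝓞 K)) : ℝ) ^ (-s))
      ≤ Real.exp (-∑ P ∈ F', (absNorm (P : Ideal (𝓞 K)) : ℝ) ^ (-s)) := by
    rw [← Finset.sum_neg_distrib, Real.exp_sum]
    refine Finset.prod_le_prod (fun P _ => ?_) (fun P _ => ?_)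
    · have := Real.rpow_le_one_of_one_le_of_nonpos (one_le_absNorm' K P) (by linarith : -s ≤ 0)
      linarith
    · have := Real.add_one_le_exp (-(absNorm (P : Ideal (𝓞 K)) : ℝ) ^ (-s))
      linarith
  have h6 : 1 ≤ Real.exp (-∑ P ∈ F', (absNorm (P : Ideal (𝓞 K)) : ℝ) ^ (-s)) * zetaR K s :=
    h2.trans (mul_le_mul_of_nonneg_right h5 hζ.le)
  rw [Real.exp_neg] at h6
  have h7 := Real.exp_pos (∑ P ∈ F', (absNorm (P : Ideal (𝓞 K)) : ℝ) ^ (-s))
  rwa [inv_mul_eq_div, le_div_iff₀ h7, one_mul] at h6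

namespace Zeta

variable {K}

lemma exists_prime_mem {P : Ideal (𝓞 K)} (hP : P.IsPrime) (h0 : P ≠ ⊥) :
    ∃ ℓ : ℕ, ℓ.Prime ∧ (ℓ : 𝓞 K) ∈ P := by
  have key : ∀ m : ℕ, m ≠ 0 → (m : 𝓞 K) ∈ P → ∃ ℓ : ℕ, ℓ.Prime ∧ (ℓ : 𝓞 K) ∈ P := by
    intro m
    induction m using induction_on_primes with
    | zero => intro h; exact absurd rfl h
    | one =>
      intro _ h
      exact absurd (by simpa using h) ((Ideal.ne_top_iff_one P).1 hP.ne_top)
    | prime_mul p a hp ih =>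
      intro hpa h
      rw [Nat.cast_mul] at h
      rcases hP.mem_or_mem h with h | h
      · exact ⟨p, hp, h⟩
      · exact ih (right_ne_zero_of_mul hpa) h
  exact key (absNorm P) (by rwa [Ne, Ideal.absNorm_eq_zero_iff]) (Ideal.absNorm_mem P)

lemma dvd_span_of_mem {P : Ideal (𝓞 K)} {ℓ : ℕ} (h : (ℓ : 𝓞 K) ∈ P) :
    P ∣ span {(ℓ : 𝓞 K)} := by
  rw [Ideal.dvd_iff_le, Ideal.span_singleton_le_iff_mem]; exact h

lemma absNorm_eq_pow {P : Ideal (𝓞 K)} (hP : P.IsPrime) {ℓ : ℕ} (hℓ : ℓ.Prime)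
    (h : (ℓ : 𝓞 K) ∈ P) : ∃ k : ℕ, k ≠ 0 ∧ absNorm P = ℓ ^ k := by
  have h1 : absNorm P ∣ ℓ ^ Module.finrank ℤ (𝓞 K) := by
    rw [← Ideal.absNorm_span_natCast]
    exact map_dvd absNorm (dvd_span_of_mem h)
  obtain ⟨k, _, hk⟩ := (Nat.dvd_prime_pow hℓ).1 h1
  refine ⟨k, ?_, hk⟩
  rintro rfl
  exact hP.ne_top (Ideal.absNorm_eq_one_iff.1 (by simpa using hk))

lemma card_le_of_mem (G : Finset (Ideal (𝓞 K))) {ℓ : ℕ} (hℓ : ℓ.Prime)
    (hG : ∀ P ∈ G, P.IsPrime ∧ P ≠ ⊥ ∧ (ℓ : 𝓞 K) ∈ P) : G.card ≤ Module.finrank ℤ (𝓞 K) := by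
  have h1 : ∏ P ∈ G, P ∣ span {(ℓ : 𝓞 K)} :=
    Finset.prod_primes_dvd _ (fun P hP => Ideal.prime_of_isPrime (hG P hP).2.1 (hG P hP).1)
      (fun P hP => dvd_span_of_mem (hG P hP).2.2)
  have h2 : ∏ P ∈ G, absNorm P ∣ ℓ ^ Module.finrank ℤ (𝓞 K) := by
    rw [← Ideal.absNorm_span_natCast, ← map_prod]
    exact map_dvd absNorm h1
  have h3 : ℓ ^ G.card ≤ ∏ P ∈ G, absNorm P := by
    refine Finset.pow_card_le_prod _ _ _ fun P hP => ?_
    obtain ⟨k, hk, hk'⟩ := absNorm_eq_pow (hG P hP).1 hℓ (hG P hP).2.2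
    rw [hk']
    exact Nat.le_self_pow hk ℓ
  have h4 := h3.trans (Nat.le_of_dvd (pow_pos hℓ.pos _) h2)
  exact (Nat.pow_le_pow_iff_right hℓ.one_lt).1 h4

end Zeta

/-- [AN2] primes of degree `> 1` do not matter. -/
theorem sum_primes_not_degree_one_le : ∃ C : ℝ, ∀ F : Finset (Ideal (𝓞 K)),
    (∀ P ∈ F, P.IsPrime ∧ P ≠ ⊥ ∧ ¬ (absNorm P).Prime) → ∀ s : ℝ, 1 < s →
    ∑ P ∈ F, (absNorm P : ℝ) ^ (-s) ≤ C := by
  classical
  have hsum : Summable fun m : ℕ => ((m : ℝ) ^ 2)⁻¹ := Real.summable_nat_pow_inv.2 one_lt_two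
  refine ⟨Module.finrank ℤ (𝓞 K) * ∑' m : ℕ, ((m : ℝ) ^ 2)⁻¹, fun F hF s hs => ?_⟩
  -- choice of the rational prime below `P`
  have hex : ∀ P : Ideal (𝓞 K), ∃ ℓ : ℕ, (P.IsPrime ∧ P ≠ ⊥) → ℓ.Prime ∧ (ℓ : 𝓞 K) ∈ P := by
    intro P
    by_cases h : P.IsPrime ∧ P ≠ ⊥
    · obtain ⟨ℓ, hℓ⟩ := exists_prime_mem h.1 h.2
      exact ⟨ℓ, fun _ => hℓ⟩
    · exact ⟨0, fun h' => absurd h' h⟩
  choose ℓf hℓf using hex
  have h1 : ∀ P ∈ F, (absNorm P : ℝ) ^ (-s) ≤ ((ℓf P : ℝ) ^ 2)⁻¹ := by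
    intro P hP
    obtain ⟨hPp, hP0, hPn⟩ := hF P hP
    obtain ⟨hℓ, hmem⟩ := hℓf P ⟨hPp, hP0⟩
    obtain ⟨k, hk, hk'⟩ := absNorm_eq_pow hPp hℓ hmem
    have hk2 : 2 ≤ k := by
      rcases Nat.lt_or_ge k 2 with h | h
      · exfalso
        have : k = 1 := by omega
        subst this
        exact hPn (by rw [hk', pow_one]; exact hℓ)
      · exact h
    have h2 : ℓf P ^ 2 ≤ absNorm P := by
      rw [hk']; exact Nat.pow_le_pow_right hℓ.pos hk2
    have h2' : ((ℓf P : ℝ)) ^ 2 ≤ absNorm P := by exact_mod_cast h2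
    have h3 : (0 : ℝ) < (ℓf P : ℝ) ^ 2 := by
      have : (0 : ℝ) < ℓf P := by exact_mod_cast hℓ.pos
      positivity
    have h4 : (1 : ℝ) ≤ absNorm P := by
      have : 1 ≤ ℓf P ^ 2 := Nat.one_le_pow _ _ hℓ.pos
      exact_mod_cast this.trans h2
    calc (absNorm P : ℝ) ^ (-s) ≤ (absNorm P : ℝ) ^ (-1 : ℝ) :=
          Real.rpow_le_rpow_of_exponent_le h4 (by linarith)
      _ = (absNorm P : ℝ)⁻¹ := Real.rpow_neg_one _
      _ ≤ ((ℓf P : ℝ) ^ 2)⁻¹ := inv_anti₀ h3 h2'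
  refine (Finset.sum_le_sum h1).trans ?_
  rw [← Finset.sum_fiberwise_of_maps_to (t := F.image ℓf) (g := ℓf)
    (fun P hP => Finset.mem_image_of_mem ℓf hP)]
  have h5 : ∀ ℓ ∈ F.image ℓf, ∑ P ∈ F with ℓf P = ℓ, ((ℓf P : ℝ) ^ 2)⁻¹
      ≤ Module.finrank ℤ (𝓞 K) * ((ℓ : ℝ) ^ 2)⁻¹ := by
    intro ℓ hℓ
    have h6 : ∑ P ∈ F with ℓf P = ℓ, ((ℓf P : ℝ) ^ 2)⁻¹
        = ((F.filter fun P => ℓf P = ℓ).card : ℝ) * ((ℓ : ℝ) ^ 2)⁻¹ := by
      rw [Finset.sum_congr rfl (fun P hP => by rw [(Finset.mem_filter.1 hP).2]),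
        Finset.sum_const, nsmul_eq_mul]
    rw [h6]
    refine mul_le_mul_of_nonneg_right ?_ (by positivity)
    obtain ⟨P0, hP0, rfl⟩ := Finset.mem_image.1 hℓ
    have hprime := (hℓf P0 ⟨(hF P0 hP0).1, (hF P0 hP0).2.1⟩).1
    exact_mod_cast card_le_of_mem _ hprime (fun P hP => by
      obtain ⟨hPF, hPe⟩ := Finset.mem_filter.1 hP
      refine ⟨(hF P hPF).1, (hF P hPF).2.1, ?_⟩
      rw [← hPe]
      exact (hℓf P ⟨(hF P hPF).1, (hF P hPF).2.1⟩).2)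
  refine (Finset.sum_le_sum h5).trans ?_
  rw [← Finset.mul_sum]
  refine mul_le_mul_of_nonneg_left ?_ (Nat.cast_nonneg _)
  exact hsum.sum_le_tsum _ (fun m _ => by positivity)

end AN

end Fermat.Agent.S14
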