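import Fermat.Agent.S14.Zeta

/-!
# S14, package AN3 : primes modulo which `θ` is a `p`-th power have density `≤ 1/p`
-/

set_option autoImplicit false
set_option linter.unusedSectionVars false

namespace Fermat.Agent.S14

open NumberField Ideal
open scoped Pointwise nonZeroDivisors

namespace KummerDensity

section General

variable {K L : Type*} [Field K] [NumberField K] [Field L] [NumberField L] [Algebra K L]

lemma smul_algebraMap' (σ : L ≃ₐ[K] L) (x : 𝓞 K) :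
    σ • (algebraMap (𝓞 K) (𝓞 L) x) = algebraMap (𝓞 K) (𝓞 L) x := by
  apply RingOfIntegers.ext
  show σ (algebraMap (𝓞 K) (𝓞 L) x : L) = _
  have : ((algebraMap (𝓞 K) (𝓞 L) x : 𝓞 L) : L) = algebraMap K L (x : K) := rfl
  rw [this, σ.commutes]

lemma absNorm_smul (σ : L ≃ₐ[K] L) (I : Ideal (𝓞 L)) : absNorm (σ • I) = absNorm I := by
  rw [Ideal.absNorm_apply, Ideal.absNorm_apply, Submodule.cardQuot_apply, Submodule.cardQuot_apply]
  exact (Nat.card_congr (Ideal.quotientEquiv I (σ • I)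
    (MulSemiringAction.toRingEquiv (L ≃ₐ[K] L) (𝓞 L) σ) rfl).toEquiv).symm

lemma isPrime_smul (σ : L ≃ₐ[K] L) (I : Ideal (𝓞 L)) (hI : I.IsPrime) : (σ • I).IsPrime :=
  Ideal.map_isPrime_of_equiv (MulSemiringAction.toRingEquiv (L ≃ₐ[K] L) (𝓞 L) σ)

lemma smul_ne_bot (σ : L ≃ₐ[K] L) (I : Ideal (𝓞 L)) (hI : I ≠ ⊥) : σ • I ≠ ⊥ := by
  intro h
  apply hI
  have := congrArg (fun J => σ⁻¹ • J) h
  simpa using this

/-- The decomposition group of a prime above `P` is trivial. -/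
lemma smul_ne_self {p : ℕ} (hp : p.Prime) {ζ : K} (hζ : IsPrimitiveRoot ζ p) (θ : 𝓞 K) (t : 𝓞 L)
    (ht : t ^ p = algebraMap (𝓞 K) (𝓞 L) θ) (P : Ideal (𝓞 K)) (hpθ : (p : 𝓞 K) * θ ∉ P)
    (y : 𝓞 K) (hy : θ - y ^ p ∈ P) (𝔓 : Ideal (𝓞 L)) (h𝔓 : 𝔓.IsPrime)
    (hover : ∀ x : 𝓞 K, algebraMap (𝓞 K) (𝓞 L) x ∈ 𝔓 ↔ x ∈ P)
    (σ : L ≃ₐ[K] L) (hσ : σ • t ≠ t) : σ • 𝔓 ≠ 𝔓 := by
  intro hfix
  have : NeZero p := ⟨hp.ne_zero⟩
  have hinj : Function.Injective (algebraMap (𝓞 K) (𝓞 L)) := FaithfulSMul.algebraMap_injective _ _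
  set z : 𝓞 L := algebraMap (𝓞 K) (𝓞 L) hζ.toInteger with hz
  have hzprim : IsPrimitiveRoot z p := hζ.toInteger_isPrimitiveRoot.map_of_injective hinj
  have hzfix : ∀ i : ℕ, σ • (z ^ i) = z ^ i := by
    intro i
    rw [hz, ← map_pow, smul_algebraMap']
  set Y : 𝓞 L := algebraMap (𝓞 K) (𝓞 L) y with hY
  have ht0 : t ≠ 0 := by
    rintro rfl
    rw [zero_pow hp.ne_zero] at ht
    have : θ = 0 := hinj (by rw [← ht, map_zero])
    exact hpθ (by rw [this, mul_zero]; exact P.zero_mem)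
  -- `σ t = z ^ j * t`
  have h1 : (σ • t) ^ p = t ^ p := by
    rw [← smul_pow', ht, smul_algebraMap']
  obtain ⟨j, -, hj⟩ : ∃ j < p, z ^ j * t = σ • t := by
    have h2 : σ • t ∈ Polynomial.nthRoots p (t ^ p) := by
      rw [Polynomial.mem_nthRoots hp.pos]; exact h1
    rw [hzprim.nthRoots_eq rfl] at h2
    simp only [Multiset.mem_map, Multiset.mem_range] at h2
    exact h2
  -- some `t - μ Y` lies in `𝔓`
  have h3 : t ^ p - Y ^ p ∈ 𝔓 := by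
    rw [ht, hY, ← map_pow, ← map_sub, hover]; exact hy
  rw [hzprim.pow_sub_pow_eq_prod_sub_mul t Y hp.pos, h𝔓.prod_mem_iff] at h3
  obtain ⟨μ, hμ, hμmem⟩ := h3
  have hμ1 : μ ^ p = 1 := (Polynomial.mem_nthRootsFinset hp.pos 1).1 hμ
  obtain ⟨i, -, rfl⟩ := hzprim.eq_pow_of_pow_eq_one hμ1
  have h4 : σ • (t - z ^ i * Y) ∈ 𝔓 := by
    rw [← hfix]; exact Ideal.smul_mem_pointwise_smul σ _ 𝔓 hμmem
  rw [smul_sub, smul_mul', hzfix, hY, smul_algebraMap', ← hY, ← hj] at h4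
  have h5 : (z ^ j - 1) * t ∈ 𝔓 := by
    have := 𝔓.sub_mem h4 hμmem
    have h6 : z ^ j * t - z ^ i * Y - (t - z ^ i * Y) = (z ^ j - 1) * t := by ring
    rwa [h6] at this
  rcases h𝔓.mem_or_mem h5 with h6 | h6
  · -- `p ∈ 𝔓`
    set w := z ^ j with hw
    have hw1 : w ≠ 1 := by
      intro h
      apply hσ
      rw [← hj, h, one_mul]
    have hwp : w ^ p = 1 := by
      rw [hw, ← pow_mul, mul_comm, pow_mul, hzprim.pow_eq_one, one_pow]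
    have hsum : ∑ k ∈ Finset.range p, w ^ k = 0 := by
      have := geom_sum_mul w p
      rw [hwp, sub_self] at this
      exact (mul_eq_zero.1 this).resolve_right (sub_ne_zero.2 hw1)
    have hmk : Ideal.Quotient.mk 𝔓 w = 1 := by
      rw [← map_one (Ideal.Quotient.mk 𝔓), Ideal.Quotient.eq]; exact h6
    have h7 : Ideal.Quotient.mk 𝔓 (p : 𝓞 L) = 0 := by
      have := congrArg (Ideal.Quotient.mk 𝔓) hsum
      rw [map_sum] at this
      simp only [map_pow, hmk, one_pow, Finset.sum_const, Finset.card_range, nsmul_eq_mul,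
        mul_one, map_zero] at this
      rw [map_natCast]; exact this
    rw [Ideal.Quotient.eq_zero_iff_mem] at h7
    have h8 : (p : 𝓞 K) ∈ P := by
      rw [← hover, map_natCast]; exact h7
    exact hpθ (P.mul_mem_right _ h8)
  · have h7 : θ ∈ P := by
      rw [← hover, ← ht]; exact 𝔓.pow_mem_of_mem h6 p hp.pos
    exact hpθ (P.mul_mem_left _ h7)

lemma algebraMap_mem_smul_iff {P : Ideal (𝓞 K)} {𝔓 : Ideal (𝓞 L)}
    (hover : ∀ x : 𝓞 K, algebraMap (𝓞 K) (𝓞 L) x ∈ 𝔓 ↔ x ∈ P) (σ : L ≃ₐ[K] L) (x : 𝓞 K) :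
    algebraMap (𝓞 K) (𝓞 L) x ∈ σ • 𝔓 ↔ x ∈ P := by
  rw [Ideal.mem_pointwise_smul_iff_inv_smul_mem, smul_algebraMap', hover]

lemma smul_injective {𝔓 : Ideal (𝓞 L)} (h : ∀ σ : L ≃ₐ[K] L, σ ≠ 1 → σ • 𝔓 ≠ 𝔓) :
    Function.Injective (fun σ : L ≃ₐ[K] L => σ • 𝔓) := by
  intro σ τ hστ
  by_contra hne
  apply h (τ⁻¹ * σ) (by
    intro h1
    exact hne (by rw [inv_mul_eq_one] at h1; exact h1.symm))
  rw [mul_smul]
  have : σ • 𝔓 = τ • 𝔓 := hστ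
  rw [this, inv_smul_smul]

/-- If the decomposition group is trivial, the residue degree is one. -/
lemma absNorm_dvd {p : ℕ} (hp : p ≠ 0) (hcard : Nat.card (L ≃ₐ[K] L) = p)
    (hfin : Module.finrank K L = p) {P : Ideal (𝓞 K)} {𝔓 : Ideal (𝓞 L)} (h𝔓 : 𝔓.IsPrime)
    (h0 : 𝔓 ≠ ⊥) (hover : ∀ x : 𝓞 K, algebraMap (𝓞 K) (𝓞 L) x ∈ 𝔓 ↔ x ∈ P)
    (h : ∀ σ : L ≃ₐ[K] L, σ ≠ 1 → σ • 𝔓 ≠ 𝔓) : absNorm 𝔓 ∣ absNorm P := by
  classical
  have : Finite (L ≃ₐ[K] L) := Nat.finite_of_card_ne_zero (by rw [hcard]; exact hp)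
  have := Fintype.ofFinite (L ≃ₐ[K] L)
  have hinj := smul_injective h
  set S : Finset (Ideal (𝓞 L)) := Finset.univ.image (fun σ : L ≃ₐ[K] L => σ • 𝔓) with hS
  have h1 : ∏ 𝔔 ∈ S, 𝔔 ∣ P.map (algebraMap (𝓞 K) (𝓞 L)) := by
    refine Finset.prod_primes_dvd _ (fun 𝔔 h𝔔 => ?_) (fun 𝔔 h𝔔 => ?_)
    · obtain ⟨σ, -, rfl⟩ := Finset.mem_image.1 h𝔔
      exact Ideal.prime_of_isPrime (smul_ne_bot σ 𝔓 h0) (isPrime_smul σ 𝔓 h𝔓)
    · obtain ⟨σ, -, rfl⟩ := Finset.mem_image.1 h𝔔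
      rw [Ideal.dvd_iff_le, Ideal.map_le_iff_le_comap]
      intro x hx
      rw [Ideal.mem_comap]
      exact (algebraMap_mem_smul_iff hover σ x).2 hx
  have h2 := map_dvd absNorm h1
  rw [Ideal.absNorm_algebraMap (𝓞 K) (𝓞 L) P, ← IsFractionRing.finrank_eq (𝓞 K) K (𝓞 L) L, hfin,
    map_prod, hS, Finset.prod_image (fun a _ b _ hab => hinj hab)] at h2
  simp only [absNorm_smul, Finset.prod_const, Finset.card_univ] at h2
  rw [← Nat.card_eq_fintype_card, hcard] at h2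
  exact (Nat.pow_dvd_pow_iff hp).1 h2

theorem main_of_field {p : ℕ} (hp : p.Prime) {ζ : K} (hζ : IsPrimitiveRoot ζ p) (θ : 𝓞 K) (t : 𝓞 L)
    (ht : t ^ p = algebraMap (𝓞 K) (𝓞 L) θ) (hcard : Nat.card (L ≃ₐ[K] L) = p)
    (hfin : Module.finrank K L = p) (hinj : ∀ σ : L ≃ₐ[K] L, σ • t = t → σ = 1) :
    ∃ C : ℝ, ∀ F : Finset (Ideal (𝓞 K)),
      (∀ P ∈ F, (P.IsPrime ∧ P ≠ ⊥ ∧ (p : 𝓞 K) * θ ∉ P ∧ ∃ y : 𝓞 K, θ - y ^ p ∈ P)) →
      ∀ s : ℝ, 1 < s → s ≤ 2 →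
        ∑ P ∈ F, (absNorm P : ℝ) ^ (-s) ≤ (1 / p : ℝ) * Real.log (1 / (s - 1)) + C := by
  classical
  have : Finite (L ≃ₐ[K] L) := Nat.finite_of_card_ne_zero (by rw [hcard]; exact hp.ne_zero)
  have := Fintype.ofFinite (L ≃ₐ[K] L)
  obtain ⟨c, C, -, hb⟩ := zetaR_bounds L
  have hC : 0 < C := by
    have h1 := (hb 2 one_lt_two le_rfl).2
    have h2 := Zeta.one_le_zetaR L one_lt_two
    norm_num at h1
    linarith
  refine ⟨(1 / p : ℝ) * Real.log C, fun F hF s hs hs2 => ?_⟩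
  have hinjAlg : Function.Injective (algebraMap (𝓞 K) (𝓞 L)) :=
    FaithfulSMul.algebraMap_injective _ _
  -- choice of a prime above `P`
  have hex : ∀ P : Ideal (𝓞 K), ∃ 𝔓 : Ideal (𝓞 L), (P.IsPrime ∧ P ≠ ⊥) →
      𝔓.IsPrime ∧ 𝔓 ≠ ⊥ ∧ ∀ x : 𝓞 K, algebraMap (𝓞 K) (𝓞 L) x ∈ 𝔓 ↔ x ∈ P := by
    intro P
    by_cases h : P.IsPrime ∧ P ≠ ⊥
    · have := h.1
      obtain ⟨Q, -, hQ, hQP⟩ := Ideal.exists_ideal_over_prime_of_isIntegral P
        (⊥ : Ideal (𝓞 L)) (by rw [Ideal.comap_bot_of_injective _ hinjAlg]; exact bot_le)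
      refine ⟨Q, fun _ => ⟨hQ, ?_, fun x => by rw [← hQP, Ideal.mem_comap]⟩⟩
      rintro rfl
      rw [Ideal.comap_bot_of_injective _ hinjAlg] at hQP
      exact h.2 hQP.symm
    · exact ⟨⊥, fun h' => absurd h' h⟩
  choose 𝔓f h𝔓f using hex
  have hspec : ∀ P ∈ F, (𝔓f P).IsPrime ∧ 𝔓f P ≠ ⊥ ∧
      ∀ x : 𝓞 K, algebraMap (𝓞 K) (𝓞 L) x ∈ 𝔓f P ↔ x ∈ P :=
    fun P hP => h𝔓f P ⟨(hF P hP).1, (hF P hP).2.1⟩
  have hne : ∀ P ∈ F, ∀ σ : L ≃ₐ[K] L, σ ≠ 1 → σ • 𝔓f P ≠ 𝔓f P := by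
    intro P hP σ hσ
    obtain ⟨y, hy⟩ := (hF P hP).2.2.2
    exact smul_ne_self hp hζ θ t ht P (hF P hP).2.2.1 y hy (𝔓f P) (hspec P hP).1 (hspec P hP).2.2 σ
      (fun h => hσ (hinj σ h))
  set φ : Ideal (𝓞 K) × (L ≃ₐ[K] L) → Ideal (𝓞 L) := fun a => a.2 • 𝔓f a.1 with hφ
  have hφinj : Set.InjOn φ (F ×ˢ (Finset.univ : Finset (L ≃ₐ[K] L)) : Finset _) := by
    rintro ⟨P, σ⟩ ha ⟨P', σ'⟩ hb hab
    have hP : P ∈ F := (Finset.mem_product.1 ha).1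
    have hP' : P' ∈ F := (Finset.mem_product.1 hb).1
    simp only [hφ] at hab
    have hPP' : P = P' := by
      ext x
      rw [← algebraMap_mem_smul_iff (hspec P hP).2.2 σ, hab,
        algebraMap_mem_smul_iff (hspec P' hP').2.2 σ']
    subst hPP'
    rw [smul_injective (hne P hP) hab]
  set F' : Finset (Ideal (𝓞 L)) := (F ×ˢ (Finset.univ : Finset (L ≃ₐ[K] L))).image φ with hF'
  have h1 : ∑ 𝔔 ∈ F', (absNorm 𝔔 : ℝ) ^ (-s) ≤ Real.log (zetaR L s) := by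
    refine sum_primes_le_log_zetaR L F' (fun 𝔔 h𝔔 => ?_) hs
    obtain ⟨⟨P, σ⟩, ha, rfl⟩ := Finset.mem_image.1 h𝔔
    have hP : P ∈ F := (Finset.mem_product.1 ha).1
    exact ⟨isPrime_smul σ _ (hspec P hP).1, smul_ne_bot σ _ (hspec P hP).2.1⟩
  have h2 : (p : ℝ) * ∑ P ∈ F, (absNorm P : ℝ) ^ (-s) ≤ ∑ 𝔔 ∈ F', (absNorm 𝔔 : ℝ) ^ (-s) := by
    rw [hF', Finset.sum_image hφinj, Finset.sum_product, Finset.mul_sum]
    refine Finset.sum_le_sum fun P hP => ?_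
    simp only [hφ, absNorm_smul, Finset.sum_const, Finset.card_univ, nsmul_eq_mul]
    rw [← Nat.card_eq_fintype_card, hcard]
    refine mul_le_mul_of_nonneg_left ?_ (Nat.cast_nonneg p)
    have h3 := absNorm_dvd hp.ne_zero hcard hfin (hspec P hP).1 (hspec P hP).2.1 (hspec P hP).2.2
      (hne P hP)
    have hP0 : 0 < absNorm P := Nat.pos_of_ne_zero (by
      rw [Ne, Ideal.absNorm_eq_zero_iff]; exact (hF P hP).2.1)
    have h𝔓0 : 0 < absNorm (𝔓f P) := Nat.pos_of_ne_zero (by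
      rw [Ne, Ideal.absNorm_eq_zero_iff]; exact (hspec P hP).2.1)
    exact Real.rpow_le_rpow_of_nonpos (by exact_mod_cast h𝔓0)
      (by exact_mod_cast Nat.le_of_dvd hP0 h3) (by linarith)
  have hs' : 0 < s - 1 := by linarith
  have h3 : Real.log (zetaR L s) ≤ Real.log (1 / (s - 1)) + Real.log C := by
    have h4 : zetaR L s ≤ (1 / (s - 1)) * C := by
      have := (hb s hs hs2).2
      rw [div_eq_mul_inv] at this
      rw [one_div, mul_comm]; exact this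
    have h5 : 0 < zetaR L s := lt_of_lt_of_le one_pos (Zeta.one_le_zetaR L hs)
    rw [← Real.log_mul (by positivity) hC.ne']
    exact Real.log_le_log h5 h4
  have hp0 : (0 : ℝ) < p := by exact_mod_cast hp.pos
  have h6 : (p : ℝ) * ∑ P ∈ F, (absNorm P : ℝ) ^ (-s) ≤ Real.log (1 / (s - 1)) + Real.log C :=
    h2.trans (h1.trans h3)
  rw [← mul_add, one_div, ← div_eq_inv_mul, le_div_iff₀ hp0, mul_comm]
  exact h6

end General

end KummerDensity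

section AN

variable (K : Type*) [Field K] [NumberField K]

open Polynomial in
/-- [AN3] primes modulo which `θ` is a `p`-th power have density `≤ 1/p`. -/
theorem sum_primes_isPow_le {p : ℕ} [Fact p.Prime] {ζ : K} (hζ : IsPrimitiveRoot ζ p)
    (θ : 𝓞 K) (hθ : ¬ ∃ y : K, (θ : K) = y ^ p) :
    ∃ C : ℝ, ∀ F : Finset (Ideal (𝓞 K)),
      (∀ P ∈ F, (P.IsPrime ∧ P ≠ ⊥ ∧ (p : 𝓞 K) * θ ∉ P ∧ ∃ y : 𝓞 K, θ - y ^ p ∈ P)) →
      ∀ s : ℝ, 1 < s → s ≤ 2 →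
        ∑ P ∈ F, (absNorm P : ℝ) ^ (-s) ≤ (1 / p : ℝ) * Real.log (1 / (s - 1)) + C := by
  have hp : p.Prime := Fact.out
  have H : Irreducible (X ^ p - C (θ : K)) :=
    X_pow_sub_C_irreducible_of_prime hp (fun b hb => hθ ⟨b, hb.symm⟩)
  have := Fact.mk H
  let L := AdjoinRoot (X ^ p - C (θ : K))
  have hζ' : (primitiveRoots p K).Nonempty := ⟨ζ, (mem_primitiveRoots hp.pos).2 hζ⟩
  have : IsSplittingField K L (X ^ p - C (θ : K)) := isSplittingField_AdjoinRoot_X_pow_sub_C hζ' H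
  have : FiniteDimensional K L := IsSplittingField.finiteDimensional L (X ^ p - C (θ : K))
  have : NumberField L := NumberField.of_module_finite K L
  have : IsGalois K L := isGalois_of_isSplittingField_X_pow_sub_C hζ' H L
  have hfin : Module.finrank K L = p := finrank_of_isSplittingField_X_pow_sub_C hζ' H L
  have hcard : Nat.card (L ≃ₐ[K] L) = p := by rw [IsGalois.card_aut_eq_finrank, hfin]
  let t0 : L := AdjoinRoot.root _
  have ht0 : t0 ^ p = algebraMap K L (θ : K) := root_X_pow_sub_C_pow p (θ : K)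
  have hint : IsIntegral ℤ t0 := by
    refine IsIntegral.of_pow hp.pos ?_
    rw [ht0]
    exact (RingOfIntegers.isIntegral_coe θ).algebraMap
  let t : 𝓞 L := ⟨t0, hint⟩
  have ht : t ^ p = algebraMap (𝓞 K) (𝓞 L) θ := by
    apply RingOfIntegers.ext
    exact ht0
  refine KummerDensity.main_of_field (L := L) hp hζ θ t ht hcard hfin (fun σ hσ => ?_)
  have h1 : σ t0 = t0 := congrArg (fun x : 𝓞 L => (x : L)) hσ
  have h2 : (σ : L →ₐ[K] L) = AlgHom.id K L := AdjoinRoot.algHom_ext h1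
  ext x
  exact DFunLike.congr_fun h2 x

end AN

end Fermat.Agent.S14
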