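import Mathlib
import Fermat.Prelude.Def_ExtCitation_AdmissibleExtension_v2
import Fermat.Prelude.Def_ClassGroup_GaloisAction

/-!
# S14: shared definitions

`K` is a `p`-th cyclotomic field, `ζ` a primitive `p`-th root of unity, `π = ζ - 1`.
`ex hζ δ` is the exponent of `δ ∈ Gal(K/ℚ)` on `ζ`.
`T = ∑_δ (ex δ)^(p-3) δ` is (a lift of `-` the) idempotent of the `ω²`-eigenspace.
-/

set_option autoImplicit false

namespace Fermat.Agent.S14

open NumberField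
open scoped Pointwise nonZeroDivisors

section Cyclo

variable {p : ℕ} [NeZero p] {K : Type*} [Field K] [NumberField K] {ζ : K}

/-- The exponent `k ∈ [0,p)` with `δ ζ = ζ ^ k`. -/
noncomputable def ex (hζ : IsPrimitiveRoot ζ p) (δ : K ≃ₐ[ℚ] K) : ℕ :=
  ((hζ.autToPow ℚ δ : (ZMod p)ˣ) : ZMod p).val

lemma ex_spec (hζ : IsPrimitiveRoot ζ p) (δ : K ≃ₐ[ℚ] K) : δ ζ = ζ ^ ex hζ δ :=
  (hζ.autToPow_spec ℚ δ).symm

/-- `α` lies in the `ω²`-eigenspace of `Kˣ/Kˣᵖ`. -/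
def IsEig (p : ℕ) (ζ : K) (α : K) : Prop :=
  ∀ (δ : K ≃ₐ[ℚ] K) (k : ℕ), δ ζ = ζ ^ k → ∃ y : K, δ α = α ^ (k ^ 2) * y ^ p

/-- The operator `T` on algebraic integers. -/
noncomputable def TO (hζ : IsPrimitiveRoot ζ p) (x : 𝓞 K) : 𝓞 K :=
  ∏ δ : K ≃ₐ[ℚ] K, (δ • x) ^ (ex hζ δ ^ (p - 3))

/-- Galois action on the class group. -/
noncomputable def clAct : (K ≃ₐ[ℚ] K) →* MulAut (ClassGroup (𝓞 K)) where
  toFun δ := ClassGroup.mulEquiv (MulSemiringAction.toRingEquiv (K ≃ₐ[ℚ] K) (𝓞 K) δ)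
  map_one' := by
    ext C
    rw [map_one]
    exact ClassGroup.mulEquiv_refl_apply C
  map_mul' δ ε := by
    ext C
    rw [map_mul]
    exact ClassGroup.mulEquiv_trans_apply _ _ C

lemma smul_mem_nonZeroDivisors (δ : K ≃ₐ[ℚ] K) {I : Ideal (𝓞 K)} (hI : I ∈ (Ideal (𝓞 K))⁰) :
    δ • I ∈ (Ideal (𝓞 K))⁰ :=
  (Ideal.mapNonZero (MulSemiringAction.toRingEquiv (K ≃ₐ[ℚ] K) (𝓞 K) δ) ⟨I, hI⟩).2

lemma clAct_mk0 (δ : K ≃ₐ[ℚ] K) (I : (Ideal (𝓞 K))⁰) :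
    clAct δ (ClassGroup.mk0 I) = ClassGroup.mk0 ⟨δ • (I : Ideal (𝓞 K)), smul_mem_nonZeroDivisors δ I.2⟩ :=
  ClassGroup.mulEquiv_mk0 _ I

/-- The operator `T` on the class group. -/
noncomputable def TCl (hζ : IsPrimitiveRoot ζ p) : ClassGroup (𝓞 K) →* ClassGroup (𝓞 K) where
  toFun C := ∏ δ : K ≃ₐ[ℚ] K, (clAct δ C) ^ (ex hζ δ ^ (p - 3))
  map_one' := by simp
  map_mul' C D := by simp [mul_pow, Finset.prod_mul_distrib]

lemma TCl_apply (hζ : IsPrimitiveRoot ζ p) (C : ClassGroup (𝓞 K)) :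
    TCl hζ C = ∏ δ : K ≃ₐ[ℚ] K, (clAct δ C) ^ (ex hζ δ ^ (p - 3)) := rfl

/-- `π = ζ - 1` as an algebraic integer. -/
noncomputable def piO (hζ : IsPrimitiveRoot ζ p) : 𝓞 K := hζ.toInteger - 1

/-- `ζ` as a unit of `𝓞 K`. -/
noncomputable def zU (hζ : IsPrimitiveRoot ζ p) : (𝓞 K)ˣ :=
  (hζ.toInteger_isPrimitiveRoot.isUnit (NeZero.ne p)).unit

omit [NumberField K] in
lemma coe_zU (hζ : IsPrimitiveRoot ζ p) : ((zU hζ : (𝓞 K)ˣ) : 𝓞 K) = hζ.toInteger := rfl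

/-- `θ = T (ζ - 1)`, the `ω²`-component of the cyclotomic number `ζ - 1`. -/
noncomputable def theta (hζ : IsPrimitiveRoot ζ p) : 𝓞 K := TO hζ (piO hζ)

/-- The class of a nonzero ideal. -/
noncomputable def cls (I : Ideal (𝓞 K)) (hI : I ≠ ⊥) : ClassGroup (𝓞 K) :=
  ClassGroup.mk0 ⟨I, mem_nonZeroDivisors_of_ne_zero hI⟩

end Cyclo

section Qbar

/-- `Qbar`, its Galois group. -/
abbrev Qbar := AlgebraicClosure ℚ
abbrev GQ := (AlgebraicClosure ℚ ≃ₐ[ℚ] AlgebraicClosure ℚ)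

instance instIsAlgClosureQbar : IsAlgClosure ℚ Qbar := @AlgebraicClosure.instIsAlgClosure ℚ _

variable (p : ℕ) [Fact p.Prime]

lemma exists_zetaBar : ∃ z : Qbar, IsPrimitiveRoot z p :=
  haveI : NeZero p := ⟨(Fact.out : p.Prime).ne_zero⟩
  haveI : NeZero (p : Qbar) := ⟨Nat.cast_ne_zero.mpr (NeZero.ne p)⟩
  HasEnoughRootsOfUnity.exists_primitiveRoot Qbar p

/-- A fixed primitive `p`-th root of unity in `Qbar`. -/
noncomputable def zetaBar : Qbar := (exists_zetaBar p).choose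

lemma zetaBar_spec : IsPrimitiveRoot (zetaBar p) p := (exists_zetaBar p).choose_spec

/-- The cyclotomic field `ℚ(ζ_p)` inside `Qbar`. -/
noncomputable def Kp : IntermediateField ℚ Qbar := IntermediateField.adjoin ℚ {zetaBar p}

/-- `ζ_p` as an element of `Kp p`. -/
noncomputable def zetaK : Kp p :=
  ⟨zetaBar p, IntermediateField.subset_adjoin ℚ _ (Set.mem_singleton _)⟩

lemma zetaK_spec : IsPrimitiveRoot (zetaK p) p :=
  IsPrimitiveRoot.of_map_of_injective (f := (Kp p).val) (zetaBar_spec p) (Kp p).val.injective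

instance instIsCyclotomicExtensionKp : IsCyclotomicExtension {p} ℚ (Kp p) :=
  haveI : NeZero p := ⟨(Fact.out : p.Prime).ne_zero⟩
  (zetaBar_spec p).intermediateField_adjoin_isCyclotomicExtension ℚ

instance instNumberFieldKp : NumberField (Kp p) :=
  haveI : NeZero p := ⟨(Fact.out : p.Prime).ne_zero⟩
  IsCyclotomicExtension.numberField {p} ℚ (Kp p)

/-- The output of the Galois-theoretic part: a Kummer generator `a ∈ Qbar`. -/
structure KummerDatum (a : Qbar) : Prop where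
  ne_zero : a ≠ 0
  pow_mem : a ^ p ∈ Kp p
  eig : ∀ (τ : GQ) (k : ℕ), τ (zetaBar p) = zetaBar p ^ k → τ a / a ^ (k ^ 2) ∈ Kp p
  unram : ∀ ℓ : ℕ, ℓ.Prime → ℓ ≠ p → ∀ A : ValuationSubring Qbar, A.LiesOverPrime ℓ →
    ∀ σ ∈ A.inertiaSubgroupIn ℚ, σ a = a
  split : ∀ A : ValuationSubring Qbar, A.LiesOverPrime p →
    ∀ σ ∈ A.decompositionSubgroup ℚ, σ (zetaBar p) = zetaBar p → σ a = a

end Qbar

end Fermat.Agent.S14
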