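import Mathlib
import Fermat.Agent.S14.Defs
import Fermat.Agent.Lib.Frobenius

/-!
# S14, package B1: lifting decomposition / inertia elements from a finite Galois level
-/

set_option autoImplicit false
set_option linter.style.haveILetI false

namespace Fermat.Agent.S14

namespace Lift

open Fermat.Agent.Lib.Frobenius
open scoped Pointwise

local notation "Zbar" => integralClosure ℤ (AlgebraicClosure ℚ)

/-- The prime ideal of `Zbar` cut out by a valuation subring. -/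
noncomputable def primeOf (A : ValuationSubring Qbar) : Ideal Zbar :=
  (IsLocalRing.maximalIdeal A).comap (incl A)

lemma mem_primeOf (A : ValuationSubring Qbar) (b : Zbar) :
    b ∈ primeOf A ↔ (b : Qbar) ∈ A.nonunits := by
  rw [primeOf, Ideal.mem_comap, ← ValuationSubring.coe_mem_nonunits_iff]
  rfl

instance primeOf_isPrime (A : ValuationSubring Qbar) : (primeOf A).IsPrime :=
  Ideal.comap_isPrime _ _

lemma coe_smul (σ : GQ) (b : Zbar) : ((σ • b : Zbar) : Qbar) = σ (b : Qbar) := rfl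

/-- An automorphism preserving the prime of `Zbar` cut out by `A` is in the decomposition group. -/
lemma mem_decomposition_of_forall (A : ValuationSubring Qbar) {ℓ : ℕ} (hℓ : ℓ.Prime)
    (hA : A.LiesOverPrime ℓ) (σ : GQ)
    (hiff : ∀ b : Qbar, IsIntegral ℤ b → (σ b ∈ A.nonunits ↔ b ∈ A.nonunits)) :
    σ ∈ A.decompositionSubgroup ℚ := by
  have hiff' : ∀ b : Qbar, IsIntegral ℤ b → (σ⁻¹ b ∈ A.nonunits ↔ b ∈ A.nonunits) := by
    intro b hb
    have h1 : IsIntegral ℤ (σ⁻¹ b) := hb.map (σ⁻¹ : GQ)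
    have h2 := hiff _ h1
    have h3 : σ (σ⁻¹ b) = b := by
      change (σ * σ⁻¹) b = b
      simp
    rw [h3] at h2
    exact h2.symm
  rw [MulAction.mem_stabilizer_iff]
  ext y
  rw [ValuationSubring.mem_pointwise_smul_iff_inv_smul_mem]
  constructor
  · intro h
    have := map_mem_of_forall A hℓ hA σ hiff h
    have h3 : σ (σ⁻¹ • y) = y := by
      change (σ * σ⁻¹) y = y
      simp
    rwa [h3] at this
  · intro h
    exact map_mem_of_forall A hℓ hA σ⁻¹ hiff' h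

/-- An automorphism acting trivially on `Zbar` modulo the prime cut out by `A` is in the
inertia group. -/
lemma mem_inertia_of_forall (A : ValuationSubring Qbar) {ℓ : ℕ} (hℓ : ℓ.Prime)
    (hA : A.LiesOverPrime ℓ) (σ : GQ)
    (hσ : ∀ b : Qbar, IsIntegral ℤ b → σ b - b ∈ A.nonunits) :
    σ ∈ A.inertiaSubgroupIn ℚ := by
  have hiff : ∀ b : Qbar, IsIntegral ℤ b → (σ b ∈ A.nonunits ↔ b ∈ A.nonunits) := by
    intro b hb
    constructor
    · intro h
      have := A.nonunits.sub_mem h (hσ b hb)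
      simpa using this
    · intro h
      have := A.nonunits.add_mem (hσ b hb) h
      simpa using this
  have hmem := mem_decomposition_of_forall A hℓ hA σ hiff
  refine ⟨⟨σ, hmem⟩, ?_, rfl⟩
  change (⟨σ, hmem⟩ : A.decompositionSubgroup ℚ) ∈ A.inertiaSubgroup ℚ
  rw [ValuationSubring.inertiaSubgroup, MonoidHom.mem_ker]
  ext x
  obtain ⟨a, rfl⟩ := IsLocalRing.residue_surjective x
  change (⟨σ, hmem⟩ : A.decompositionSubgroup ℚ) • IsLocalRing.residue A a = IsLocalRing.residue A a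
  rw [← IsLocalRing.ResidueField.residue_smul, ← sub_eq_zero, ← map_sub,
    IsLocalRing.residue_eq_zero_iff, ← ValuationSubring.coe_mem_nonunits_iff]
  change σ (a : Qbar) - (a : Qbar) ∈ A.nonunits
  obtain ⟨s, b, hs, hsx⟩ := exists_fraction A hℓ hA a.2
  have hσa : σ (a : Qbar) ∈ A := map_mem_of_forall A hℓ hA σ hiff a.2
  have h1 : A.valuation (s : Qbar) = 1 := valuation_eq_one A (mem_of_isIntegral A s.2) hs
  have h2 : σ (s : Qbar) * σ (a : Qbar) = σ (b : Qbar) := by rw [← map_mul, hsx]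
  have key : (σ (a : Qbar) - (a : Qbar)) * (s : Qbar) =
      (σ (b : Qbar) - (b : Qbar)) - (σ (s : Qbar) - (s : Qbar)) * σ (a : Qbar) := by
    rw [← h2, ← hsx]
    ring
  have h3 : (σ (a : Qbar) - (a : Qbar)) * (s : Qbar) ∈ A.nonunits := by
    rw [key]
    exact A.nonunits.sub_mem (hσ _ b.2) (mul_mem_nonunits A (hσ _ s.2) hσa)
  rw [ValuationSubring.mem_nonunits_iff] at h3 ⊢
  rwa [map_mul, h1, mul_one] at h3

section Fixing

variable (L : IntermediateField ℚ Qbar) [FiniteDimensional ℚ L]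

/-- The ring of algebraic integers of `L`, as a subalgebra of `Zbar`. -/
noncomputable abbrev OL : Subalgebra ℤ Zbar := FixedPoints.subalgebra ℤ Zbar L.fixingSubgroup

omit [FiniteDimensional ℚ L] in
lemma coe_mem_of_mem_OL {b : Zbar} (hb : b ∈ OL L) : (b : Qbar) ∈ L := by
  rw [← InfiniteGalois.fixedField_fixingSubgroup L, IntermediateField.mem_fixedField_iff]
  intro f hf
  exact congrArg Subtype.val (hb ⟨f, hf⟩)

instance instSMulCommClassOL : SMulCommClass L.fixingSubgroup (OL L) Zbar :=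
  inferInstanceAs (SMulCommClass L.fixingSubgroup
    (FixedPoints.subalgebra ℤ Zbar L.fixingSubgroup) Zbar)

instance instIsInvariantOL : Algebra.IsInvariant (OL L) Zbar L.fixingSubgroup :=
  ⟨fun x h ↦ ⟨⟨x, h⟩, rfl⟩⟩

instance instCompactSpaceFixing : CompactSpace L.fixingSubgroup :=
  isCompact_iff_compactSpace.mp L.fixingSubgroup_isClosed.isCompact

/-- `Gal(Qbar/L)` acts transitively on the primes of `Zbar` with the same trace on `L`. -/
lemma exists_fixing_smul (Q₁ Q₂ : Ideal Zbar) [Q₁.IsPrime] [Q₂.IsPrime]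
    (h : ∀ b : Zbar, (b : Qbar) ∈ L → (b ∈ Q₁ ↔ b ∈ Q₂)) :
    ∃ τ : GQ, τ ∈ L.fixingSubgroup ∧ Q₂ = τ • Q₁ := by
  classical
  letI : TopologicalSpace Zbar := ⊥
  haveI : DiscreteTopology Zbar := ⟨rfl⟩
  haveI : ContinuousSMul L.fixingSubgroup Zbar := by
    rw [continuousSMul_iff_stabilizer_isOpen]
    intro b
    have h1 : IsOpen ((MulAction.stabilizer GQ (b : Qbar) : Subgroup GQ) : Set GQ) :=
      stabilizer_isOpen_of_isIntegral (K := ℚ) (L := Qbar) (b : Qbar)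
    convert h1.preimage continuous_subtype_val using 1
    ext g
    simp [MulAction.mem_stabilizer_iff, Subtype.ext_iff]
    rfl
  have hPQ : Q₁.under (OL L) = Q₂.under (OL L) := by
    ext x
    exact h x (coe_mem_of_mem_OL L x.2)
  obtain ⟨g, hg⟩ := Algebra.IsInvariant.exists_smul_of_under_eq_of_profinite
    (A := OL L) (B := Zbar) (G := L.fixingSubgroup) Q₁ Q₂ hPQ
  exact ⟨g.1, g.2, hg⟩

/-- If `σ₀` stabilises `Q` and acts trivially on the residue field of `Q ∩ L`, its action on the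
residue field of `Q` is induced by an element of `Gal(Qbar/L)` stabilising `Q`. -/
lemma exists_fixing_stabilizer (Q : Ideal Zbar) [Q.IsPrime] (σ₀ : GQ) (hσ₀ : σ₀ • Q = Q)
    (hL : ∀ b : Zbar, (b : Qbar) ∈ L → σ₀ • b - b ∈ Q) :
    ∃ τ : GQ, τ ∈ L.fixingSubgroup ∧ τ • Q = Q ∧ ∀ b : Zbar, τ • b - σ₀ • b ∈ Q := by
  classical
  letI : TopologicalSpace Zbar := ⊥
  haveI : DiscreteTopology Zbar := ⟨rfl⟩
  haveI : ContinuousSMul L.fixingSubgroup Zbar := by
    rw [continuousSMul_iff_stabilizer_isOpen]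
    intro b
    have h1 : IsOpen ((MulAction.stabilizer GQ (b : Qbar) : Subgroup GQ) : Set GQ) :=
      stabilizer_isOpen_of_isIntegral (K := ℚ) (L := Qbar) (b : Qbar)
    convert h1.preimage continuous_subtype_val using 1
    ext g
    simp [MulAction.mem_stabilizer_iff, Subtype.ext_iff]
    rfl
  let P' : Ideal (OL L) := Q.under (OL L)
  haveI : Q.LiesOver P' := ⟨rfl⟩
  let P0 : Ideal ℤ := Q.under ℤ
  haveI : Q.LiesOver P0 := ⟨rfl⟩
  let e : (Zbar ⧸ Q) ≃ₐ[ℤ ⧸ P0] (Zbar ⧸ Q) :=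
    Ideal.Quotient.stabilizerHom Q P0 GQ ⟨σ₀, hσ₀⟩
  have he : ∀ b : Zbar, e (Ideal.Quotient.mk Q b) = Ideal.Quotient.mk Q (σ₀ • b) := fun b =>
    Ideal.Quotient.stabilizerHom_apply Q P0 GQ ⟨σ₀, hσ₀⟩ b
  let α : (Zbar ⧸ Q) ≃ₐ[OL L ⧸ P'] (Zbar ⧸ Q) :=
    AlgEquiv.ofRingEquiv (f := e.toRingEquiv) (fun r => by
      obtain ⟨a, rfl⟩ := Ideal.Quotient.mk_surjective r
      change e (Ideal.Quotient.mk Q (a : Zbar)) = Ideal.Quotient.mk Q (a : Zbar)
      rw [he, Ideal.Quotient.eq]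
      exact hL a (coe_mem_of_mem_OL L a.2))
  have hα : ∀ x, α x = e x := fun x => rfl
  obtain ⟨⟨τ, hτQ⟩, hτ⟩ := Ideal.Quotient.stabilizerHom_surjective_of_profinite
    (G := L.fixingSubgroup) P' Q α
  refine ⟨τ.1, τ.2, hτQ, fun b => ?_⟩
  have h1 := DFunLike.congr_fun hτ (Ideal.Quotient.mk Q b)
  rw [Ideal.Quotient.stabilizerHom_apply, hα, he, Ideal.Quotient.eq] at h1
  exact h1

end Fixing

/-- Extending an automorphism of a finite Galois level to `Qbar`. -/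
lemma exists_extension (L : IntermediateField ℚ Qbar) [IsGalois ℚ L] (g : L ≃ₐ[ℚ] L) :
    ∃ σ : GQ, ∀ x : L, σ (x : Qbar) = ((g x : L) : Qbar) := by
  obtain ⟨σ, hσ⟩ := AlgEquiv.restrictNormalHom_surjective (F := ℚ) (K₁ := L) Qbar g
  refine ⟨σ, fun x => ?_⟩
  rw [← hσ]
  exact (AlgEquiv.restrictNormal_commutes σ L x).symm

lemma isIntegral_coe_iff (L : IntermediateField ℚ Qbar) (x : L) :
    IsIntegral ℤ (x : Qbar) ↔ IsIntegral ℤ x :=
  isIntegral_algebraMap_iff (A := L) (B := Qbar) (algebraMap L Qbar).injective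

lemma iterate_mem (L : IntermediateField ℚ Qbar) (A : ValuationSubring Qbar) (g : L ≃ₐ[ℚ] L)
    (hg : ∀ x : L, IsIntegral ℤ x → (x : Qbar) ∈ A.nonunits → ((g x : L) : Qbar) ∈ A.nonunits)
    (n : ℕ) : ∀ x : L, IsIntegral ℤ x → (x : Qbar) ∈ A.nonunits →
      (((g ^ n) x : L) : Qbar) ∈ A.nonunits := by
  induction n with
  | zero => intro x _ hx; simpa using hx
  | succ n ih =>
    intro x hx hxA
    rw [pow_succ]
    exact ih (g x) (hx.map g) (hg x hx hxA)

end Lift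

open Lift Fermat.Agent.Lib.Frobenius
open scoped Pointwise

local notation "Zbar" => integralClosure ℤ (AlgebraicClosure ℚ)

/-- [B1] lifting decomposition groups from a finite Galois level. -/
theorem exists_lift_decomposition (L : IntermediateField ℚ Qbar) [FiniteDimensional ℚ L]
    [IsGalois ℚ L] (A : ValuationSubring Qbar) {ℓ : ℕ} (hℓ : ℓ.Prime) (hA : A.LiesOverPrime ℓ)
    (g : L ≃ₐ[ℚ] L)
    (hg : ∀ x : L, IsIntegral ℤ x → (x : Qbar) ∈ A.nonunits → ((g x : L) : Qbar) ∈ A.nonunits) :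
    ∃ σ ∈ A.decompositionSubgroup ℚ, ∀ x : L, σ (x : Qbar) = ((g x : L) : Qbar) := by
  classical
  obtain ⟨g', hg'⟩ := exists_extension L g
  -- `g` preserves the prime of `L` in both directions
  have hiffL : ∀ x : L, IsIntegral ℤ x →
      (((g x : L) : Qbar) ∈ A.nonunits ↔ (x : Qbar) ∈ A.nonunits) := by
    intro x hx
    refine ⟨fun h => ?_, hg x hx⟩
    have hn : 0 < orderOf g := orderOf_pos g
    have h1 := iterate_mem L A g hg (orderOf g - 1) (g x) (hx.map g) h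
    have h2 : (g ^ (orderOf g - 1)) (g x) = x := by
      have : (g ^ (orderOf g - 1) * g) x = x := by
        rw [← pow_succ, Nat.sub_add_cancel hn, pow_orderOf_eq_one]; rfl
      exact this
    rwa [h2] at h1
  let Q := primeOf A
  have hQ2 : (g' • Q).IsPrime := by
    rw [Ideal.pointwise_smul_eq_comap]
    exact Ideal.comap_isPrime _ _
  have hmem : ∀ b : Zbar, b ∈ g' • Q ↔ (g'⁻¹ (b : Qbar)) ∈ A.nonunits := by
    intro b
    rw [Ideal.pointwise_smul_eq_comap, Ideal.mem_comap]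
    exact mem_primeOf A _
  obtain ⟨τ, hτL, hτ⟩ := exists_fixing_smul L (g' • Q) Q (by
    intro b hb
    rw [hmem, mem_primeOf]
    -- `b = g y` with `y = g⁻¹ b`
    have hbint : IsIntegral ℤ (⟨(b : Qbar), hb⟩ : L) := (isIntegral_coe_iff L _).1 b.2
    have h1 := hiffL (g.symm ⟨(b : Qbar), hb⟩) (hbint.map g.symm)
    rw [AlgEquiv.apply_symm_apply] at h1
    have h2 : g'⁻¹ (b : Qbar) = ((g.symm ⟨(b : Qbar), hb⟩ : L) : Qbar) := by
      have h3 := hg' (g.symm ⟨(b : Qbar), hb⟩)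
      rw [AlgEquiv.apply_symm_apply] at h3
      have h4 : g'⁻¹ (g' ((g.symm ⟨(b : Qbar), hb⟩ : L) : Qbar)) =
          ((g.symm ⟨(b : Qbar), hb⟩ : L) : Qbar) := by
        change (g'⁻¹ * g') _ = _
        simp
      rw [← h4, h3]
    rw [h2]
    exact h1.symm)
  -- `σ = τ g'` stabilises `Q`
  have hstab : (τ * g') • Q = Q := by rw [mul_smul]; exact hτ.symm
  refine ⟨τ * g', mem_decomposition_of_forall A hℓ hA _ ?_, fun x => ?_⟩
  · intro b hb
    have h1 : ((⟨b, hb⟩ : Zbar) ∈ Q ↔ (τ * g') • (⟨b, hb⟩ : Zbar) ∈ (τ * g') • Q) :=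
      (Ideal.smul_mem_pointwise_smul_iff (a := τ * g') (S := Q) (x := (⟨b, hb⟩ : Zbar))).symm
    rw [hstab, mem_primeOf, mem_primeOf] at h1
    exact h1.symm
  · change τ (g' (x : Qbar)) = _
    rw [hg']
    exact hτL (g x)

/-- [B1] lifting inertia groups from a finite Galois level. -/
theorem exists_lift_inertia (L : IntermediateField ℚ Qbar) [FiniteDimensional ℚ L]
    [IsGalois ℚ L] (A : ValuationSubring Qbar) {ℓ : ℕ} (hℓ : ℓ.Prime) (hA : A.LiesOverPrime ℓ)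
    (g : L ≃ₐ[ℚ] L)
    (hg : ∀ x : L, IsIntegral ℤ x → ((g x - x : L) : Qbar) ∈ A.nonunits) :
    ∃ σ ∈ A.inertiaSubgroupIn ℚ, ∀ x : L, σ (x : Qbar) = ((g x : L) : Qbar) := by
  classical
  obtain ⟨σ₀, hσ₀D, hσ₀⟩ := exists_lift_decomposition L A hℓ hA g (by
    intro x hx hxA
    have := A.nonunits.add_mem (hg x hx) hxA
    simpa using this)
  let Q := primeOf A
  -- `σ₀` stabilises `Q`
  have hnon : ∀ b : Qbar, σ₀ b ∈ A.nonunits ↔ b ∈ A.nonunits := by
    intro b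
    have h1 : σ₀ • A = A := hσ₀D
    have hv : ∀ y : Qbar, σ₀ y ∈ A ↔ y ∈ A := by
      intro y
      conv_lhs => rw [← h1]
      exact ValuationSubring.smul_mem_pointwise_smul_iff (g := σ₀) (S := A) (x := y)
    by_cases hb0 : b = 0
    · simp [hb0]
    have hσb0 : σ₀ b ≠ 0 := by simpa using hb0
    -- `x ∈ nonunits ↔ x⁻¹ ∉ A` for `x ≠ 0`
    have key : ∀ x : Qbar, x ≠ 0 → (x ∈ A.nonunits ↔ x⁻¹ ∉ A) := by
      intro x hx
      rw [ValuationSubring.mem_nonunits_iff, ← ValuationSubring.valuation_le_one_iff, map_inv₀,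
        not_le]
      exact (one_lt_inv₀ (by
        rw [zero_lt_iff]; exact (A.valuation.ne_zero_iff).2 hx)).symm
    rw [key _ hσb0, key _ hb0, ← map_inv₀, hv]
  have hstab : σ₀ • Q = Q := by
    ext b
    rw [Ideal.pointwise_smul_eq_comap, Ideal.mem_comap]
    change (σ₀⁻¹ • b : Zbar) ∈ primeOf A ↔ b ∈ primeOf A
    rw [mem_primeOf, mem_primeOf, ← hnon]
    have : σ₀ ((σ₀⁻¹ • b : Zbar) : Qbar) = (b : Qbar) := by
      change (σ₀ * σ₀⁻¹) (b : Qbar) = _
      simp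
    rw [this]
  obtain ⟨τ, hτL, hτQ, hτ⟩ := exists_fixing_stabilizer L Q σ₀ hstab (by
    intro b hb
    rw [mem_primeOf]
    have hbint : IsIntegral ℤ (⟨(b : Qbar), hb⟩ : L) := (isIntegral_coe_iff L _).1 b.2
    have h1 := hg ⟨(b : Qbar), hb⟩ hbint
    have h2 := hσ₀ ⟨(b : Qbar), hb⟩
    change σ₀ (b : Qbar) - (b : Qbar) ∈ A.nonunits
    change σ₀ (b : Qbar) = _ at h2
    rw [h2]
    exact h1)
  -- `σ = τ⁻¹ σ₀`
  refine ⟨τ⁻¹ * σ₀, mem_inertia_of_forall A hℓ hA _ ?_, fun x => ?_⟩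
  · intro b hb
    have h1 := hτ ⟨b, hb⟩
    -- apply `τ⁻¹`
    have h2 : τ⁻¹ • (τ • (⟨b, hb⟩ : Zbar) - σ₀ • (⟨b, hb⟩ : Zbar)) ∈ τ⁻¹ • Q :=
      Ideal.smul_mem_pointwise_smul _ _ _ h1
    have h3 : τ⁻¹ • Q = Q := by
      conv_lhs => rw [← hτQ]
      rw [inv_smul_smul]
    rw [h3, smul_sub, inv_smul_smul, mem_primeOf] at h2
    have h4 := A.nonunits.neg_mem h2
    have h5 : -(((⟨b, hb⟩ : Zbar) - τ⁻¹ • σ₀ • (⟨b, hb⟩ : Zbar) : Zbar) : Qbar) =
        (τ⁻¹ * σ₀) b - b := by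
      change -(b - τ⁻¹ (σ₀ b)) = τ⁻¹ (σ₀ b) - b
      ring
    rwa [h5] at h4
  · change τ⁻¹ (σ₀ (x : Qbar)) = _
    rw [hσ₀]
    exact (inv_mem hτL) (g x)

end Fermat.Agent.S14
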