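import Fermat.Agent.S14.Defs

/-!
# S14, package GALA: from a non-split admissible extension to a Kummer generator
-/

set_option autoImplicit false

namespace Fermat.Agent.S14

namespace GalA

section Char

variable (p : ℕ) [Fact p.Prime]

/-- The additive character `c ↦ ζ ^ c`. -/
noncomputable def zp (c : ZMod p) : Qbar := zetaBar p ^ c.val

/-- The mod `p` cyclotomic character with values in `ZMod p`. -/
noncomputable def chi (σ : GQ) : ZMod p := (ExtCitation.cycloExp p σ : ZMod p)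

variable {p}

lemma zeta_pow_p : zetaBar p ^ p = 1 := (zetaBar_spec p).pow_eq_one

lemma zeta_ne_zero : zetaBar p ≠ 0 :=
  (zetaBar_spec p).ne_zero (Fact.out : p.Prime).ne_zero

lemma zp_natCast (k : ℕ) : zp p (k : ZMod p) = zetaBar p ^ k := by
  unfold zp
  rw [ZMod.val_natCast]
  conv_rhs => rw [← Nat.div_add_mod k p]
  rw [pow_add, pow_mul, zeta_pow_p, one_pow, one_mul]

lemma zp_add (c d : ZMod p) : zp p (c + d) = zp p c * zp p d := by
  have h : c + d = ((c.val + d.val : ℕ) : ZMod p) := by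
    push_cast
    rw [ZMod.natCast_zmod_val, ZMod.natCast_zmod_val]
  rw [h, zp_natCast, pow_add]
  rfl

lemma zp_zero : zp p 0 = 1 := by
  unfold zp
  rw [ZMod.val_zero, pow_zero]

lemma zp_ne_zero (c : ZMod p) : zp p c ≠ 0 := pow_ne_zero _ zeta_ne_zero

lemma zp_nat_mul (k : ℕ) (c : ZMod p) : zp p ((k : ZMod p) * c) = zp p c ^ k := by
  have h : (k : ZMod p) * c = ((c.val * k : ℕ) : ZMod p) := by
    push_cast
    rw [ZMod.natCast_zmod_val, mul_comm]
  rw [h, zp_natCast, pow_mul]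
  rfl

lemma zp_eq_one_iff (c : ZMod p) : zp p c = 1 ↔ c = 0 := by
  constructor
  · intro h
    have h1 : p ∣ c.val := (zetaBar_spec p).dvd_of_pow_eq_one _ h
    have h2 : c.val < p := ZMod.val_lt c
    have h3 : c.val = 0 := Nat.eq_zero_of_dvd_of_lt h1 h2
    exact (ZMod.val_eq_zero c).mp h3
  · rintro rfl
    exact zp_zero

lemma zp_pow_p (c : ZMod p) : zp p c ^ p = 1 := by
  unfold zp
  rw [← pow_mul, mul_comm, pow_mul, zeta_pow_p, one_pow]

lemma map_zeta (σ : GQ) : σ (zetaBar p) = zetaBar p ^ ExtCitation.cycloExp p σ := by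
  haveI : NeZero p := ⟨(Fact.out : p.Prime).ne_zero⟩
  have hu : IsUnit (zetaBar p) := (zetaBar_spec p).isUnit (NeZero.ne p)
  have hmem : hu.unit ∈ rootsOfUnity p Qbar := by
    rw [mem_rootsOfUnity]
    ext
    simpa using zeta_pow_p (p := p)
  have := modularCyclotomicCharacter.spec (L := Qbar) (ExtCitation.card_rootsOfUnity_eq_self p)
    (σ : Qbar ≃+* Qbar) hmem
  simpa [ExtCitation.cycloExp] using this

lemma zp_injective : Function.Injective (zp p) := by
  intro c d h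
  have h1 : zp p (c - d) * zp p d = zp p c := by rw [← zp_add, sub_add_cancel]
  rw [h] at h1
  have h2 : zp p (c - d) = 1 := mul_right_cancel₀ (zp_ne_zero d) (h1.trans (one_mul _).symm)
  exact sub_eq_zero.mp ((zp_eq_one_iff _).mp h2)

lemma chi_eq_of {σ : GQ} {k : ℕ} (h : σ (zetaBar p) = zetaBar p ^ k) : chi p σ = (k : ZMod p) := by
  rw [map_zeta, ← zp_natCast, ← zp_natCast] at h
  exact zp_injective h

lemma map_zp (σ : GQ) (c : ZMod p) : σ (zp p c) = zp p (chi p σ * c) := by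
  unfold chi
  rw [zp_nat_mul]
  unfold zp
  rw [map_pow, map_zeta, ← pow_mul, ← pow_mul, mul_comm]

lemma chi_one : chi p (1 : GQ) = 1 := by
  have : (1 : GQ) (zetaBar p) = zetaBar p ^ 1 := by simp
  simpa using chi_eq_of this

lemma chi_mul (σ τ : GQ) : chi p (σ * τ) = chi p σ * chi p τ := by
  have : (σ * τ) (zetaBar p)
      = zetaBar p ^ (ExtCitation.cycloExp p σ * ExtCitation.cycloExp p τ) := by
    rw [AlgEquiv.mul_apply, map_zeta, map_pow, map_zeta, ← pow_mul]
  rw [chi_eq_of this]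
  push_cast
  rfl

lemma chi_eq_one_iff (σ : GQ) : chi p σ = 1 ↔ σ (zetaBar p) = zetaBar p := by
  constructor
  · intro h
    have h1 := map_zp σ (1 : ZMod p)
    rw [h, one_mul] at h1
    have h2 : zp p 1 = zetaBar p := by
      have := zp_natCast (p := p) 1
      simpa using this
    rwa [h2] at h1
  · intro h
    have : σ (zetaBar p) = zetaBar p ^ 1 := by rw [pow_one, h]
    simpa using chi_eq_of this

lemma chi_pow (σ : GQ) (n : ℕ) : chi p (σ ^ n) = chi p σ ^ n := by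
  induction n with
  | zero => simp [chi_one]
  | succ n ih => rw [pow_succ, chi_mul, ih, pow_succ]

/-- An element fixed by all automorphisms fixing `ζ` lies in `Kp p`. -/
lemma mem_Kp_of_fixed {y : Qbar} (h : ∀ σ : GQ, σ (zetaBar p) = zetaBar p → σ y = y) :
    y ∈ Kp p := by
  rw [← InfiniteGalois.fixedField_fixingSubgroup (Kp p), IntermediateField.mem_fixedField_iff]
  intro σ hσ
  apply h
  rw [IntermediateField.mem_fixingSubgroup_iff] at hσ
  exact hσ _ (IntermediateField.subset_adjoin ℚ _ (Set.mem_singleton _))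

/-- An automorphism fixing `ζ` fixes `Kp p`. -/
lemma fixed_of_mem_Kp {y : Qbar} (hy : y ∈ Kp p) {σ : GQ} (h : σ (zetaBar p) = zetaBar p) :
    σ y = y := by
  have hle : Kp p ≤ IntermediateField.fixedField (Subgroup.zpowers σ) := by
    unfold Kp
    rw [IntermediateField.adjoin_le_iff, Set.singleton_subset_iff]
    show zetaBar p ∈ IntermediateField.fixedField (Subgroup.zpowers σ)
    rw [IntermediateField.mem_fixedField_iff]
    intro f hf
    have hst : Subgroup.zpowers σ ≤ MulAction.stabilizer GQ (zetaBar p) := by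
      rw [Subgroup.zpowers_le]
      exact h
    exact hst hf
  have := hle hy
  rw [IntermediateField.mem_fixedField_iff] at this
  exact this σ (Subgroup.mem_zpowers σ)

/-- For `p ≥ 3` some automorphism moves `ζ`. -/
lemma exists_chi_ne_one (h3 : 3 ≤ p) : ∃ σ : GQ, chi p σ ≠ 1 := by
  by_contra hcon
  push Not at hcon
  have hmem : zetaBar p ∈ (⊥ : IntermediateField ℚ Qbar) := by
    rw [InfiniteGalois.mem_bot_iff_fixed]
    intro σ
    exact (chi_eq_one_iff σ).mp (hcon σ)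
  have hle : Kp p ≤ ⊥ := by
    unfold Kp
    rw [IntermediateField.adjoin_le_iff, Set.singleton_subset_iff]
    exact hmem
  have hbot : Kp p = ⊥ := le_bot_iff.mp hle
  haveI : NeZero p := ⟨(Fact.out : p.Prime).ne_zero⟩
  have hfr : Module.finrank ℚ (Kp p) = p.totient :=
    IsCyclotomicExtension.finrank (Kp p) (Polynomial.cyclotomic.irreducible_rat (NeZero.pos p))
  rw [hbot, IntermediateField.finrank_bot, Nat.totient_prime Fact.out] at hfr
  omega

end Char

section Frame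

variable {p : ℕ} [Fact p.Prime] {V : Type} [AddCommGroup V] [Module (ZMod p) V]
  [DistribMulAction GQ V] [SMulCommClass GQ (ZMod p) V]

/-- A basis `e₁ ∈ C`, `e₂ ∉ C` together with the cocycle `b`. -/
structure Frame (C : Submodule (ZMod p) V) (e₁ e₂ : V) (b : GQ → ZMod p) : Prop where
  mem : e₁ ∈ C
  ne : e₁ ≠ 0
  notMem : e₂ ∉ C
  fix : ∀ σ : GQ, σ • e₁ = e₁
  act : ∀ σ : GQ, σ • e₂ = chi p σ • e₂ + b σ • e₁
  span : ∀ x ∈ C, ∃ c : ZMod p, x = c • e₁

lemma exists_frame (C : Submodule (ZMod p) V) (h : ExtCitation.IsAdmissibleExtension p V C) :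
    ∃ (e₁ e₂ : V) (b : GQ → ZMod p), Frame C e₁ e₂ b := by
  have hp : p.Prime := Fact.out
  haveI : Finite C := Nat.finite_of_card_ne_zero (by rw [h.card_sub]; exact hp.ne_zero)
  haveI : Nontrivial C := by
    rw [← Finite.one_lt_card_iff_nontrivial, h.card_sub]
    exact hp.one_lt
  obtain ⟨⟨e₁, he₁⟩, hne⟩ := exists_ne (0 : C)
  have hne' : e₁ ≠ 0 := fun h0 => hne (Subtype.ext h0)
  have hspan : ∀ x ∈ C, ∃ c : ZMod p, x = c • e₁ := by
    let f : ZMod p → C := fun c => ⟨c • e₁, C.smul_mem c he₁⟩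
    have hinj : Function.Injective f := by
      intro c d hcd
      have h1 : c • e₁ = d • e₁ := congrArg Subtype.val hcd
      have h2 : (c - d) • e₁ = 0 := by rw [sub_smul, h1, sub_self]
      rcases smul_eq_zero.mp h2 with h3 | h3
      · exact sub_eq_zero.mp h3
      · exact absurd h3 hne'
    have hbij : Function.Bijective f :=
      hinj.bijective_of_nat_card_le (by rw [h.card_sub, Nat.card_zmod])
    intro x hx
    obtain ⟨c, hc⟩ := hbij.2 ⟨x, hx⟩
    exact ⟨c, (congrArg Subtype.val hc).symm⟩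
  have hex : ∃ e₂ : V, e₂ ∉ C := by
    by_contra hcon
    push Not at hcon
    have h1 : Nat.card C = Nat.card V :=
      Nat.card_congr (Equiv.subtypeUnivEquiv hcon)
    rw [h.card_sub, h.card_total] at h1
    have h2 : p ^ 1 = p ^ 2 := by rw [pow_one]; exact h1
    have := Nat.pow_right_injective hp.two_le h2
    omega
  obtain ⟨e₂, he₂⟩ := hex
  have hb : ∀ σ : GQ, ∃ c : ZMod p, σ • e₂ - chi p σ • e₂ = c • e₁ :=
    fun σ => hspan _ (h.cyclo_quot σ e₂)
  choose b hb using hb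
  refine ⟨e₁, e₂, b, he₁, hne', he₂, fun σ => h.fixed_sub σ e₁ he₁, fun σ => ?_, hspan⟩
  rw [← hb σ]
  abel

variable {C : Submodule (ZMod p) V} {e₁ e₂ : V} {b : GQ → ZMod p}

lemma Frame.coord_unique (F : Frame C e₁ e₂ b) {α β α' β' : ZMod p}
    (h : α • e₂ + β • e₁ = α' • e₂ + β' • e₁) : α = α' ∧ β = β' := by
  have h1 : (α - α') • e₂ = (β' - β) • e₁ := by
    rw [sub_smul, sub_smul, sub_eq_sub_iff_add_eq_add]
    rw [add_comm (β' • e₁)]
    exact h
  have hα : α = α' := by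
    by_contra hne
    have hne' : α - α' ≠ 0 := sub_ne_zero.mpr hne
    apply F.notMem
    have : e₂ = (α - α')⁻¹ • ((β' - β) • e₁) := by
      rw [← h1, smul_smul, inv_mul_cancel₀ hne', one_smul]
    rw [this]
    exact C.smul_mem _ (C.smul_mem _ F.mem)
  refine ⟨hα, ?_⟩
  rw [hα, sub_self, zero_smul] at h1
  rcases smul_eq_zero.mp h1.symm with h2 | h2
  · exact (sub_eq_zero.mp h2).symm
  · exact absurd h2 F.ne

lemma Frame.total (F : Frame C e₁ e₂ b) (hcard : Nat.card V = p ^ 2) (v : V) :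
    ∃ α β : ZMod p, v = α • e₂ + β • e₁ := by
  have hp : p.Prime := Fact.out
  haveI : Finite V := Nat.finite_of_card_ne_zero (by rw [hcard]; exact pow_ne_zero _ hp.ne_zero)
  let f : ZMod p × ZMod p → V := fun x => x.1 • e₂ + x.2 • e₁
  have hinj : Function.Injective f := by
    rintro ⟨α, β⟩ ⟨α', β'⟩ h
    obtain ⟨h1, h2⟩ := F.coord_unique h
    exact Prod.ext h1 h2
  have hbij : Function.Bijective f :=
    hinj.bijective_of_nat_card_le (by rw [hcard, Nat.card_prod, Nat.card_zmod, sq])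
  obtain ⟨⟨α, β⟩, h⟩ := hbij.2 v
  exact ⟨α, β, h.symm⟩

lemma Frame.b_mul (F : Frame C e₁ e₂ b) (σ τ : GQ) : b (σ * τ) = chi p τ * b σ + b τ := by
  have h1 : (σ * τ) • e₂ = chi p (σ * τ) • e₂ + b (σ * τ) • e₁ := F.act _
  have h2 : (σ * τ) • e₂ = (chi p σ * chi p τ) • e₂ + (chi p τ * b σ + b τ) • e₁ := by
    rw [mul_smul, F.act τ, smul_add, smul_comm σ, smul_comm σ, F.act σ, F.fix σ, smul_add,
      smul_smul, smul_smul, add_smul, mul_comm (chi p τ) (chi p σ), add_assoc]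
  exact (F.coord_unique (h1.symm.trans h2)).2

lemma Frame.b_one (F : Frame C e₁ e₂ b) : b 1 = 0 := by
  have := F.b_mul 1 1
  rw [mul_one, chi_one, one_mul] at this
  simpa using this

lemma Frame.b_pow (F : Frame C e₁ e₂ b) {σ : GQ} (hσ : chi p σ = 1) (n : ℕ) :
    b (σ ^ n) = n * b σ := by
  induction n with
  | zero => simp [F.b_one]
  | succ n ih =>
    rw [pow_succ, F.b_mul, hσ, one_mul, ih]
    push_cast
    ring

lemma Frame.smul_eq_iff (F : Frame C e₁ e₂ b) (σ τ : GQ) :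
    σ • e₂ = τ • e₂ ↔ chi p σ = chi p τ ∧ b σ = b τ := by
  rw [F.act σ, F.act τ]
  constructor
  · exact F.coord_unique
  · rintro ⟨h1, h2⟩
    rw [h1, h2]

/-- conjugation formula. -/
lemma Frame.b_conj (F : Frame C e₁ e₂ b) {σ : GQ} (hσ : chi p σ = 1) (τ : GQ) :
    b (τ⁻¹ * σ * τ) = chi p τ * b σ := by
  have hχ : chi p (τ⁻¹ * σ * τ) = 1 := by
    rw [chi_mul, chi_mul, hσ, mul_one, ← chi_mul, inv_mul_cancel, chi_one]
  have h1 : b (τ * (τ⁻¹ * σ * τ)) = b τ + b (τ⁻¹ * σ * τ) := by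
    rw [F.b_mul, hχ, one_mul]
  have h2 : τ * (τ⁻¹ * σ * τ) = σ * τ := by group
  rw [h2, F.b_mul] at h1
  have h3 : chi p τ * b σ + b τ = b (τ⁻¹ * σ * τ) + b τ := by rw [h1, add_comm]
  exact (add_right_cancel h3).symm

/-- If `b` vanishes on `G_K` the extension splits. -/
lemma Frame.splits (F : Frame C e₁ e₂ b) (h3 : 3 ≤ p) (hcard : Nat.card V = p ^ 2)
    (hb : ∀ σ : GQ, chi p σ = 1 → b σ = 0) : ExtCitation.SplitsGlobally C := by
  obtain ⟨σ₀, hσ₀⟩ := exists_chi_ne_one (p := p) h3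
  have hne : chi p σ₀ - 1 ≠ 0 := sub_ne_zero.mpr hσ₀
  set t : ZMod p := b σ₀ / (chi p σ₀ - 1) with ht
  -- the modified cocycle
  have hkey : ∀ σ : GQ, b σ = t * (chi p σ - 1) := by
    intro σ
    -- compare `σ σ₀` and `σ₀ σ`
    have hcomm : b (σ * σ₀) = b (σ₀ * σ) := by
      have hh : chi p ((σ₀ * σ)⁻¹ * (σ * σ₀)) = 1 := by
        have h1 : chi p (σ₀ * σ) * chi p ((σ₀ * σ)⁻¹ * (σ * σ₀)) = chi p (σ₀ * σ) * 1 := by
          rw [← chi_mul, mul_inv_cancel_left, mul_one, chi_mul, chi_mul, mul_comm]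
        have h2 : chi p (σ₀ * σ) ≠ 0 := by
          intro h0
          have : chi p ((σ₀ * σ) * (σ₀ * σ)⁻¹) = 0 := by rw [chi_mul, h0, zero_mul]
          rw [mul_inv_cancel, chi_one] at this
          exact one_ne_zero this
        exact mul_left_cancel₀ h2 h1
      have h4 : σ * σ₀ = (σ₀ * σ) * ((σ₀ * σ)⁻¹ * (σ * σ₀)) := by group
      rw [h4, F.b_mul, hh, one_mul, hb _ hh, add_zero]
    rw [F.b_mul, F.b_mul] at hcomm
    have h5 : b σ * (chi p σ₀ - 1) = b σ₀ * (chi p σ - 1) := by linear_combination hcomm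
    rw [ht]
    field_simp
    exact h5
  refine ⟨Submodule.span (ZMod p) {e₂ + t • e₁}, ?_, ?_⟩
  · intro σ x hx
    rw [Submodule.mem_span_singleton] at hx ⊢
    obtain ⟨c, rfl⟩ := hx
    refine ⟨c * chi p σ, ?_⟩
    have h1 : σ • (e₂ + t • e₁) = chi p σ • (e₂ + t • e₁) := by
      rw [smul_add, smul_comm σ, F.act, F.fix, hkey σ, smul_add, smul_smul, mul_sub, sub_smul,
        mul_one, mul_comm t]
      abel
    rw [smul_comm σ, h1, smul_smul]
  · rw [isCompl_iff]
    constructor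
    · rw [Submodule.disjoint_def]
      intro x hx hx'
      rw [Submodule.mem_span_singleton] at hx'
      obtain ⟨c, rfl⟩ := hx'
      by_cases hc : c = 0
      · rw [hc, zero_smul]
      · exfalso
        apply F.notMem
        have h1 : e₂ + t • e₁ ∈ C := by
          have := C.smul_mem c⁻¹ hx
          rwa [smul_smul, inv_mul_cancel₀ hc, one_smul] at this
        have h2 := C.sub_mem h1 (C.smul_mem t F.mem)
        rwa [add_sub_cancel_right] at h2
    · rw [codisjoint_iff, eq_top_iff]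
      intro v _
      obtain ⟨α, β, rfl⟩ := F.total hcard v
      rw [Submodule.mem_sup]
      refine ⟨(β - α * t) • e₁, C.smul_mem _ F.mem, α • (e₂ + t • e₁),
        Submodule.smul_mem _ _ (Submodule.mem_span_singleton_self _), ?_⟩
      rw [smul_add, smul_smul, sub_smul]
      abel

end Frame

section Resolvent

variable {p : ℕ} [Fact p.Prime] {V : Type} [AddCommGroup V] [Module (ZMod p) V]
  [DistribMulAction GQ V] [SMulCommClass GQ (ZMod p) V]

omit [Fact p.Prime] [Module (ZMod p) V] [SMulCommClass GQ (ZMod p) V] in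
lemma isOpen_stabilizer (hopen : IsOpen {σ : GQ | ∀ v : V, σ • v = v}) (e₂ : V) :
    IsOpen ((MulAction.stabilizer GQ e₂ : Subgroup GQ) : Set GQ) := by
  apply Subgroup.isOpen_of_mem_nhds (g := 1)
  refine Filter.mem_of_superset (hopen.mem_nhds (fun v => one_smul _ v)) ?_
  intro σ hσ
  exact hσ e₂

/-- The fixed field of the stabiliser of `e₂`. -/
noncomputable def Lf (e₂ : V) : IntermediateField ℚ Qbar :=
  IntermediateField.fixedField (MulAction.stabilizer GQ e₂)

omit [Fact p.Prime] [Module (ZMod p) V] [SMulCommClass GQ (ZMod p) V] in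
lemma apply_eq_of_smul_eq {e₂ : V} {x : Qbar} (hx : x ∈ Lf e₂) {g₁ g₂ : GQ}
    (h : g₁ • e₂ = g₂ • e₂) : g₁ x = g₂ x := by
  have hmem : g₂⁻¹ * g₁ ∈ MulAction.stabilizer GQ e₂ := by
    rw [MulAction.mem_stabilizer_iff, mul_smul, h, inv_smul_smul]
  have h1 := (IntermediateField.mem_fixedField_iff _ _).mp hx _ hmem
  have h2 : g₂ ((g₂⁻¹ * g₁) x) = g₁ x := by
    rw [← AlgEquiv.mul_apply, mul_inv_cancel_left]
  rw [← h2, h1]

omit [Fact p.Prime] [Module (ZMod p) V] [SMulCommClass GQ (ZMod p) V] in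
lemma smul_eq_of_forall (hopen : IsOpen {σ : GQ | ∀ v : V, σ • v = v}) {e₂ : V} {g₁ g₂ : GQ}
    (h : ∀ x ∈ Lf e₂, g₁ x = g₂ x) : g₁ • e₂ = g₂ • e₂ := by
  have hcl : IsClosed ((MulAction.stabilizer GQ e₂ : Subgroup GQ) : Set GQ) :=
    Subgroup.isClosed_of_isOpen _ (isOpen_stabilizer hopen e₂)
  have hfix := InfiniteGalois.fixingSubgroup_fixedField
    (⟨MulAction.stabilizer GQ e₂, hcl⟩ : ClosedSubgroup GQ)
  have hmem : g₂⁻¹ * g₁ ∈ (Lf e₂).fixingSubgroup := by
    rw [IntermediateField.mem_fixingSubgroup_iff]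
    intro x hx
    rw [AlgEquiv.mul_apply, h x hx, ← AlgEquiv.mul_apply, inv_mul_cancel, AlgEquiv.one_apply]
  have hmem' : g₂⁻¹ * g₁ ∈ MulAction.stabilizer GQ e₂ := by
    have : (Lf e₂).fixingSubgroup = MulAction.stabilizer GQ e₂ := hfix
    rwa [this] at hmem
  rw [MulAction.mem_stabilizer_iff, mul_smul] at hmem'
  conv_rhs => rw [← hmem', smul_inv_smul]

variable {C : Submodule (ZMod p) V} {e₁ e₂ : V} {b : GQ → ZMod p}

/-- The Lagrange resolvent. -/
lemma Frame.exists_resolvent (F : Frame C e₁ e₂ b)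
    (hopen : IsOpen {σ : GQ | ∀ v : V, σ • v = v}) {σ₁ : GQ} (hχ : chi p σ₁ = 1)
    (hb : b σ₁ = 1) :
    ∃ a : Qbar, a ≠ 0 ∧ ∀ σ : GQ, chi p σ = 1 → σ a = zp p (b σ) * a := by
  haveI : NeZero p := ⟨(Fact.out : p.Prime).ne_zero⟩
  -- the characters
  let φ : ZMod p → (Lf e₂ →* Qbar) := fun c =>
    ((σ₁ ^ c.val : GQ) : Qbar →ₐ[ℚ] Qbar).toRingHom.toMonoidHom.comp
      (Lf e₂).val.toRingHom.toMonoidHom
  have hφ : ∀ (c : ZMod p) (x : Lf e₂), φ c x = (σ₁ ^ c.val : GQ) (x : Qbar) := fun _ _ => rfl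
  have hχpow : ∀ n : ℕ, chi p (σ₁ ^ n) = 1 := fun n => by rw [chi_pow, hχ, one_pow]
  have hbpow : ∀ n : ℕ, b (σ₁ ^ n) = n := fun n => by rw [F.b_pow hχ, hb, mul_one]
  have hinj : Function.Injective φ := by
    intro c d hcd
    have h1 : (σ₁ ^ c.val : GQ) • e₂ = (σ₁ ^ d.val : GQ) • e₂ := by
      apply smul_eq_of_forall hopen
      intro x hx
      have := DFunLike.congr_fun hcd ⟨x, hx⟩
      rwa [hφ, hφ] at this
    have h2 := ((F.smul_eq_iff _ _).mp h1).2
    rwa [hbpow, hbpow, ZMod.natCast_zmod_val, ZMod.natCast_zmod_val] at h2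
  have hli : LinearIndependent Qbar (fun c : ZMod p => (φ c : Lf e₂ → Qbar)) :=
    (linearIndependent_monoidHom (Lf e₂) Qbar).comp φ hinj
  have hex : ∃ x : Lf e₂, ∑ c : ZMod p, zp p (-c) * φ c x ≠ 0 := by
    by_contra hcon
    push Not at hcon
    have h0 : ∑ c : ZMod p, zp p (-c) • (φ c : Lf e₂ → Qbar) = 0 := by
      funext x
      rw [Finset.sum_apply]
      simpa using hcon x
    have := Fintype.linearIndependent_iff.mp hli _ h0 0
    exact zp_ne_zero _ this
  obtain ⟨x, hx⟩ := hex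
  refine ⟨_, hx, ?_⟩
  intro σ hσ
  rw [map_sum, Finset.mul_sum]
  rw [← Equiv.sum_comp (Equiv.addRight (b σ))
    (fun c : ZMod p => zp p (b σ) * (zp p (-c) * φ c x))]
  refine Finset.sum_congr rfl fun c _ => ?_
  rw [map_mul, map_zp, hσ, one_mul, Equiv.coe_addRight, ← mul_assoc, ← zp_add]
  have h1 : b σ + -(c + b σ) = -c := by ring
  rw [h1, hφ, hφ]
  congr 1
  rw [← AlgEquiv.mul_apply]
  apply apply_eq_of_smul_eq x.2
  rw [F.smul_eq_iff]
  refine ⟨?_, ?_⟩
  · rw [chi_mul, hσ, hχpow, hχpow, one_mul]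
  · rw [F.b_mul, hχpow, hbpow, hbpow, one_mul, ZMod.natCast_zmod_val, ZMod.natCast_zmod_val,
      add_comm]

end Resolvent

end GalA

open GalA in
/-- [GALA] -/
theorem exists_kummerDatum {p : ℕ} [Fact p.Prime] (h3 : 3 ≤ p) (V : Type) [AddCommGroup V]
    [Module (ZMod p) V]
    [DistribMulAction GQ V] [SMulCommClass GQ (ZMod p) V] (C : Submodule (ZMod p) V)
    (h : ExtCitation.IsAdmissibleExtensionCts p V C) (hns : ¬ ExtCitation.SplitsGlobally C) :
    ∃ a : Qbar, KummerDatum p a ∧ a ∉ Kp p := by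
  obtain ⟨e₁, e₂, b, F⟩ := exists_frame C h.toIsAdmissibleExtension
  -- `b` does not vanish on `G_K`
  have hex : ∃ σ : GQ, chi p σ = 1 ∧ b σ ≠ 0 := by
    by_contra hcon
    push Not at hcon
    exact hns (F.splits h3 h.card_total hcon)
  obtain ⟨σ₂, hσ₂, hbσ₂⟩ := hex
  -- normalise
  obtain ⟨σ₁, hχ, hb⟩ : ∃ σ₁ : GQ, chi p σ₁ = 1 ∧ b σ₁ = 1 := by
    refine ⟨σ₂ ^ ((b σ₂)⁻¹).val, by rw [chi_pow, hσ₂, one_pow], ?_⟩
    rw [F.b_pow hσ₂, ZMod.natCast_zmod_val, inv_mul_cancel₀ hbσ₂]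
  obtain ⟨a, ha0, ha⟩ := F.exists_resolvent h.open_kernel hχ hb
  refine ⟨a, ⟨ha0, ?_, ?_, ?_, ?_⟩, ?_⟩
  · -- `a ^ p ∈ K`
    apply mem_Kp_of_fixed
    intro σ hσ
    rw [map_pow, ha σ ((chi_eq_one_iff σ).mpr hσ), mul_pow, zp_pow_p, one_mul]
  · -- eigen-property
    intro τ k hk
    apply mem_Kp_of_fixed
    intro σ hσ
    have hσ' : chi p σ = 1 := (chi_eq_one_iff σ).mpr hσ
    have hτ : chi p τ = (k : ZMod p) := chi_eq_of hk
    have hconj : chi p (τ⁻¹ * σ * τ) = 1 := by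
      rw [chi_mul, chi_mul, hσ', mul_one, ← chi_mul, inv_mul_cancel, chi_one]
    have h1 : σ (τ a) = τ ((τ⁻¹ * σ * τ) a) := by
      rw [← AlgEquiv.mul_apply, ← AlgEquiv.mul_apply]
      congr 1
      group
    have h2 : σ (τ a) = zp p (b σ) ^ (k ^ 2) * τ a := by
      rw [h1, ha _ hconj, map_mul, map_zp, F.b_conj hσ', hτ, ← mul_assoc, ← sq, ← Nat.cast_pow,
        zp_nat_mul]
    rw [map_div₀, map_pow, h2, ha σ hσ', mul_pow]
    have hz : zp p (b σ) ^ (k ^ 2) ≠ 0 := pow_ne_zero _ (zp_ne_zero _)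
    have ha' : a ^ (k ^ 2) ≠ 0 := pow_ne_zero _ ha0
    field_simp
  · -- unramified
    intro ℓ hℓ hℓp A hA σ hσ
    have h1 : σ • e₂ = (1 : GQ) • e₂ := by
      rw [one_smul]
      exact h.unramified_outside ℓ hℓ hℓp A hA σ hσ e₂
    obtain ⟨h2, h3⟩ := (F.smul_eq_iff _ _).mp h1
    rw [chi_one] at h2
    rw [F.b_one] at h3
    rw [ha σ h2, h3, zp_zero, one_mul]
  · -- split at `p`
    intro A hA σ hσ hζ
    have hσ' : chi p σ = 1 := (chi_eq_one_iff σ).mpr hζ
    obtain ⟨C', hstab, hcompl⟩ := h.locally_split A hA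
    have htop : e₂ ∈ C ⊔ C' := by
      rw [hcompl.sup_eq_top]
      exact Submodule.mem_top
    obtain ⟨c, hc, c', hc', hsum⟩ := Submodule.mem_sup.mp htop
    have h1 : σ • c' = c' + b σ • e₁ := by
      have h2 : c' = e₂ - c := by rw [← hsum]; abel
      rw [h2, smul_sub, F.act, hσ', one_smul, h.fixed_sub σ c hc]
      abel
    have h3 : b σ • e₁ ∈ C' := by
      have := C'.sub_mem (hstab σ hσ c' hc') hc'
      rwa [h1, add_sub_cancel_left] at this
    have h4 : b σ • e₁ = 0 :=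
      (Submodule.disjoint_def.mp hcompl.disjoint) _ (C.smul_mem _ F.mem) h3
    have h5 : b σ = 0 := by
      rcases smul_eq_zero.mp h4 with h | h
      · exact h
      · exact absurd h F.ne
    rw [ha σ hσ', h5, zp_zero, one_mul]
  · -- `a ∉ K`
    intro hmem
    have h1 := fixed_of_mem_Kp hmem ((chi_eq_one_iff σ₁).mp hχ)
    rw [ha σ₁ hχ, hb] at h1
    have h2 : zp p 1 = 1 := mul_right_cancel₀ ha0 (h1.trans (one_mul a).symm)
    exact one_ne_zero ((zp_eq_one_iff _).mp h2)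

end Fermat.Agent.S14
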