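import Fermat.Agent.S14.Defs

/-!
# S14, package M1: a class killed by `T` up to `p`-th powers
-/

set_option autoImplicit false

namespace Fermat.Agent.S14

open NumberField Ideal
open scoped Pointwise nonZeroDivisors

namespace ClassKill

section General

variable {R : Type*} [CommRing R] [IsDedekindDomain R]

/-- `p`-th roots of ideals are unique. -/
lemma ideal_pow_injective {n : ℕ} (hn : n ≠ 0) {I J : Ideal R} (h : I ^ n = J ^ n) : I = J := by
  have h1 : I ∣ J := (UniqueFactorizationMonoid.pow_dvd_pow_iff_dvd hn).mp (dvd_of_eq h)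
  have h2 : J ∣ I := (UniqueFactorizationMonoid.pow_dvd_pow_iff_dvd hn).mp (dvd_of_eq h.symm)
  exact le_antisymm (Ideal.dvd_iff_le.mp h2) (Ideal.dvd_iff_le.mp h1)

end General

section Group

variable {G : Type*} [CommGroup G] [Finite G]

/-- an element of order dividing `p` which is a `p^j`-th power for all `j` is trivial. -/
lemma eq_one_of_forall_pow {p : ℕ} (hp : p.Prime) {c : G} (hc : c ^ p = 1)
    (h : ∀ j : ℕ, ∃ D : G, c = D ^ (p ^ j)) : c = 1 := by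
  have hcard : Nat.card G ≠ 0 := Nat.card_pos.ne'
  obtain ⟨a, m, hm, hcm⟩ := Nat.exists_eq_pow_mul_and_not_dvd hcard p hp.ne_one
  obtain ⟨D, hD⟩ := h a
  have h1 : c ^ m = 1 := by
    rw [hD, ← pow_mul, ← hcm]
    exact pow_card_eq_one'
  have h2 : orderOf c ∣ Nat.gcd p m :=
    Nat.dvd_gcd (orderOf_dvd_of_pow_eq_one hc) (orderOf_dvd_of_pow_eq_one h1)
  have h3 : Nat.gcd p m = 1 := (Nat.Prime.coprime_iff_not_dvd hp).mpr hm
  rw [h3, Nat.dvd_one, orderOf_eq_one_iff] at h2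
  exact h2

end Group

section Cyclo

variable {p : ℕ} [Fact p.Prime] {K : Type*} [Field K] [NumberField K] {ζ : K}

lemma coe_smul (δ : K ≃ₐ[ℚ] K) (x : 𝓞 K) : ((δ • x : 𝓞 K) : K) = δ (x : K) := rfl

lemma smul_span_singleton (δ : K ≃ₐ[ℚ] K) (x : 𝓞 K) :
    δ • (span {x} : Ideal (𝓞 K)) = span {δ • x} := by
  rw [Ideal.pointwise_smul_def, Ideal.map_span, Set.image_singleton]
  rfl

/-- The Galois action on the class of `𝔞`, where `𝔞 ^ p = (α)` with `α` an eigenvector. -/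
lemma clAct_eq_pow (hp : p ≠ 0) {α : 𝓞 K} (hα : α ≠ 0) (heig : IsEig p ζ (α : K))
    {𝔞 : Ideal (𝓞 K)} (h𝔞 : span {α} = 𝔞 ^ p) (h0 : 𝔞 ≠ ⊥)
    (δ : K ≃ₐ[ℚ] K) (k : ℕ) (hk : δ ζ = ζ ^ k) :
    clAct δ (cls 𝔞 h0) = cls 𝔞 h0 ^ (k ^ 2) := by
  obtain ⟨y, hy⟩ := heig δ k hk
  have hαK : (α : K) ≠ 0 := by
    intro h
    exact hα (RingOfIntegers.coe_eq_zero_iff.mp h)
  have hy0 : y ≠ 0 := by
    rintro rfl
    rw [zero_pow hp, mul_zero] at hy
    exact hαK ((map_eq_zero δ).mp hy)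
  obtain ⟨y₁, y₂, hy₂, hyy⟩ := IsFractionRing.div_surjective (A := 𝓞 K) y
  have hy₂0 : y₂ ≠ 0 := nonZeroDivisors.ne_zero hy₂
  have hy₂K : (algebraMap (𝓞 K) K y₂) ≠ 0 := by
    intro h
    exact hy₂0 (RingOfIntegers.coe_eq_zero_iff.mp h)
  have hy₁0 : y₁ ≠ 0 := by
    rintro rfl
    rw [map_zero, zero_div] at hyy
    exact hy0 hyy.symm
  -- the integral relation
  have hrel : (δ • α) * y₂ ^ p = α ^ (k ^ 2) * y₁ ^ p := by
    apply RingOfIntegers.coe_injective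
    rw [map_mul, map_mul, map_pow, map_pow, map_pow]
    have h1 : algebraMap (𝓞 K) K (δ • α) = (algebraMap (𝓞 K) K α) ^ (k ^ 2) * y ^ p := hy
    rw [h1, ← hyy, div_pow]
    field_simp
  -- the ideal relation
  have hideal : (span {y₂} * (δ • 𝔞)) ^ p = (span {y₁} * 𝔞 ^ (k ^ 2)) ^ p := by
    rw [mul_pow, mul_pow, ← smul_pow', ← h𝔞, smul_span_singleton, ← pow_mul, mul_comm (k ^ 2) p,
      pow_mul, ← h𝔞, Ideal.span_singleton_pow, Ideal.span_singleton_pow,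
      Ideal.span_singleton_pow, Ideal.span_singleton_mul_span_singleton,
      Ideal.span_singleton_mul_span_singleton, mul_comm, hrel, mul_comm]
  have hroot := ideal_pow_injective hp hideal
  unfold cls
  rw [clAct_mk0, ← map_pow, ClassGroup.mk0_eq_mk0_iff]
  exact ⟨y₂, y₁, hy₂0, hy₁0, hroot⟩

end Cyclo

end ClassKill

section Main

variable {p : ℕ} [Fact p.Prime] {K : Type*} [Field K] [NumberField K]
  [IsCyclotomicExtension {p} ℚ K] {ζ : K}

open ClassKill in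
/-- [M1] -/
theorem exists_unit_mul_pow (hζ : IsPrimitiveRoot ζ p) (hp5 : 5 ≤ p)
    (hCl : ∀ C : ClassGroup (𝓞 K), ∃ D : ClassGroup (𝓞 K), TCl hζ C = D ^ p)
    (α : 𝓞 K) (hα : α ≠ 0) (heig : IsEig p ζ (α : K))
    (𝔞 : Ideal (𝓞 K)) (h𝔞 : span {α} = 𝔞 ^ p) :
    ∃ (u : (𝓞 K)ˣ) (x : 𝓞 K), α = u * x ^ p := by
  have hp : p.Prime := Fact.out
  haveI : NeZero p := ⟨hp.ne_zero⟩
  have h0 : 𝔞 ≠ ⊥ := by
    rintro rfl
    rw [← Ideal.zero_eq_bot, zero_pow hp.ne_zero, Ideal.zero_eq_bot,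
      Ideal.span_singleton_eq_bot] at h𝔞
    exact hα h𝔞
  set c := cls 𝔞 h0 with hc
  -- `c ^ p = 1`
  have hcp : c ^ p = 1 := by
    rw [hc]
    unfold cls
    rw [← map_pow, ClassGroup.mk0_eq_one_iff]
    show (𝔞 ^ p).IsPrincipal
    rw [← h𝔞]
    exact ⟨α, rfl⟩
  -- `T c = c⁻¹`
  have hT : TCl hζ c = c⁻¹ := by
    rw [TCl_apply]
    have h1 : ∀ δ : K ≃ₐ[ℚ] K, (clAct δ c) ^ (ex hζ δ ^ (p - 3)) = c := by
      intro δ
      rw [hc, clAct_eq_pow hp.ne_zero hα heig h𝔞 h0 δ (ex hζ δ) (ex_spec hζ δ), ← hc, ← pow_mul,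
        ← pow_add, pow_eq_pow_mod _ hcp]
      have h2 : 2 + (p - 3) = p - 1 := by omega
      rw [h2]
      have h3 : ((ex hζ δ ^ (p - 1) : ℕ) : ZMod p) = ((1 : ℕ) : ZMod p) := by
        push_cast
        apply ZMod.pow_card_sub_one_eq_one
        unfold ex
        rw [ZMod.natCast_zmod_val]
        exact Units.ne_zero _
      rw [ZMod.natCast_eq_natCast_iff'] at h3
      rw [h3, Nat.mod_eq_of_lt hp.one_lt, pow_one]
    rw [Finset.prod_congr rfl (fun δ _ => h1 δ), Finset.prod_const, Finset.card_univ]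
    have hcard : Fintype.card (K ≃ₐ[ℚ] K) = p - 1 := by
      rw [← Nat.card_eq_fintype_card,
        Nat.card_congr (IsCyclotomicExtension.autEquivPow K
          (Polynomial.cyclotomic.irreducible_rat (NeZero.pos p))).toEquiv,
        Nat.card_eq_fintype_card, ZMod.card_units_eq_totient, Nat.totient_prime hp]
    rw [hcard, eq_inv_iff_mul_eq_one, ← pow_succ]
    have h4 : p - 1 + 1 = p := by omega
    rw [h4, hcp]
  -- iterate
  have hiter : ∀ j : ℕ, ∃ D : ClassGroup (𝓞 K), c = D ^ (p ^ j) := by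
    intro j
    induction j with
    | zero => exact ⟨c, by simp⟩
    | succ j ih =>
      obtain ⟨D, hD⟩ := ih
      obtain ⟨D', hD'⟩ := hCl D
      refine ⟨D'⁻¹, ?_⟩
      have h5 : c⁻¹ = D' ^ (p ^ (j + 1)) := by
        rw [← hT]
        conv_lhs => rw [hD]
        rw [map_pow, hD', ← pow_mul, pow_succ, mul_comm]
      rw [inv_pow, ← h5, inv_inv]
  have hc1 : c = 1 := eq_one_of_forall_pow hp hcp hiter
  rw [hc] at hc1
  unfold cls at hc1
  rw [ClassGroup.mk0_eq_one_iff] at hc1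
  obtain ⟨x, hx⟩ := hc1
  have hx' : 𝔞 = span {x} := hx
  rw [hx', Ideal.span_singleton_pow, Ideal.span_singleton_eq_span_singleton] at h𝔞
  obtain ⟨u, hu⟩ := h𝔞.symm
  exact ⟨u, x, by rw [← hu, mul_comm]⟩

end Main

end Fermat.Agent.S14
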