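import Fermat.Agent.S14.Defs

/-!
# S14, package P3: the case `p = 3`
-/

set_option autoImplicit false

namespace Fermat.Agent.S14

open NumberField Ideal
open scoped Pointwise nonZeroDivisors

namespace Three

variable {K : Type*} [Field K] [NumberField K] [IsCyclotomicExtension {3} ℚ K] {ζ : K}

/-- every unit of `𝓞 K` is `± ζ ^ i`. -/
lemma unit_cases (hζ : IsPrimitiveRoot ζ 3) (u : (𝓞 K)ˣ) :
    ∃ (s : K) (i : ℕ), (s = 1 ∨ s = -1) ∧ ((u : 𝓞 K) : K) = s * ζ ^ i := by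
  have h := IsCyclotomicExtension.Rat.Three.Units.mem hζ u
  simp only [List.mem_cons, List.not_mem_nil, or_false] at h
  rcases h with h | h | h | h | h | h
  · exact ⟨1, 0, Or.inl rfl, by rw [h]; simp⟩
  · exact ⟨-1, 0, Or.inr rfl, by rw [h]; simp⟩
  · exact ⟨1, 1, Or.inl rfl, by rw [h]; simp⟩
  · exact ⟨-1, 1, Or.inr rfl, by rw [h]; simp⟩
  · exact ⟨1, 2, Or.inl rfl, by rw [h]; simp⟩
  · exact ⟨-1, 2, Or.inr rfl, by rw [h]; simp⟩

/-- if `± ζ ^ i` is a cube in `K` then `ζ ^ i = 1`. -/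
lemma zeta_pow_eq_one_of_cube (hζ : IsPrimitiveRoot ζ 3) {s z : K} {i : ℕ}
    (hs : s = 1 ∨ s = -1) (hz : z ^ 3 = s * ζ ^ i) : ζ ^ i = 1 := by
  have hζ3 : ζ ^ 3 = 1 := hζ.pow_eq_one
  have hs2 : s ^ 2 = 1 := by rcases hs with rfl | rfl <;> norm_num
  -- `z ^ 6 = ... `, so `z` is a unit of `𝓞 K`
  have hz18 : z ^ 18 = 1 := by
    have : z ^ 18 = (z ^ 3) ^ 6 := by ring
    rw [this, hz, mul_pow]
    have e1 : s ^ 6 = 1 := by
      have : s ^ 6 = (s ^ 2) ^ 3 := by ring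
      rw [this, hs2, one_pow]
    have e2 : (ζ ^ i) ^ 6 = 1 := by
      have : (ζ ^ i) ^ 6 = (ζ ^ 3) ^ (2 * i) := by ring
      rw [this, hζ3, one_pow]
    rw [e1, e2, one_mul]
  have hint : IsIntegral ℤ z := by
    refine IsIntegral.of_pow (n := 18) (by norm_num) ?_
    rw [hz18]; exact isIntegral_one
  let z' : 𝓞 K := ⟨z, hint⟩
  have hz' : z' ^ 18 = 1 := by
    apply RingOfIntegers.ext
    simpa using! hz18
  have hu : IsUnit z' := IsUnit.of_pow_eq_one hz' (by norm_num)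
  obtain ⟨w, hw⟩ := hu
  obtain ⟨t, j, ht, hwt⟩ := unit_cases hζ w
  have hzt : z = t * ζ ^ j := by
    rw [← hwt, hw]
    rfl
  have ht3 : t ^ 3 = t := by rcases ht with rfl | rfl <;> norm_num
  have h1 : z ^ 3 = t := by
    rw [hzt, mul_pow, ht3]
    have : (ζ ^ j) ^ 3 = (ζ ^ 3) ^ j := by ring
    rw [this, hζ3, one_pow, mul_one]
  have h2 : ζ ^ i = s * t := by
    have : s * (s * ζ ^ i) = s * t := by rw [← hz, h1]
    calc ζ ^ i = s ^ 2 * ζ ^ i := by rw [hs2, one_mul]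
      _ = s * (s * ζ ^ i) := by ring
      _ = s * t := this
  have h3 : (ζ ^ i) ^ 3 = 1 := by
    have : (ζ ^ i) ^ 3 = (ζ ^ 3) ^ i := by ring
    rw [this, hζ3, one_pow]
  rcases hs with rfl | rfl <;> rcases ht with rfl | rfl
  · simpa using h2
  · exfalso
    rw [h2] at h3
    norm_num at h3
  · exfalso
    rw [h2] at h3
    norm_num at h3
  · simpa using h2

/-- there is an automorphism with `δ ζ = ζ ^ 2`. -/
lemma exists_aut (hζ : IsPrimitiveRoot ζ 3) : ∃ δ : K ≃ₐ[ℚ] K, δ ζ = ζ ^ 2 := by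
  have : IsGalois ℚ K := IsCyclotomicExtension.isGalois {3} ℚ K
  by_contra hcon
  push Not at hcon
  have hζ3 : ζ ^ 3 = 1 := hζ.pow_eq_one
  have hfix : ∀ δ : K ≃ₐ[ℚ] K, δ ζ = ζ := by
    intro δ
    have h1 := ex_spec hζ δ
    have hlt : ex hζ δ < 3 := ZMod.val_lt _
    have hne := hcon δ
    have h0 : δ ζ ≠ 1 := by
      intro h
      have : δ ζ = δ 1 := by rw [h, map_one]
      exact hζ.ne_one (by norm_num) (δ.injective this)
    interval_cases h : ex hζ δ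
    · exact absurd (by simpa using h1) h0
    · simpa using h1
    · exact absurd h1 hne
  obtain ⟨q, hq⟩ := (IsGalois.mem_range_algebraMap_iff_fixed ζ).mpr hfix
  have hq3 : q ^ 3 = 1 := by
    apply (algebraMap ℚ K).injective
    rw [map_pow, hq, hζ3, map_one]
  have hq1 : q ≠ 1 := by
    rintro rfl
    exact hζ.ne_one (by norm_num) (by rw [← hq, map_one])
  have : (q - 1) * (q ^ 2 + q + 1) = 0 := by ring_nf; linarith
  rcases mul_eq_zero.mp this with h | h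
  · exact hq1 (by linarith)
  · nlinarith [sq_nonneg (q + 1 / 2)]

theorem main (hζ : IsPrimitiveRoot ζ 3) (α : 𝓞 K) (hα : α ≠ 0)
    (heig : IsEig 3 ζ (α : K)) (𝔞 : Ideal (𝓞 K)) (h𝔞 : span {α} = 𝔞 ^ 3) :
    ∃ x : 𝓞 K, α = x ^ 3 := by
  have : IsPrincipalIdealRing (𝓞 K) := IsCyclotomicExtension.Rat.three_pid K
  have hζ3 : ζ ^ 3 = 1 := hζ.pow_eq_one
  obtain ⟨a, ha⟩ : ∃ a, 𝔞 = span {a} := ⟨_, (Ideal.span_singleton_generator 𝔞).symm⟩
  rw [ha, Ideal.span_singleton_pow, Ideal.span_singleton_eq_span_singleton] at h𝔞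
  obtain ⟨u, hu⟩ := h𝔞.symm
  -- `a ^ 3 * u = α`
  have ha0 : a ≠ 0 := by
    rintro rfl
    apply hα
    rw [← hu]; simp
  obtain ⟨s, i, hs, hus⟩ := unit_cases hζ u
  obtain ⟨δ, hδ⟩ := exists_aut hζ
  obtain ⟨y, hy⟩ := heig δ 2 hδ
  have hαK : (α : K) = (a : K) ^ 3 * (s * ζ ^ i) := by
    rw [← hu, ← hus]; simp
  have haK : (a : K) ≠ 0 := by
    simpa using ha0
  have hδa : δ (a : K) ≠ 0 := by
    simpa using haK
  have hδs : δ s = s := by rcases hs with rfl | rfl <;> simp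
  have hs2 : s ^ 2 = 1 := by rcases hs with rfl | rfl <;> norm_num
  rw [hαK] at hy
  simp only [map_mul, map_pow, hδ, hδs] at hy
  -- `δ a ^ 3 * (s * (ζ ^ 2) ^ i) = (a ^ 3 * (s * ζ ^ i)) ^ (2 ^ 2) * y ^ 3`
  have key : ((a : K) ^ 4 * y / δ (a : K)) ^ 3 = s * ζ ^ (4 * i) := by
    rw [div_pow, div_eq_iff (pow_ne_zero _ hδa)]
    have e6 : ζ ^ (6 * i) = 1 := by
      have : ζ ^ (6 * i) = (ζ ^ 3) ^ (2 * i) := by ring
      rw [this, hζ3, one_pow]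
    have e4 : s ^ 4 = 1 := by
      have : s ^ 4 = (s ^ 2) ^ 2 := by ring
      rw [this, hs2, one_pow]
    calc ((a : K) ^ 4 * y) ^ 3 = (s ^ 4 * ζ ^ (6 * i)) * ((a : K) ^ 12 * y ^ 3) := by
          rw [e4, e6]; ring
      _ = ζ ^ (2 * i) * (((a : K) ^ 3 * (s * ζ ^ i)) ^ (2 ^ 2) * y ^ 3) := by ring
      _ = ζ ^ (2 * i) * (δ (a : K) ^ 3 * (s * (ζ ^ 2) ^ i)) := by rw [hy]
      _ = s * ζ ^ (4 * i) * δ (a : K) ^ 3 := by ring
  have h4 := zeta_pow_eq_one_of_cube hζ hs key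
  have hi : ζ ^ i = 1 := by
    have : ζ ^ (4 * i) = (ζ ^ 3) ^ i * ζ ^ i := by ring
    rw [this, hζ3, one_pow, one_mul] at h4
    exact h4
  rw [hi, mul_one] at hαK
  rcases hs with rfl | rfl
  · refine ⟨a, ?_⟩
    apply RingOfIntegers.ext
    rw [hαK]; simp
  · refine ⟨-a, ?_⟩
    apply RingOfIntegers.ext
    rw [hαK]; simp [Odd.neg_pow (by decide : Odd 3)]

end Three

section Cyclo

variable {p : ℕ} [Fact p.Prime] {K : Type*} [Field K] [NumberField K]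
  [IsCyclotomicExtension {p} ℚ K] {ζ : K}

/-- [P3] the case `p = 3`. -/
theorem eig_isPow_three (hζ : IsPrimitiveRoot ζ p) (h3 : p = 3) (α : 𝓞 K) (hα : α ≠ 0)
    (heig : IsEig p ζ (α : K)) (𝔞 : Ideal (𝓞 K)) (h𝔞 : span {α} = 𝔞 ^ p) :
    ∃ x : 𝓞 K, α = x ^ p := by
  subst h3
  exact Three.main hζ α hα heig 𝔞 h𝔞

end Cyclo

end Fermat.Agent.S14
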