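import Fermat.Agent.S14.CL
import Fermat.Agent.S14.ClassKill
import Fermat.Agent.S14.Three

set_option autoImplicit false

namespace Fermat.Agent.S14

open NumberField Ideal
open scoped Pointwise nonZeroDivisors

variable {p : ℕ} [Fact p.Prime] {K : Type*} [Field K] [NumberField K]
  [IsCyclotomicExtension {p} ℚ K] {ζ : K}

open Glue

/-- [MAT] the main arithmetic theorem. -/
theorem eig_isPow (hζ : IsPrimitiveRoot ζ p) (h3 : 3 ≤ p) (α : 𝓞 K)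
    (heig : IsEig p ζ (α : K)) (𝔞 : Ideal (𝓞 K)) (h𝔞 : span {α} = 𝔞 ^ p)
    (c : ℤ) (hc : piO hζ ^ 3 ∣ α - c) (hπ : ¬ piO hζ ∣ α) :
    ∃ x : 𝓞 K, α = x ^ p := by
  have hα : α ≠ 0 := fun h => hπ (h ▸ dvd_zero _)
  have hpp : p.Prime := Fact.out
  rcases h3.eq_or_lt with h3 | h3
  · exact eig_isPow_three hζ h3.symm α hα heig 𝔞 h𝔞
  have hp5 : 5 ≤ p := by
    rcases (show 4 ≤ p from h3).eq_or_lt with h4 | h4
    · exfalso
      rw [← h4] at hpp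
      exact absurd hpp (by norm_num)
    · exact h4
  obtain ⟨u, x, hux⟩ := exists_unit_mul_pow hζ hp5 (TCl_mem_pow hζ hp5) α hα heig 𝔞 h𝔞
  have hx0 : x ≠ 0 := by
    rintro rfl
    rw [zero_pow hpp.ne_zero, mul_zero] at hux
    exact hα hux
  have hπx : ¬ piO hζ ∣ x := fun h => hπ (hux ▸ Dvd.dvd.mul_left (dvd_pow h hpp.ne_zero) _)
  have hueig : IsEig p ζ ((u : 𝓞 K) : K) := by
    refine IsEig.of_mul_pow (t := (x : K)) (by simpa using hx0) ?_ heig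
    rw [hux]
    push_cast
    rfl
  obtain ⟨m, hm⟩ := exists_int_congr hζ x
  have hpm : ¬ (p : ℤ) ∣ m := by
    intro h
    apply hπx
    have h1 := (piO_dvd_intCast_iff hζ).mpr h
    have := dvd_add hm h1
    simpa using this
  have h3p : piO hζ ^ 3 ∣ piO hζ ^ p := pow_dvd_pow _ (by omega)
  have h3p' : piO hζ ^ 3 ∣ (p : 𝓞 K) := (pow_dvd_pow _ (by omega)).trans (piO_pow_dvd_p hζ)
  have hxm : piO hζ ^ 3 ∣ x ^ p - (m : 𝓞 K) ^ p := h3p.trans (piO_pow_dvd_pow_sub_pow hζ hm)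
  -- inverse of `m ^ p` modulo `p`
  have hcop : IsCoprime (m ^ p) (p : ℤ) := by
    apply IsCoprime.pow_left
    rw [isCoprime_comm]
    exact (Nat.prime_iff_prime_int.mp hpp).coprime_iff_not_dvd.mpr hpm
  obtain ⟨m', b, hmb⟩ := hcop
  have hmb' : (m' : 𝓞 K) * (m : 𝓞 K) ^ p + (b : 𝓞 K) * (p : 𝓞 K) = 1 := by
    have := congrArg (Int.cast : ℤ → 𝓞 K) hmb
    push_cast at this
    exact this
  have hcu : piO hζ ^ 3 ∣ (u : 𝓞 K) - ((c * m' : ℤ) : 𝓞 K) := by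
    have e : (u : 𝓞 K) - ((c * m' : ℤ) : 𝓞 K) =
        (α - c) * m' - (u : 𝓞 K) * m' * (x ^ p - (m : 𝓞 K) ^ p) + (u : 𝓞 K) * b * (p : 𝓞 K) := by
      have : (u : 𝓞 K) = (u : 𝓞 K) * ((m' : 𝓞 K) * (m : 𝓞 K) ^ p + (b : 𝓞 K) * (p : 𝓞 K)) := by
        rw [hmb', mul_one]
      rw [hux]
      push_cast
      linear_combination this
    rw [e]
    exact dvd_add (dvd_sub (Dvd.dvd.mul_right hc _) (Dvd.dvd.mul_left hxm _))
      (Dvd.dvd.mul_left h3p' _)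
  obtain ⟨v, hv⟩ := unit_isPow hζ hp5 u hueig _ hcu
  refine ⟨v * x, ?_⟩
  rw [hux, hv, mul_pow, Units.val_pow_eq_pow_val]

end Fermat.Agent.S14
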