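import Fermat.Agent.S14.Normalise
import Fermat.Agent.S14.MAT
import Fermat.Agent.S14.GalA

set_option autoImplicit false

namespace Fermat.Agent.S14

open NumberField Ideal
open scoped Pointwise nonZeroDivisors

variable {p : ℕ} [Fact p.Prime]

instance instNormalKp : Normal ℚ (Kp p) :=
  haveI : NeZero p := ⟨(Fact.out : p.Prime).ne_zero⟩
  (IsCyclotomicExtension.isGalois {p} ℚ (Kp p)).to_normal

/-- [FIN] -/
theorem KummerDatum.isEig {a : Qbar} (h : KummerDatum p a) (z : Kp p) (hz : z ≠ 0) (α : Kp p)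
    (hα : (α : Qbar) = (a * z) ^ p) : IsEig p (zetaK p) α := by
  intro δ k hk
  -- lift `δ` to `τ`
  obtain ⟨τ, hτ⟩ := AlgEquiv.restrictNormalHom_surjective (F := ℚ) (K₁ := Kp p) Qbar δ
  have hτK : ∀ x : Kp p, τ (x : Qbar) = ((δ x : Kp p) : Qbar) := by
    intro x
    rw [← hτ]
    exact (AlgEquiv.restrictNormal_commutes τ (Kp p) x).symm
  have hτζ : τ (zetaBar p) = zetaBar p ^ k := by
    have := hτK (zetaK p)
    rw [hk] at this
    exact this
  have hκ := h.eig τ k hτζ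
  obtain ⟨κ, hκdef⟩ : ∃ κ : Kp p, (κ : Qbar) = τ a / a ^ (k ^ 2) := ⟨⟨_, hκ⟩, rfl⟩
  have ha := h.ne_zero
  have hz' : (z : Qbar) ≠ 0 := by simpa using hz
  refine ⟨κ * δ z / z ^ (k ^ 2), ?_⟩
  apply Subtype.ext
  rw [← hτK, hα]
  push_cast
  rw [← hτK, hα, map_pow, map_mul]
  have : τ a = a ^ (k ^ 2) * (κ : Qbar) := by
    rw [hκdef]
    field_simp
  rw [this]
  generalize (κ : Qbar) = κ'
  generalize τ (z : Qbar) = z'
  rw [div_pow, mul_div_assoc', eq_div_iff (pow_ne_zero _ (pow_ne_zero _ hz'))]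
  ring

/-- [FIN] -/
theorem KummerDatum.mem_Kp (h3 : 3 ≤ p) {a : Qbar} (h : KummerDatum p a) : a ∈ Kp p := by
  obtain ⟨z, α, 𝔞, c, hz, hα, h𝔞, hc, hπ⟩ := h.exists_normalised h3
  have heig := h.isEig z hz (α : Kp p) hα
  obtain ⟨x, hx⟩ := eig_isPow (zetaK_spec p) h3 α heig 𝔞 h𝔞 c hc hπ
  have hp0 : p ≠ 0 := (Fact.out : p.Prime).ne_zero
  have : NeZero p := ⟨hp0⟩
  have hz' : (z : Qbar) ≠ 0 := by simpa using hz
  have haz : a * (z : Qbar) ≠ 0 := mul_ne_zero h.ne_zero hz'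
  have hx' : (((x : 𝓞 (Kp p)) : Kp p) : Qbar) ^ p = (a * z) ^ p := by
    rw [← hα, hx]
    push_cast
    rfl
  have hx0 : (((x : 𝓞 (Kp p)) : Kp p) : Qbar) ≠ 0 := by
    intro h0
    rw [h0, zero_pow hp0] at hx'
    exact pow_ne_zero p haz hx'.symm
  have h1 : (a * z / (((x : 𝓞 (Kp p)) : Kp p) : Qbar)) ^ p = 1 := by
    rw [div_pow, hx', div_self (pow_ne_zero p haz)]
  obtain ⟨i, -, hi⟩ := (zetaBar_spec p).eq_pow_of_pow_eq_one h1
  have : a = ((zetaK p ^ i * (x : Kp p) / z : Kp p) : Qbar) := by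
    push_cast
    have : ((zetaK p : Kp p) : Qbar) = zetaBar p := rfl
    rw [this, hi]
    field_simp
  rw [this]
  exact Subtype.mem _

/-- [FIN] -/
theorem result' (h3 : 3 ≤ p) : ExtCitation.ExtVanishingCts p := by
  intro V _ _ _ _ C hC
  by_contra hns
  obtain ⟨a, ha, ha'⟩ := exists_kummerDatum h3 V C hC hns
  exact ha' (ha.mem_Kp h3)

end Fermat.Agent.S14
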