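import Fermat.Agent.S14.Defs

/-!
# S14: basic lemmas on `π = ζ - 1`, `IsEig`, `Multiplicative (ZMod p)`
-/

set_option autoImplicit false

namespace Fermat.Agent.S14

open NumberField Ideal
open scoped Pointwise nonZeroDivisors

variable {p : ℕ} [Fact p.Prime] {K : Type*} [Field K] [NumberField K]
  [IsCyclotomicExtension {p} ℚ K] {ζ : K}

namespace Glue

lemma mult_pow_p (x : Multiplicative (ZMod p)) : x ^ p = 1 := by
  apply Multiplicative.toAdd.injective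
  rw [toAdd_pow, toAdd_one]
  simp

lemma dvd_of_mult_pow_eq_one {x : Multiplicative (ZMod p)} (hx : x ≠ 1) {i : ℕ}
    (h : x ^ i = 1) : p ∣ i := by
  have h1 : orderOf x ∣ p := orderOf_dvd_of_pow_eq_one (mult_pow_p x)
  have h2 : orderOf x = p := by
    rcases (Nat.dvd_prime (Fact.out : p.Prime)).mp h1 with h | h
    · exact absurd (orderOf_eq_one_iff.mp h) hx
    · exact h
  rw [← h2]
  exact orderOf_dvd_of_pow_eq_one h

end Glue

open Glue

omit [IsCyclotomicExtension {p} ℚ K] [NumberField K] in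
lemma zU_pow_p (hζ : IsPrimitiveRoot ζ p) : zU hζ ^ p = 1 := by
  apply Units.ext
  rw [Units.val_pow_eq_pow_val, coe_zU, Units.val_one]
  exact hζ.toInteger_isPrimitiveRoot.pow_eq_one

omit [IsCyclotomicExtension {p} ℚ K] in
lemma piO_ne_zero (hζ : IsPrimitiveRoot ζ p) : piO hζ ≠ 0 := by
  intro h
  have h1 : hζ.toInteger = 1 := sub_eq_zero.mp h
  have := hζ.toInteger_isPrimitiveRoot
  rw [h1] at this
  exact (Fact.out : p.Prime).one_lt.ne' (IsPrimitiveRoot.one_left_iff.mp this)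

omit [IsCyclotomicExtension {p} ℚ K] [Fact p.Prime] in
lemma IsEig.of_mul_pow {α β t : K} (ht : t ≠ 0) (h : α = β * t ^ p) (hα : IsEig p ζ α) :
    IsEig p ζ β := by
  intro δ k hk
  obtain ⟨y, hy⟩ := hα δ k hk
  have hδt : δ t ≠ 0 := by simpa using ht
  refine ⟨y * t ^ (k ^ 2) / δ t, ?_⟩
  rw [h, map_mul, map_pow] at hy
  rw [div_pow, mul_pow, mul_div_assoc', eq_div_iff (pow_ne_zero _ hδt), hy]
  ring

namespace Glue

lemma exists_int_congr (hζ : IsPrimitiveRoot ζ p) (x : 𝓞 K) :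
    ∃ n : ℤ, piO hζ ∣ x - (n : 𝓞 K) := by
  let B := hζ.integralPowerBasis
  obtain ⟨c, hx⟩ : ∃ c : Fin B.dim → ℤ, x = ∑ i, c i • hζ.toInteger ^ (i : ℕ) := by
    refine ⟨fun i => B.basis.repr x i, ?_⟩
    conv_lhs => rw [← B.basis.sum_repr x]
    simp [B, PowerBasis.coe_basis]
  refine ⟨∑ i, c i, ?_⟩
  have : x - ((∑ i, c i : ℤ) : 𝓞 K) =
      ∑ i, (c i : 𝓞 K) * (hζ.toInteger ^ (i : ℕ) - 1) := by
    rw [hx]
    push_cast
    rw [← Finset.sum_sub_distrib]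
    refine Finset.sum_congr rfl fun i _ => ?_
    rw [zsmul_eq_mul]; ring
  rw [this]
  exact Finset.dvd_sum fun i _ =>
    Dvd.dvd.mul_left (by simpa [piO] using sub_dvd_pow_sub_pow hζ.toInteger 1 (i : ℕ)) _

omit [IsCyclotomicExtension {p} ℚ K] in
/-- `π ^ p ∣ x ^ p - y ^ p` if `π ∣ x - y`. -/
lemma piO_pow_dvd_pow_sub_pow (hζ : IsPrimitiveRoot ζ p) {x y : 𝓞 K} (h : piO hζ ∣ x - y) :
    piO hζ ^ p ∣ x ^ p - y ^ p := by
  classical
  have hp : 0 < p := (Fact.out : p.Prime).pos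
  rw [hζ.toInteger_isPrimitiveRoot.pow_sub_pow_eq_prod_sub_mul x y hp]
  have hcard : (Polynomial.nthRootsFinset p (1 : 𝓞 K)).card = p :=
    hζ.toInteger_isPrimitiveRoot.card_nthRootsFinset
  have e : piO hζ ^ p = ∏ _μ ∈ Polynomial.nthRootsFinset p (1 : 𝓞 K), piO hζ := by
    rw [Finset.prod_const, hcard]
  rw [e]
  apply Finset.prod_dvd_prod_of_dvd
  intro μ hμ
  rw [Polynomial.mem_nthRootsFinset hp] at hμ
  obtain ⟨i, -, rfl⟩ := hζ.toInteger_isPrimitiveRoot.eq_pow_of_pow_eq_one hμ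
  have : x - hζ.toInteger ^ i * y = (x - y) - (hζ.toInteger ^ i - 1) * y := by ring
  rw [this]
  refine dvd_sub h (Dvd.dvd.mul_right ?_ _)
  simpa [piO] using sub_dvd_pow_sub_pow hζ.toInteger 1 i

omit [NumberField K] [IsCyclotomicExtension {p} ℚ K] in
lemma piO_pow_dvd_p (hζ : IsPrimitiveRoot ζ p) : piO hζ ^ (p - 1) ∣ (p : 𝓞 K) :=
  (IsCyclotomicExtension.Rat.associated_zeta_sub_one_pow_prime p hζ).dvd

lemma piO_prime (hζ : IsPrimitiveRoot ζ p) : Prime (piO hζ) :=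
  hζ.zeta_sub_one_prime'

lemma piO_dvd_intCast_iff (hζ : IsPrimitiveRoot ζ p) {n : ℤ} :
    piO hζ ∣ (n : 𝓞 K) ↔ (p : ℤ) ∣ n :=
  IsCyclotomicExtension.Rat.zeta_sub_one_dvd_intCast_iff' p hζ

end Glue

end Fermat.Agent.S14
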