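import Fermat.Agent.S14.Defs
import Fermat.Agent.S14.Zeta

/-!
# S14, package AN4: existence of a degree one prime outside a thin set and outside a proper
subgroup of the class group (auxiliary form: the boundedness of differences of partial zeta
functions is a hypothesis).
-/

set_option autoImplicit false

namespace Fermat.Agent.S14

open NumberField Ideal Filter Topology
open scoped Pointwise nonZeroDivisors

namespace ExistsPrime

variable (K : Type*) [Field K] [NumberField K]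

/-- `N(I)^{-s}` -/
noncomputable def g (s : ℝ) (I : (Ideal (𝓞 K))⁰) : ℝ := (absNorm (I : Ideal (𝓞 K)) : ℝ) ^ (-s)

lemma g_nonneg (s : ℝ) (I : (Ideal (𝓞 K))⁰) : 0 ≤ g K s I := by unfold g; positivity

lemma g_pos (s : ℝ) (I : (Ideal (𝓞 K))⁰) : 0 < g K s I := by
  unfold g
  have := Zeta.one_le_absNorm' K I
  positivity

lemma summable_g {s : ℝ} (hs : 1 < s) : Summable (g K s) := summable_absNorm_rpow K hs

lemma g_le_one {s : ℝ} (hs : 1 < s) (I : (Ideal (𝓞 K))⁰) : g K s I ≤ 1 :=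
  Real.rpow_le_one_of_one_le_of_nonpos (Zeta.one_le_absNorm' K I) (by linarith)

variable {K}

lemma norm_chi (χ : ClassGroup (𝓞 K) →* ℂˣ) (C : ClassGroup (𝓞 K)) : ‖(χ C : ℂ)‖ = 1 := by
  have h : (χ C : ℂ) ^ Fintype.card (ClassGroup (𝓞 K)) = 1 := by
    rw [← Units.val_pow_eq_pow_val, ← map_pow, pow_card_eq_one, map_one, Units.val_one]
  exact Complex.norm_eq_one_of_pow_eq_one h Fintype.card_ne_zero

/-- `I ↦ χ(I) N(I)^{-s}` -/
noncomputable def tw (χ : ClassGroup (𝓞 K) →* ℂˣ) (s : ℝ) : (Ideal (𝓞 K))⁰ →* ℂ where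
  toFun I := (χ (ClassGroup.mk0 I) : ℂ) * Zeta.nrm K s I
  map_one' := by simp
  map_mul' I J := by
    simp only [map_mul, Units.val_mul]
    ring

lemma tw_apply (χ : ClassGroup (𝓞 K) →* ℂˣ) (s : ℝ) (I : (Ideal (𝓞 K))⁰) :
    tw χ s I = (χ (ClassGroup.mk0 I) : ℂ) * ((g K s I : ℝ) : ℂ) := rfl

lemma norm_tw (χ : ClassGroup (𝓞 K) →* ℂˣ) (s : ℝ) (I : (Ideal (𝓞 K))⁰) :
    ‖tw χ s I‖ = g K s I := by
  rw [tw_apply, norm_mul, norm_chi, one_mul, Complex.norm_real,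
    Real.norm_of_nonneg (g_nonneg K s I)]

lemma summable_norm_tw (χ : ClassGroup (𝓞 K) →* ℂˣ) {s : ℝ} (hs : 1 < s) :
    Summable fun I => ‖tw χ s I‖ :=
  (summable_g K hs).congr fun I => (norm_tw χ s I).symm

lemma summable_tw (χ : ClassGroup (𝓞 K) →* ℂˣ) {s : ℝ} (hs : 1 < s) : Summable (tw χ s) :=
  (summable_norm_tw χ hs).of_norm

open scoped Classical in
/-- partial zeta function -/
noncomputable def pz (s : ℝ) (C : ClassGroup (𝓞 K)) : ℝ :=
  ∑' I : (Ideal (𝓞 K))⁰, if ClassGroup.mk0 I = C then (absNorm (I : Ideal (𝓞 K)) : ℝ) ^ (-s) else 0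

open scoped Classical in
lemma tsum_tw (χ : ClassGroup (𝓞 K) →* ℂˣ) {s : ℝ} (hs : 1 < s) :
    ∑' I, tw χ s I = ∑ C : ClassGroup (𝓞 K), (χ C : ℂ) * ((pz s C : ℝ) : ℂ) := by
  have hsum : ∀ C : ClassGroup (𝓞 K), Summable fun I : (Ideal (𝓞 K))⁰ =>
      (χ C : ℂ) * (((if ClassGroup.mk0 I = C then (absNorm (I : Ideal (𝓞 K)) : ℝ) ^ (-s) else 0 : ℝ)) : ℂ) := by
    intro C
    refine Summable.mul_left _ ?_
    refine Summable.of_norm_bounded (summable_g K hs) fun I => ?_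
    rw [Complex.norm_real]
    split_ifs
    · rw [Real.norm_of_nonneg (by positivity)]; exact le_rfl
    · simpa using g_nonneg K s I
  have h1 : ∀ I : (Ideal (𝓞 K))⁰, tw χ s I = ∑ C : ClassGroup (𝓞 K),
      (χ C : ℂ) * (((if ClassGroup.mk0 I = C then (absNorm (I : Ideal (𝓞 K)) : ℝ) ^ (-s) else 0 : ℝ)) : ℂ) := by
    intro I
    rw [Finset.sum_eq_single (ClassGroup.mk0 I)]
    · simp [tw_apply, g]
    · intro C _ hC
      simp [Ne.symm hC]
    · simp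
  simp_rw [h1]
  rw [Summable.tsum_finsetSum fun C _ => hsum C]
  refine Finset.sum_congr rfl fun C _ => ?_
  rw [tsum_mul_left, pz, Complex.ofReal_tsum]

open scoped Classical in
/-- `L(s, χ)` is bounded on `(1, 2]` for a nontrivial class group character. -/
lemma exists_bound_L
    (hpz : ∀ C C' : ClassGroup (𝓞 K), ∃ B : ℝ, ∀ s : ℝ, 1 < s → s ≤ 2 →
      |(∑' I : (Ideal (𝓞 K))⁰,
          if ClassGroup.mk0 I = C then (absNorm (I : Ideal (𝓞 K)) : ℝ) ^ (-s) else 0) -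
        ∑' I : (Ideal (𝓞 K))⁰,
          if ClassGroup.mk0 I = C' then (absNorm (I : Ideal (𝓞 K)) : ℝ) ^ (-s) else 0| ≤ B)
    (χ : ClassGroup (𝓞 K) →* ℂˣ) (hχ : χ ≠ 1) :
    ∃ B : ℝ, ∀ s : ℝ, 1 < s → s ≤ 2 → ‖∑' I, tw χ s I‖ ≤ B := by
  choose B hB using fun C => hpz C 1
  refine ⟨∑ C, B C, fun s hs hs2 => ?_⟩
  have h0 : ∑ C : ClassGroup (𝓞 K), (χ C : ℂ) = 0 := by
    have := sum_hom_units_eq_zero ((Units.coeHom ℂ).comp χ) (by
      intro h
      apply hχ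
      ext C
      have := DFunLike.congr_fun h C
      simpa using this)
    simpa using this
  have h1 : ∑' I, tw χ s I = ∑ C : ClassGroup (𝓞 K),
      (χ C : ℂ) * (((pz s C - pz s (1 : ClassGroup (𝓞 K)) : ℝ)) : ℂ) := by
    rw [tsum_tw χ hs]
    simp only [Complex.ofReal_sub, mul_sub]
    rw [Finset.sum_sub_distrib, ← Finset.sum_mul, h0, zero_mul, sub_zero]
  rw [h1]
  refine (norm_sum_le _ _).trans (Finset.sum_le_sum fun C _ => ?_)
  rw [norm_mul, norm_chi, one_mul, Complex.norm_real, Real.norm_eq_abs]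
  exact hB C s hs hs2

lemma chi_eq_one_aux (χ : ClassGroup (𝓞 K) →* ℂˣ) (I : Ideal (𝓞 K)) :
    ∀ hI : I ∈ (Ideal (𝓞 K))⁰,
      (∀ P : (Ideal (𝓞 K))⁰, (P : Ideal (𝓞 K)).IsPrime → (P : Ideal (𝓞 K)) ∣ I →
        χ (ClassGroup.mk0 P) = 1) → χ (ClassGroup.mk0 ⟨I, hI⟩) = 1 := by
  induction I using UniqueFactorizationMonoid.induction_on_prime with
  | h₁ => intro hI; exact absurd rfl (nonZeroDivisors.ne_zero hI)
  | h₂ x hx =>
    intro hI _
    have hx1 : x = 1 := by simpa using hx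
    subst hx1
    have : (⟨1, hI⟩ : (Ideal (𝓞 K))⁰) = 1 := rfl
    rw [this, map_one, map_one]
  | h₃ a p ha hp ih =>
    intro hI h
    have hp0 : p ∈ (Ideal (𝓞 K))⁰ := mem_nonZeroDivisors_of_ne_zero hp.ne_zero
    have ha0 : a ∈ (Ideal (𝓞 K))⁰ := mem_nonZeroDivisors_of_ne_zero ha
    have : (⟨p * a, hI⟩ : (Ideal (𝓞 K))⁰) = ⟨p, hp0⟩ * ⟨a, ha0⟩ := rfl
    rw [this, map_mul, map_mul, h ⟨p, hp0⟩ (Ideal.isPrime_of_prime hp) (Dvd.intro a rfl),
      ih ha0 (fun P hP hPa => h P hP (hPa.mul_left p)), one_mul]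

lemma chi_eq_one_of_primes (χ : ClassGroup (𝓞 K) →* ℂˣ) (I : (Ideal (𝓞 K))⁰)
    (h : ∀ P : (Ideal (𝓞 K))⁰, (P : Ideal (𝓞 K)).IsPrime → (P : Ideal (𝓞 K)) ∣ I →
        χ (ClassGroup.mk0 P) = 1) : χ (ClassGroup.mk0 I) = 1 :=
  chi_eq_one_aux χ I.1 I.2 h

open scoped Classical in
/-- the key inequality for fixed `s` -/
lemma exists_finset_lower_bound (χ : ClassGroup (𝓞 K) →* ℂˣ) {s : ℝ} (hs : 1 < s) :
    ∃ F : Finset (Ideal (𝓞 K))⁰,
      (∀ P ∈ F, (P : Ideal (𝓞 K)).IsPrime ∧ χ (ClassGroup.mk0 P) ≠ 1) ∧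
      (1 / 2) * ((∏ P ∈ F, (1 - g K s P)) * zetaR K s) ≤
        (∏ P ∈ F, (1 + g K s P)) * ‖∑' I, tw χ s I‖ := by
  have hg := summable_g K hs
  obtain ⟨T, hT⟩ : ∃ T : Finset (Ideal (𝓞 K))⁰, ∑' I, g K s I - 1 / 4 < ∑ I ∈ T, g K s I :=
    (hg.hasSum.eventually (lt_mem_nhds (by linarith))).exists
  set X : ℕ := T.sup (fun I => absNorm (I : Ideal (𝓞 K))) with hX
  set F : Finset (Ideal (𝓞 K))⁰ := (Ideal.finite_setOfPred_absNorm_le₀ (S := 𝓞 K) X).toFinset.filter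
    (fun P => (P : Ideal (𝓞 K)).IsPrime ∧ χ (ClassGroup.mk0 P) ≠ 1) with hF
  have hFmem : ∀ P : (Ideal (𝓞 K))⁰, P ∈ F ↔ absNorm (P : Ideal (𝓞 K)) ≤ X ∧
      (P : Ideal (𝓞 K)).IsPrime ∧ χ (ClassGroup.mk0 P) ≠ 1 := by
    intro P
    simp [hF]
  have hFprime : ∀ P ∈ F, (P : Ideal (𝓞 K)).IsPrime := fun P hP => ((hFmem P).mp hP).2.1
  refine ⟨F, fun P hP => ((hFmem P).mp hP).2, ?_⟩
  have hsχ := sieve K (tw χ s) (summable_norm_tw χ hs) F hFprime
  have hs1 := Zeta.sieve_real K hs F hFprime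
  set cop : (Ideal (𝓞 K))⁰ → Prop := fun I => ∀ P ∈ F, ¬ (P : Ideal (𝓞 K)) ∣ I with hcop
  set Aχ : ℂ := ∑' I : (Ideal (𝓞 K))⁰, if cop I then tw χ s I else 0 with hAχ
  set A1 : ℝ := ∑' I : (Ideal (𝓞 K))⁰, if cop I then (absNorm (I : Ideal (𝓞 K)) : ℝ) ^ (-s) else 0
    with hA1
  have hsumχ : Summable fun I : (Ideal (𝓞 K))⁰ => if cop I then tw χ s I else 0 := by
    refine Summable.of_norm_bounded hg fun I => ?_
    split_ifs
    · exact (norm_tw χ s I).le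
    · simpa using g_nonneg K s I
  have hsum1 : Summable fun I : (Ideal (𝓞 K))⁰ =>
      if cop I then (absNorm (I : Ideal (𝓞 K)) : ℝ) ^ (-s) else 0 := by
    refine Summable.of_norm_bounded hg fun I => ?_
    split_ifs
    · rw [Real.norm_of_nonneg (by positivity)]; exact le_rfl
    · simpa using g_nonneg K s I
  -- `A1 ≥ 1`
  have hA1ge : 1 ≤ A1 := by
    have h := hsum1.le_tsum (1 : (Ideal (𝓞 K))⁰) (fun I _ => by split_ifs <;> positivity)
    have hc1 : cop 1 := by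
      intro P hP hdvd
      have hPp := hFprime P hP
      apply hPp.ne_top
      have : (P : Ideal (𝓞 K)) ∣ 1 := by simpa using hdvd
      simpa using isUnit_of_dvd_one this
    simpa [hc1] using h
  -- the difference
  have hdiff : ‖Aχ - (A1 : ℂ)‖ ≤ 2 * (∑' I, g K s I - ∑ I ∈ T, g K s I) := by
    have he : HasSum (fun I : (Ideal (𝓞 K))⁰ => 2 * (g K s I - if I ∈ T then g K s I else 0))
        (2 * (∑' I, g K s I - ∑ I ∈ T, g K s I)) := by
      refine (hg.hasSum.sub ?_).mul_left 2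
      have : HasSum (fun I : (Ideal (𝓞 K))⁰ => if I ∈ T then g K s I else 0)
          (∑ I ∈ T, if I ∈ T then g K s I else 0) :=
        hasSum_sum_of_ne_finset_zero (fun I hI => by simp [hI])
      have h2 : ∑ I ∈ T, (if I ∈ T then g K s I else 0) = ∑ I ∈ T, g K s I :=
        Finset.sum_congr rfl fun I hI => by simp [hI]
      rw [h2] at this
      exact this
    have hAd : Aχ - (A1 : ℂ) = ∑' I : (Ideal (𝓞 K))⁰, ((if cop I then tw χ s I else 0) -
        (((if cop I then (absNorm (I : Ideal (𝓞 K)) : ℝ) ^ (-s) else 0 : ℝ)) : ℂ)) := by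
      rw [hAχ, hA1, Complex.ofReal_tsum, ← Summable.tsum_sub hsumχ]
      exact Complex.ofRealCLM.summable hsum1
    rw [hAd]
    refine tsum_of_norm_bounded he fun I => ?_
    by_cases hc : cop I
    · simp only [hc, if_true]
      by_cases hIT : I ∈ T
      · -- then `χ I = 1`
        have hχI : χ (ClassGroup.mk0 I) = 1 := by
          refine chi_eq_one_of_primes χ I fun P hP hPI => ?_
          by_contra hne
          refine hc P ((hFmem P).mpr ⟨?_, hP, hne⟩) hPI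
          have h1 : absNorm (P : Ideal (𝓞 K)) ∣ absNorm (I : Ideal (𝓞 K)) :=
            map_dvd absNorm hPI
          have h2 : absNorm (P : Ideal (𝓞 K)) ≤ absNorm (I : Ideal (𝓞 K)) :=
            Nat.le_of_dvd (Zeta.one_le_absNorm K I) h1
          exact h2.trans (Finset.le_sup (f := fun I : (Ideal (𝓞 K))⁰ => absNorm (I : Ideal (𝓞 K))) hIT)
        simp [tw_apply, hχI, g, hIT]
      · simp only [hIT, if_false, sub_zero]
        calc ‖tw χ s I - (((absNorm (I : Ideal (𝓞 K)) : ℝ) ^ (-s) : ℝ) : ℂ)‖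
            ≤ ‖tw χ s I‖ + ‖(((absNorm (I : Ideal (𝓞 K)) : ℝ) ^ (-s) : ℝ) : ℂ)‖ := norm_sub_le _ _
          _ = 2 * g K s I := by
              rw [norm_tw, Complex.norm_real, Real.norm_of_nonneg (by positivity), g]; ring
    · simp only [hc, if_false, Complex.ofReal_zero, sub_zero, norm_zero]
      have := g_nonneg K s I
      split_ifs <;> simp [this]
  have hAχge : A1 / 2 ≤ ‖Aχ‖ := by
    have h1 : ‖(A1 : ℂ)‖ = A1 := by
      rw [Complex.norm_real, Real.norm_of_nonneg (by linarith)]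
    have h2 : ‖(A1 : ℂ)‖ - ‖Aχ‖ ≤ ‖Aχ - (A1 : ℂ)‖ := by
      rw [norm_sub_rev]; exact norm_sub_norm_le _ _
    linarith
  have hprod : ‖∏ P ∈ F, (1 - tw χ s P)‖ ≤ ∏ P ∈ F, (1 + g K s P) := by
    rw [norm_prod]
    refine Finset.prod_le_prod (fun _ _ => norm_nonneg _) fun P _ => ?_
    calc ‖1 - tw χ s P‖ ≤ ‖(1 : ℂ)‖ + ‖tw χ s P‖ := norm_sub_le _ _
      _ = 1 + g K s P := by rw [norm_one, norm_tw]
  calc (1 / 2) * ((∏ P ∈ F, (1 - g K s P)) * zetaR K s) = A1 / 2 := by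
        have : (∏ P ∈ F, (1 - g K s P)) * zetaR K s = A1 := hs1
        rw [this]; ring
    _ ≤ ‖Aχ‖ := hAχge
    _ = ‖∏ P ∈ F, (1 - tw χ s P)‖ * ‖∑' I, tw χ s I‖ := by rw [← hsχ, norm_mul]
    _ ≤ (∏ P ∈ F, (1 + g K s P)) * ‖∑' I, tw χ s I‖ :=
        mul_le_mul_of_nonneg_right hprod (norm_nonneg _)

lemma exp_mul_le {x : ℝ} (h0 : 0 ≤ x) (h1 : x ≤ 1 / 2) :
    Real.exp (-3 * x) * (1 + x) ≤ 1 - x := by
  have hq := Real.quadratic_le_exp_of_nonneg (x := 3 * x) (by positivity)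
  have hpos := Real.exp_pos (3 * x)
  have h2 : 1 + x ≤ (1 - x) * Real.exp (3 * x) := by
    have h3 : (1 - x) * (1 + 3 * x + (3 * x) ^ 2 / 2) ≤ (1 - x) * Real.exp (3 * x) :=
      mul_le_mul_of_nonneg_left hq (by linarith)
    have h4 : 0 ≤ x * (1 + 3 / 2 * x - 9 / 2 * x ^ 2) := by
      apply mul_nonneg h0
      nlinarith
    nlinarith
  have h5 : Real.exp (-3 * x) = (Real.exp (3 * x))⁻¹ := by
    rw [← Real.exp_neg]; congr 1; ring
  rw [h5, inv_mul_le_iff₀ hpos]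
  linarith

lemma g_le_half {s : ℝ} (hs : 1 < s) (P : (Ideal (𝓞 K))⁰) (hP : (P : Ideal (𝓞 K)).IsPrime) :
    g K s P ≤ 1 / 2 := by
  have h2 : 2 ≤ absNorm (P : Ideal (𝓞 K)) := by
    have h1 := Zeta.one_le_absNorm K P
    have hne : absNorm (P : Ideal (𝓞 K)) ≠ 1 := by
      rw [Ne, Ideal.absNorm_eq_one_iff]; exact hP.ne_top
    omega
  have h2' : (2 : ℝ) ≤ absNorm (P : Ideal (𝓞 K)) := by exact_mod_cast h2
  unfold g
  calc (absNorm (P : Ideal (𝓞 K)) : ℝ) ^ (-s) ≤ (2 : ℝ) ^ (-s) :=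
        Real.rpow_le_rpow_of_nonpos (by norm_num) h2' (by linarith)
    _ ≤ (2 : ℝ) ^ (-1 : ℝ) := Real.rpow_le_rpow_of_exponent_le (by norm_num) (by linarith)
    _ = 1 / 2 := by rw [Real.rpow_neg_one]; norm_num

/-- lower bound for `|L(s, χ)|` -/
lemma exists_finset_lower_bound' (χ : ClassGroup (𝓞 K) →* ℂˣ) {s : ℝ} (hs : 1 < s) :
    ∃ F : Finset (Ideal (𝓞 K))⁰,
      (∀ P ∈ F, (P : Ideal (𝓞 K)).IsPrime ∧ χ (ClassGroup.mk0 P) ≠ 1) ∧
      (1 / 2) * (Real.exp (-3 * ∑ P ∈ F, g K s P) * zetaR K s) ≤ ‖∑' I, tw χ s I‖ := by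
  obtain ⟨F, hF, h⟩ := exists_finset_lower_bound χ hs
  refine ⟨F, hF, ?_⟩
  have hpos : 0 < ∏ P ∈ F, (1 + g K s P) :=
    Finset.prod_pos fun P _ => by have := g_nonneg K s P; linarith
  have hζ : 0 ≤ zetaR K s := by have := Zeta.one_le_zetaR K hs; linarith
  have h1 : Real.exp (-3 * ∑ P ∈ F, g K s P) * ∏ P ∈ F, (1 + g K s P) ≤ ∏ P ∈ F, (1 - g K s P) := by
    rw [Finset.mul_sum, Real.exp_sum, ← Finset.prod_mul_distrib]
    refine Finset.prod_le_prod (fun P _ => ?_) fun P hP => ?_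
    · have := g_nonneg K s P
      positivity
    · exact exp_mul_le (g_nonneg K s P) (g_le_half hs P (hF P hP).1)
  have h2 : (∏ P ∈ F, (1 + g K s P)) * ((1 / 2) * (Real.exp (-3 * ∑ P ∈ F, g K s P) * zetaR K s)) ≤
      (∏ P ∈ F, (1 + g K s P)) * ‖∑' I, tw χ s I‖ := by
    refine le_trans ?_ h
    have := mul_le_mul_of_nonneg_right h1 hζ
    nlinarith
  exact le_of_mul_le_mul_left h2 hpos

open scoped Classical in
/-- [AN4], with [AN1] as a hypothesis. -/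
theorem exists_prime_notMem_of
    (hpz : ∀ C C' : ClassGroup (𝓞 K), ∃ B : ℝ, ∀ s : ℝ, 1 < s → s ≤ 2 →
      |(∑' I : (Ideal (𝓞 K))⁰,
          if ClassGroup.mk0 I = C then (absNorm (I : Ideal (𝓞 K)) : ℝ) ^ (-s) else 0) -
        ∑' I : (Ideal (𝓞 K))⁰,
          if ClassGroup.mk0 I = C' then (absNorm (I : Ideal (𝓞 K)) : ℝ) ^ (-s) else 0| ≤ B)
    (H : Subgroup (ClassGroup (𝓞 K))) (hH : H ≠ ⊤)
    (S : Set (Ideal (𝓞 K))) (t C : ℝ) (ht : t < 1 / 3)
    (hS : ∀ F : Finset (Ideal (𝓞 K)), (∀ P ∈ F, P ∈ S ∧ P.IsPrime ∧ P ≠ ⊥) →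
      ∀ s : ℝ, 1 < s → s ≤ 2 →
        ∑ P ∈ F, (absNorm P : ℝ) ^ (-s) ≤ t * Real.log (1 / (s - 1)) + C)
    (m : ℕ) (hm : m ≠ 0) :
    ∃ (P : Ideal (𝓞 K)) (hP : P ≠ ⊥), P.IsPrime ∧ (absNorm P).Prime ∧ ¬ absNorm P ∣ m ∧
      P ∉ S ∧ cls P hP ∉ H := by
  by_contra hcon
  push Not at hcon
  -- the character
  obtain ⟨a, ha⟩ : ∃ a : ClassGroup (𝓞 K), a ∉ H := by
    by_contra h
    push Not at h
    exact hH (eq_top_iff.mpr fun x _ => h x)
  have ha' : (a : ClassGroup (𝓞 K) ⧸ H) ≠ 1 := by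
    rw [Ne, QuotientGroup.eq_one_iff]; exact ha
  obtain ⟨φ, hφ⟩ := CommGroup.exists_apply_ne_one_of_hasEnoughRootsOfUnity
    (ClassGroup (𝓞 K) ⧸ H) ℂ ha'
  set χ : ClassGroup (𝓞 K) →* ℂˣ := φ.comp (QuotientGroup.mk' H) with hχdef
  have hχ1 : χ ≠ 1 := by
    intro h
    apply hφ
    have := DFunLike.congr_fun h a
    simpa [hχdef] using this
  have hχH : ∀ c ∈ H, χ c = 1 := by
    intro c hc
    have : (c : ClassGroup (𝓞 K) ⧸ H) = 1 := (QuotientGroup.eq_one_iff c).mpr hc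
    simp [hχdef, this]
  obtain ⟨B, hB⟩ := exists_bound_L hpz χ hχ1
  obtain ⟨c, C0, hc, hζ⟩ := zetaR_bounds K
  obtain ⟨C2, hC2⟩ := sum_primes_not_degree_one_le K
  -- bound for sums over bad primes
  set G : Finset (Ideal (𝓞 K)) := (Ideal.finite_setOfPred_absNorm_le (S := 𝓞 K) m).toFinset with hG
  have hsumF : ∀ F : Finset (Ideal (𝓞 K))⁰,
      (∀ P ∈ F, (P : Ideal (𝓞 K)).IsPrime ∧ χ (ClassGroup.mk0 P) ≠ 1) → ∀ s : ℝ, 1 < s → s ≤ 2 →
      ∑ P ∈ F, g K s P ≤ t * Real.log (1 / (s - 1)) + (C + C2 + G.card) := by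
    intro F hF s hs hs2
    set F' : Finset (Ideal (𝓞 K)) := F.map ⟨Subtype.val, Subtype.val_injective⟩ with hF'
    have hmem : ∀ P ∈ F', P.IsPrime ∧ P ≠ ⊥ ∧ (P ∈ S ∨ ¬ (absNorm P).Prime ∨ absNorm P ∣ m) := by
      intro P hP
      obtain ⟨Q, hQ, rfl⟩ := Finset.mem_map.mp hP
      have hQ0 : (Q : Ideal (𝓞 K)) ≠ ⊥ := nonZeroDivisors.coe_ne_zero Q
      refine ⟨(hF Q hQ).1, hQ0, ?_⟩
      by_contra hno
      push Not at hno
      have := hcon Q hQ0 (hF Q hQ).1 hno.2.1 hno.2.2 hno.1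
      exact (hF Q hQ).2 (hχH _ this)
    have e1 : ∑ P ∈ F, g K s P = ∑ P ∈ F', (absNorm P : ℝ) ^ (-s) := by
      rw [hF', Finset.sum_map]; rfl
    have hnn : ∀ P : Ideal (𝓞 K), 0 ≤ (absNorm P : ℝ) ^ (-s) := fun P => by positivity
    have b1 : ∑ P ∈ F'.filter (· ∈ S), (absNorm P : ℝ) ^ (-s) ≤ t * Real.log (1 / (s - 1)) + C :=
      hS _ (fun P hP => by
        obtain ⟨h1, h2⟩ := Finset.mem_filter.mp hP
        exact ⟨h2, (hmem P h1).1, (hmem P h1).2.1⟩) s hs hs2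
    have b2 : ∑ P ∈ F'.filter (fun P => ¬ (absNorm P).Prime), (absNorm P : ℝ) ^ (-s) ≤ C2 :=
      hC2 _ (fun P hP => by
        obtain ⟨h1, h2⟩ := Finset.mem_filter.mp hP
        exact ⟨(hmem P h1).1, (hmem P h1).2.1, h2⟩) s hs
    have b3 : ∑ P ∈ F'.filter (fun P => absNorm P ∣ m), (absNorm P : ℝ) ^ (-s) ≤ G.card := by
      calc ∑ P ∈ F'.filter (fun P => absNorm P ∣ m), (absNorm P : ℝ) ^ (-s)
          ≤ ∑ P ∈ F'.filter (fun P => absNorm P ∣ m), (1 : ℝ) := by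
            refine Finset.sum_le_sum fun P hP => ?_
            obtain ⟨h1, h2⟩ := Finset.mem_filter.mp hP
            have h3 : 1 ≤ absNorm P := Nat.pos_of_dvd_of_pos h2 (Nat.pos_of_ne_zero hm)
            exact Real.rpow_le_one_of_one_le_of_nonpos (by exact_mod_cast h3) (by linarith)
        _ = ((F'.filter (fun P => absNorm P ∣ m)).card : ℝ) := by simp
        _ ≤ G.card := by
            have : F'.filter (fun P => absNorm P ∣ m) ⊆ G := by
              intro P hP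
              obtain ⟨h1, h2⟩ := Finset.mem_filter.mp hP
              simp only [hG, Set.Finite.mem_toFinset, Set.mem_ofPred_eq]
              exact Nat.le_of_dvd (Nat.pos_of_ne_zero hm) h2
            exact_mod_cast Finset.card_le_card this
    have b0 : ∑ P ∈ F', (absNorm P : ℝ) ^ (-s) ≤
        ∑ P ∈ F'.filter (· ∈ S), (absNorm P : ℝ) ^ (-s) +
        ∑ P ∈ F'.filter (fun P => ¬ (absNorm P).Prime), (absNorm P : ℝ) ^ (-s) +
        ∑ P ∈ F'.filter (fun P => absNorm P ∣ m), (absNorm P : ℝ) ^ (-s) := by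
      rw [Finset.sum_filter, Finset.sum_filter, Finset.sum_filter, ← Finset.sum_add_distrib,
        ← Finset.sum_add_distrib]
      refine Finset.sum_le_sum fun P hP => ?_
      have h0 := hnn P
      rcases (hmem P hP).2.2 with h | h | h
      · rw [if_pos h]; split_ifs <;> linarith
      · rw [if_pos h]; split_ifs <;> linarith
      · rw [if_pos h]; split_ifs <;> linarith
    rw [e1]
    linarith
  set C' : ℝ := C + C2 + G.card with hC'
  -- the inequality for all `u ∈ (0, 1]`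
  have hmain : ∀ u : ℝ, 0 < u → u ≤ 1 → u ^ (3 * t - 1) ≤ 2 * B * Real.exp (3 * C') / c := by
    intro u hu hu1
    have hs : 1 < 1 + u := by linarith
    have hs2 : 1 + u ≤ 2 := by linarith
    obtain ⟨F, hF, hlow⟩ := exists_finset_lower_bound' χ hs
    have h1 := hsumF F hF (1 + u) hs hs2
    have h2 := (hζ (1 + u) hs hs2).1
    have h3 := hB (1 + u) hs hs2
    rw [add_sub_cancel_left] at h1 h2
    have h4 : Real.exp (-3 * (t * Real.log (1 / u) + C')) ≤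
        Real.exp (-3 * ∑ P ∈ F, g K (1 + u) P) := Real.exp_le_exp.mpr (by linarith)
    have h5 : Real.exp (-3 * (t * Real.log (1 / u) + C')) = u ^ (3 * t) * Real.exp (-(3 * C')) := by
      rw [Real.rpow_def_of_pos hu, ← Real.exp_add, one_div, Real.log_inv]
      congr 1; ring
    have h6 : u ^ (3 * t - 1) = u ^ (3 * t) / u := Real.rpow_sub_one hu.ne' _
    have h7 : (1 / 2) * (u ^ (3 * t) * Real.exp (-(3 * C')) * (c / u)) ≤ B := by
      refine le_trans ?_ (hlow.trans h3)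
      rw [← h5]
      have : 0 ≤ c / u := by positivity
      gcongr
    have hE : Real.exp (-(3 * C')) = (Real.exp (3 * C'))⁻¹ := Real.exp_neg _
    have hEpos := Real.exp_pos (3 * C')
    rw [h6, le_div_iff₀ hc]
    rw [hE] at h7
    have h8 : (1 / 2) * (u ^ (3 * t) * (Real.exp (3 * C'))⁻¹ * (c / u)) =
        (u ^ (3 * t) / u * c) / (2 * Real.exp (3 * C')) := by
      field_simp
    rw [h8, div_le_iff₀ (by positivity)] at h7
    linarith
  have hlim := tendsto_rpow_neg_nhdsGT_zero (y := 3 * t - 1) (by linarith)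
  obtain ⟨u, hu1, hu2⟩ := ((hlim.eventually_gt_atTop (2 * B * Real.exp (3 * C') / c)).and
    (Ioc_mem_nhdsGT (zero_lt_one' ℝ))).exists
  exact absurd (hmain u hu2.1 hu2.2) (not_le.mpr hu1)

end ExistsPrime

end Fermat.Agent.S14
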