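import Fermat.Agent.S14.PartialZetaDefs

/-!
# S14 / AN1b : unfolding the partial zeta function as a weighted lattice sum
-/

set_option autoImplicit false

namespace Fermat.Agent.S14.PZ

open NumberField Ideal
open scoped nonZeroDivisors

variable {K : Type*} [Field K] [NumberField K]

namespace Unfold

lemma abs_norm_eq (r : 𝓞 K) :
    |(Algebra.norm ℚ (r : K) : ℝ)| = (absNorm (span {r}) : ℝ) := by
  rw [Ideal.absNorm_span_singleton, ← Algebra.coe_norm_int r, Nat.cast_natAbs]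
  push_cast
  rfl

lemma hfun_zero' (W : K → ℝ) {s : ℝ} (hs : 0 < s) : hfun W s 0 = 0 := by
  unfold hfun
  rw [Algebra.norm_zero, Rat.cast_zero, abs_zero, Real.zero_rpow (neg_ne_zero.2 hs.ne'), mul_zero]

omit [NumberField K] in
lemma coe0 : ((0 : 𝓞 K) : K) = 0 := map_zero (algebraMap (𝓞 K) K)

omit [NumberField K] in
lemma coe_mul' (x y : 𝓞 K) : ((x * y : 𝓞 K) : K) = (x : K) * (y : K) :=
  map_mul (algebraMap (𝓞 K) K) x y

end Unfold

open Unfold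

open scoped Classical in
/-- [AN1b] -/
theorem hasSum_hfun {W : K → ℝ} {κ : ℝ} (hW : IsWeight K W κ) (J : (Ideal (𝓞 K))⁰)
    (C : ClassGroup (𝓞 K)) (hJ : ClassGroup.mk0 J = C⁻¹) {s : ℝ} (hs : 1 < s)
    (hsum : Summable fun I : (Ideal (𝓞 K))⁰ => (absNorm (I : Ideal (𝓞 K)) : ℝ) ^ (-s)) :
    HasSum (fun x : (J : Ideal (𝓞 K)) => hfun W s (((x : 𝓞 K)) : K))
      (κ * (absNorm (J : Ideal (𝓞 K)) : ℝ) ^ (-s) *
        ∑' I : (Ideal (𝓞 K))⁰,
          if ClassGroup.mk0 I = C then (absNorm (I : Ideal (𝓞 K)) : ℝ) ^ (-s) else 0) := by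
  have hJ0 : (J : Ideal (𝓞 K)) ≠ 0 := nonZeroDivisors.coe_ne_zero J
  -- generators
  have hprin : ∀ I : {I : (Ideal (𝓞 K))⁰ // ClassGroup.mk0 I = C},
      ∃ x : 𝓞 K, span {x} = (J : Ideal (𝓞 K)) * (I.1 : Ideal (𝓞 K)) := by
    intro I
    have h1 : ClassGroup.mk0 (J * I.1) = 1 := by rw [map_mul, hJ, I.2, inv_mul_cancel]
    have h2 := (ClassGroup.mk0_eq_one_iff (J * I.1).2).1 h1
    exact ⟨h2.generator, by rw [Ideal.span_singleton_generator]; rfl⟩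
  choose xI hxI using hprin
  have hxI0 : ∀ I, xI I ≠ 0 := by
    intro I h
    have := hxI I
    rw [h, Ideal.span_singleton_zero] at this
    exact mul_ne_zero hJ0 (nonZeroDivisors.coe_ne_zero I.1) this.symm
  have hxIJ : ∀ I, xI I ∈ (J : Ideal (𝓞 K)) := by
    intro I
    have : xI I ∈ span {xI I} := Ideal.mem_span_singleton_self _
    rw [hxI] at this
    exact (Ideal.mul_le_left (I := (J : Ideal (𝓞 K))) (J := (I.1 : Ideal (𝓞 K)))) this
  -- the parametrisation of `J ∖ 0`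
  let g : {I : (Ideal (𝓞 K))⁰ // ClassGroup.mk0 I = C} × (𝓞 K)ˣ → (J : Ideal (𝓞 K)) :=
    fun p => ⟨(p.2 : 𝓞 K) * xI p.1, (J : Ideal (𝓞 K)).mul_mem_left _ (hxIJ p.1)⟩
  have hspan : ∀ p, span {((g p : (J : Ideal (𝓞 K))) : 𝓞 K)} =
      (J : Ideal (𝓞 K)) * (p.1.1 : Ideal (𝓞 K)) := by
    intro p
    rw [← hxI]
    exact Ideal.span_singleton_mul_left_unit p.2.isUnit _
  have hginj : Function.Injective g := by
    intro p q hpq
    have h1 : (J : Ideal (𝓞 K)) * (p.1.1 : Ideal (𝓞 K)) = J * (q.1.1 : Ideal (𝓞 K)) := by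
      rw [← hspan, ← hspan, hpq]
    have h2 : p.1 = q.1 := Subtype.ext (Subtype.ext (mul_left_cancel₀ hJ0 h1))
    have h3 : (p.2 : 𝓞 K) * xI p.1 = (q.2 : 𝓞 K) * xI q.1 := congrArg Subtype.val hpq
    rw [← h2] at h3
    exact Prod.ext h2 (Units.ext (mul_right_cancel₀ (hxI0 _) h3))
  have hrange : ∀ x : (J : Ideal (𝓞 K)), x ∉ Set.range g → hfun W s (((x : 𝓞 K)) : K) = 0 := by
    intro x hx
    by_cases hx0 : (x : 𝓞 K) = 0
    · rw [hx0, coe0]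
      exact hfun_zero' W (by linarith)
    exfalso
    apply hx
    obtain ⟨I, hI⟩ : (J : Ideal (𝓞 K)) ∣ span {(x : 𝓞 K)} := Ideal.dvd_span_singleton.2 x.2
    have hI0 : I ≠ 0 := by
      rintro rfl
      rw [mul_zero] at hI
      exact hx0 (Ideal.span_singleton_eq_bot.1 hI)
    let I' : (Ideal (𝓞 K))⁰ := ⟨I, mem_nonZeroDivisors_iff_ne_zero.2 hI0⟩
    have hcl : ClassGroup.mk0 I' = C := by
      have h1 : ClassGroup.mk0 (J * I') = 1 := by
        rw [ClassGroup.mk0_eq_one_iff (J * I').2]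
        exact ⟨⟨(x : 𝓞 K), hI.symm⟩⟩
      rw [map_mul, hJ, inv_mul_eq_one] at h1
      exact h1.symm
    have h2 : span {xI ⟨I', hcl⟩} = span {(x : 𝓞 K)} := by rw [hxI, hI]
    obtain ⟨u, hu⟩ := Ideal.span_singleton_eq_span_singleton.1 h2
    exact ⟨(⟨I', hcl⟩, u), Subtype.ext (by rw [← hu, mul_comm])⟩
  rw [← hginj.hasSum_iff hrange]
  obtain ⟨nJ, hnJ⟩ : ∃ nJ : ℝ, nJ = (absNorm (J : Ideal (𝓞 K)) : ℝ) := ⟨_, rfl⟩
  have hnJ0 : 0 ≤ nJ := hnJ ▸ Nat.cast_nonneg _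
  rw [← hnJ]
  have hF : ∀ p, ((fun x : (J : Ideal (𝓞 K)) => hfun W s (((x : 𝓞 K)) : K)) ∘ g) p =
      W (((p.2 : 𝓞 K) : K) * (xI p.1 : K)) *
        (nJ ^ (-s) * (absNorm (p.1.1 : Ideal (𝓞 K)) : ℝ) ^ (-s)) := by
    intro p
    simp only [Function.comp_apply]
    unfold hfun
    rw [abs_norm_eq, hspan, map_mul, Nat.cast_mul, ← hnJ,
      Real.mul_rpow hnJ0 (Nat.cast_nonneg _)]
    congr 1
  have hxIK : ∀ I, (xI I : K) ≠ 0 := by
    intro I h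
    exact hxI0 I (RingOfIntegers.ext (by rw [h, coe0]))
  have hfib : ∀ I : {I : (Ideal (𝓞 K))⁰ // ClassGroup.mk0 I = C},
      HasSum (fun u : (𝓞 K)ˣ =>
        ((fun x : (J : Ideal (𝓞 K)) => hfun W s (((x : 𝓞 K)) : K)) ∘ g) (I, u))
        (κ * (nJ ^ (-s) * (absNorm (I.1 : Ideal (𝓞 K)) : ℝ) ^ (-s))) := by
    intro I
    simp only [hF]
    exact (hW.hasSum_units _ (hxIK I)).mul_right _
  have hT : HasSum (fun I : {I : (Ideal (𝓞 K))⁰ // ClassGroup.mk0 I = C} =>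
      (absNorm (I.1 : Ideal (𝓞 K)) : ℝ) ^ (-s))
      (∑' I : (Ideal (𝓞 K))⁰,
          if ClassGroup.mk0 I = C then (absNorm (I : Ideal (𝓞 K)) : ℝ) ^ (-s) else 0) := by
    have h1 := (hsum.indicator {I : (Ideal (𝓞 K))⁰ | ClassGroup.mk0 I = C}).hasSum
    have h2 := (hasSum_subtype_iff_indicator
      (f := fun I : (Ideal (𝓞 K))⁰ => (absNorm (I : Ideal (𝓞 K)) : ℝ) ^ (-s))
      (s := {I : (Ideal (𝓞 K))⁰ | ClassGroup.mk0 I = C})).2 h1
    have e : (fun I : (Ideal (𝓞 K))⁰ =>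
        if ClassGroup.mk0 I = C then (absNorm (I : Ideal (𝓞 K)) : ℝ) ^ (-s) else 0) =
        {I : (Ideal (𝓞 K))⁰ | ClassGroup.mk0 I = C}.indicator
          (fun I : (Ideal (𝓞 K))⁰ => (absNorm (I : Ideal (𝓞 K)) : ℝ) ^ (-s)) := by
      funext I
      simp [Set.indicator_apply]
    rw [e]
    exact h2
  have hT' : HasSum (fun I : {I : (Ideal (𝓞 K))⁰ // ClassGroup.mk0 I = C} =>
      κ * (nJ ^ (-s) * (absNorm (I.1 : Ideal (𝓞 K)) : ℝ) ^ (-s)))
      (κ * nJ ^ (-s) * ∑' I : (Ideal (𝓞 K))⁰,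
          if ClassGroup.mk0 I = C then (absNorm (I : Ideal (𝓞 K)) : ℝ) ^ (-s) else 0) := by
    have := hT.mul_left (κ * nJ ^ (-s))
    simpa only [mul_assoc] using this
  have hnonneg : ∀ p, 0 ≤ ((fun x : (J : Ideal (𝓞 K)) => hfun W s (((x : 𝓞 K)) : K)) ∘ g) p := by
    intro p
    exact mul_nonneg (hW.nonneg _) (Real.rpow_nonneg (abs_nonneg _) _)
  have hsummable : Summable ((fun x : (J : Ideal (𝓞 K)) => hfun W s (((x : 𝓞 K)) : K)) ∘ g) := by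
    rw [summable_prod_of_nonneg hnonneg]
    refine ⟨fun I => (hfib I).summable, ?_⟩
    refine hT'.summable.congr fun I => ?_
    exact (hfib I).tsum_eq.symm
  have h3 := hsummable.hasSum.prod_fiberwise hfib
  rw [← h3.unique hT']
  exact hsummable.hasSum

end Fermat.Agent.S14.PZ
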