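import Fermat.Agent.S14.PartialZetaDefs

/-!
# S14 / AN1a : existence of a weight function (tent partition of unity on the unit lattice)
-/

set_option autoImplicit false

namespace Fermat.Agent.S14.PZ

open NumberField Ideal NumberField.Units NumberField.Units.dirichletUnitTheorem
  NumberField.InfinitePlace Module
open scoped nonZeroDivisors

/-! ### the tent function -/

/-- the tent function -/
noncomputable def tent (t : ℝ) : ℝ := max 0 (1 - |t|)

lemma tent_nonneg (t : ℝ) : 0 ≤ tent t := le_max_left _ _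

lemma tent_le_one (t : ℝ) : tent t ≤ 1 := max_le zero_le_one (by linarith [abs_nonneg t])

lemma tent_eq_zero {t : ℝ} (h : 1 ≤ |t|) : tent t = 0 := max_eq_left (by linarith)

lemma abs_lt_one_of_tent_ne_zero {t : ℝ} (h : tent t ≠ 0) : |t| < 1 := by
  by_contra hcon
  exact h (tent_eq_zero (not_lt.mp hcon))

lemma tent_lip (s t : ℝ) : |tent s - tent t| ≤ |s - t| := by
  unfold tent
  rw [max_comm 0, max_comm 0]
  refine (abs_max_sub_max_le_abs (1 - |s|) (1 - |t|) (0 : ℝ)).trans ?_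
  have : (1 - |s|) - (1 - |t|) = |t| - |s| := by ring
  rw [this, abs_sub_comm s t]
  exact abs_abs_sub_abs_le_abs_sub t s

lemma sum_tent (c : ℝ) : ∑ k ∈ ({-⌊c⌋ - 1, -⌊c⌋} : Finset ℤ), tent (c + k) = 1 := by
  rw [Finset.sum_pair (by omega)]
  have h0 := Int.fract_nonneg c
  have h1 := Int.fract_lt_one c
  have e1 : c + ((-⌊c⌋ - 1 : ℤ) : ℝ) = Int.fract c - 1 := by
    push_cast
    rw [Int.fract]
    ring
  have e2 : c + ((-⌊c⌋ : ℤ) : ℝ) = Int.fract c := by
    push_cast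
    rw [Int.fract]
    ring
  rw [e1, e2]
  unfold tent
  rw [abs_of_nonpos (by linarith), abs_of_nonneg h0, max_eq_right (by linarith),
    max_eq_right (by linarith)]
  ring

lemma tent_eq_zero_of_notMem (c : ℝ) (k : ℤ) (hk : k ∉ ({-⌊c⌋ - 1, -⌊c⌋} : Finset ℤ)) :
    tent (c + k) = 0 := by
  apply tent_eq_zero
  simp only [Finset.mem_insert, Finset.mem_singleton, not_or] at hk
  have h0 := Int.fract_nonneg c
  have h1 := Int.fract_lt_one c
  have e : c + (k : ℝ) = Int.fract c + ((⌊c⌋ + k : ℤ) : ℝ) := by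
    push_cast
    rw [Int.fract]
    ring
  rw [e]
  rcases lt_or_ge (⌊c⌋ + k) (-1) with h | h
  · have : ((⌊c⌋ + k : ℤ) : ℝ) ≤ -2 := by exact_mod_cast (by omega : ⌊c⌋ + k ≤ -2)
    rw [abs_of_nonpos (by linarith)]
    linarith
  · have : (1 : ℝ) ≤ ((⌊c⌋ + k : ℤ) : ℝ) := by
      exact_mod_cast (by omega : 1 ≤ ⌊c⌋ + k)
    rw [abs_of_nonneg (by linarith)]
    linarith

lemma exists_finset_prod_tent {r : ℕ} (c : Fin r → ℝ) :
    ∃ S : Finset (Fin r → ℤ), (∀ e ∉ S, ∏ i, tent (c i + e i) = 0) ∧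
      ∑ e ∈ S, ∏ i, tent (c i + e i) = 1 := by
  classical
  let s : (i : Fin r) → Finset ℤ := fun i => {-⌊c i⌋ - 1, -⌊c i⌋}
  refine ⟨Fintype.piFinset s, ?_, ?_⟩
  · intro e he
    rw [Fintype.mem_piFinset] at he
    push Not at he
    obtain ⟨i, hi⟩ := he
    exact Finset.prod_eq_zero (Finset.mem_univ i) (tent_eq_zero_of_notMem _ _ hi)
  · rw [← Finset.prod_univ_sum s (fun i k => tent (c i + k))]
    exact Finset.prod_eq_one fun i _ => sum_tent (c i)

lemma abs_prod_sub_prod_le {ι : Type*} (s : Finset ι) (f g : ι → ℝ)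
    (hf : ∀ i, 0 ≤ f i ∧ f i ≤ 1) (hg : ∀ i, 0 ≤ g i ∧ g i ≤ 1) :
    |∏ i ∈ s, f i - ∏ i ∈ s, g i| ≤ ∑ i ∈ s, |f i - g i| := by
  classical
  induction s using Finset.induction_on with
  | empty => simp
  | insert a s ha ih =>
    rw [Finset.prod_insert ha, Finset.prod_insert ha, Finset.sum_insert ha]
    have e : f a * ∏ i ∈ s, f i - g a * ∏ i ∈ s, g i =
        (f a - g a) * ∏ i ∈ s, f i + g a * (∏ i ∈ s, f i - ∏ i ∈ s, g i) := by ring
    rw [e]
    refine (abs_add_le _ _).trans ?_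
    rw [abs_mul, abs_mul]
    have h1 : |∏ i ∈ s, f i| ≤ 1 := by
      rw [abs_of_nonneg (Finset.prod_nonneg fun i _ => (hf i).1)]
      exact Finset.prod_le_one (fun i _ => (hf i).1) (fun i _ => (hf i).2)
    have h2 : |g a| ≤ 1 := by
      rw [abs_of_nonneg (hg a).1]
      exact (hg a).2
    have h3 := abs_nonneg (f a - g a)
    have h4 := abs_nonneg (∏ i ∈ s, f i - ∏ i ∈ s, g i)
    nlinarith

/-! ### the number field part -/

variable (K : Type*) [Field K] [NumberField K]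

open scoped Classical

/-- normalised logarithm at the place `w` -/
noncomputable def dl (x : K) (w : InfinitePlace K) : ℝ :=
  Real.log (w x) - (Module.finrank ℚ K : ℝ)⁻¹ * Real.log |(Algebra.norm ℚ x : ℝ)|

/-- normalised logarithmic vector -/
noncomputable def Lg (x : K) : logSpace K := fun w => mult w.val * dl K x w.val

/-- the real basis of the log space given by a fundamental system of units -/
noncomputable def Bs : Basis (Fin (rank K)) ℝ (logSpace K) :=
  (basisUnitLattice K).ofZLatticeBasis ℝ (unitLattice K)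

/-- coordinates of the normalised logarithmic vector -/
noncomputable def cc (x : K) : Fin (rank K) → ℝ := (Bs K).equivFun (Lg K x)

/-- the weight -/
noncomputable def Wt (x : K) : ℝ := ∏ i, tent (cc K x i)

variable {K}

lemma sum_mult_log {x : K} (hx : x ≠ 0) :
    ∑ w : InfinitePlace K, (mult w : ℝ) * Real.log (w x) = Real.log |(Algebra.norm ℚ x : ℝ)| := by
  have h := prod_eq_abs_norm x
  have h' : ((|Algebra.norm ℚ x| : ℚ) : ℝ) = |(Algebra.norm ℚ x : ℝ)| := by push_cast; rfl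
  rw [← h', ← h, Real.log_prod (fun w _ => pow_ne_zero _ ((map_ne_zero w).mpr hx))]
  exact Finset.sum_congr rfl fun w _ => (Real.log_pow _ _).symm

lemma finrank_pos' : (0 : ℝ) < (Module.finrank ℚ K : ℝ) := by
  exact_mod_cast Module.finrank_pos

lemma sum_mult_dl {x : K} (hx : x ≠ 0) :
    ∑ w : InfinitePlace K, (mult w : ℝ) * dl K x w = 0 := by
  unfold dl
  simp_rw [mul_sub]
  rw [Finset.sum_sub_distrib, sum_mult_log hx, ← Finset.sum_mul]
  have : ∑ w : InfinitePlace K, (mult w : ℝ) = (Module.finrank ℚ K : ℝ) := by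
    exact_mod_cast sum_mult_eq (K := K)
  rw [this, mul_inv_cancel_left₀ finrank_pos'.ne', sub_self]

lemma Lg_unit_mul (u : (𝓞 K)ˣ) {x : K} (hx : x ≠ 0) :
    Lg K (((u : 𝓞 K) : K) * x) = logEmbedding K (Additive.ofMul u) + Lg K x := by
  ext w
  have hu : ((u : 𝓞 K) : K) ≠ 0 := by simp
  have hN : |(Algebra.norm ℚ (((u : 𝓞 K) : K) * x) : ℝ)| = |(Algebra.norm ℚ x : ℝ)| := by
    have h1 : |(Algebra.norm ℚ ((u : 𝓞 K) : K) : ℝ)| = 1 := by
      exact_mod_cast congrArg (Rat.cast : ℚ → ℝ) (Units.norm K u)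
    rw [map_mul, Rat.cast_mul, abs_mul, h1, one_mul]
  simp only [Lg, dl, Pi.add_apply, logEmbedding_component]
  rw [hN, map_mul, Real.log_mul ((map_ne_zero w.val).mpr hu) ((map_ne_zero w.val).mpr hx)]
  ring

lemma equivFun_logEmbedding (ζ : torsion K) (e : Fin (rank K) → ℤ) :
    (Bs K).equivFun (logEmbedding K (Additive.ofMul
      ((ζ : (𝓞 K)ˣ) * ∏ i, fundSystem K i ^ e i))) = fun i => (e i : ℝ) := by
  have h1 : logEmbedding K (Additive.ofMul ((ζ : (𝓞 K)ˣ) * ∏ i, fundSystem K i ^ e i)) =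
      ∑ i, (e i : ℝ) • Bs K i := by
    rw [ofMul_mul, map_add, logEmbedding_eq_zero_iff.mpr ζ.2, zero_add, ofMul_prod, map_sum]
    refine Finset.sum_congr rfl fun i _ => ?_
    rw [ofMul_zpow, map_zsmul, logEmbedding_fundSystem, Bs, Basis.ofZLatticeBasis_apply,
      Int.cast_smul_eq_zsmul]
  rw [h1]
  ext i
  rw [Basis.equivFun_apply, Basis.repr_sum_self]

lemma cc_unit_mul (ζ : torsion K) (e : Fin (rank K) → ℤ) {x : K} (hx : x ≠ 0) (i : Fin (rank K)) :
    cc K (((((ζ : (𝓞 K)ˣ) * ∏ i, fundSystem K i ^ e i : (𝓞 K)ˣ) : 𝓞 K) : K) * x) i =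
      cc K x i + e i := by
  unfold cc
  rw [Lg_unit_mul _ hx, map_add, equivFun_logEmbedding]
  simp [add_comm]

/-- the parametrisation of the units -/
noncomputable def unitsEquiv : torsion K × (Fin (rank K) → ℤ) ≃ (𝓞 K)ˣ :=
  Equiv.ofBijective (fun ζe => (ζe.1 : (𝓞 K)ˣ) * ∏ i, fundSystem K i ^ ζe.2 i) (by
    constructor
    · intro a b hab
      obtain ⟨c, -, hc⟩ := exist_unique_eq_mul_prod K ((a.1 : (𝓞 K)ˣ) * ∏ i, fundSystem K i ^ a.2 i)
      rw [hc a rfl, hc b hab]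
    · intro u
      obtain ⟨c, hc, -⟩ := exist_unique_eq_mul_prod K u
      exact ⟨c, hc.symm⟩)

lemma hasSum_Wt {x : K} (hx : x ≠ 0) :
    HasSum (fun u : (𝓞 K)ˣ => Wt K (((u : 𝓞 K) : K) * x)) (torsionOrder K) := by
  classical
  rw [← (unitsEquiv (K := K)).hasSum_iff]
  have h1 : ((fun u : (𝓞 K)ˣ => Wt K (((u : 𝓞 K) : K) * x)) ∘ (unitsEquiv (K := K))) =
      fun ζe : torsion K × (Fin (rank K) → ℤ) => ∏ i, tent (cc K x i + ζe.2 i) := by
    ext ⟨ζ, e⟩
    simp only [Function.comp, unitsEquiv, Equiv.ofBijective_apply, Wt]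
    exact Finset.prod_congr rfl fun i _ => by rw [cc_unit_mul ζ e hx i]
  rw [h1]
  obtain ⟨S, hS0, hS1⟩ := exists_finset_prod_tent (cc K x)
  let _ : Fintype (torsion K) := Fintype.ofFinite _
  have h2 : ∑ ζe ∈ (Finset.univ : Finset (torsion K)) ×ˢ S, ∏ i, tent (cc K x i + ζe.2 i) =
      (torsionOrder K : ℝ) := by
    rw [Finset.sum_product]
    simp only [hS1, Finset.sum_const, Finset.card_univ, nsmul_eq_mul, mul_one, torsionOrder,
      Nat.card_eq_fintype_card]
  rw [← h2]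
  apply hasSum_sum_of_ne_finset_zero
  rintro ⟨ζ, e⟩ he
  apply hS0
  intro heS
  exact he (Finset.mem_product.mpr ⟨Finset.mem_univ _, heS⟩)

lemma abs_Lg_le {x : K} (hW : Wt K x ≠ 0) (w : {w : InfinitePlace K // w ≠ w₀}) :
    |Lg K x w| ≤ ∑ i, |Bs K i w| := by
  have hc : ∀ i, |cc K x i| < 1 := fun i =>
    abs_lt_one_of_tent_ne_zero (fun h => hW (Finset.prod_eq_zero (Finset.mem_univ i) h))
  have e : Lg K x = ∑ i, cc K x i • Bs K i := ((Bs K).sum_equivFun (Lg K x)).symm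
  rw [e, Finset.sum_apply]
  refine (Finset.abs_sum_le_sum_abs _ _).trans (Finset.sum_le_sum fun i _ => ?_)
  rw [Pi.smul_apply, smul_eq_mul, abs_mul]
  exact mul_le_of_le_one_left (abs_nonneg _) (hc i).le

omit [NumberField K] in
lemma abs_le_abs_mult_mul (w : InfinitePlace K) (t : ℝ) : |t| ≤ |(mult w : ℝ) * t| := by
  rw [abs_mul, abs_of_nonneg (by positivity : (0 : ℝ) ≤ (mult w : ℝ))]
  exact le_mul_of_one_le_left (abs_nonneg _) one_le_mult

lemma abs_dl_le {x : K} (hx : x ≠ 0) (hW : Wt K x ≠ 0) (w : InfinitePlace K) :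
    |dl K x w| ≤ ∑ w' : {w : InfinitePlace K // w ≠ w₀}, ∑ i, |Bs K i w'| := by
  by_cases hw : w = w₀
  · have h := sum_mult_dl hx
    rw [Fintype.sum_eq_add_sum_subtype_ne _ w₀] at h
    have h1 : (mult (w₀ : InfinitePlace K) : ℝ) * dl K x w₀ =
        - ∑ w' : {w : InfinitePlace K // w ≠ w₀}, Lg K x w' := by
      have : ∑ w' : {w : InfinitePlace K // w ≠ w₀}, Lg K x w' =
          ∑ w' : {w : InfinitePlace K // w ≠ w₀}, (mult w'.val : ℝ) * dl K x w'.val := rfl
      rw [this]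
      linarith
    rw [hw]
    refine (abs_le_abs_mult_mul (w₀ : InfinitePlace K) _).trans ?_
    rw [h1, abs_neg]
    exact (Finset.abs_sum_le_sum_abs _ _).trans (Finset.sum_le_sum fun w' _ => abs_Lg_le hW w')
  · refine (abs_le_abs_mult_mul w _).trans ?_
    refine (abs_Lg_le hW ⟨w, hw⟩).trans ?_
    exact Finset.single_le_sum (f := fun w' : {w : InfinitePlace K // w ≠ w₀} => ∑ i, |Bs K i w'|)
      (fun w' _ => Finset.sum_nonneg fun i _ => abs_nonneg _) (Finset.mem_univ _)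

lemma supp_Wt : ∃ c : ℝ, 0 < c ∧ ∀ x : K, x ≠ 0 → Wt K x ≠ 0 →
    ∀ v w : InfinitePlace K, c * w x ≤ v x := by
  set M := ∑ w' : {w : InfinitePlace K // w ≠ w₀}, ∑ i, |Bs K i w'| with hM
  refine ⟨Real.exp (-(2 * M)), Real.exp_pos _, fun x hx hW v w => ?_⟩
  have hv : 0 < v x := InfinitePlace.pos_iff.mpr hx
  have hw : 0 < w x := InfinitePlace.pos_iff.mpr hx
  have h1 := abs_le.mp (abs_dl_le hx hW v)
  have h2 := abs_le.mp (abs_dl_le hx hW w)
  have h3 : Real.log (w x) - Real.log (v x) = dl K x w - dl K x v := by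
    unfold dl
    ring
  rw [← Real.exp_log hv, ← Real.exp_log hw, ← Real.exp_add, Real.exp_le_exp]
  linarith [h1.1, h2.2]

lemma abs_dl_sub_le {x y : K} (hx : x ≠ 0) (hy : y ≠ 0) {ε : ℝ}
    (h : ∀ v : InfinitePlace K, |Real.log (v x) - Real.log (v y)| ≤ ε) (w : InfinitePlace K) :
    |dl K x w - dl K y w| ≤ 2 * ε := by
  have hn := finrank_pos' (K := K)
  have h1 : abs (Real.log |(Algebra.norm ℚ x : ℝ)| - Real.log |(Algebra.norm ℚ y : ℝ)|) ≤
      (Module.finrank ℚ K : ℝ) * ε := by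
    rw [← sum_mult_log hx, ← sum_mult_log hy, ← Finset.sum_sub_distrib]
    refine (Finset.abs_sum_le_sum_abs _ _).trans ?_
    have : ∑ w : InfinitePlace K, (mult w : ℝ) = (Module.finrank ℚ K : ℝ) := by
      exact_mod_cast sum_mult_eq (K := K)
    rw [← this, Finset.sum_mul]
    refine Finset.sum_le_sum fun v _ => ?_
    rw [← mul_sub, abs_mul, abs_of_nonneg (by positivity : (0 : ℝ) ≤ (mult v : ℝ))]
    exact mul_le_mul_of_nonneg_left (h v) (by positivity)
  have e : dl K x w - dl K y w = (Real.log (w x) - Real.log (w y)) -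
      (Module.finrank ℚ K : ℝ)⁻¹ *
        (Real.log |(Algebra.norm ℚ x : ℝ)| - Real.log |(Algebra.norm ℚ y : ℝ)|) := by
    unfold dl
    ring
  rw [e]
  refine (abs_sub _ _).trans ?_
  rw [abs_mul, abs_of_pos (inv_pos.mpr hn)]
  have h2 : (Module.finrank ℚ K : ℝ)⁻¹ *
      abs (Real.log |(Algebra.norm ℚ x : ℝ)| - Real.log |(Algebra.norm ℚ y : ℝ)|) ≤ ε := by
    calc _ ≤ (Module.finrank ℚ K : ℝ)⁻¹ * ((Module.finrank ℚ K : ℝ) * ε) :=
          mul_le_mul_of_nonneg_left h1 (inv_pos.mpr hn).le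
      _ = ε := inv_mul_cancel_left₀ hn.ne' _
  linarith [h w]

omit [NumberField K] in
lemma mult_le_two (w : InfinitePlace K) : (mult w : ℝ) ≤ 2 := by
  rw [mult]
  split_ifs <;> norm_num

lemma lip_Wt : ∃ L : ℝ, 0 ≤ L ∧ ∀ x y : K, x ≠ 0 → y ≠ 0 → ∀ ε : ℝ,
    (∀ v : InfinitePlace K, |Real.log (v x) - Real.log (v y)| ≤ ε) →
      |Wt K x - Wt K y| ≤ L * ε := by
  set E : {w : InfinitePlace K // w ≠ w₀} → Fin (rank K) → ℝ :=
    fun w => (Bs K).equivFun (fun j => if w = j then 1 else 0) with hE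
  refine ⟨4 * ∑ i, ∑ w, |E w i|, by positivity, fun x y hx hy ε h => ?_⟩
  have hε : 0 ≤ ε := (abs_nonneg _).trans (h w₀)
  have h1 : ∀ w : {w : InfinitePlace K // w ≠ w₀}, |Lg K x w - Lg K y w| ≤ 4 * ε := by
    intro w
    have : Lg K x w - Lg K y w = (mult w.val : ℝ) * (dl K x w.val - dl K y w.val) := by
      unfold Lg
      ring
    rw [this, abs_mul, abs_of_nonneg (by positivity : (0 : ℝ) ≤ (mult w.val : ℝ))]
    calc _ ≤ 2 * (2 * ε) := mul_le_mul (mult_le_two _) (abs_dl_sub_le hx hy h _)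
          (abs_nonneg _) (by norm_num)
      _ = 4 * ε := by ring
  have h2 : ∀ i, |cc K x i - cc K y i| ≤ 4 * ε * ∑ w, |E w i| := by
    intro i
    have e : cc K x i - cc K y i = ∑ w, (Lg K x w - Lg K y w) * E w i := by
      have := LinearMap.pi_apply_eq_sum_univ ((Bs K).equivFun.toLinearMap) (Lg K x - Lg K y)
      have h3 : cc K x - cc K y = (Bs K).equivFun.toLinearMap (Lg K x - Lg K y) := by
        simp [cc, map_sub]
      have h4 := congrFun (h3.trans this) i
      simpa [Finset.sum_apply, hE] using h4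
    rw [e, Finset.mul_sum]
    refine (Finset.abs_sum_le_sum_abs _ _).trans (Finset.sum_le_sum fun w _ => ?_)
    rw [abs_mul]
    exact mul_le_mul_of_nonneg_right (h1 w) (abs_nonneg _)
  unfold Wt
  refine (abs_prod_sub_prod_le _ _ _ (fun i => ⟨tent_nonneg _, tent_le_one _⟩)
    (fun i => ⟨tent_nonneg _, tent_le_one _⟩)).trans ?_
  calc ∑ i, |tent (cc K x i) - tent (cc K y i)| ≤ ∑ i, 4 * ε * ∑ w, |E w i| :=
        Finset.sum_le_sum fun i _ => (tent_lip _ _).trans (h2 i)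
    _ = 4 * (∑ i, ∑ w, |E w i|) * ε := by
        rw [← Finset.mul_sum]
        ring

variable (K) in
/-- [AN1a] -/
theorem exists_isWeight : ∃ (W : K → ℝ) (κ : ℝ), IsWeight K W κ :=
  ⟨Wt K, torsionOrder K,
    { kpos := by exact_mod_cast torsionOrder_pos K
      nonneg := fun x => Finset.prod_nonneg fun i _ => tent_nonneg _
      le_one := fun x => Finset.prod_le_one (fun i _ => tent_nonneg _) (fun i _ => tent_le_one _)
      hasSum_units := fun x hx => hasSum_Wt hx
      supp := supp_Wt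
      lip := lip_Wt }⟩

end Fermat.Agent.S14.PZ
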