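import Fermat.Agent.S14.PartialZetaAux
import Fermat.Agent.S14.PartialZetaUnfold
import Fermat.Agent.S14.PartialZetaWeight

/-!
# S14 / AN1 : differences of partial zeta functions are bounded on `(1, 2]`
-/

set_option autoImplicit false

namespace Fermat.Agent.S14

open NumberField Ideal
open scoped Pointwise nonZeroDivisors

variable (K : Type*) [Field K] [NumberField K]

open scoped Classical in
/-- [AN1] the differences of partial zeta functions stay bounded as `s → 1⁺`. -/
theorem partialZeta_sub_bounded (C C' : ClassGroup (𝓞 K)) : ∃ B : ℝ, ∀ s : ℝ, 1 < s → s ≤ 2 →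
    |(∑' I : (Ideal (𝓞 K))⁰,
        if ClassGroup.mk0 I = C then (absNorm (I : Ideal (𝓞 K)) : ℝ) ^ (-s) else 0) -
      ∑' I : (Ideal (𝓞 K))⁰,
        if ClassGroup.mk0 I = C' then (absNorm (I : Ideal (𝓞 K)) : ℝ) ^ (-s) else 0| ≤ B := by
  obtain ⟨W, κ, hW⟩ := PZ.exists_isWeight K
  exact PZ.partialZeta_sub_bounded_aux hW
    (fun J C hJ s hs => PZ.hasSum_hfun hW J C hJ hs (summable_absNorm_rpow K hs)) C C'

end Fermat.Agent.S14
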