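import Fermat.Agent.S14.Defs

/-!
# S14 / TH1-F : the field `M = K(ζ_ℓ) = ℚ(ζ_{ℓp})`
-/

set_option autoImplicit false
set_option linter.unusedSectionVars false

namespace Fermat.Agent.S14.Thaine

open NumberField Ideal Polynomial
open scoped Pointwise nonZeroDivisors

section Field

variable {p : ℕ} [Fact p.Prime] (K : Type*) [Field K] [NumberField K]
  [IsCyclotomicExtension {p} ℚ K]
variable {ℓ : ℕ} [Fact ℓ.Prime] (M : Type*) [Field M] [NumberField M] [Algebra K M]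
  [IsCyclotomicExtension {ℓ} K M]

include K in
/-- [F1] -/
theorem isCyclotomicExtension_mul (hℓp : ℓ ≠ p) : IsCyclotomicExtension {ℓ * p} ℚ M := by
  have hp : p.Prime := Fact.out
  have hℓ : ℓ.Prime := Fact.out
  have h1 : IsCyclotomicExtension ({p} ∪ {ℓ}) ℚ M :=
    IsCyclotomicExtension.trans {p} {ℓ} ℚ K M (algebraMap K M).injective
  obtain ⟨ζ, hζ⟩ := IsCyclotomicExtension.exists_isPrimitiveRoot ℚ K (S := {p}) (n := p) rfl
    hp.ne_zero
  obtain ⟨ξ, hξ⟩ := IsCyclotomicExtension.exists_isPrimitiveRoot K M (S := {ℓ}) (n := ℓ) rfl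
    hℓ.ne_zero
  have hζ' : IsPrimitiveRoot (algebraMap K M ζ) p := hζ.map_of_injective (algebraMap K M).injective
  have hprod : IsPrimitiveRoot (ξ * algebraMap K M ζ) (ℓ * p) := by
    rw [IsPrimitiveRoot.iff_orderOf]
    rw [(Commute.all _ _).orderOf_mul_eq_mul_orderOf_of_coprime, ← hξ.eq_orderOf, ← hζ'.eq_orderOf]
    rw [← hξ.eq_orderOf, ← hζ'.eq_orderOf]
    exact (Nat.coprime_primes hℓ hp).2 hℓp
  have h2 : IsCyclotomicExtension (({p} ∪ {ℓ}) ∪ {ℓ * p}) ℚ M :=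
    IsCyclotomicExtension.union_of_isPrimitiveRoot _ ℚ M hprod
  have hne : ℓ * p ≠ 0 := Nat.mul_ne_zero hℓ.ne_zero hp.ne_zero
  rw [IsCyclotomicExtension.iff_union_of_dvd (S := {ℓ * p}) (n := p) ℚ M
      ⟨ℓ * p, Set.mem_singleton _, hne, dvd_mul_left _ _⟩,
    IsCyclotomicExtension.iff_union_of_dvd (S := {ℓ * p} ∪ {p}) (n := ℓ) ℚ M
      ⟨ℓ * p, Or.inl (Set.mem_singleton _), hne, dvd_mul_right _ _⟩]
  convert h2 using 1
  ext x
  simp only [Set.mem_union, Set.mem_singleton_iff]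
  tauto

include M in
/-- auxiliary version of [F2], with the field `M` given. -/
theorem irreducible_cyclotomic_aux (hℓp : ℓ ≠ p) : Irreducible (cyclotomic ℓ K) := by
  have hp : p.Prime := Fact.out
  have hℓ : ℓ.Prime := Fact.out
  have : NeZero ℓ := ⟨hℓ.ne_zero⟩
  have : NeZero p := ⟨hp.ne_zero⟩
  have : NeZero (ℓ * p) := ⟨Nat.mul_ne_zero hℓ.ne_zero hp.ne_zero⟩
  have := isCyclotomicExtension_mul K M hℓp
  obtain ⟨ξ, hξ⟩ := IsCyclotomicExtension.exists_isPrimitiveRoot K M (S := {ℓ}) (n := ℓ) rfl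
    hℓ.ne_zero
  have hM : Module.finrank ℚ M = (ℓ * p).totient :=
    IsCyclotomicExtension.finrank M (cyclotomic.irreducible_rat (Nat.pos_of_ne_zero (NeZero.ne _)))
  have hK : Module.finrank ℚ K = p.totient :=
    IsCyclotomicExtension.finrank K (cyclotomic.irreducible_rat hp.pos)
  have htower := Module.finrank_mul_finrank ℚ K M
  rw [hM, hK, Nat.totient_mul ((Nat.coprime_primes hℓ hp).2 hℓp), mul_comm] at htower
  have hKM : Module.finrank K M = ℓ.totient :=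
    Nat.eq_of_mul_eq_mul_right (Nat.totient_pos.2 hp.pos) htower
  have hdeg : (minpoly K ξ).natDegree = ℓ.totient := by
    rw [← hKM, (hξ.powerBasis K).finrank, hξ.powerBasis_dim K]
  have hint : IsIntegral K ξ := (IsCyclotomicExtension.integral {ℓ} K M).isIntegral ξ
  have hdvd : minpoly K ξ ∣ cyclotomic ℓ K := by
    apply minpoly.dvd
    rw [aeval_def, eval₂_eq_eval_map, map_cyclotomic]
    exact hξ.isRoot_cyclotomic hℓ.pos
  have heq : minpoly K ξ = cyclotomic ℓ K :=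
    (eq_of_monic_of_dvd_of_natDegree_le (minpoly.monic hint) (cyclotomic.monic ℓ K) hdvd
      (by rw [hdeg, natDegree_cyclotomic])).symm
  rw [← heq]
  exact minpoly.irreducible hint

/-- [F2] (finrank ℚ M = φ(ℓ p), finrank ℚ K = φ(p), tower law, degree of the minimal polynomial) -/
theorem irreducible_cyclotomic (hℓp : ℓ ≠ p) : Irreducible (cyclotomic ℓ K) :=
  irreducible_cyclotomic_aux K (CyclotomicField ℓ K) hℓp

variable {K M}

/-- The norm of `a - ξ` is the value of the cyclotomic polynomial at `a`. -/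
theorem norm_algebraMap_sub (hℓp : ℓ ≠ p) {ξ : M} (hξ : IsPrimitiveRoot ξ ℓ) (a : K) :
    Algebra.norm K (algebraMap K M a - ξ) = (cyclotomic ℓ K).eval a := by
  have hℓ : ℓ.Prime := Fact.out
  have : NeZero ℓ := ⟨hℓ.ne_zero⟩
  have hirr := irreducible_cyclotomic K hℓp (ℓ := ℓ)
  rw [hξ.minpoly_eq_cyclotomic_of_irreducible hirr, ← hξ.powerBasis_gen K,
    ← charpoly_leftMulMatrix (hξ.powerBasis K), Matrix.eval_charpoly,
    Algebra.norm_eq_matrix_det (hξ.powerBasis K).basis, map_sub, AlgHom.commutes]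
  rfl

/-- [F3] -/
theorem norm_eps (hℓp : ℓ ≠ p) (hp : p ≠ 2) (h1 : p ∣ ℓ - 1) {ζ : K} (hζ : IsPrimitiveRoot ζ p)
    {ξ : M} (hξ : IsPrimitiveRoot ξ ℓ) : Algebra.norm K (algebraMap K M ζ * ξ - 1) = 1 := by
  have hpp : p.Prime := Fact.out
  have hℓ : ℓ.Prime := Fact.out
  have : NeZero ℓ := ⟨hℓ.ne_zero⟩
  have hirr := irreducible_cyclotomic K hℓp (ℓ := ℓ)
  have hζ0 : ζ ≠ 0 := hζ.ne_zero hpp.ne_zero
  have hfin : Module.finrank K M = ℓ - 1 := by
    rw [IsCyclotomicExtension.finrank M hirr, Nat.totient_prime hℓ]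
  have hζℓ : ζ ^ (ℓ - 1) = 1 := (hζ.pow_eq_one_iff_dvd _).2 h1
  have hℓ2 : ℓ ≠ 2 := by
    rintro rfl
    have := Nat.le_of_dvd (by norm_num) h1
    have := hpp.two_le
    omega
  have heven : Even (ℓ - 1) := hℓ.even_sub_one hℓ2
  have hdecomp : algebraMap K M ζ * ξ - 1 =
      algebraMap K M (-ζ) * (algebraMap K M ζ⁻¹ - ξ) := by
    rw [map_neg, map_inv₀]
    have : algebraMap K M ζ ≠ 0 := by simpa using hζ0
    field_simp
    ring
  rw [hdecomp, map_mul, Algebra.norm_algebraMap, hfin, neg_pow, heven.neg_one_pow, one_mul, hζℓ,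
    one_mul, norm_algebraMap_sub hℓp hξ]
  have hne : ζ⁻¹ - 1 ≠ 0 := by
    rw [sub_ne_zero, Ne, inv_eq_one]
    exact hζ.ne_one hpp.one_lt
  apply mul_right_cancel₀ hne
  have h := congrArg (eval ζ⁻¹) (cyclotomic_prime_mul_X_sub_one K ℓ)
  simp only [eval_mul, eval_sub, eval_X, eval_one, eval_pow] at h
  rw [h, one_mul]
  congr 1
  have hℓ' : ℓ = (ℓ - 1) + 1 := by have := hℓ.pos; omega
  rw [hℓ', pow_succ, inv_pow, hζℓ, inv_one, one_mul]

variable (K M)

/-- [F4] -/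
theorem card_gal (hℓp : ℓ ≠ p) : Nat.card (M ≃ₐ[K] M) = ℓ - 1 := by
  have hℓ : ℓ.Prime := Fact.out
  have : NeZero ℓ := ⟨hℓ.ne_zero⟩
  rw [Nat.card_congr (IsCyclotomicExtension.autEquivPow M
    (irreducible_cyclotomic K hℓp (ℓ := ℓ))).toEquiv, Nat.card_eq_fintype_card, ZMod.card_units]

/-- [F4] -/
theorem isCyclic_gal (hℓp : ℓ ≠ p) : IsCyclic (M ≃ₐ[K] M) := by
  have hℓ : ℓ.Prime := Fact.out
  have : NeZero ℓ := ⟨hℓ.ne_zero⟩
  exact (IsCyclotomicExtension.autEquivPow M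
    (irreducible_cyclotomic K hℓp (ℓ := ℓ))).isCyclic.2 inferInstance

end Field

end Fermat.Agent.S14.Thaine
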