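import Fermat.Agent.S14.ThaineField

/-!
# S14 / TH1-R : ramification in `M / K`, `K = ℚ(ζ_p)`, `M = K(ζ_ℓ)`
-/

set_option autoImplicit false

namespace Fermat.Agent.S14.Thaine

open NumberField Ideal Polynomial
open scoped Pointwise nonZeroDivisors

namespace Ram

/-- A prime ideal containing the rational prime `ℓ` lies over `(ℓ)`. -/
lemma liesOver_of_natCast_mem {F : Type*} [Field F] {ℓ : ℕ} (hℓ : ℓ.Prime) (Q : Ideal (𝓞 F))
    [hQ : Q.IsPrime] (h : (ℓ : 𝓞 F) ∈ Q) : Q.LiesOver (span {(ℓ : ℤ)}) := by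
  have := Fact.mk hℓ
  constructor
  refine (Int.ideal_span_isMaximal_of_prime ℓ).eq_of_le (Ideal.IsPrime.under ℤ Q).ne_top ?_
  rw [span_singleton_le_iff_mem, Ideal.mem_comap]
  simpa using h

/-- the rational prime below a nonzero prime -/
lemma exists_prime_under {F : Type*} [Field F] [NumberField F] (Q : Ideal (𝓞 F)) [Q.IsPrime]
    (hQ0 : Q ≠ ⊥) : ∃ q : ℕ, q.Prime ∧ (q : 𝓞 F) ∈ Q := by
  have : NeZero Q := ⟨hQ0⟩
  exact ⟨_, Nat.absNorm_under_prime Q, Int.absNorm_under_mem Q⟩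

end Ram

section Ram

variable {p : ℕ} [Fact p.Prime] (K : Type*) [Field K] [NumberField K]
  [IsCyclotomicExtension {p} ℚ K]
variable {ℓ : ℕ} [Fact ℓ.Prime] {M : Type*} [Field M] [NumberField M] [Algebra K M]
  [IsCyclotomicExtension {ℓ} K M]

omit [NumberField K] [IsCyclotomicExtension {p} ℚ K] [Fact p.Prime] [Fact ℓ.Prime] [NumberField M]
  [IsCyclotomicExtension {ℓ} K M] in
lemma Ram.natCast_mem_under {q : ℕ} (Q : Ideal (𝓞 M)) (h : (q : 𝓞 M) ∈ Q) :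
    (q : 𝓞 K) ∈ Q.under (𝓞 K) := by
  rw [Ideal.under_def, Ideal.mem_comap, map_natCast]
  exact h

/-- [R2] -/
theorem ramificationIdx_eq_sub_one (hℓp : ℓ ≠ p) (Q : Ideal (𝓞 M)) [Q.IsPrime]
    (hQ : (ℓ : 𝓞 M) ∈ Q) : Q.ramificationIdx (𝓞 K) = ℓ - 1 := by
  have hℓ : ℓ.Prime := Fact.out
  have hp : p.Prime := Fact.out
  have hM : IsCyclotomicExtension {ℓ * p} ℚ M := isCyclotomicExtension_mul K M hℓp
  have hnd : ¬ ℓ ∣ p := fun h => hℓp ((Nat.prime_dvd_prime_iff_eq hℓ hp).1 h)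
  have hover : Q.LiesOver (span {(ℓ : ℤ)}) := Ram.liesOver_of_natCast_mem hℓ Q hQ
  have : (Q.under (𝓞 K)).LiesOver (span {(ℓ : ℤ)}) :=
    Ram.liesOver_of_natCast_mem hℓ _ (Ram.natCast_mem_under K Q hQ)
  have h1 : Q.ramificationIdx ℤ = ℓ ^ 0 * (ℓ - 1) :=
    IsCyclotomicExtension.Rat.ramificationIdx_eq (ℓ * p) M Q (k := 0) (m := p) (by simp) hnd
  have : NeZero p := ⟨hp.ne_zero⟩
  have h2 : (Q.under (𝓞 K)).ramificationIdx ℤ = 1 :=
    IsCyclotomicExtension.Rat.ramificationIdx_eq_of_not_dvd ℓ K (Q.under (𝓞 K)) hnd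
  have h3 := ramificationIdx_tower (R := ℤ) (Q.under (𝓞 K)) Q
  rw [h1, h2] at h3
  simpa using h3.symm

/-- [R1] -/
theorem ramificationIdx_eq_one (hℓp : ℓ ≠ p) (Q : Ideal (𝓞 M)) [Q.IsPrime] (hQ0 : Q ≠ ⊥)
    (hQ : (ℓ : 𝓞 M) ∉ Q) : Q.ramificationIdx (𝓞 K) = 1 := by
  have hℓ : ℓ.Prime := Fact.out
  have hp : p.Prime := Fact.out
  have hM : IsCyclotomicExtension {ℓ * p} ℚ M := isCyclotomicExtension_mul K M hℓp
  obtain ⟨q, hq, hqQ⟩ := Ram.exists_prime_under Q hQ0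
  have := Fact.mk hq
  have hqℓ : q ≠ ℓ := by
    rintro rfl
    exact hQ hqQ
  have hover : Q.LiesOver (span {(q : ℤ)}) := Ram.liesOver_of_natCast_mem hq Q hqQ
  have : (Q.under (𝓞 K)).LiesOver (span {(q : ℤ)}) :=
    Ram.liesOver_of_natCast_mem hq _ (Ram.natCast_mem_under K Q hqQ)
  have h3 := ramificationIdx_tower (R := ℤ) (Q.under (𝓞 K)) Q
  have : NeZero p := ⟨hp.ne_zero⟩
  have : NeZero (ℓ * p) := ⟨Nat.mul_ne_zero hℓ.ne_zero hp.ne_zero⟩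
  by_cases hqp : q = p
  · subst hqp
    have hnd : ¬ q ∣ ℓ := fun h => hqℓ ((Nat.prime_dvd_prime_iff_eq hq hℓ).1 h)
    have h1 : Q.ramificationIdx ℤ = q ^ 0 * (q - 1) :=
      IsCyclotomicExtension.Rat.ramificationIdx_eq (ℓ * q) M Q (k := 0) (m := ℓ)
        (by simp [mul_comm]) hnd
    have h2 : (Q.under (𝓞 K)).ramificationIdx ℤ = q - 1 :=
      IsCyclotomicExtension.Rat.ramificationIdx_eq_of_prime q K (Q.under (𝓞 K))
    rw [h1, h2, pow_zero, one_mul] at h3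
    have hpos : 0 < q - 1 := by have := hq.two_le; omega
    exact (Nat.eq_of_mul_eq_mul_left hpos (by rw [mul_one]; exact h3)).symm
  · have hnd : ¬ q ∣ ℓ * p := by
      intro h
      rcases (Nat.Prime.dvd_mul hq).1 h with h | h
      · exact hqℓ ((Nat.prime_dvd_prime_iff_eq hq hℓ).1 h)
      · exact hqp ((Nat.prime_dvd_prime_iff_eq hq hp).1 h)
    have h1 : Q.ramificationIdx ℤ = 1 :=
      IsCyclotomicExtension.Rat.ramificationIdx_eq_of_not_dvd q M Q hnd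
    rw [h1] at h3
    exact Nat.eq_one_of_mul_eq_one_left h3.symm

include K in
/-- [R3] -/
theorem emultiplicity_sub_one (hℓp : ℓ ≠ p) (Q : Ideal (𝓞 M)) [Q.IsPrime]
    (hQ : (ℓ : 𝓞 M) ∈ Q) {ξ : 𝓞 M} (hξ : IsPrimitiveRoot ξ ℓ) :
    emultiplicity Q (span {ξ - 1}) = 1 := by
  have hℓ : ℓ.Prime := Fact.out
  have hp : p.Prime := Fact.out
  have hM : IsCyclotomicExtension {ℓ * p} ℚ M := isCyclotomicExtension_mul K M hℓp
  have hnd : ¬ ℓ ∣ p := fun h => hℓp ((Nat.prime_dvd_prime_iff_eq hℓ hp).1 h)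
  have hover : Q.LiesOver (span {(ℓ : ℤ)}) := Ram.liesOver_of_natCast_mem hℓ Q hQ
  have h1 : Q.ramificationIdx ℤ = ℓ ^ 0 * (ℓ - 1) :=
    IsCyclotomicExtension.Rat.ramificationIdx_eq (ℓ * p) M Q (k := 0) (m := p) (by simp) hnd
  rw [pow_zero, one_mul] at h1
  have hmap : (span {(ℓ : ℤ)}).map (algebraMap ℤ (𝓞 M)) = span {(ℓ : 𝓞 M)} := by
    rw [Ideal.map_span, Set.image_singleton]
    simp
  have hℓ0 : (ℓ : 𝓞 M) ≠ 0 := by exact_mod_cast hℓ.ne_zero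
  have hne : span {(ℓ : 𝓞 M)} ≠ ⊥ := by
    rwa [Ne, span_singleton_eq_bot]
  have hQ0 : Q ≠ ⊥ := by
    rintro rfl
    exact hℓ0 (by simpa using hQ)
  have hQprime : Prime Q := prime_of_isPrime hQ0 inferInstance
  have h2 : Q.ramificationIdx ℤ = multiplicity Q (span {(ℓ : 𝓞 M)}) := by
    rw [← hmap]
    exact IsDedekindDomain.ramificationIdx_eq_multiplicity (span {(ℓ : ℤ)}) Q (by rwa [hmap])
  have hfin : FiniteMultiplicity Q (span {(ℓ : 𝓞 M)}) :=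
    FiniteMultiplicity.of_prime_left hQprime hne
  have h3 : emultiplicity Q (span {(ℓ : 𝓞 M)}) = ((ℓ - 1 : ℕ) : ℕ∞) := by
    rw [hfin.emultiplicity_eq_multiplicity, ← h2, h1]
  have hξ' : IsPrimitiveRoot ((ξ : 𝓞 M) : M) ℓ :=
    hξ.map_of_injective RingOfIntegers.coe_injective
  have h4 := IsCyclotomicExtension.Rat.associated_zeta_sub_one_pow_prime ℓ hξ'
  have h5 : hξ'.toInteger = ξ := RingOfIntegers.ext rfl
  rw [h5] at h4
  rw [← span_singleton_eq_span_singleton.2 h4, ← span_singleton_pow,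
    emultiplicity_pow hQprime] at h3
  have hpos : 0 < ℓ - 1 := by have := hℓ.two_le; omega
  generalize emultiplicity Q (span {ξ - 1}) = e at h3
  induction e using ENat.recTopCoe with
  | top =>
    rw [ENat.mul_top (by exact_mod_cast hpos.ne')] at h3
    exact absurd h3 (ENat.top_ne_natCast _)
  | coe n =>
    have h6 : (ℓ - 1) * n = (ℓ - 1) * 1 := by
      rw [mul_one]
      exact_mod_cast h3
    have := Nat.eq_of_mul_eq_mul_left hpos h6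
    rw [this]
    rfl

/-- [R4] -/
theorem smul_sub_mem (hℓp : ℓ ≠ p) (Q : Ideal (𝓞 M)) [Q.IsPrime]
    (hQ : (ℓ : 𝓞 M) ∈ Q) (g : M ≃ₐ[K] M) (x : 𝓞 M) : g • x - x ∈ Q := by
  have hℓ : ℓ.Prime := Fact.out
  have hgal : IsGalois K M := IsCyclotomicExtension.isGalois {ℓ} K M
  have h1 : Nat.card (Q.inertia (M ≃ₐ[K] M)) = (Q.under (𝓞 K)).ramificationIdxIn (𝓞 M) :=
    Ideal.card_inertia_eq_ramificationIdxIn (G := (M ≃ₐ[K] M)) (Q.under (𝓞 K)) Q
  rw [ramificationIdxIn_eq_ramificationIdx (Q.under (𝓞 K)) Q (M ≃ₐ[K] M),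
    ramificationIdx_eq_sub_one K hℓp Q hQ, ← card_gal K M hℓp] at h1
  have h2 : Q.inertia (M ≃ₐ[K] M) = ⊤ := Subgroup.eq_top_of_card_eq _ h1
  have h3 : g ∈ Q.inertia (M ≃ₐ[K] M) := h2 ▸ Subgroup.mem_top g
  exact h3 x

end Ram

end Fermat.Agent.S14.Thaine
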