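import Fermat.Agent.S14.Defs

/-!
# S14 / TH1-S : the primes of `K = ℚ(ζ_p)` above a rational prime `ℓ` of degree one
-/

set_option autoImplicit false

namespace Fermat.Agent.S14.Thaine

open NumberField Ideal Polynomial
open scoped Pointwise nonZeroDivisors

section Split

lemma isMaximal_span_natCast {ℓ : ℕ} (hℓ : ℓ.Prime) : (span {(ℓ : ℤ)}).IsMaximal :=
  ((span_singleton_prime (by exact_mod_cast hℓ.ne_zero)).2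
    (Nat.prime_iff_prime_int.1 hℓ)).isMaximal (by simpa using hℓ.ne_zero)

/-- A prime ideal containing the rational prime `ℓ` lies over `(ℓ)`. -/
lemma liesOver_of_mem {K : Type*} [Field K] {ℓ : ℕ} (hℓ : ℓ.Prime) (𝔮 : Ideal (𝓞 K))
    (h𝔮 : 𝔮.IsPrime) (h : (ℓ : 𝓞 K) ∈ 𝔮) : 𝔮.LiesOver (span {(ℓ : ℤ)}) := by
  constructor
  refine (isMaximal_span_natCast hℓ).eq_of_le (Ideal.IsPrime.under ℤ 𝔮).ne_top ?_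
  rw [span_singleton_le_iff_mem, Ideal.mem_comap]
  simpa using h

variable {K : Type*} [Field K] [NumberField K]

lemma liesOver_absNorm (𝔩 : Ideal (𝓞 K)) (h𝔩 : 𝔩.IsPrime) (hℓ : (absNorm 𝔩).Prime) :
    𝔩.LiesOver (span {((absNorm 𝔩 : ℕ) : ℤ)}) :=
  liesOver_of_mem hℓ 𝔩 h𝔩 (by exact_mod_cast absNorm_mem 𝔩)

lemma inertiaDeg_eq_one (𝔩 : Ideal (𝓞 K)) (h𝔩 : 𝔩.IsPrime) (hℓ : (absNorm 𝔩).Prime) :
    inertiaDeg 𝔩 ℤ = 1 := by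
  have := liesOver_absNorm 𝔩 h𝔩 hℓ
  have := isMaximal_span_natCast hℓ
  have hbot : 𝔩 ≠ ⊥ := by
    rintro rfl
    simp at hℓ
    exact Nat.not_prime_zero hℓ
  have : 𝔩.IsMaximal := h𝔩.isMaximal hbot
  have h1 := absNorm_eq_pow_inertiaDeg' 𝔩 hℓ
  rw [inertiaDeg'_eq_inertiaDeg] at h1
  have h2 : (absNorm 𝔩) ^ 1 = (absNorm 𝔩) ^ (inertiaDeg 𝔩 ℤ) := by rw [pow_one]; exact h1
  exact (Nat.pow_right_injective hℓ.two_le h2).symm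

/-- [S3] (for any Galois number field). -/
theorem exists_smul_eq [IsGalois ℚ K] (𝔩 : Ideal (𝓞 K)) (h𝔩 : 𝔩.IsPrime)
    (hℓ : (absNorm 𝔩).Prime) (𝔮 : Ideal (𝓞 K)) (h𝔮 : 𝔮.IsPrime)
    (h : ((absNorm 𝔩 : ℕ) : 𝓞 K) ∈ 𝔮) :
    ∃ δ : K ≃ₐ[ℚ] K, 𝔮 = δ • 𝔩 := by
  have h1 := (liesOver_absNorm 𝔩 h𝔩 hℓ).over
  have h2 := (liesOver_of_mem hℓ 𝔮 h𝔮 h).over
  exact Algebra.IsInvariant.exists_smul_of_under_eq ℤ (𝓞 K) (K ≃ₐ[ℚ] K) 𝔩 𝔮 (h1.symm.trans h2)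

variable {p : ℕ} [Fact p.Prime] [IsCyclotomicExtension {p} ℚ K]

/-- [S1] -/
theorem dvd_absNorm_sub_one (𝔩 : Ideal (𝓞 K)) (h𝔩 : 𝔩.IsPrime)
    (hℓ : (absNorm 𝔩).Prime) (hℓp : absNorm 𝔩 ≠ p) : p ∣ absNorm 𝔩 - 1 := by
  have := liesOver_absNorm 𝔩 h𝔩 hℓ
  have : Fact (absNorm 𝔩).Prime := ⟨hℓ⟩
  have hp : p.Prime := Fact.out
  have h1 := IsCyclotomicExtension.Rat.inertiaDeg_eq_of_not_dvd (m := p) (absNorm 𝔩) K 𝔩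
    (fun h => hℓp ((Nat.prime_dvd_prime_iff_eq hℓ hp).1 h))
  rw [inertiaDeg_eq_one 𝔩 h𝔩 hℓ] at h1
  have h2 : ((absNorm 𝔩 : ℕ) : ZMod p) = 1 := orderOf_eq_one_iff.1 h1.symm
  rw [← Nat.cast_one, ZMod.natCast_eq_natCast_iff] at h2
  exact (Nat.modEq_iff_dvd' hℓ.one_le).1 h2.symm

/-- [S2] -/
theorem smul_injective (𝔩 : Ideal (𝓞 K)) (h𝔩 : 𝔩.IsPrime)
    (hℓ : (absNorm 𝔩).Prime) (hℓp : absNorm 𝔩 ≠ p) :
    Function.Injective fun δ : K ≃ₐ[ℚ] K => δ • 𝔩 := by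
  have : IsGalois ℚ K := IsCyclotomicExtension.isGalois {p} ℚ K
  have := liesOver_absNorm 𝔩 h𝔩 hℓ
  have : Fact (absNorm 𝔩).Prime := ⟨hℓ⟩
  have hp : p.Prime := Fact.out
  have hnd : ¬ absNorm 𝔩 ∣ p := fun h => hℓp ((Nat.prime_dvd_prime_iff_eq hℓ hp).1 h)
  have hmax := isMaximal_span_natCast hℓ
  have h1 := Ideal.card_stabilizer_eq (G := K ≃ₐ[ℚ] K) (span {((absNorm 𝔩 : ℕ) : ℤ)}) 𝔩
  rw [IsCyclotomicExtension.Rat.ramificationIdxIn_eq_of_not_dvd (m := p) (absNorm 𝔩) K hnd,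
    inertiaDegIn_eq_inertiaDeg _ 𝔩 (K ≃ₐ[ℚ] K), inertiaDeg_eq_one 𝔩 h𝔩 hℓ, mul_one] at h1
  have h2 : MulAction.stabilizer (K ≃ₐ[ℚ] K) 𝔩 = ⊥ := Subgroup.card_eq_one.1 h1
  intro δ ε hδε
  have h3 : ε⁻¹ * δ ∈ MulAction.stabilizer (K ≃ₐ[ℚ] K) 𝔩 := by
    rw [MulAction.mem_stabilizer_iff, mul_smul]
    have : δ • 𝔩 = ε • 𝔩 := hδε
    rw [this, inv_smul_smul]
  rw [h2, Subgroup.mem_bot, inv_mul_eq_one] at h3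
  exact h3.symm

end Split

end Fermat.Agent.S14.Thaine
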