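import Fermat.Agent.S14.ThaineDedekind
import Fermat.Agent.S14.ThaineField
import Fermat.Agent.S14.ThaineRam
import Fermat.Agent.S14.ThaineSplit

/-!
# S14 / TH1 : Thaine's relation
-/

set_option autoImplicit false

namespace Fermat.Agent.S14

open NumberField Ideal Polynomial
open scoped Pointwise nonZeroDivisors

namespace Thaine

section Hilbert90

variable {K L : Type*} [Field K] [Field L] [Algebra K L] [FiniteDimensional K L] [IsGalois K L]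


/-- Hilbert 90 for cyclic extensions (universe polymorphic). -/
theorem hilbert90 {g : L ≃ₐ[K] L} (hg : ∀ x, x ∈ Subgroup.zpowers g) {x : L}
    (hx : Algebra.norm K x = 1) : ∃ y : L, y ≠ 0 ∧ x * g y = y := by
  classical
  set n := orderOf g with hn
  have hnpos : 0 < n := orderOf_pos g
  set F : ℕ → L := fun i => ∏ j ∈ Finset.range i, (g ^ j) x with hF
  have hF0 : F 0 = 1 := by simp [hF]
  have hFs : ∀ i, x * g (F i) = F (i + 1) := by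
    intro i
    simp only [hF]
    rw [Finset.prod_range_succ', map_prod]
    simp only [pow_zero, AlgEquiv.one_apply]
    rw [mul_comm]
    congr 1
    refine Finset.prod_congr rfl fun j _ => ?_
    rw [pow_succ', AlgEquiv.mul_apply]
  have hFn : F n = 1 := by
    have h1 : algebraMap K L (Algebra.norm K x) = ∏ σ : L ≃ₐ[K] L, σ x :=
      Algebra.norm_eq_prod_automorphisms K x
    rw [hx, map_one, ← IsCyclic.image_range_orderOf hg, Finset.prod_image] at h1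
    · exact h1.symm
    · intro i hi j hj hij
      exact pow_injOn_Iio_orderOf (by simpa using hi) (by simpa using hj) hij
  have hli : LinearIndependent L (fun i : Fin n => (((g ^ (i : ℕ) : L ≃ₐ[K] L) : L → L))) := by
    have := (linearIndependent_monoidHom L L).comp
      (fun i : Fin n => (((g ^ (i : ℕ) : L ≃ₐ[K] L) : L →* L))) (by
        intro i j hij
        have h2 : g ^ (i : ℕ) = g ^ (j : ℕ) := by
          ext z
          exact DFunLike.congr_fun hij z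
        exact Fin.ext (pow_injOn_Iio_orderOf (Set.mem_Iio.mpr i.2) (Set.mem_Iio.mpr j.2) h2))
    exact this
  obtain ⟨z, hz⟩ : ∃ z, ∑ i ∈ Finset.range n, F i * (g ^ i) z ≠ 0 := by
    by_contra hcon
    push Not at hcon
    have h0 := Fintype.linearIndependent_iff.mp hli (fun i => F i) (by
      ext z
      have := hcon z
      rw [Finset.sum_range] at this
      simpa [Finset.sum_apply] using this) ⟨0, hnpos⟩
    simp [hF0] at h0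
  refine ⟨_, hz, ?_⟩
  rw [map_sum, Finset.mul_sum]
  have e1 : ∀ i ∈ Finset.range n, x * g (F i * (g ^ i) z) = F (i + 1) * (g ^ (i + 1)) z := by
    intro i _
    rw [map_mul, ← mul_assoc, hFs, pow_succ', AlgEquiv.mul_apply]
  rw [Finset.sum_congr rfl e1]
  have e2 := Finset.sum_range_succ (fun i => F i * (g ^ i) z) n
  have e3 := Finset.sum_range_succ' (fun i => F i * (g ^ i) z) n
  rw [e2] at e3
  have e4 : F n * (g ^ n) z = F 0 * (g ^ 0) z := by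
    rw [hFn, hF0, hn, pow_orderOf_eq_one, pow_zero]
  rw [e4] at e3
  exact (add_right_cancel e3).symm

end Hilbert90

section Core

variable {p : ℕ} [Fact p.Prime] {K : Type*} [Field K] [NumberField K]
  [IsCyclotomicExtension {p} ℚ K]
variable {ℓ : ℕ} [Fact ℓ.Prime] {M : Type*} [Field M] [NumberField M] [Algebra K M]
  [IsCyclotomicExtension {ℓ} K M]

omit [Fact p.Prime] [IsCyclotomicExtension {p} ℚ K] [Fact ℓ.Prime] [NumberField K] [NumberField M]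
  [IsCyclotomicExtension {ℓ} K M] in
lemma smul_algebraMap' (g : M ≃ₐ[K] M) (a : 𝓞 K) :
    g • (algebraMap (𝓞 K) (𝓞 M) a) = algebraMap (𝓞 K) (𝓞 M) a := by
  apply RingOfIntegers.ext
  exact g.commutes (a : K)

/-- Hilbert 90 applied to the cyclotomic unit `ζ_p ζ_ℓ - 1`. -/
theorem exists_hilbert90 (hℓp : ℓ ≠ p) (hp : p ≠ 2) (h1 : p ∣ ℓ - 1) {ζ : K}
    (hζ : IsPrimitiveRoot ζ p) {ξ : 𝓞 M} (hξ : IsPrimitiveRoot ξ ℓ) :
    ∃ (h : M ≃ₐ[K] M) (s : ℕ) (y eps : 𝓞 M), (∀ x, x ∈ Subgroup.zpowers h) ∧ h • ξ = ξ ^ s ∧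
      y ≠ 0 ∧ h • y = eps * y ∧ IsUnit eps ∧
      eps - algebraMap (𝓞 K) (𝓞 M) (piO hζ) ∈ span {ξ - 1} := by
  have : IsGalois K M := IsCyclotomicExtension.isGalois {ℓ} K M
  have := isCyclic_gal K M hℓp
  obtain ⟨g, hg⟩ := IsCyclic.exists_generator (α := M ≃ₐ[K] M)
  set η : 𝓞 M := algebraMap (𝓞 K) (𝓞 M) hζ.toInteger * ξ - 1 with hη
  have hξ' : IsPrimitiveRoot (ξ : M) ℓ := hξ.map_of_injective RingOfIntegers.coe_injective
  have hnorm : Algebra.norm K (algebraMap (𝓞 M) M η) = 1 := by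
    have := norm_eps hℓp hp h1 hζ hξ'
    rw [← this]
    rfl
  obtain ⟨y0, hy00, hy0⟩ := hilbert90 hg hnorm
  obtain ⟨d, hd, hint⟩ :=
    ((IsFractionRing.isAlgebraic_iff ℤ ℚ M).mpr
      (Algebra.IsAlgebraic.isAlgebraic (R := ℚ) y0)).exists_integral_multiple
  obtain ⟨y, hyy⟩ : ∃ y : 𝓞 M, (y : M) = d • y0 := ⟨⟨d • y0, hint⟩, rfl⟩
  have hy0' : y ≠ 0 := by
    rintro rfl
    exact (smul_ne_zero hd hy00) hyy.symm
  have hy : η * g • y = y := by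
    apply RingOfIntegers.ext
    change algebraMap (𝓞 M) M η * g (y : M) = (y : M)
    rw [hyy, map_zsmul, mul_smul_comm, hy0]
  have hηu : IsUnit η := by
    rw [← RingOfIntegers.isUnit_norm_of_isGalois K]
    have : RingOfIntegers.norm K η = 1 := by
      apply RingOfIntegers.ext
      rw [RingOfIntegers.coe_norm]
      exact hnorm
    rw [this]
    exact isUnit_one
  obtain ⟨s, -, hs⟩ := hξ.eq_pow_of_pow_eq_one (ξ := g⁻¹ • ξ) (by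
    rw [← smul_pow', hξ.pow_eq_one, smul_one])
  refine ⟨g⁻¹, s, y, g⁻¹ • η, ?_, hs.symm, hy0', ?_, ?_, ?_⟩
  · intro x
    rw [Subgroup.zpowers_inv]
    exact hg x
  · conv_lhs => rw [← hy]
    rw [smul_mul', inv_smul_smul]
  · exact hηu.map (MulSemiringAction.toRingHom (M ≃ₐ[K] M) (𝓞 M) g⁻¹)
  · have e1 : g⁻¹ • η = algebraMap (𝓞 K) (𝓞 M) hζ.toInteger * ξ ^ s - 1 := by
      rw [hη, smul_sub, smul_mul', smul_algebraMap', smul_one, hs]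
    rw [e1, piO, map_sub, map_one, Ideal.mem_span_singleton]
    obtain ⟨t, ht⟩ := sub_dvd_pow_sub_pow ξ 1 s
    rw [one_pow] at ht
    refine ⟨algebraMap (𝓞 K) (𝓞 M) hζ.toInteger * t, ?_⟩
    linear_combination (algebraMap (𝓞 K) (𝓞 M) hζ.toInteger) * ht

/-- All conjugates of `y` generate the same ideal. -/
lemma span_smul_eq (h : M ≃ₐ[K] M) (hgen : ∀ x, x ∈ Subgroup.zpowers h) {y eps : 𝓞 M}
    (hhy : h • y = eps * y) (heps : IsUnit eps) (σ : M ≃ₐ[K] M) :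
    span {σ • y} = span {y} := by
  have hfin : Finite (M ≃ₐ[K] M) := inferInstance
  have key : ∀ k : ℕ, Associated ((h ^ k) • y) y := by
    intro k
    induction k with
    | zero => simp
    | succ k ih =>
      rw [pow_succ, mul_smul, hhy, smul_mul']
      have hu : IsUnit ((h ^ k) • eps) :=
        heps.map (MulSemiringAction.toRingHom (M ≃ₐ[K] M) (𝓞 M) (h ^ k))
      exact (associated_isUnit_mul_left_iff hu).mpr ih
  obtain ⟨k, rfl⟩ := (mem_powers_iff_mem_zpowers).mpr (hgen σ)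
  exact Ideal.span_singleton_eq_span_singleton.mpr (key k)

/-- The norm `γ` of `y`. -/
theorem exists_gamma [IsGalois K M] (h : M ≃ₐ[K] M) (hgen : ∀ x, x ∈ Subgroup.zpowers h) {y eps : 𝓞 M}
    (hy : y ≠ 0) (hhy : h • y = eps * y) (heps : IsUnit eps) :
    ∃ γ : 𝓞 K, γ ≠ 0 ∧
      (span {γ}).map (algebraMap (𝓞 K) (𝓞 M)) = span {y} ^ Nat.card (M ≃ₐ[K] M) := by
  have hprod : algebraMap (𝓞 K) (𝓞 M) (RingOfIntegers.norm K y) = ∏ σ : M ≃ₐ[K] M, σ • y := by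
    apply RingOfIntegers.ext
    rw [RingOfIntegers.coe_algebraMap_norm, Algebra.norm_eq_prod_automorphisms]
    change _ = algebraMap (𝓞 M) M (∏ σ : M ≃ₐ[K] M, σ • y)
    rw [map_prod]
    rfl
  have hmap : (span {RingOfIntegers.norm K y}).map (algebraMap (𝓞 K) (𝓞 M)) =
      span {y} ^ Nat.card (M ≃ₐ[K] M) := by
    rw [Ideal.map_span, Set.image_singleton, hprod, ← Ideal.prod_span_singleton]
    rw [Finset.prod_congr rfl (fun σ _ => span_smul_eq h hgen hhy heps σ)]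
    rw [Finset.prod_const, Finset.card_univ, Nat.card_eq_fintype_card]
  refine ⟨RingOfIntegers.norm K y, ?_, hmap⟩
  intro h0
  rw [h0] at hmap
  have : span {y} ^ Nat.card (M ≃ₐ[K] M) = ⊥ := by
    rw [← hmap]
    simp
  have h2 := pow_eq_zero_iff (M₀ := Ideal (𝓞 M)) (Nat.card_pos (α := M ≃ₐ[K] M)).ne' |>.mp this
  exact hy (by simpa using h2)

/-- `e(Q/𝔮) v_𝔮(γ) = n v_Q(y)`. -/
lemma emultiplicity_rel {γ : 𝓞 K} (hγ : γ ≠ 0) {y : 𝓞 M} {n : ℕ}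
    (hmap : (span {γ}).map (algebraMap (𝓞 K) (𝓞 M)) = span {y} ^ n)
    (𝔮 : Ideal (𝓞 K)) [𝔮.IsPrime] (h𝔮 : 𝔮 ≠ ⊥) (Q : Ideal (𝓞 M)) [Q.IsPrime] [Q.LiesOver 𝔮] :
    (Q.ramificationIdx (𝓞 K) : ℕ∞) * emultiplicity 𝔮 (span {γ}) =
      n * emultiplicity Q (span {y}) := by
  have hQ0 : Q ≠ ⊥ := Ideal.ne_bot_of_liesOver_of_ne_bot h𝔮 Q
  have hQp : Prime Q := prime_of_isPrime hQ0 ‹_›
  have h𝔮p : Prime 𝔮 := prime_of_isPrime h𝔮 ‹_›
  rw [← emultiplicity_pow hQp, ← hmap,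
    Ideal.IsDedekindDomain.emultiplicity_map_eq_ramificationIdx'_mul (span_singleton_ne_bot hγ)
      h𝔮p.irreducible hQp.irreducible hQ0, Ideal.ramificationIdx'_eq_ramificationIdx 𝔮 Q h𝔮]

end Core

section Main

variable {p : ℕ} [Fact p.Prime] {K : Type*} [Field K] [NumberField K]
  [IsCyclotomicExtension {p} ℚ K]

/-- The ideal-theoretic form of Thaine's relation. -/
theorem core_aux {ℓ : ℕ} [Fact ℓ.Prime] (M : Type*) [Field M] [NumberField M] [Algebra K M]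
    [IsCyclotomicExtension {ℓ} K M] {ζ : K} (hζ : IsPrimitiveRoot ζ p) (hp : p ≠ 2) (𝔩 : Ideal (𝓞 K))
    (h𝔩 : 𝔩.IsPrime) (h0 : 𝔩 ≠ ⊥) (hℓ : absNorm 𝔩 = ℓ) (hℓp : ℓ ≠ p) :
    ∃ (s : ℕ) (c : (K ≃ₐ[ℚ] K) → ℕ) (B : Ideal (𝓞 K)) (γ : 𝓞 K), γ ≠ 0 ∧ B ≠ ⊥ ∧
      (∀ δ : K ≃ₐ[ℚ] K, piO hζ - (s : 𝓞 K) ^ c δ ∈ δ • 𝔩) ∧
      span {γ} = (∏ δ : K ≃ₐ[ℚ] K, (δ • 𝔩) ^ c δ) * B ^ p := by
  have hℓpr : ℓ.Prime := Fact.out
  have hGal : IsGalois K M := IsCyclotomicExtension.isGalois {ℓ} K M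
  have hξ : IsPrimitiveRoot (IsCyclotomicExtension.zeta_spec ℓ K M).toInteger ℓ :=
    (IsCyclotomicExtension.zeta_spec ℓ K M).toInteger_isPrimitiveRoot
  set ξ : 𝓞 M := (IsCyclotomicExtension.zeta_spec ℓ K M).toInteger with hξdef
  have h1 : p ∣ ℓ - 1 := by
    have := dvd_absNorm_sub_one (p := p) 𝔩 h𝔩 (hℓ ▸ hℓpr) (hℓ ▸ hℓp)
    rwa [hℓ] at this
  obtain ⟨t, ht⟩ := h1
  obtain ⟨h, s, y, eps, hgen, hhξ, hy, hhy, heps, hepsπ⟩ :=
    exists_hilbert90 (M := M) hℓp hp ⟨t, ht⟩ hζ hξ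
  obtain ⟨γ, hγ, hmap⟩ := exists_gamma h hgen hy hhy heps
  rw [card_gal K M hℓp] at hmap
  -- primes not above `ℓ`
  have key1 : ∀ 𝔮 : Ideal (𝓞 K), 𝔮.IsPrime → 𝔮 ≠ ⊥ → ((ℓ : ℕ) : 𝓞 K) ∉ 𝔮 →
      ∃ k : ℕ, emultiplicity 𝔮 (span {γ}) = (p * k : ℕ) := by
    intro 𝔮 h𝔮 h𝔮0 hℓ𝔮
    have h𝔮max : 𝔮.IsMaximal := h𝔮.isMaximal h𝔮0
    obtain ⟨Q, hQmax, hQ𝔮⟩ := exists_maximal_ideal_liesOver_of_isIntegral 𝔮 (S := 𝓞 M)
    have hQpr : Q.IsPrime := hQmax.isPrime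
    have hQ0 : Q ≠ ⊥ := Ideal.ne_bot_of_liesOver_of_ne_bot h𝔮0 Q
    have hℓQ : ((ℓ : ℕ) : 𝓞 M) ∉ Q := by
      intro hmem
      apply hℓ𝔮
      rw [Ideal.mem_of_liesOver Q 𝔮, map_natCast]
      exact hmem
    have hrel := emultiplicity_rel hγ hmap 𝔮 h𝔮0 Q
    rw [ramificationIdx_eq_one K hℓp Q hQ0 hℓQ] at hrel
    obtain ⟨m, hm⟩ := exists_emultiplicity_eq Q hQ0 (span_singleton_ne_bot hy)
    refine ⟨t * m, ?_⟩
    rw [Nat.cast_one, one_mul, hm, ht] at hrel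
    rw [hrel]
    push_cast
    ring
  -- primes above `ℓ`
  have key2 : ∀ 𝔮 : Ideal (𝓞 K), 𝔮.IsPrime → 𝔮 ≠ ⊥ → ((ℓ : ℕ) : 𝓞 K) ∈ 𝔮 →
      ∀ r : ℕ, emultiplicity 𝔮 (span {γ}) = r → piO hζ - (s : 𝓞 K) ^ r ∈ 𝔮 := by
    intro 𝔮 h𝔮 h𝔮0 hℓ𝔮 r hr
    have h𝔮max : 𝔮.IsMaximal := h𝔮.isMaximal h𝔮0
    obtain ⟨Q, hQmax, hQ𝔮⟩ := exists_maximal_ideal_liesOver_of_isIntegral 𝔮 (S := 𝓞 M)
    have hQpr : Q.IsPrime := hQmax.isPrime
    have hQ0 : Q ≠ ⊥ := Ideal.ne_bot_of_liesOver_of_ne_bot h𝔮0 Q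
    have hℓQ : ((ℓ : ℕ) : 𝓞 M) ∈ Q := by
      rw [Ideal.mem_of_liesOver Q 𝔮, map_natCast] at hℓ𝔮
      exact hℓ𝔮
    have hrel := emultiplicity_rel hγ hmap 𝔮 h𝔮0 Q
    rw [ramificationIdx_eq_sub_one K hℓp Q hℓQ, hr] at hrel
    obtain ⟨m, hm⟩ := exists_emultiplicity_eq Q hQ0 (span_singleton_ne_bot hy)
    rw [hm] at hrel
    have hrm : r = m := by
      have h2 : (ℓ - 1) * r = (ℓ - 1) * m := by exact_mod_cast hrel
      exact Nat.eq_of_mul_eq_mul_left (by have := hℓpr.two_le; omega) h2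
    have hlam := emultiplicity_sub_one K hℓp Q hℓQ hξ
    have hD2 := sub_pow_mem_of_inertia Q hQ0
      (MulSemiringAction.toRingEquiv (M ≃ₐ[K] M) (𝓞 M) h) (smul_sub_mem K hℓp Q hℓQ h)
      (lam := ξ - 1) (sig := ∑ i ∈ Finset.range s, ξ ^ i) (eps := eps) (y := y) hlam
      (by
        change h • (ξ - 1) = _
        rw [smul_sub, smul_one, hhξ, geom_sum_mul]) hy hhy r (hrm ▸ hm)
    have hξQ : ξ - 1 ∈ Q := by
      by_contra hcon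
      rw [(emultiplicity_span_eq_zero_iff Q).mpr hcon] at hlam
      exact zero_ne_one hlam
    have e1 : Ideal.Quotient.mk Q ξ = 1 := by
      rw [← map_one (Ideal.Quotient.mk Q)]
      exact Ideal.Quotient.eq.mpr hξQ
    have e2 : Ideal.Quotient.mk Q eps =
        Ideal.Quotient.mk Q (algebraMap (𝓞 K) (𝓞 M) (piO hζ)) := by
      apply Ideal.Quotient.eq.mpr
      exact (Ideal.span_singleton_le_iff_mem Q).mpr hξQ hepsπ
    have e3 : Ideal.Quotient.mk Q eps = (s : 𝓞 M ⧸ Q) ^ r := by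
      rw [Ideal.Quotient.eq.mpr hD2, map_pow, map_sum]
      simp [e1]
    rw [Ideal.mem_of_liesOver Q 𝔮, ← Ideal.Quotient.eq_zero_iff_mem, map_sub, map_sub, ← e2, e3]
    simp
  -- the exponents
  have hprime : ∀ δ : K ≃ₐ[ℚ] K, (δ • 𝔩).IsPrime ∧ δ • 𝔩 ≠ ⊥ := by
    intro δ
    refine ⟨inferInstance, ?_⟩
    have := smul_mem_nonZeroDivisors δ (mem_nonZeroDivisors_of_ne_zero h0)
    exact nonZeroDivisors.ne_zero this
  choose c hc using fun δ : K ≃ₐ[ℚ] K =>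
    haveI := (hprime δ).1
    exists_emultiplicity_eq (δ • 𝔩) (hprime δ).2 (span_singleton_ne_bot hγ)
  have hGalQ : IsGalois ℚ K := IsCyclotomicExtension.isGalois {p} ℚ K
  obtain ⟨B, hB0, hB⟩ := exists_eq_prod_mul_pow (fun δ : K ≃ₐ[ℚ] K => δ • 𝔩)
    (smul_injective (p := p) 𝔩 h𝔩 (hℓ ▸ hℓpr) (hℓ ▸ hℓp)) hprime (span {γ})
    (span_singleton_ne_bot hγ) p c hc (by
      intro Q hQ hQ0 hne
      apply key1 Q hQ hQ0
      intro hmem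
      obtain ⟨δ, hδ⟩ := exists_smul_eq 𝔩 h𝔩 (hℓ ▸ hℓpr) Q hQ (hℓ ▸ hmem)
      exact hne δ hδ)
  refine ⟨s, c, B, γ, hγ, hB0, ?_, hB⟩
  intro δ
  refine key2 (δ • 𝔩) (hprime δ).1 (hprime δ).2 ?_ (c δ) (hc δ)
  have h2 : ((ℓ : ℕ) : 𝓞 K) ∈ 𝔩 := hℓ ▸ Ideal.absNorm_mem 𝔩
  have h3 := Ideal.smul_mem_pointwise_smul δ _ 𝔩 h2
  have h4 : δ • ((ℓ : ℕ) : 𝓞 K) = ((ℓ : ℕ) : 𝓞 K) :=
    map_natCast (MulSemiringAction.toRingHom (K ≃ₐ[ℚ] K) (𝓞 K) δ) ℓ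
  rwa [h4] at h3

end Main

end Thaine

section Final

variable {p : ℕ} [Fact p.Prime] {K : Type*} [Field K] [NumberField K]
  [IsCyclotomicExtension {p} ℚ K] {ζ : K}

/-- [TH1] Thaine's relation. -/
theorem thaine_core (hζ : IsPrimitiveRoot ζ p) (hp : p ≠ 2) (𝔩 : Ideal (𝓞 K)) (h𝔩 : 𝔩.IsPrime)
    (h0 : 𝔩 ≠ ⊥) (hℓ : (absNorm 𝔩).Prime) (hℓp : absNorm 𝔩 ≠ p) :
    ∃ (s : ℕ) (c : (K ≃ₐ[ℚ] K) → ℕ),
      (∀ δ : K ≃ₐ[ℚ] K, piO hζ - (s : 𝓞 K) ^ c δ ∈ δ • 𝔩) ∧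
      ∃ D : ClassGroup (𝓞 K), ∏ δ : K ≃ₐ[ℚ] K, (clAct δ (cls 𝔩 h0)) ^ c δ = D ^ p := by
  have : Fact (absNorm 𝔩).Prime := ⟨hℓ⟩
  obtain ⟨s, c, B, γ, hγ, hB0, hcong, hfac⟩ :=
    Thaine.core_aux (CyclotomicField (absNorm 𝔩) K) hζ hp 𝔩 h𝔩 h0 rfl hℓp
  refine ⟨s, c, hcong, (ClassGroup.mk0 ⟨B, mem_nonZeroDivisors_of_ne_zero hB0⟩)⁻¹, ?_⟩
  have h1 : ∀ δ : K ≃ₐ[ℚ] K, clAct δ (cls 𝔩 h0) =
      ClassGroup.mk0 ⟨δ • 𝔩, smul_mem_nonZeroDivisors δ (mem_nonZeroDivisors_of_ne_zero h0)⟩ :=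
    fun δ => clAct_mk0 δ _
  simp only [h1]
  rw [inv_pow, eq_inv_iff_mul_eq_one]
  simp only [← map_pow, ← map_prod, ← map_mul]
  rw [ClassGroup.mk0_eq_one_iff]
  refine ⟨γ, ?_⟩
  rw [Ideal.submodule_span_eq, hfac]
  simp

end Final

end Fermat.Agent.S14
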