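import Fermat.Agent.S14.Defs

/-!
# S14 / TH2 : from Thaine's relation (`thaine_core`) to `T [𝔩] ∈ Cl^p`

Pure group-ring algebra modulo `p`.
-/

set_option autoImplicit false

namespace Fermat.Agent.S14

open NumberField Ideal
open scoped Pointwise nonZeroDivisors

namespace ThaineAlg

/-- In a group, for an element killed by `p`, exponents only matter modulo `p`. -/
lemma pow_eq_pow_of_modEq {p : ℕ} {Q : Type*} [Group Q] {x : Q} (hx : x ^ p = 1) {a b : ℕ}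
    (h : a ≡ b [MOD p]) : x ^ a = x ^ b := by
  rw [pow_eq_pow_mod a hx, pow_eq_pow_mod b hx, h]

section Cyclo

variable {p : ℕ} [Fact p.Prime] {K : Type*} [Field K] [NumberField K] {ζ : K}

/-- `ex` is multiplicative modulo `p`. -/
lemma ex_mul_modEq (hζ : IsPrimitiveRoot ζ p) (δ ε : K ≃ₐ[ℚ] K) :
    ex hζ (δ * ε) ≡ ex hζ δ * ex hζ ε [MOD p] := by
  rw [← ZMod.natCast_eq_natCast_iff]
  simp only [ex, Nat.cast_mul, ZMod.natCast_val, ZMod.cast_id', id_eq, map_mul, Units.val_mul]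

/-- The exponent `κ = ∑_δ (ex δ⁻¹)^(p-3) c(δ)`. -/
noncomputable def kappa (hζ : IsPrimitiveRoot ζ p) (c : (K ≃ₐ[ℚ] K) → ℕ) : ℕ :=
  ∑ δ : K ≃ₐ[ℚ] K, ex hζ δ⁻¹ ^ (p - 3) * c δ

/-- Modulo any hom `π` killing `p`-th powers, `T (δ C) = (T C)^((ex δ⁻¹)^(p-3))`. -/
lemma map_TCl_clAct (hζ : IsPrimitiveRoot ζ p) {Q : Type*} [CommGroup Q]
    (π : ClassGroup (𝓞 K) →* Q) (hπ : ∀ x : Q, x ^ p = 1) (C : ClassGroup (𝓞 K))
    (δ : K ≃ₐ[ℚ] K) :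
    π (TCl hζ (clAct δ C)) = π (TCl hζ C) ^ (ex hζ δ⁻¹ ^ (p - 3)) := by
  rw [TCl_apply, TCl_apply, map_prod, map_prod, ← Finset.prod_pow]
  rw [← Equiv.prod_comp (Equiv.mulRight δ⁻¹)]
  refine Finset.prod_congr rfl fun ε _ => ?_
  have h1 : clAct ((Equiv.mulRight δ⁻¹) ε) (clAct δ C) = clAct ε C := by
    rw [← MulAut.mul_apply, ← map_mul]
    simp
  rw [h1, map_pow, map_pow, ← pow_mul]
  refine pow_eq_pow_of_modEq (hπ _) ?_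
  rw [← mul_pow]
  exact (ex_mul_modEq hζ ε δ⁻¹).pow _

/-- The class-group half. -/
lemma map_TCl_pow_kappa (hζ : IsPrimitiveRoot ζ p) {Q : Type*} [CommGroup Q]
    (π : ClassGroup (𝓞 K) →* Q) (hπ : ∀ x : Q, x ^ p = 1) (C : ClassGroup (𝓞 K))
    (c : (K ≃ₐ[ℚ] K) → ℕ) (D : ClassGroup (𝓞 K))
    (hD : ∏ δ : K ≃ₐ[ℚ] K, (clAct δ C) ^ c δ = D ^ p) :
    π (TCl hζ C) ^ kappa hζ c = 1 := by
  have h1 : π (TCl hζ (∏ δ : K ≃ₐ[ℚ] K, (clAct δ C) ^ c δ)) = 1 := by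
    rw [hD, map_pow, map_pow, hπ]
  rw [map_prod, map_prod] at h1
  rw [kappa, ← Finset.prod_pow_eq_pow_sum, ← h1]
  refine Finset.prod_congr rfl fun δ _ => ?_
  rw [map_pow, map_pow, map_TCl_clAct hζ π hπ, pow_mul]

/-- The congruence half: `θ ≡ s^κ mod 𝔩`. -/
lemma theta_sub_pow_kappa_mem (hζ : IsPrimitiveRoot ζ p) (𝔩 : Ideal (𝓞 K)) (s : ℕ)
    (c : (K ≃ₐ[ℚ] K) → ℕ)
    (hc : ∀ δ : K ≃ₐ[ℚ] K, piO hζ - (s : 𝓞 K) ^ c δ ∈ δ • 𝔩) :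
    theta hζ - (s : 𝓞 K) ^ kappa hζ c ∈ 𝔩 := by
  rw [← Ideal.Quotient.eq, theta, TO, map_prod, map_pow, kappa, ← Finset.prod_pow_eq_pow_sum,
    ← Equiv.prod_comp (Equiv.inv (K ≃ₐ[ℚ] K))]
  refine Finset.prod_congr rfl fun δ _ => ?_
  have h1 : δ⁻¹ • piO hζ - (s : 𝓞 K) ^ c δ ∈ 𝔩 := by
    have h2 := (Ideal.mem_pointwise_smul_iff_inv_smul_mem).1 (hc δ)
    have h3 : δ⁻¹ • (s : 𝓞 K) = (s : 𝓞 K) :=
      map_natCast (MulSemiringAction.toRingHom (K ≃ₐ[ℚ] K) (𝓞 K) δ⁻¹) s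
    rwa [smul_sub, smul_pow', h3] at h2
  rw [← Ideal.Quotient.eq] at h1
  rw [Equiv.inv_apply, map_pow, h1, map_pow, ← pow_mul, mul_comm]

end Cyclo

end ThaineAlg

section Cyclo

variable {p : ℕ} [Fact p.Prime] {K : Type*} [Field K] [NumberField K] {ζ : K}

/-- [TH2], with the conclusion of `thaine_core` as a hypothesis. -/
theorem thaine_of_core (hζ : IsPrimitiveRoot ζ p) (𝔩 : Ideal (𝓞 K)) (h0 : 𝔩 ≠ ⊥)
    (hcore : ∃ (s : ℕ) (c : (K ≃ₐ[ℚ] K) → ℕ),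
      (∀ δ : K ≃ₐ[ℚ] K, piO hζ - (s : 𝓞 K) ^ c δ ∈ δ • 𝔩) ∧
      ∃ D : ClassGroup (𝓞 K), ∏ δ : K ≃ₐ[ℚ] K, (clAct δ (cls 𝔩 h0)) ^ c δ = D ^ p)
    (hθ : ¬ ∃ y : 𝓞 K, theta hζ - y ^ p ∈ 𝔩) :
    ∃ D : ClassGroup (𝓞 K), TCl hζ (cls 𝔩 h0) = D ^ p := by
  obtain ⟨s, c, hc, D, hD⟩ := hcore
  have hp : p.Prime := Fact.out
  -- `p ∤ κ`
  have hk : ¬ p ∣ ThaineAlg.kappa hζ c := by
    rintro ⟨m, hm⟩
    refine hθ ⟨(s : 𝓞 K) ^ m, ?_⟩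
    have := ThaineAlg.theta_sub_pow_kappa_mem hζ 𝔩 s c hc
    rwa [hm, mul_comm, pow_mul] at this
  -- the quotient by `p`-th powers
  let P : Subgroup (ClassGroup (𝓞 K)) := (powMonoidHom p : ClassGroup (𝓞 K) →* _).range
  have hπ : ∀ x : ClassGroup (𝓞 K) ⧸ P, x ^ p = 1 := by
    intro x
    obtain ⟨y, rfl⟩ := QuotientGroup.mk'_surjective P x
    rw [← map_pow, QuotientGroup.mk'_apply, QuotientGroup.eq_one_iff]
    exact ⟨y, rfl⟩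
  have h1 := ThaineAlg.map_TCl_pow_kappa hζ (QuotientGroup.mk' P) hπ (cls 𝔩 h0) c D hD
  have h2 := hπ (QuotientGroup.mk' P (TCl hζ (cls 𝔩 h0)))
  have h3 : QuotientGroup.mk' P (TCl hζ (cls 𝔩 h0)) = 1 := by
    have hcop : Nat.Coprime (ThaineAlg.kappa hζ c) p :=
      ((Nat.Prime.coprime_iff_not_dvd hp).2 hk).symm
    have := pow_gcd_eq_one.2 ⟨h1, h2⟩
    rwa [Nat.Coprime.gcd_eq_one hcop, pow_one] at this
  rw [QuotientGroup.mk'_apply, QuotientGroup.eq_one_iff] at h3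
  obtain ⟨E, hE⟩ := h3
  exact ⟨E, hE.symm⟩

end Cyclo

end Fermat.Agent.S14
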