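import Fermat.Agent.S14.M2
import Fermat.Agent.S14.KummerDensity
import Fermat.Agent.S14.ExistsPrimeAux
import Fermat.Agent.S14.PartialZeta
import Fermat.Agent.S14.ThaineAlg
import Fermat.Agent.S14.Thaine

set_option autoImplicit false

namespace Fermat.Agent.S14

open NumberField Ideal
open scoped Pointwise nonZeroDivisors

variable {p : ℕ} [Fact p.Prime] {K : Type*} [Field K] [NumberField K]
  [IsCyclotomicExtension {p} ℚ K] {ζ : K}

/-- [CL] -/
theorem TCl_mem_pow (hζ : IsPrimitiveRoot ζ p) (hp5 : 5 ≤ p) (C : ClassGroup (𝓞 K)) :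
    ∃ D : ClassGroup (𝓞 K), TCl hζ C = D ^ p := by
  classical
  have hθ := theta_not_pow hζ hp5
  have hp0 : p ≠ 0 := (Fact.out : p.Prime).ne_zero
  have hθ0 : theta hζ ≠ 0 := by
    intro h
    apply hθ
    refine ⟨0, ?_⟩
    rw [h, zero_pow hp0]
    simp
  let H : Subgroup (ClassGroup (𝓞 K)) :=
    (powMonoidHom p : ClassGroup (𝓞 K) →* ClassGroup (𝓞 K)).range.comap (TCl hζ)
  have hH : ∀ C, C ∈ H ↔ ∃ D, TCl hζ C = D ^ p := by
    intro C
    simp only [H, Subgroup.mem_comap, MonoidHom.mem_range, powMonoidHom_apply]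
    exact ⟨fun ⟨D, hD⟩ => ⟨D, hD.symm⟩, fun ⟨D, hD⟩ => ⟨D, hD.symm⟩⟩
  by_contra hC
  have hne : H ≠ ⊤ := fun h => hC ((hH C).1 (h ▸ Subgroup.mem_top C))
  obtain ⟨C0, hC0⟩ := sum_primes_isPow_le K hζ (theta hζ) hθ
  let S : Set (Ideal (𝓞 K)) :=
    {P | P.IsPrime ∧ P ≠ ⊥ ∧ (p : 𝓞 K) * theta hζ ∉ P ∧ ∃ y : 𝓞 K, theta hζ - y ^ p ∈ P}
  have ht : (1 / p : ℝ) < 1 / 3 := by
    have : (5 : ℝ) ≤ p := by exact_mod_cast hp5
    rw [div_lt_div_iff₀ (by linarith) (by norm_num)]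
    linarith
  have hm : p * absNorm (span {theta hζ}) ≠ 0 := by
    refine mul_ne_zero hp0 ?_
    rw [Ne, absNorm_eq_zero_iff, span_singleton_eq_bot]
    exact hθ0
  obtain ⟨P, hP0, hPp, hPn, hPm, hPS, hPH⟩ := ExistsPrime.exists_prime_notMem_of
    (partialZeta_sub_bounded K) H hne S (1 / p) C0 ht
    (fun F hF s hs hs2 => hC0 F (fun P hP => (hF P hP).1) s hs hs2) _ hm
  apply hPH
  rw [hH]
  apply thaine_of_core hζ P hP0 (thaine_core hζ (by omega) P hPp hP0 hPn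
    (by intro h; apply hPm; rw [h]; exact dvd_mul_right _ _))
  rintro ⟨y, hy⟩
  apply hPS
  refine ⟨hPp, hP0, ?_, y, hy⟩
  intro hmem
  rcases hPp.mem_or_mem hmem with h | h
  · -- `p ∈ P`
    apply hPm
    have h1 : ((absNorm P : ℕ) : 𝓞 K) ∈ P := absNorm_mem P
    by_cases he : absNorm P = p
    · rw [he]; exact dvd_mul_right _ _
    · exfalso
      have hcop : Nat.Coprime (absNorm P) p := (Nat.coprime_primes hPn Fact.out).mpr he
      have hcop' : IsCoprime ((absNorm P : ℕ) : ℤ) (p : ℤ) := Nat.isCoprime_iff_coprime.mpr hcop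
      obtain ⟨a, b, hab⟩ := hcop'
      apply hPp.ne_top
      rw [eq_top_iff_one]
      have : (1 : 𝓞 K) = (a : 𝓞 K) * ((absNorm P : ℕ) : 𝓞 K) + (b : 𝓞 K) * (p : 𝓞 K) := by
        have := congrArg (Int.cast : ℤ → 𝓞 K) hab
        push_cast at this
        exact this.symm
      rw [this]
      exact P.add_mem (P.mul_mem_left _ h1) (P.mul_mem_left _ h)
  · apply hPm
    refine Dvd.dvd.mul_left ?_ _
    apply absNorm_dvd_absNorm_of_le
    rw [span_le]
    simpa using h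

end Fermat.Agent.S14
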