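import Fermat.Agent.S14.Basic
import Fermat.Agent.Lib.Frobenius

/-!
# S14 / B3 : valuation subrings of `Qbar` versus ideals of `𝓞 (Kp p)`
-/

set_option autoImplicit false

namespace Fermat.Agent.S14

open NumberField Ideal
open Fermat.Agent.Lib.Frobenius (mem_of_isIntegral intCast_notMem_nonunits valuation_eq_one
  mul_mem_nonunits one_notMem_nonunits)

variable {p : ℕ} [Fact p.Prime]

namespace Normalise

lemma coe_piO : (((piO (zetaK_spec p) : 𝓞 (Kp p)) : Kp p) : Qbar) = zetaBar p - 1 := by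
  simp only [piO]
  push_cast
  rfl

lemma isIntegral_coe (x : 𝓞 (Kp p)) : IsIntegral ℤ (((x : 𝓞 (Kp p)) : Kp p) : Qbar) :=
  (RingOfIntegers.isIntegral_coe x).map (Kp p).val

lemma coe_mem (A : ValuationSubring Qbar) (x : 𝓞 (Kp p)) :
    (((x : 𝓞 (Kp p)) : Kp p) : Qbar) ∈ A :=
  mem_of_isIntegral A (isIntegral_coe x)

lemma val_coe_le (A : ValuationSubring Qbar) (x : 𝓞 (Kp p)) :
    A.valuation (((x : 𝓞 (Kp p)) : Kp p) : Qbar) ≤ 1 :=
  (ValuationSubring.valuation_le_one_iff A _).mpr (coe_mem A x)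

lemma val_pi_lt (A : ValuationSubring Qbar) (hA : A.LiesOverPrime p) :
    A.valuation (zetaBar p - 1) < 1 := by
  have hp1 : p - 1 ≠ 0 := by have := (Fact.out : p.Prime).two_le; omega
  obtain ⟨u, hu⟩ :=
    (IsCyclotomicExtension.Rat.associated_zeta_sub_one_pow_prime p (zetaK_spec p)).symm
  have h1 : (p : Qbar) * ((((u : (𝓞 (Kp p))ˣ) : 𝓞 (Kp p)) : Kp p) : Qbar) =
      (zetaBar p - 1) ^ (p - 1) := by
    have := congrArg (fun x : 𝓞 (Kp p) => ((x : Kp p) : Qbar)) hu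
    push_cast at this
    exact this
  have h2 : A.valuation (p : Qbar) < 1 := (ValuationSubring.mem_nonunits_iff A).mp hA
  have h3 := congrArg A.valuation h1
  rw [map_mul, map_pow] at h3
  have h4 : A.valuation (zetaBar p - 1) ^ (p - 1) < 1 := by
    rw [← h3]
    calc _ ≤ A.valuation (p : Qbar) * 1 := by gcongr; exact val_coe_le A _
      _ < 1 := by rwa [mul_one]
  exact (pow_lt_one_iff hp1).mp h4

lemma val_eq_one_of_not_dvd (A : ValuationSubring Qbar) (hA : A.LiesOverPrime p)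
    (t : 𝓞 (Kp p)) (ht : ¬ piO (zetaK_spec p) ∣ t) :
    A.valuation (((t : 𝓞 (Kp p)) : Kp p) : Qbar) = 1 := by
  obtain ⟨n, s, hs⟩ := Glue.exists_int_congr (zetaK_spec p) t
  have hn : ¬ (p : ℤ) ∣ n := by
    intro h
    apply ht
    have h1 := (Glue.piO_dvd_intCast_iff (zetaK_spec p)).mpr h
    have : t = (t - n) + n := by ring
    rw [this]
    exact dvd_add ⟨s, hs⟩ h1
  have h1 : A.valuation (n : Qbar) = 1 :=
    valuation_eq_one A (intCast_mem A n) (intCast_notMem_nonunits A Fact.out hA hn)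
  have h2 : (((t : 𝓞 (Kp p)) : Kp p) : Qbar) =
      (n : Qbar) + (zetaBar p - 1) * (((s : 𝓞 (Kp p)) : Kp p) : Qbar) := by
    have : t = n + piO (zetaK_spec p) * s := by rw [← hs]; ring
    rw [this]
    push_cast
    rw [coe_piO]
    simp
  have h3 : A.valuation ((zetaBar p - 1) * (((s : 𝓞 (Kp p)) : Kp p) : Qbar)) < 1 := by
    rw [map_mul]
    calc _ ≤ A.valuation (zetaBar p - 1) * 1 := by gcongr; exact val_coe_le A _
      _ < 1 := by rw [mul_one]; exact val_pi_lt A hA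
  rw [h2, Valuation.map_add_eq_of_lt_left _ (by rw [h1]; exact h3), h1]


end Normalise

open Normalise

namespace IdealPow

/-- comparison of `𝔮`-adic valuations via a valuation subring above `𝔮`. -/
lemma pow_dvd_of_div_mem (A : ValuationSubring Qbar) (𝔮 : Ideal (𝓞 (Kp p))) (h𝔮 : 𝔮.IsPrime)
    (h0 : 𝔮 ≠ ⊥)
    (hA : ∀ t : 𝓞 (Kp p), (((t : 𝓞 (Kp p)) : Kp p) : Qbar) ∈ A.nonunits → t ∈ 𝔮)
    (hA' : ∀ t : 𝓞 (Kp p), t ∈ 𝔮 → (((t : 𝓞 (Kp p)) : Kp p) : Qbar) ∈ A.nonunits)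
    (x y : 𝓞 (Kp p)) (hx : x ≠ 0) (hy : y ≠ 0)
    (hxy : (((x : 𝓞 (Kp p)) : Kp p) : Qbar) / (((y : 𝓞 (Kp p)) : Kp p) : Qbar) ∈ A) (n : ℕ)
    (hn : 𝔮 ^ n ∣ span {y}) : 𝔮 ^ n ∣ span {x} := by
  have hx' : span {x} ≠ 0 := by simpa using hx
  have hunit : ¬ IsUnit 𝔮 := by
    rw [Ideal.isUnit_iff]
    exact h𝔮.ne_top
  have hfin : FiniteMultiplicity 𝔮 (span {x}) := FiniteMultiplicity.of_not_isUnit hunit hx'
  obtain ⟨J', hJ', hndvd⟩ := hfin.exists_eq_pow_mul_and_not_dvd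
  set m := multiplicity 𝔮 (span {x}) with hm
  by_cases hnm : n ≤ m
  · exact (pow_dvd_pow 𝔮 hnm).trans (hJ' ▸ dvd_mul_right _ _)
  exfalso
  obtain ⟨J, hJ⟩ := (pow_dvd_pow 𝔮 (show m + 1 ≤ n by omega)).trans hn
  rw [Ideal.dvd_iff_le, SetLike.not_le_iff_exists] at hndvd
  obtain ⟨j', hj', hj'q⟩ := hndvd
  have h1 : y * j' ∈ 𝔮 * span {x} := by
    have h2 : y * j' ∈ span {y} * J' := Ideal.mul_mem_mul (mem_span_singleton_self y) hj'
    have h3 : span {y} * J' = (𝔮 * span {x}) * J := by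
      rw [hJ, hJ', pow_succ]
      ring
    rw [h3] at h2
    exact Ideal.mul_le_left h2
  rw [Ideal.mem_mul_span_singleton] at h1
  obtain ⟨b, hb, hbx⟩ := h1
  apply hj'q
  apply hA
  have hy' : (((y : 𝓞 (Kp p)) : Kp p) : Qbar) ≠ 0 := by simpa using hy
  have e : (((j' : 𝓞 (Kp p)) : Kp p) : Qbar) = (((b : 𝓞 (Kp p)) : Kp p) : Qbar) *
      ((((x : 𝓞 (Kp p)) : Kp p) : Qbar) / (((y : 𝓞 (Kp p)) : Kp p) : Qbar)) := by
    have := congrArg (fun t : 𝓞 (Kp p) => ((t : Kp p) : Qbar)) hbx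
    push_cast at this
    field_simp
    rw [this]
    ring
  rw [e]
  exact mul_mem_nonunits A (hA' b hb) hxy

lemma mem_span_pi (A : ValuationSubring Qbar) (hA : A.LiesOverPrime p) (t : 𝓞 (Kp p))
    (ht : (((t : 𝓞 (Kp p)) : Kp p) : Qbar) ∈ A.nonunits) : t ∈ span {piO (zetaK_spec p)} := by
  rw [mem_span_singleton]
  by_contra h
  rw [ValuationSubring.mem_nonunits_iff, val_eq_one_of_not_dvd A hA t h] at ht
  exact lt_irrefl _ ht

lemma coe_mem_nonunits_of_mem_span_pi (A : ValuationSubring Qbar) (hA : A.LiesOverPrime p)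
    (t : 𝓞 (Kp p)) (ht : t ∈ span {piO (zetaK_spec p)}) :
    (((t : 𝓞 (Kp p)) : Kp p) : Qbar) ∈ A.nonunits := by
  rw [mem_span_singleton] at ht
  obtain ⟨s, rfl⟩ := ht
  push_cast
  rw [coe_piO]
  exact mul_mem_nonunits A ((ValuationSubring.mem_nonunits_iff A).mpr (val_pi_lt A hA))
    (coe_mem A s)

lemma span_pi_isPrime : (span {piO (zetaK_spec p)} : Ideal (𝓞 (Kp p))).IsPrime :=
  (span_singleton_prime (piO_ne_zero _)).mpr (Glue.piO_prime _)

lemma span_pi_ne_bot : (span {piO (zetaK_spec p)} : Ideal (𝓞 (Kp p))) ≠ ⊥ := by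
  simpa using piO_ne_zero (zetaK_spec p)

end IdealPow

open IdealPow

/-- [B3] -/
theorem piO_pow_dvd_of_mem (A : ValuationSubring Qbar) (hA : A.LiesOverPrime p)
    (x : 𝓞 (Kp p)) (n : ℕ) (hx : (((x : 𝓞 (Kp p)) : Kp p) : Qbar) / (zetaBar p - 1) ^ n ∈ A) :
    piO (zetaK_spec p) ^ n ∣ x := by
  by_cases hx0 : x = 0
  · rw [hx0]; exact dvd_zero _
  have h := pow_dvd_of_div_mem A _ span_pi_isPrime span_pi_ne_bot (mem_span_pi A hA)
    (coe_mem_nonunits_of_mem_span_pi A hA) x (piO (zetaK_spec p) ^ n) hx0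
    (pow_ne_zero _ (piO_ne_zero _)) (by push_cast; rw [coe_piO]; exact hx) n
    (by rw [span_singleton_pow])
  rw [span_singleton_pow, Ideal.dvd_iff_le, span_singleton_le_span_singleton] at h
  exact h

/-- [B3] `A ∩ K` is the localisation of `𝓞 K` at `π`. -/
theorem exists_mul_mem_integers (A : ValuationSubring Qbar) (hA : A.LiesOverPrime p)
    (x : Kp p) (hx : (x : Qbar) ∈ A) :
    ∃ t y : 𝓞 (Kp p), ¬ piO (zetaK_spec p) ∣ t ∧ x * (t : Kp p) = (y : Kp p) := by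
  obtain ⟨β, γ, hγ, rfl⟩ := IsFractionRing.div_surjective (A := 𝓞 (Kp p)) x
  have hγ0 : γ ≠ 0 := nonZeroDivisors.ne_zero hγ
  by_cases hβ0 : β = 0
  · refine ⟨1, 0, ?_, by simp [hβ0]⟩
    exact (Glue.piO_prime (zetaK_spec p)).not_dvd_one
  set 𝔮 : Ideal (𝓞 (Kp p)) := span {piO (zetaK_spec p)} with h𝔮
  have hunit : ¬ IsUnit 𝔮 := by
    rw [Ideal.isUnit_iff]
    exact span_pi_isPrime.ne_top
  have hfin : FiniteMultiplicity 𝔮 (span {γ}) :=
    FiniteMultiplicity.of_not_isUnit hunit (by simpa using hγ0)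
  obtain ⟨J, hJ, hndvd⟩ := hfin.exists_eq_pow_mul_and_not_dvd
  set n := multiplicity 𝔮 (span {γ}) with hn
  obtain ⟨J1, hJ1⟩ := pow_dvd_of_div_mem A _ span_pi_isPrime span_pi_ne_bot (mem_span_pi A hA)
    (coe_mem_nonunits_of_mem_span_pi A hA) β γ hβ0 hγ0 (by simpa using hx) n
    (hJ ▸ dvd_mul_right _ _)
  rw [Ideal.dvd_iff_le, SetLike.not_le_iff_exists] at hndvd
  obtain ⟨t, htJ, htq⟩ := hndvd
  have h1 : β * t ∈ span {γ} := by
    have h2 : β * t ∈ span {β} * J := Ideal.mul_mem_mul (mem_span_singleton_self β) htJ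
    have h3 : span {β} * J = span {γ} * J1 := by
      rw [hJ1, hJ]
      ring
    rw [h3] at h2
    exact Ideal.mul_le_left h2
  rw [mem_span_singleton] at h1
  obtain ⟨y, hy⟩ := h1
  refine ⟨t, y, fun h => htq (mem_span_singleton.mpr h), ?_⟩
  have hγ' : algebraMap (𝓞 (Kp p)) (Kp p) γ ≠ 0 := by simpa using hγ0
  have := congrArg (algebraMap (𝓞 (Kp p)) (Kp p)) hy
  rw [map_mul, map_mul] at this
  rw [div_mul_eq_mul_div, div_eq_iff hγ', this]
  ring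

namespace IdealPow

lemma exists_prime_mem (𝔮 : Ideal (𝓞 (Kp p))) (h𝔮 : 𝔮.IsPrime) (n : ℕ) (hn : n ≠ 0)
    (hmem : (n : 𝓞 (Kp p)) ∈ 𝔮) : ∃ ℓ : ℕ, ℓ.Prime ∧ (ℓ : 𝓞 (Kp p)) ∈ 𝔮 := by
  induction n using Nat.recOnMul with
  | zero => exact absurd rfl hn
  | one =>
    exfalso
    apply h𝔮.ne_top
    rw [eq_top_iff_one]
    simpa using hmem
  | prime ℓ hℓ => exact ⟨ℓ, hℓ, hmem⟩
  | mul a b iha ihb =>
    rw [Nat.cast_mul] at hmem
    have ha : a ≠ 0 := fun h => hn (by rw [h, zero_mul])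
    have hb : b ≠ 0 := fun h => hn (by rw [h, mul_zero])
    rcases h𝔮.mem_or_mem hmem with h | h
    · exact iha ha h
    · exact ihb hb h

/-- a valuation subring of `Qbar` above a given prime of `𝓞 K` -/
lemma exists_valuationSubring (𝔮 : Ideal (𝓞 (Kp p))) (h𝔮 : 𝔮.IsPrime) (h0 : 𝔮 ≠ ⊥) :
    ∃ (A : ValuationSubring Qbar) (ℓ : ℕ), ℓ.Prime ∧ A.LiesOverPrime ℓ ∧
      (∀ t : 𝓞 (Kp p), (((t : 𝓞 (Kp p)) : Kp p) : Qbar) ∈ A.nonunits → t ∈ 𝔮) ∧
      (∀ t : 𝓞 (Kp p), t ∈ 𝔮 → (((t : 𝓞 (Kp p)) : Kp p) : Qbar) ∈ A.nonunits) := by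
  let φ : 𝓞 (Kp p) →+* Qbar := (Kp p).val.toRingHom.comp (algebraMap (𝓞 (Kp p)) (Kp p))
  have hφ : ∀ t, φ t = (((t : 𝓞 (Kp p)) : Kp p) : Qbar) := fun t => rfl
  have hφinj : Function.Injective φ :=
    (Kp p).val.toRingHom.injective.comp RingOfIntegers.coe_injective
  let R : Subring Qbar := φ.range
  let I : Ideal R := 𝔮.map φ.rangeRestrict
  have hI : I ≠ ⊤ := by
    intro h
    apply h𝔮.ne_top
    have h1 : (1 : R) ∈ I := by rw [h]; trivial
    rw [Ideal.mem_map_iff_of_surjective _ φ.rangeRestrict_surjective] at h1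
    obtain ⟨t, ht, ht1⟩ := h1
    have : t = 1 := by
      apply hφinj
      have := congrArg Subtype.val ht1
      simpa using this
    rw [eq_top_iff_one, ← this]
    exact ht
  obtain ⟨A, hRA, hIA⟩ := Ideal.image_subset_nonunits_valuationSubring I hI
  have hA' : ∀ t : 𝓞 (Kp p), t ∈ 𝔮 → (((t : 𝓞 (Kp p)) : Kp p) : Qbar) ∈ A.nonunits := by
    intro t ht
    exact hIA ⟨φ.rangeRestrict t, Ideal.mem_map_of_mem _ ht, rfl⟩
  have hmax : 𝔮.IsMaximal := h𝔮.isMaximal h0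
  have hA : ∀ t : 𝓞 (Kp p), (((t : 𝓞 (Kp p)) : Kp p) : Qbar) ∈ A.nonunits → t ∈ 𝔮 := by
    intro t ht
    by_contra htq
    obtain ⟨s, hs⟩ := hmax.exists_inv htq
    obtain ⟨i, hi, hsum⟩ := hs
    apply one_notMem_nonunits A
    have e : (1 : Qbar) = (((s : 𝓞 (Kp p)) : Kp p) : Qbar) * (((t : 𝓞 (Kp p)) : Kp p) : Qbar) +
        (((i : 𝓞 (Kp p)) : Kp p) : Qbar) := by
      have := congrArg φ hsum
      simp only [map_add, map_mul, map_one, hφ] at this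
      exact this.symm
    rw [e]
    refine A.nonunits.add_mem ?_ (hA' i hi)
    rw [mul_comm]
    exact mul_mem_nonunits A ht (coe_mem A s)
  have hn0 : absNorm 𝔮 ≠ 0 := by
    rw [Ne, absNorm_eq_zero_iff]
    exact h0
  obtain ⟨ℓ, hℓ, hℓq⟩ := exists_prime_mem 𝔮 h𝔮 _ hn0 (absNorm_mem 𝔮)
  refine ⟨A, ℓ, hℓ, ?_, hA, hA'⟩
  have := hA' _ hℓq
  simpa [ValuationSubring.LiesOverPrime] using this

end IdealPow

/-- [B3] -/
theorem exists_ideal_pow (α : 𝓞 (Kp p)) (hα : α ≠ 0)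
    (h : ∀ ℓ : ℕ, ℓ.Prime → ∀ A : ValuationSubring Qbar, A.LiesOverPrime ℓ →
      ∃ z : Kp p, z ≠ 0 ∧ A.valuation ((((α : 𝓞 (Kp p)) : Kp p) : Qbar) * (z : Qbar) ^ p) = 1) :
    ∃ 𝔞 : Ideal (𝓞 (Kp p)), span {α} = 𝔞 ^ p := by
  classical
  have hα' : span {α} ≠ 0 := by simpa using hα
  have key : ∀ 𝔮 ∈ UniqueFactorizationMonoid.normalizedFactors (span {α}),
      p ∣ Multiset.count 𝔮 (UniqueFactorizationMonoid.normalizedFactors (span {α})) := by
    intro 𝔮 h𝔮mem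
    have hprime : Prime 𝔮 := UniqueFactorizationMonoid.prime_of_normalized_factor 𝔮 h𝔮mem
    have h0 : 𝔮 ≠ ⊥ := hprime.ne_zero
    have h𝔮 : 𝔮.IsPrime := Ideal.isPrime_of_prime hprime
    obtain ⟨A, ℓ, hℓ, hAℓ, hA, hA'⟩ := exists_valuationSubring 𝔮 h𝔮 h0
    obtain ⟨z, hz, hv⟩ := h ℓ hℓ A hAℓ
    obtain ⟨β, γ, hγ, rfl⟩ := IsFractionRing.div_surjective (A := 𝓞 (Kp p)) z
    have hγ0 : γ ≠ 0 := nonZeroDivisors.ne_zero hγ
    have hβ0 : β ≠ 0 := by
      rintro rfl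
      simp at hz
    have hγ' : (((γ : 𝓞 (Kp p)) : Kp p) : Qbar) ≠ 0 := by simpa using hγ0
    have hβ' : (((β : 𝓞 (Kp p)) : Kp p) : Qbar) ≠ 0 := by simpa using hβ0
    have hαQ : (((α : 𝓞 (Kp p)) : Kp p) : Qbar) ≠ 0 := by simpa using hα
    have e1 : (((α * β ^ p : 𝓞 (Kp p)) : Kp p) : Qbar) / (((γ ^ p : 𝓞 (Kp p)) : Kp p) : Qbar) =
        (((α : 𝓞 (Kp p)) : Kp p) : Qbar) *
          ((algebraMap (𝓞 (Kp p)) (Kp p) β / algebraMap (𝓞 (Kp p)) (Kp p) γ : Kp p) : Qbar) ^ p := by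
      push_cast
      rw [div_pow]
      ring
    have h1 : (((α * β ^ p : 𝓞 (Kp p)) : Kp p) : Qbar) / (((γ ^ p : 𝓞 (Kp p)) : Kp p) : Qbar) ∈ A := by
      rw [e1, ← ValuationSubring.valuation_le_one_iff]
      exact hv.le
    have h2 : (((γ ^ p : 𝓞 (Kp p)) : Kp p) : Qbar) / (((α * β ^ p : 𝓞 (Kp p)) : Kp p) : Qbar) ∈ A := by
      rw [← inv_div, e1, ← ValuationSubring.valuation_le_one_iff, map_inv₀, hv, inv_one]
    have hab : α * β ^ p ≠ 0 := mul_ne_zero hα (pow_ne_zero _ hβ0)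
    have hc : γ ^ p ≠ 0 := pow_ne_zero _ hγ0
    have hmult : emultiplicity 𝔮 (span {α * β ^ p}) = emultiplicity 𝔮 (span {γ ^ p}) := by
      rw [emultiplicity_eq_emultiplicity_iff]
      intro n
      exact ⟨pow_dvd_of_div_mem A 𝔮 h𝔮 h0 hA hA' _ _ hc hab h2 n,
        pow_dvd_of_div_mem A 𝔮 h𝔮 h0 hA hA' _ _ hab hc h1 n⟩
    rw [← span_singleton_mul_span_singleton, ← span_singleton_pow, ← span_singleton_pow,
      emultiplicity_mul hprime, emultiplicity_pow hprime, emultiplicity_pow hprime,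
      UniqueFactorizationMonoid.emultiplicity_eq_count_normalizedFactors hprime.irreducible hα',
      UniqueFactorizationMonoid.emultiplicity_eq_count_normalizedFactors hprime.irreducible
        (by simpa using hβ0 : span {β} ≠ 0),
      UniqueFactorizationMonoid.emultiplicity_eq_count_normalizedFactors hprime.irreducible
        (by simpa using hγ0 : span {γ} ≠ 0), normalize_eq] at hmult
    have hmult' : Multiset.count 𝔮 (UniqueFactorizationMonoid.normalizedFactors (span {α})) +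
        p * Multiset.count 𝔮 (UniqueFactorizationMonoid.normalizedFactors (span {β})) =
        p * Multiset.count 𝔮 (UniqueFactorizationMonoid.normalizedFactors (span {γ})) := by
      exact_mod_cast hmult
    exact (Nat.dvd_add_left (dvd_mul_right _ _)).mp (hmult' ▸ dvd_mul_right _ _)
  obtain ⟨u, hu⟩ := Multiset.exists_smul_of_dvd_count _ key
  refine ⟨u.prod, ?_⟩
  rw [← Multiset.prod_nsmul, ← hu]
  exact (Ideal.prod_normalizedFactors_eq_self hα').symm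

end Fermat.Agent.S14
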