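import Fermat.Agent.S14.Defs

/-!
# S14, package LOC : `isEig_TO` and `exists_Lambda`
-/

set_option autoImplicit false
set_option linter.unusedSectionVars false

namespace Fermat.Agent.S14

open NumberField Polynomial

namespace Local

/-- Truncated polynomials `a + b ε + c ε²` with `ε³ = 0`. -/
@[ext] structure T3 (R : Type*) where
  /-- constant coefficient -/
  a : R
  /-- coefficient of `ε` -/
  b : R
  /-- coefficient of `ε²` -/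
  c : R

namespace T3

variable {R : Type*} [CommRing R]

instance : Zero (T3 R) := ⟨⟨0, 0, 0⟩⟩
instance : One (T3 R) := ⟨⟨1, 0, 0⟩⟩
instance : Add (T3 R) := ⟨fun x y => ⟨x.a + y.a, x.b + y.b, x.c + y.c⟩⟩
instance : Neg (T3 R) := ⟨fun x => ⟨-x.a, -x.b, -x.c⟩⟩
instance : Mul (T3 R) :=
  ⟨fun x y => ⟨x.a * y.a, x.a * y.b + x.b * y.a, x.a * y.c + x.b * y.b + x.c * y.a⟩⟩

@[simp] lemma zero_a : (0 : T3 R).a = 0 := rfl
@[simp] lemma zero_b : (0 : T3 R).b = 0 := rfl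
@[simp] lemma zero_c : (0 : T3 R).c = 0 := rfl
@[simp] lemma one_a : (1 : T3 R).a = 1 := rfl
@[simp] lemma one_b : (1 : T3 R).b = 0 := rfl
@[simp] lemma one_c : (1 : T3 R).c = 0 := rfl
@[simp] lemma add_a (x y : T3 R) : (x + y).a = x.a + y.a := rfl
@[simp] lemma add_b (x y : T3 R) : (x + y).b = x.b + y.b := rfl
@[simp] lemma add_c (x y : T3 R) : (x + y).c = x.c + y.c := rfl
@[simp] lemma neg_a (x : T3 R) : (-x).a = -x.a := rfl
@[simp] lemma neg_b (x : T3 R) : (-x).b = -x.b := rfl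
@[simp] lemma neg_c (x : T3 R) : (-x).c = -x.c := rfl
@[simp] lemma mul_a (x y : T3 R) : (x * y).a = x.a * y.a := rfl
@[simp] lemma mul_b (x y : T3 R) : (x * y).b = x.a * y.b + x.b * y.a := rfl
@[simp] lemma mul_c (x y : T3 R) : (x * y).c = x.a * y.c + x.b * y.b + x.c * y.a := rfl

instance : CommRing (T3 R) where
  add_assoc x y z := by ext <;> simp [add_assoc]
  zero_add x := by ext <;> simp
  add_zero x := by ext <;> simp
  add_comm x y := by ext <;> simp [add_comm]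
  neg_add_cancel x := by ext <;> simp
  mul_assoc x y z := by ext <;> simp <;> ring
  one_mul x := by ext <;> simp
  mul_one x := by ext <;> simp
  zero_mul x := by ext <;> simp
  mul_zero x := by ext <;> simp
  left_distrib x y z := by ext <;> simp <;> ring
  right_distrib x y z := by ext <;> simp <;> ring
  mul_comm x y := by ext <;> simp <;> ring
  nsmul := nsmulRec
  zsmul := zsmulRec

@[simp] lemma sub_a (x y : T3 R) : (x - y).a = x.a - y.a := by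
  rw [sub_eq_add_neg]; simp [sub_eq_add_neg]
@[simp] lemma sub_b (x y : T3 R) : (x - y).b = x.b - y.b := by
  rw [sub_eq_add_neg]; simp [sub_eq_add_neg]
@[simp] lemma sub_c (x y : T3 R) : (x - y).c = x.c - y.c := by
  rw [sub_eq_add_neg]; simp [sub_eq_add_neg]

/-- The inclusion of constants. -/
def inc : R →+* T3 R where
  toFun r := ⟨r, 0, 0⟩
  map_one' := rfl
  map_zero' := rfl
  map_mul' x y := by ext <;> simp
  map_add' x y := by ext <;> simp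

/-- The constant coefficient as a ring homomorphism. -/
def aHom : T3 R →+* R where
  toFun x := x.a
  map_one' := rfl
  map_zero' := rfl
  map_mul' _ _ := rfl
  map_add' _ _ := rfl

lemma intCast_eq (n : ℤ) : (n : T3 R) = ⟨n, 0, 0⟩ := (map_intCast (inc (R := R)) n).symm

lemma natCast_eq (n : ℕ) : (n : T3 R) = ⟨n, 0, 0⟩ := (map_natCast (inc (R := R)) n).symm

/-- `1 + ε`. -/
def y1 : T3 R := ⟨1, 1, 0⟩

lemma y1_pow (i : ℕ) : (y1 : T3 R) ^ i = ⟨1, i, (i.choose 2 : ℕ)⟩ := by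
  induction i with
  | zero => ext <;> simp
  | succ n ih =>
    rw [pow_succ, ih]
    ext
    · simp [y1]
    · simp [y1, add_comm]
    · simp [y1, Nat.choose_succ_succ' n 1, add_comm]

lemma sum_y1_pow (n : ℕ) :
    ∑ i ∈ Finset.range n, (y1 : T3 R) ^ i = ⟨n, (n.choose 2 : ℕ), (n.choose 3 : ℕ)⟩ := by
  induction n with
  | zero => ext <;> simp
  | succ n ih =>
    rw [Finset.sum_range_succ, ih, y1_pow]
    ext
    · simp
    · simp [Nat.choose_succ_succ' n 1, add_comm]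
    · simp [Nat.choose_succ_succ' n 2, add_comm]

lemma two_mul_choose_two (n : ℕ) : (2 : R) * (n.choose 2 : ℕ) = n * (n - 1) := by
  induction n with
  | zero => simp
  | succ n ih =>
    rw [Nat.choose_succ_succ' n 1]
    push_cast
    rw [mul_add, ih, Nat.choose_one_right]
    ring

lemma six_mul_choose_three (n : ℕ) : (6 : R) * (n.choose 3 : ℕ) = n * (n - 1) * (n - 2) := by
  induction n with
  | zero => simp
  | succ n ih =>
    rw [Nat.choose_succ_succ' n 2]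
    push_cast
    rw [mul_add, ih]
    have := two_mul_choose_two (R := R) n
    linear_combination 3 * this

end T3

section Hom

variable {p : ℕ} [hp : Fact p.Prime] {K : Type*} [Field K] [NumberField K]
  [IsCyclotomicExtension {p} ℚ K] {ζ : K}

lemma minpoly_toInteger (hζ : IsPrimitiveRoot ζ p) :
    minpoly ℤ hζ.toInteger = cyclotomic p ℤ := by
  rw [cyclotomic_eq_minpoly hζ hp.out.pos]
  exact (RingOfIntegers.minpoly_coe hζ.toInteger).symm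

lemma aeval_y1 (hζ : IsPrimitiveRoot ζ p) (hp5 : 5 ≤ p) :
    aeval (T3.y1 : T3 (ZMod p)) (minpoly ℤ hζ.integralPowerBasis.gen) = 0 := by
  rw [hζ.integralPowerBasis_gen, minpoly_toInteger, cyclotomic_prime]
  simp only [map_sum, map_pow, aeval_X]
  rw [T3.sum_y1_pow]
  ext
  · simp
  · simpa using (ZMod.natCast_eq_zero_iff _ _).2 (hp.out.dvd_choose_self (by omega) (by omega))
  · simpa using (ZMod.natCast_eq_zero_iff _ _).2 (hp.out.dvd_choose_self (by omega) (by omega))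

/-- The ring homomorphism `𝓞 K → 𝔽_p[ε]/ε³`, `ζ ↦ 1 + ε`. -/
noncomputable def phi (hζ : IsPrimitiveRoot ζ p) (hp5 : 5 ≤ p) : 𝓞 K →ₐ[ℤ] T3 (ZMod p) :=
  hζ.integralPowerBasis.lift _ (aeval_y1 hζ hp5)

lemma phi_zeta (hζ : IsPrimitiveRoot ζ p) (hp5 : 5 ≤ p) :
    phi hζ hp5 hζ.toInteger = T3.y1 := by
  have := hζ.integralPowerBasis.lift_gen _ (aeval_y1 hζ hp5)
  rwa [hζ.integralPowerBasis_gen] at this

lemma phi_pi_pow_three (hζ : IsPrimitiveRoot ζ p) (hp5 : 5 ≤ p) :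
    phi hζ hp5 (piO hζ ^ 3) = 0 := by
  rw [map_pow, piO, map_sub, map_one, phi_zeta]
  ext <;> simp [T3.y1, pow_succ]

lemma phi_unit_a_ne_zero (hζ : IsPrimitiveRoot ζ p) (hp5 : 5 ≤ p) (u : (𝓞 K)ˣ) :
    (phi hζ hp5 (u : 𝓞 K)).a ≠ 0 := by
  have h : IsUnit ((T3.aHom.comp (phi hζ hp5).toRingHom) (u : 𝓞 K)) := u.isUnit.map _
  exact h.ne_zero

/-- `Λ₁`. -/
noncomputable def lam1 (hζ : IsPrimitiveRoot ζ p) (hp5 : 5 ≤ p) :
    (𝓞 K)ˣ →* Multiplicative (ZMod p) where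
  toFun u := Multiplicative.ofAdd ((phi hζ hp5 (u : 𝓞 K)).b / (phi hζ hp5 (u : 𝓞 K)).a)
  map_one' := by simp
  map_mul' u v := by
    rw [← ofAdd_add]
    congr 1
    have hu := phi_unit_a_ne_zero hζ hp5 u
    have hv := phi_unit_a_ne_zero hζ hp5 v
    simp only [Units.val_mul, map_mul, T3.mul_a, T3.mul_b]
    field_simp
    ring

/-- `Λ₂`. -/
noncomputable def lam2 (hζ : IsPrimitiveRoot ζ p) (hp5 : 5 ≤ p) :
    (𝓞 K)ˣ →* Multiplicative (ZMod p) where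
  toFun u := Multiplicative.ofAdd (2 * ((phi hζ hp5 (u : 𝓞 K)).c / (phi hζ hp5 (u : 𝓞 K)).a) -
    ((phi hζ hp5 (u : 𝓞 K)).b / (phi hζ hp5 (u : 𝓞 K)).a) ^ 2)
  map_one' := by simp
  map_mul' u v := by
    rw [← ofAdd_add]
    congr 1
    have hu := phi_unit_a_ne_zero hζ hp5 u
    have hv := phi_unit_a_ne_zero hζ hp5 v
    simp only [Units.val_mul, map_mul, T3.mul_a, T3.mul_b, T3.mul_c]
    field_simp
    ring

lemma toAdd_lam1 (hζ : IsPrimitiveRoot ζ p) (hp5 : 5 ≤ p) (u : (𝓞 K)ˣ) :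
    (lam1 hζ hp5 u).toAdd = (phi hζ hp5 (u : 𝓞 K)).b / (phi hζ hp5 (u : 𝓞 K)).a := rfl

lemma toAdd_lam2 (hζ : IsPrimitiveRoot ζ p) (hp5 : 5 ≤ p) (u : (𝓞 K)ˣ) :
    (lam2 hζ hp5 u).toAdd = 2 * ((phi hζ hp5 (u : 𝓞 K)).c / (phi hζ hp5 (u : 𝓞 K)).a) -
    ((phi hζ hp5 (u : 𝓞 K)).b / (phi hζ hp5 (u : 𝓞 K)).a) ^ 2 := rfl

lemma phi_eq_of_dvd (hζ : IsPrimitiveRoot ζ p) (hp5 : 5 ≤ p) (x : 𝓞 K) (c : ℤ)
    (h : piO hζ ^ 3 ∣ x - c) : phi hζ hp5 x = ⟨c, 0, 0⟩ := by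
  obtain ⟨w, hw⟩ := h
  have hx : x = c + piO hζ ^ 3 * w := by rw [← hw]; ring
  rw [hx, map_add, map_mul, phi_pi_pow_three, zero_mul, add_zero, map_intCast, T3.intCast_eq]

lemma autToPow_bijective (hζ : IsPrimitiveRoot ζ p) :
    Function.Bijective (hζ.autToPow ℚ) := by
  rw [Fintype.bijective_iff_injective_and_card]
  refine ⟨hζ.autToPow_injective ℚ, ?_⟩
  exact Fintype.card_congr
    (IsCyclotomicExtension.autEquivPow K (cyclotomic.irreducible_rat hp.out.pos)).toEquiv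

lemma ex_cast (hζ : IsPrimitiveRoot ζ p) (δ : K ≃ₐ[ℚ] K) :
    (ex hζ δ : ZMod p) = ((hζ.autToPow ℚ δ : (ZMod p)ˣ) : ZMod p) := by
  simp [ex]

lemma sum_gal (hζ : IsPrimitiveRoot ζ p) (f : ZMod p → ZMod p) :
    ∑ δ : K ≃ₐ[ℚ] K, f (ex hζ δ : ZMod p) = ∑ u : (ZMod p)ˣ, f (u : ZMod p) :=
  Fintype.sum_bijective (hζ.autToPow ℚ) (autToPow_bijective hζ) _ _
    (fun δ => by rw [ex_cast])

lemma sum_gal_pow (hζ : IsPrimitiveRoot ζ p) (i : ℕ) :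
    ∑ δ : K ≃ₐ[ℚ] K, (ex hζ δ : ZMod p) ^ i = if p - 1 ∣ i then -1 else 0 := by
  rw [sum_gal hζ (fun x => x ^ i)]
  have := FiniteField.sum_pow_units (ZMod p) i
  rwa [ZMod.card] at this

lemma ex_coprime (hζ : IsPrimitiveRoot ζ p) (δ : K ≃ₐ[ℚ] K) : (ex hζ δ).Coprime p :=
  ZMod.val_coe_unit_coprime _

lemma ex_cast_ne_zero (hζ : IsPrimitiveRoot ζ p) (δ : K ≃ₐ[ℚ] K) : (ex hζ δ : ZMod p) ≠ 0 := by
  rw [ex_cast]; exact Units.ne_zero _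

/-- The cyclotomic unit `1 + ζ + ⋯ + ζ^(b-1)`. -/
noncomputable def gs (hζ : IsPrimitiveRoot ζ p) (δ : K ≃ₐ[ℚ] K) : (𝓞 K)ˣ :=
  (hζ.toInteger_isPrimitiveRoot.geom_sum_isUnit hp.out.two_le (ex_coprime hζ δ)).unit

lemma coe_gs (hζ : IsPrimitiveRoot ζ p) (δ : K ≃ₐ[ℚ] K) :
    (gs hζ δ : 𝓞 K) = ∑ i ∈ Finset.range (ex hζ δ), hζ.toInteger ^ i := rfl

lemma phi_gs (hζ : IsPrimitiveRoot ζ p) (hp5 : 5 ≤ p) (δ : K ≃ₐ[ℚ] K) :
    phi hζ hp5 (gs hζ δ : 𝓞 K) =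
      ⟨(ex hζ δ : ℕ), ((ex hζ δ).choose 2 : ℕ), ((ex hζ δ).choose 3 : ℕ)⟩ := by
  rw [coe_gs, map_sum]
  simp only [map_pow, phi_zeta]
  exact T3.sum_y1_pow _

lemma smul_piO (hζ : IsPrimitiveRoot ζ p) (δ : K ≃ₐ[ℚ] K) :
    δ • piO hζ = piO hζ * (gs hζ δ : 𝓞 K) := by
  rw [coe_gs, piO, mul_comm, geom_sum_mul]
  apply RingOfIntegers.ext
  have h1 : ((δ • (hζ.toInteger - 1) : 𝓞 K) : K) = δ • ((hζ.toInteger - 1 : 𝓞 K) : K) :=
    algebraMap.smul' δ (hζ.toInteger - 1) K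
  rw [h1]
  simp only [map_sub, map_one, map_pow, smul_sub, smul_one]
  congr 1
  exact ex_spec hζ δ

lemma toAdd_map_prod (Λ : (𝓞 K)ˣ →* Multiplicative (ZMod p)) (f : (K ≃ₐ[ℚ] K) → (𝓞 K)ˣ)
    (e : (K ≃ₐ[ℚ] K) → ℕ) :
    (Λ (∏ δ, f δ ^ e δ)).toAdd = ∑ δ, (e δ : ZMod p) * (Λ (f δ)).toAdd := by
  rw [map_prod, toAdd_prod]
  simp [map_pow, toAdd_pow]

lemma two_ne_zero' (hp5 : 5 ≤ p) : (2 : ZMod p) ≠ 0 := by
  intro h
  have h2 : ((2 : ℕ) : ZMod p) = 0 := by exact_mod_cast h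
  rw [ZMod.natCast_eq_zero_iff] at h2
  have := Nat.le_of_dvd (by norm_num) h2
  omega

lemma not_dvd_sub_two (hp5 : 5 ≤ p) : ¬ (p - 1 ∣ p - 2) :=
  Nat.not_dvd_of_pos_of_lt (by omega) (by omega)

lemma not_dvd_sub_three (hp5 : 5 ≤ p) : ¬ (p - 1 ∣ p - 3) :=
  Nat.not_dvd_of_pos_of_lt (by omega) (by omega)

lemma two_mul_lam1_gs (hζ : IsPrimitiveRoot ζ p) (hp5 : 5 ≤ p) (δ : K ≃ₐ[ℚ] K) :
    2 * (lam1 hζ hp5 (gs hζ δ)).toAdd = (ex hζ δ : ZMod p) - 1 := by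
  have hb := ex_cast_ne_zero hζ δ
  rw [toAdd_lam1, phi_gs]
  have h2 := T3.two_mul_choose_two (R := ZMod p) (ex hζ δ)
  field_simp
  linear_combination h2

lemma twelve_mul_lam2_gs (hζ : IsPrimitiveRoot ζ p) (hp5 : 5 ≤ p) (δ : K ≃ₐ[ℚ] K) :
    12 * (lam2 hζ hp5 (gs hζ δ)).toAdd =
      (ex hζ δ : ZMod p) ^ 2 - 6 * (ex hζ δ : ZMod p) + 5 := by
  have hb := ex_cast_ne_zero hζ δ
  have h1 := two_mul_lam1_gs hζ hp5 δ
  rw [toAdd_lam1, phi_gs] at h1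
  rw [toAdd_lam2, phi_gs]
  have h3 : 6 * ((((ex hζ δ).choose 3 : ℕ) : ZMod p) / (ex hζ δ : ZMod p)) =
      ((ex hζ δ : ZMod p) - 1) * ((ex hζ δ : ZMod p) - 2) := by
    have h3 := T3.six_mul_choose_three (R := ZMod p) (ex hζ δ)
    field_simp
    linear_combination h3
  simp only at h1 h3 ⊢
  linear_combination 4 * h3 -
    3 * (2 * ((((ex hζ δ).choose 2 : ℕ) : ZMod p) / (ex hζ δ : ZMod p)) +
      ((ex hζ δ : ZMod p) - 1)) * h1

/-- The cyclotomic unit `η`. -/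
noncomputable def eta (hζ : IsPrimitiveRoot ζ p) : (𝓞 K)ˣ :=
  ∏ δ : K ≃ₐ[ℚ] K, gs hζ δ ^ (ex hζ δ ^ (p - 3))

lemma lam1_eta (hζ : IsPrimitiveRoot ζ p) (hp5 : 5 ≤ p) : lam1 hζ hp5 (eta hζ) = 1 := by
  rw [← toAdd_eq_zero, eta, toAdd_map_prod]
  apply (mul_right_injective₀ (two_ne_zero' hp5))
  simp only [mul_zero, Finset.mul_sum]
  have h : ∀ δ : K ≃ₐ[ℚ] K, 2 * (((ex hζ δ ^ (p - 3) : ℕ) : ZMod p) *
      (lam1 hζ hp5 (gs hζ δ)).toAdd) = (ex hζ δ : ZMod p) ^ (p - 2) - (ex hζ δ : ZMod p) ^ (p - 3) := by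
    intro δ
    have h1 := two_mul_lam1_gs hζ hp5 δ
    have h2 : p - 2 = (p - 3) + 1 := by omega
    rw [h2, pow_succ]
    push_cast
    linear_combination (ex hζ δ : ZMod p) ^ (p - 3) * h1
  simp only [h, Finset.sum_sub_distrib, sum_gal_pow, if_neg (not_dvd_sub_two hp5),
    if_neg (not_dvd_sub_three hp5), sub_zero]

lemma lam2_eta (hζ : IsPrimitiveRoot ζ p) (hp5 : 5 ≤ p) : lam2 hζ hp5 (eta hζ) ≠ 1 := by
  rw [Ne, ← toAdd_eq_zero, eta, toAdd_map_prod]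
  intro h0
  have h12 : 12 * ∑ δ : K ≃ₐ[ℚ] K, ((ex hζ δ ^ (p - 3) : ℕ) : ZMod p) *
      (lam2 hζ hp5 (gs hζ δ)).toAdd = -1 := by
    have h : ∀ δ : K ≃ₐ[ℚ] K, 12 * (((ex hζ δ ^ (p - 3) : ℕ) : ZMod p) *
        (lam2 hζ hp5 (gs hζ δ)).toAdd) = (ex hζ δ : ZMod p) ^ (p - 1) -
          6 * (ex hζ δ : ZMod p) ^ (p - 2) + 5 * (ex hζ δ : ZMod p) ^ (p - 3) := by
      intro δ
      have h1 := twelve_mul_lam2_gs hζ hp5 δ
      have h2 : p - 2 = (p - 3) + 1 := by omega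
      have h3 : p - 1 = (p - 3) + 2 := by omega
      rw [h2, h3, pow_succ, pow_add]
      push_cast
      linear_combination (ex hζ δ : ZMod p) ^ (p - 3) * h1
    rw [Finset.mul_sum]
    simp only [h, Finset.sum_sub_distrib, Finset.sum_add_distrib]
    rw [← Finset.mul_sum, ← Finset.mul_sum]
    simp only [sum_gal_pow, if_neg (not_dvd_sub_two hp5), if_neg (not_dvd_sub_three hp5),
      if_pos (dvd_refl _)]
    ring
  rw [h0, mul_zero] at h12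
  exact one_ne_zero (neg_eq_zero.1 h12.symm)

lemma theta_eq (hζ : IsPrimitiveRoot ζ p) (hp5 : 5 ≤ p) :
    ∃ N : ℕ, theta hζ = piO hζ ^ (p * N) * (eta hζ : 𝓞 K) := by
  have hdvd : p ∣ ∑ δ : K ≃ₐ[ℚ] K, ex hζ δ ^ (p - 3) := by
    rw [← ZMod.natCast_eq_zero_iff]
    push_cast
    rw [sum_gal_pow, if_neg (not_dvd_sub_three hp5)]
  obtain ⟨N, hN⟩ := hdvd
  refine ⟨N, ?_⟩
  rw [theta, TO]
  simp only [smul_piO, mul_pow]
  rw [Finset.prod_mul_distrib, Finset.prod_pow_eq_pow_sum, hN, eta]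
  push_cast
  rfl

lemma exists_pow_eq (a : K) (ha : a ≠ 0) (m n : ℕ) (h : m ≡ n [MOD p]) :
    ∃ y : K, a ^ m = a ^ n * y ^ p := by
  rcases le_total n m with hnm | hnm
  · obtain ⟨t, ht⟩ := (Nat.modEq_iff_dvd' hnm).1 h.symm
    refine ⟨a ^ t, ?_⟩
    rw [← pow_mul, ← pow_add, mul_comm t p, ← ht]
    congr 1
    omega
  · obtain ⟨t, ht⟩ := (Nat.modEq_iff_dvd' hnm).1 h
    refine ⟨(a ^ t)⁻¹, ?_⟩
    have hn : n = m + p * t := by omega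
    rw [hn, pow_add, inv_pow, ← pow_mul, mul_comm t p, mul_assoc,
      mul_inv_cancel₀ (pow_ne_zero _ ha), mul_one]

lemma coe_smul (δ : K ≃ₐ[ℚ] K) (x : 𝓞 K) : ((δ • x : 𝓞 K) : K) = δ (x : K) :=
  algebraMap.smul' δ x K

end Hom

end Local

section Main

variable {p : ℕ} [Fact p.Prime] {K : Type*} [Field K] [NumberField K]
  [IsCyclotomicExtension {p} ℚ K] {ζ : K}

open Local

/-- [LOC0] `T x` is an `ω²`-eigenvector. -/
theorem isEig_TO (hζ : IsPrimitiveRoot ζ p) (hp5 : 5 ≤ p) (x : 𝓞 K) (hx : x ≠ 0) :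
    IsEig p ζ ((TO hζ x : 𝓞 K) : K) := by
  intro δ k hk
  have hx' : ∀ ε : K ≃ₐ[ℚ] K, ε (x : K) ≠ 0 := fun ε => by
    rw [Ne, map_eq_zero]
    exact_mod_cast hx
  have hkex : (k : ZMod p) = (ex hζ δ : ZMod p) := by
    have h1 : ζ ^ k = ζ ^ ex hζ δ := by rw [← hk, ex_spec hζ δ]
    have hζ0 : ζ ≠ 0 := hζ.ne_zero (Fact.out : p.Prime).ne_zero
    have h2 : ζ ^ ((k : ℤ) - (ex hζ δ : ℤ)) = 1 := by
      rw [zpow_sub₀ hζ0, zpow_natCast, zpow_natCast, h1, div_self (pow_ne_zero _ hζ0)]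
    have h3 := (ZMod.intCast_zmod_eq_zero_iff_dvd _ p).2 ((hζ.zpow_eq_one_iff_dvd _).1 h2)
    push_cast at h3
    exact sub_eq_zero.1 h3
  have hcong : ∀ δ' : K ≃ₐ[ℚ] K,
      ex hζ δ' ^ (p - 3) ≡ ex hζ (δ * δ') ^ (p - 3) * k ^ 2 [MOD p] := by
    intro δ'
    rw [← ZMod.natCast_eq_natCast_iff]
    push_cast
    rw [hkex, ex_cast hζ (δ * δ'), map_mul, Units.val_mul, ← ex_cast, ← ex_cast, mul_pow]
    have h1 : (ex hζ δ : ZMod p) ^ (p - 1) = 1 :=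
      ZMod.pow_card_sub_one_eq_one (ex_cast_ne_zero hζ δ)
    have h3 : p - 1 = (p - 3) + 2 := by omega
    rw [h3, pow_add] at h1
    linear_combination (-(ex hζ δ' : ZMod p) ^ (p - 3)) * h1
  choose y hy using fun δ' : K ≃ₐ[ℚ] K =>
    exists_pow_eq (p := p) ((δ * δ') (x : K)) (hx' _) _ _ (hcong δ')
  refine ⟨∏ δ', y δ', ?_⟩
  have hT : ((TO hζ x : 𝓞 K) : K) = ∏ ε : K ≃ₐ[ℚ] K, (ε (x : K)) ^ (ex hζ ε ^ (p - 3)) := by
    rw [TO]
    change algebraMap (𝓞 K) K _ = _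
    rw [map_prod]
    simp only [map_pow]
    rfl
  rw [hT, map_prod, ← Finset.prod_pow, ← Finset.prod_pow, ← Equiv.prod_comp (Equiv.mulLeft δ)
    (fun ε : K ≃ₐ[ℚ] K => ((ε (x : K)) ^ (ex hζ ε ^ (p - 3))) ^ k ^ 2), ← Finset.prod_mul_distrib]
  refine Finset.prod_congr rfl fun δ' _ => ?_
  rw [map_pow, Equiv.coe_mulLeft, ← pow_mul, ← hy δ']
  rfl

/-- [LOC] the two "logarithmic derivatives" modulo `π³` and the cyclotomic unit `η`. -/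
theorem exists_Lambda (hζ : IsPrimitiveRoot ζ p) (hp5 : 5 ≤ p) :
    ∃ (Λ₁ Λ₂ : (𝓞 K)ˣ →* Multiplicative (ZMod p)) (η : (𝓞 K)ˣ) (N : ℕ),
      theta hζ = piO hζ ^ (p * N) * η ∧
      (∀ (u : (𝓞 K)ˣ) (c : ℤ), piO hζ ^ 3 ∣ (u : 𝓞 K) - c → Λ₁ u = 1 ∧ Λ₂ u = 1) ∧
      Λ₁ (zU hζ) ≠ 1 ∧ Λ₁ η = 1 ∧ Λ₂ η ≠ 1 := by
  obtain ⟨N, hN⟩ := theta_eq hζ hp5
  refine ⟨lam1 hζ hp5, lam2 hζ hp5, eta hζ, N, hN, ?_, ?_, lam1_eta hζ hp5, lam2_eta hζ hp5⟩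
  · intro u c h
    have h1 := phi_eq_of_dvd hζ hp5 _ c h
    constructor
    · rw [← toAdd_eq_zero, toAdd_lam1, h1]
      simp
    · rw [← toAdd_eq_zero, toAdd_lam2, h1]
      simp
  · rw [Ne, ← toAdd_eq_zero, toAdd_lam1, coe_zU, phi_zeta]
    simp [T3.y1]

end Main

end Fermat.Agent.S14
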