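import Fermat.Agent.S14.Defs
import Fermat.Agent.Lib.Frobenius
import Fermat.Agent.S14.Lift

/-!
# S14, package B2 : local analysis of a Kummer datum
-/

set_option autoImplicit false

namespace Fermat.Agent.S14

open NumberField Ideal
open scoped Pointwise

namespace LocalUnits

open Fermat.Agent.Lib.Frobenius (mem_of_isIntegral mul_mem_nonunits one_notMem_nonunits
  intCast_notMem_nonunits valuation_eq_one pow_mem_nonunits_iff)

section General

variable (L : IntermediateField ℚ Qbar) [FiniteDimensional ℚ L] (A : ValuationSubring Qbar)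

instance instNumberField : NumberField L where
  to_charZero := inferInstance
  to_finiteDimensional := inferInstance

lemma isIntegral_coe (x : 𝓞 L) : IsIntegral ℤ (((x : 𝓞 L) : L) : Qbar) :=
  (RingOfIntegers.isIntegral_coe x).map L.val

/-- The inclusion of `𝓞 L` in `A`. -/
noncomputable def inc : 𝓞 L →+* A where
  toFun x := ⟨((x : L) : Qbar), mem_of_isIntegral A (isIntegral_coe L x)⟩
  map_one' := rfl
  map_mul' _ _ := rfl
  map_zero' := rfl
  map_add' _ _ := rfl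

/-- The prime of `𝓞 L` cut out by `A`. -/
noncomputable def PP : Ideal (𝓞 L) := (IsLocalRing.maximalIdeal A).comap (inc L A)

instance instIsPrimePP : (PP L A).IsPrime :=
  Ideal.comap_isPrime _ _

lemma mem_PP {x : 𝓞 L} : x ∈ PP L A ↔ (((x : 𝓞 L) : L) : Qbar) ∈ A.nonunits := by
  rw [ValuationSubring.mem_nonunits_iff_exists_mem_maximalIdeal]
  constructor
  · intro h
    exact ⟨_, h⟩
  · rintro ⟨_, h⟩
    exact h

variable {A} in
lemma liesOver {ℓ : ℕ} (hℓ : ℓ.Prime) (hA : A.LiesOverPrime ℓ) :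
    (PP L A).LiesOver (span {(ℓ : ℤ)}) := by
  constructor
  have hmax : (span {(ℓ : ℤ)}).IsMaximal :=
    (Ideal.span_singleton_prime (by exact_mod_cast hℓ.ne_zero)).mpr
      (Nat.prime_iff_prime_int.mp hℓ) |>.isMaximal (by
        simpa using hℓ.ne_zero)
  refine hmax.eq_of_le (Ideal.IsPrime.under ℤ (PP L A)).ne_top ?_
  rw [Ideal.span_singleton_le_iff_mem, Ideal.mem_comap, mem_PP]
  have h := hA
  unfold ValuationSubring.LiesOverPrime at h
  simpa using h

lemma PP_ne_bot {ℓ : ℕ} (hℓ : ℓ.Prime) (hA : A.LiesOverPrime ℓ) : PP L A ≠ ⊥ := by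
  intro h
  have h1 : ((ℓ : ℕ) : 𝓞 L) ∈ PP L A := by
    rw [mem_PP]
    have h := hA
    unfold ValuationSubring.LiesOverPrime at h
    simpa using h
  rw [h, Ideal.mem_bot] at h1
  exact hℓ.ne_zero (by exact_mod_cast h1)

/-- Structure lemma: with a uniformiser `ϖ ∈ PP \ PP²`, every nonzero integer of `L` is, up to
elements outside `PP`, a power of `ϖ`. -/
lemma exists_eq_pow_mul (ϖ : 𝓞 L) (h1 : ϖ ∈ PP L A) (h2 : ϖ ∉ PP L A ^ 2) (x : 𝓞 L) (hx : x ≠ 0) :
    ∃ (j : ℕ) (s y : 𝓞 L), s ∉ PP L A ∧ y ∉ PP L A ∧ s * x = ϖ ^ j * y := by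
  -- one step
  have step : ∀ x ∈ PP L A, ∃ s x' : 𝓞 L, s ∉ PP L A ∧ s * x = ϖ * x' := by
    intro x hx
    obtain ⟨J, hJ⟩ : PP L A ∣ span {ϖ} := by
      rw [Ideal.dvd_iff_le, Ideal.span_singleton_le_iff_mem]; exact h1
    have hJP : ¬ J ≤ PP L A := by
      intro hle
      apply h2
      have : span {ϖ} ≤ PP L A ^ 2 := by
        rw [hJ, pow_two]; exact Ideal.mul_mono_right hle
      exact this (Ideal.mem_span_singleton_self ϖ)
    obtain ⟨s, hsJ, hsP⟩ := Set.not_subset.mp hJP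
    have : s * x ∈ span {ϖ} := by
      rw [hJ, mul_comm s x]; exact Ideal.mul_mem_mul hx hsJ
    obtain ⟨x', hx'⟩ := Ideal.mem_span_singleton'.mp this
    exact ⟨s, x', hsP, by rw [← hx', mul_comm]⟩
  have key : ∀ (n : ℕ) (x : 𝓞 L), x ∉ PP L A ^ (n + 1) →
      ∃ (j : ℕ) (s y : 𝓞 L), s ∉ PP L A ∧ y ∉ PP L A ∧ s * x = ϖ ^ j * y := by
    intro n
    induction n with
    | zero =>
      intro x hx
      exact ⟨0, 1, x, (Ideal.ne_top_iff_one _).mp (instIsPrimePP L A).ne_top,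
        by simpa using hx, by simp⟩
    | succ n ih =>
      intro x hx
      by_cases hxP : x ∈ PP L A
      · obtain ⟨s, x', hs, hsx⟩ := step x hxP
        have hx' : x' ∉ PP L A ^ (n + 1) := by
          intro hmem
          have h3 : s * x ∈ PP L A ^ (n + 1 + 1) := by
            rw [hsx, pow_succ' (PP L A)]
            exact Ideal.mul_mem_mul h1 hmem
          rcases Ideal.IsPrime.mul_mem_pow (PP L A) h3 with h4 | h4
          · exact hs h4
          · exact hx h4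
        obtain ⟨j, s', y, hs', hy, he⟩ := ih x' hx'
        refine ⟨j + 1, s' * s, y, ?_, hy, ?_⟩
        · intro hmem
          rcases (instIsPrimePP L A).mem_or_mem hmem with h | h
          · exact hs' h
          · exact hs h
        · rw [mul_assoc, hsx, mul_left_comm, he, pow_succ]; ring
      · exact ⟨0, 1, x, (Ideal.ne_top_iff_one _).mp (instIsPrimePP L A).ne_top, hxP, by simp⟩
  have hinf : (⨅ n : ℕ, PP L A ^ n) = ⊥ :=
    Ideal.iInf_pow_eq_bot_of_isDomain _ (instIsPrimePP L A).ne_top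
  have : ∃ n : ℕ, x ∉ PP L A ^ n := by
    by_contra hcon
    push Not at hcon
    apply hx
    have : x ∈ (⨅ n : ℕ, PP L A ^ n) := by
      rw [Ideal.mem_iInf]; exact hcon
    rwa [hinf, Ideal.mem_bot] at this
  obtain ⟨n, hn⟩ := this
  refine key n x (fun h => hn ?_)
  exact Ideal.pow_le_pow_right (Nat.le_succ n) h

lemma valuation_eq_one_of_notMem {s : 𝓞 L} (hs : s ∉ PP L A) :
    A.valuation (((s : 𝓞 L) : L) : Qbar) = 1 :=
  valuation_eq_one A (mem_of_isIntegral A (isIntegral_coe L s)) (fun h => hs ((mem_PP L A).mpr h))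

lemma valuation_lt_one_of_mem {s : 𝓞 L} (hs : s ∈ PP L A) :
    A.valuation (((s : 𝓞 L) : L) : Qbar) < 1 :=
  (ValuationSubring.mem_nonunits_iff A).mp ((mem_PP L A).mp hs)

lemma exists_valuation_eq_pow (ϖ : 𝓞 L) (h1 : ϖ ∈ PP L A) (h2 : ϖ ∉ PP L A ^ 2) (x : 𝓞 L)
    (hx : x ≠ 0) :
    ∃ j : ℕ, A.valuation (((x : 𝓞 L) : L) : Qbar) = A.valuation (((ϖ : 𝓞 L) : L) : Qbar) ^ j := by
  obtain ⟨j, s, y, hs, hy, he⟩ := exists_eq_pow_mul L A ϖ h1 h2 x hx
  refine ⟨j, ?_⟩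
  have h3 := congrArg (fun z : 𝓞 L => A.valuation (((z : 𝓞 L) : L) : Qbar)) he
  simp only [map_mul, map_pow, MulMemClass.coe_mul, SubmonoidClass.coe_pow] at h3
  rwa [valuation_eq_one_of_notMem L A hs, valuation_eq_one_of_notMem L A hy, one_mul, mul_one] at h3

lemma coe_ne_zero {x : 𝓞 L} (hx : x ≠ 0) : (((x : 𝓞 L) : L) : Qbar) ≠ 0 := by
  intro h
  apply hx
  have : ((x : 𝓞 L) : L) = 0 := by exact_mod_cast h
  exact_mod_cast this

/-- With a uniformiser `ϖ`, every nonzero element of `L` is a unit of `A` times a power of `ϖ`. -/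
lemma exists_unit (ϖ : 𝓞 L) (h1 : ϖ ∈ PP L A) (h2 : ϖ ∉ PP L A ^ 2) (x : L) (hx : x ≠ 0) :
    ∃ j : ℤ, A.valuation ((x : Qbar) * (((ϖ : 𝓞 L) : L) : Qbar) ^ j) = 1 := by
  obtain ⟨n, d, hd, rfl⟩ := IsFractionRing.div_surjective (A := 𝓞 L) x
  have hd0 : d ≠ 0 := nonZeroDivisors.ne_zero hd
  have hn0 : n ≠ 0 := by
    rintro rfl
    simp at hx
  have hϖ0 : ϖ ≠ 0 := by
    rintro rfl
    exact h2 (zero_mem _)
  obtain ⟨j1, hj1⟩ := exists_valuation_eq_pow L A ϖ h1 h2 n hn0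
  obtain ⟨j2, hj2⟩ := exists_valuation_eq_pow L A ϖ h1 h2 d hd0
  have hv0 : A.valuation (((ϖ : 𝓞 L) : L) : Qbar) ≠ 0 :=
    (Valuation.ne_zero_iff _).mpr (coe_ne_zero L hϖ0)
  refine ⟨(j2 : ℤ) - j1, ?_⟩
  have e1 : ((algebraMap (𝓞 L) L n / algebraMap (𝓞 L) L d : L) : Qbar) =
      (((n : 𝓞 L) : L) : Qbar) / (((d : 𝓞 L) : L) : Qbar) := by
    push_cast
    rfl
  rw [e1, map_mul, map_div₀, map_zpow₀, hj1, hj2, zpow_sub₀ hv0, zpow_natCast, zpow_natCast]
  field_simp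

/-- `A ∩ L` is the localisation of `𝓞 L` at `PP`. -/
lemma exists_fraction_L (ϖ : 𝓞 L) (h1 : ϖ ∈ PP L A) (h2 : ϖ ∉ PP L A ^ 2) (w : L)
    (hw : (w : Qbar) ∈ A) :
    ∃ y s : 𝓞 L, s ∉ PP L A ∧ w * (s : L) = (y : L) := by
  by_cases hw0 : w = 0
  · exact ⟨0, 1, (Ideal.ne_top_iff_one _).mp (instIsPrimePP L A).ne_top, by simp [hw0]⟩
  obtain ⟨n, d, hd, rfl⟩ := IsFractionRing.div_surjective (A := 𝓞 L) w
  have hd0 : d ≠ 0 := nonZeroDivisors.ne_zero hd
  have hn0 : n ≠ 0 := by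
    rintro rfl
    simp at hw0
  have hϖ0 : ϖ ≠ 0 := by
    rintro rfl
    exact h2 (zero_mem _)
  obtain ⟨j1, s1, y1, hs1, hy1, he1⟩ := exists_eq_pow_mul L A ϖ h1 h2 n hn0
  obtain ⟨j2, s2, y2, hs2, hy2, he2⟩ := exists_eq_pow_mul L A ϖ h1 h2 d hd0
  have hdL : (algebraMap (𝓞 L) L d) ≠ 0 := by
    simpa using hd0
  have hϖL : (algebraMap (𝓞 L) L ϖ) ≠ 0 := by
    simpa using hϖ0
  have he1' : algebraMap (𝓞 L) L s1 * algebraMap (𝓞 L) L n =
      algebraMap (𝓞 L) L ϖ ^ j1 * algebraMap (𝓞 L) L y1 := by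
    rw [← map_mul, he1, map_mul, map_pow]
  have he2' : algebraMap (𝓞 L) L s2 * algebraMap (𝓞 L) L d =
      algebraMap (𝓞 L) L ϖ ^ j2 * algebraMap (𝓞 L) L y2 := by
    rw [← map_mul, he2, map_mul, map_pow]
  have hs1y2 : s1 * y2 ∉ PP L A := by
    intro hmem
    rcases (instIsPrimePP L A).mem_or_mem hmem with h | h
    · exact hs1 h
    · exact hy2 h
  have hle : j2 ≤ j1 := by
    by_contra hlt
    have hlt : j1 < j2 := not_le.mp hlt
    -- then `w * ϖ ^ (j2 - j1) * (s1 y2) = s2 y1` is a unit, contradiction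
    have e3 : (algebraMap (𝓞 L) L n / algebraMap (𝓞 L) L d) *
        (algebraMap (𝓞 L) L ϖ ^ (j2 - j1) * algebraMap (𝓞 L) L (s1 * y2)) =
        algebraMap (𝓞 L) L (s2 * y1) := by
      have hpow : algebraMap (𝓞 L) L ϖ ^ j2 =
          algebraMap (𝓞 L) L ϖ ^ (j2 - j1) * algebraMap (𝓞 L) L ϖ ^ j1 := by
        rw [← pow_add]; congr 1; omega
      rw [hpow] at he2'
      have hp1 : algebraMap (𝓞 L) L ϖ ^ j1 ≠ 0 := pow_ne_zero _ hϖL
      rw [map_mul, map_mul, div_mul_eq_mul_div, div_eq_iff hdL]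
      apply mul_left_cancel₀ hp1
      linear_combination (algebraMap (𝓞 L) L ϖ ^ (j2 - j1) * algebraMap (𝓞 L) L y2 *
        algebraMap (𝓞 L) L ϖ ^ j1) * he1' - (algebraMap (𝓞 L) L ϖ ^ j1 *
        algebraMap (𝓞 L) L y1) * he2'
    have e4 := congrArg (fun z : L => A.valuation (z : Qbar)) e3
    simp only [MulMemClass.coe_mul, map_mul] at e4
    have hs2y1 : s2 * y1 ∉ PP L A := by
      intro hmem
      rcases (instIsPrimePP L A).mem_or_mem hmem with h | h
      · exact hs2 h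
      · exact hy1 h
    have v1 : A.valuation ((algebraMap (𝓞 L) L s1 : L) : Qbar) = 1 :=
      valuation_eq_one_of_notMem L A hs1
    have v2 : A.valuation ((algebraMap (𝓞 L) L y2 : L) : Qbar) = 1 :=
      valuation_eq_one_of_notMem L A hy2
    have v3 : A.valuation ((algebraMap (𝓞 L) L s2 : L) : Qbar) = 1 :=
      valuation_eq_one_of_notMem L A hs2
    have v4 : A.valuation ((algebraMap (𝓞 L) L y1 : L) : Qbar) = 1 :=
      valuation_eq_one_of_notMem L A hy1
    rw [v1, v2, v3, v4] at e4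
    have v5 : A.valuation ((algebraMap (𝓞 L) L ϖ ^ (j2 - j1) : L) : Qbar) < 1 := by
      have : A.valuation ((algebraMap (𝓞 L) L ϖ : L) : Qbar) < 1 := valuation_lt_one_of_mem L A h1
      rw [SubmonoidClass.coe_pow, map_pow]
      exact pow_lt_one₀ zero_le this (by omega)
    have v6 : A.valuation ((algebraMap (𝓞 L) L n / algebraMap (𝓞 L) L d : L) : Qbar) ≤ 1 :=
      (ValuationSubring.valuation_le_one_iff A _).mpr hw
    have : A.valuation ((algebraMap (𝓞 L) L n / algebraMap (𝓞 L) L d : L) : Qbar) *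
        (A.valuation ((algebraMap (𝓞 L) L ϖ ^ (j2 - j1) : L) : Qbar) * (1 * 1)) < 1 := by
      rw [mul_one, mul_one, mul_comm]
      exact mul_lt_one_of_lt_of_le v5 v6
    rw [e4] at this
    simp at this
  refine ⟨ϖ ^ (j1 - j2) * (s2 * y1), s1 * y2, hs1y2, ?_⟩
  have hpow : algebraMap (𝓞 L) L ϖ ^ j1 =
      algebraMap (𝓞 L) L ϖ ^ (j1 - j2) * algebraMap (𝓞 L) L ϖ ^ j2 := by
    rw [← pow_add]; congr 1; omega
  rw [hpow] at he1'
  have hp2 : algebraMap (𝓞 L) L ϖ ^ j2 ≠ 0 := pow_ne_zero _ hϖL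
  change (algebraMap (𝓞 L) L n / algebraMap (𝓞 L) L d) * algebraMap (𝓞 L) L (s1 * y2) =
    algebraMap (𝓞 L) L (ϖ ^ (j1 - j2) * (s2 * y1))
  rw [map_mul, map_mul, map_mul, map_pow, div_mul_eq_mul_div, div_eq_iff hdL]
  apply mul_left_cancel₀ hp2
  linear_combination (algebraMap (𝓞 L) L y2 * algebraMap (𝓞 L) L ϖ ^ j2) * he1' -
    (algebraMap (𝓞 L) L ϖ ^ (j1 - j2) * algebraMap (𝓞 L) L ϖ ^ j2 * algebraMap (𝓞 L) L y1) * he2'

end General

section Hilbert

variable (L : IntermediateField ℚ Qbar) [FiniteDimensional ℚ L]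
  (A : ValuationSubring Qbar) {ℓ : ℕ} (hℓ : ℓ.Prime) (hA : A.LiesOverPrime ℓ)

include hℓ hA in
lemma le_ramificationIdx (n : ℕ) (h : ((ℓ : ℕ) : 𝓞 L) ∈ PP L A ^ n) :
    n ≤ (PP L A).ramificationIdx ℤ := by
  haveI := liesOver L hℓ hA
  have hmap : (span {(ℓ : ℤ)}).map (algebraMap ℤ (𝓞 L)) = span {((ℓ : ℕ) : 𝓞 L)} := by
    rw [Ideal.map_span, Set.image_singleton]
    simp
  have hne : (span {(ℓ : ℤ)}).map (algebraMap ℤ (𝓞 L)) ≠ ⊥ := by
    rw [hmap, Ne, Ideal.span_singleton_eq_bot]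
    exact_mod_cast hℓ.ne_zero
  rw [Ideal.IsDedekindDomain.ramificationIdx_eq_multiplicity (span {(ℓ : ℤ)}) (PP L A) hne]
  have hfin : FiniteMultiplicity (PP L A) ((span {(ℓ : ℤ)}).map (algebraMap ℤ (𝓞 L))) := by
    apply FiniteMultiplicity.of_not_isUnit _ hne
    rw [Ideal.isUnit_iff]
    exact (instIsPrimePP L A).ne_top
  apply hfin.le_multiplicity_of_pow_dvd
  rw [Ideal.dvd_iff_le, hmap, Ideal.span_singleton_le_iff_mem]
  exact h

variable [IsGalois ℚ L]

include hℓ hA in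
lemma card_inertia :
    Nat.card ((PP L A).inertia (L ≃ₐ[ℚ] L)) = (PP L A).ramificationIdx ℤ := by
  haveI := liesOver L hℓ hA
  haveI : (span {(ℓ : ℤ)}).IsPrime :=
    (Ideal.span_singleton_prime (by exact_mod_cast hℓ.ne_zero)).mpr (Nat.prime_iff_prime_int.mp hℓ)
  rw [Ideal.card_inertia_eq_ramificationIdxIn (span {(ℓ : ℤ)}) (PP L A),
    Ideal.ramificationIdxIn_eq_ramificationIdx (span {(ℓ : ℤ)}) (PP L A) (L ≃ₐ[ℚ] L)]

include hℓ hA in
lemma card_stabilizer :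
    Nat.card (MulAction.stabilizer (L ≃ₐ[ℚ] L) (PP L A)) =
      (PP L A).ramificationIdx ℤ * (PP L A).inertiaDeg ℤ := by
  haveI := liesOver L hℓ hA
  haveI : (span {(ℓ : ℤ)}).IsPrime :=
    (Ideal.span_singleton_prime (by exact_mod_cast hℓ.ne_zero)).mpr (Nat.prime_iff_prime_int.mp hℓ)
  rw [Ideal.card_stabilizer_eq (span {(ℓ : ℤ)}) (PP L A),
    Ideal.ramificationIdxIn_eq_ramificationIdx (span {(ℓ : ℤ)}) (PP L A) (L ≃ₐ[ℚ] L),
    Ideal.inertiaDegIn_eq_inertiaDeg (span {(ℓ : ℤ)}) (PP L A) (L ≃ₐ[ℚ] L)]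

end Hilbert

section Kummer

variable {p : ℕ} [Fact p.Prime] {a : Qbar}

variable (p a) in
/-- `L = ℚ(ζ_p, a)`. -/
noncomputable def LL : IntermediateField ℚ Qbar := IntermediateField.adjoin ℚ {zetaBar p, a}

instance instFiniteDimensionalLL : FiniteDimensional ℚ (LL p a) :=
  IntermediateField.finiteDimensional_adjoin (fun x _ => Algebra.IsIntegral.isIntegral x)

lemma zetaBar_mem : zetaBar p ∈ LL p a :=
  IntermediateField.subset_adjoin ℚ _ (Set.mem_insert _ _)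

lemma a_mem : a ∈ LL p a :=
  IntermediateField.subset_adjoin ℚ _ (Set.mem_insert_of_mem _ (Set.mem_singleton _))

lemma Kp_le : Kp p ≤ LL p a :=
  IntermediateField.adjoin.mono ℚ _ _ (by simp)

lemma exists_pow_of_aut (τ : GQ) : ∃ k : ℕ, τ (zetaBar p) = zetaBar p ^ k := by
  have h1 : (τ (zetaBar p)) ^ p = 1 := by
    rw [← map_pow, (zetaBar_spec p).pow_eq_one, map_one]
  obtain ⟨k, _, hk⟩ := (zetaBar_spec p).eq_pow_of_pow_eq_one h1
  exact ⟨k, hk.symm⟩

lemma isGalois (h : KummerDatum p a) : IsGalois ℚ (LL p a) := by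
  have hn : Normal ℚ (LL p a) := by
    refine (IntermediateField.normal_iff_forall_map_le' (F := ℚ) (L := Qbar) (K := LL p a)).mpr ?_
    intro σ
    rw [LL, IntermediateField.adjoin_map, IntermediateField.adjoin_le_iff]
    rintro _ ⟨x, hx, rfl⟩
    obtain ⟨k, hk⟩ := exists_pow_of_aut (p := p) σ
    rcases hx with rfl | hx
    · change σ (zetaBar p) ∈ LL p a
      rw [hk]
      exact pow_mem zetaBar_mem k
    · rw [Set.mem_singleton_iff] at hx
      subst hx
      change σ x ∈ LL p x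
      have h1 := Kp_le (a := x) (h.eig σ k hk)
      have h2 : σ x = σ x / x ^ (k ^ 2) * x ^ (k ^ 2) := by
        rw [div_mul_cancel₀ _ (pow_ne_zero _ h.ne_zero)]
      rw [h2]
      exact mul_mem h1 (pow_mem a_mem _)
  exact ⟨⟩

/-- An automorphism of `L` whose lift fixes `ζ` and `a` is trivial. -/
lemma eq_one_of_lift (g : LL p a ≃ₐ[ℚ] LL p a) (σ : GQ)
    (hσ : ∀ x : LL p a, σ (x : Qbar) = ((g x : LL p a) : Qbar))
    (h1 : σ (zetaBar p) = zetaBar p) (h2 : σ a = a) : g = 1 := by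
  have key : (LL p a).val.comp (g : LL p a →ₐ[ℚ] LL p a) = (LL p a).val := by
    apply IntermediateField.adjoin_algHom_ext
    intro x hx
    change ((g ⟨x, _⟩ : LL p a) : Qbar) = x
    rw [← hσ]
    rcases hx with rfl | hx
    · exact h1
    · rw [Set.mem_singleton_iff] at hx
      subst hx
      exact h2
  ext x
  exact congrArg (fun f : LL p a →ₐ[ℚ] Qbar => f x) key

/-- A `p`-th root of unity congruent to `1` modulo a prime not above `p` is `1`. -/
lemma eq_one_of_sub_one_mem (A : ValuationSubring Qbar) {ℓ : ℕ} (hℓ : ℓ.Prime) (hℓp : ℓ ≠ p)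
    (hA : A.LiesOverPrime ℓ) (μ : Qbar) (hμ : μ ^ p = 1) (h : μ - 1 ∈ A.nonunits) : μ = 1 := by
  have hp : p.Prime := Fact.out
  by_contra hne
  have hint : IsIntegral ℤ μ := IsIntegral.of_pow hp.pos (by rw [hμ]; exact isIntegral_one)
  have hsum : ∑ i ∈ Finset.range p, μ ^ i = 0 := by
    have := geom_sum_mul μ p
    rw [hμ, sub_self] at this
    exact (mul_eq_zero.mp this).resolve_right (sub_ne_zero.mpr hne)
  have hmem : ∀ i : ℕ, μ ^ i - 1 ∈ A.nonunits := by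
    intro i
    obtain ⟨c, hc⟩ : ∃ c, IsIntegral ℤ c ∧ μ ^ i - 1 = (μ - 1) * c :=
      ⟨∑ j ∈ Finset.range i, μ ^ j, IsIntegral.sum _ (fun j _ => hint.pow j),
        by rw [mul_comm, geom_sum_mul]⟩
    rw [hc.2]
    exact mul_mem_nonunits A h (mem_of_isIntegral A hc.1)
  have hpmem : ((p : ℤ) : Qbar) ∈ A.nonunits := by
    have e : ((p : ℤ) : Qbar) = - ∑ i ∈ Finset.range p, (μ ^ i - 1) := by
      rw [Finset.sum_sub_distrib, hsum]
      simp
    rw [e]
    exact neg_mem (sum_mem (fun i _ => hmem i))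
  refine intCast_notMem_nonunits A hℓ hA ?_ hpmem
  intro hdvd
  have : ℓ ∣ p := by exact_mod_cast hdvd
  exact hℓp ((Nat.prime_dvd_prime_iff_eq hℓ hp).mp this)

variable (p a) in
/-- `ζ_p` as an element of `L`. -/
noncomputable def zL : LL p a := ⟨zetaBar p, zetaBar_mem⟩

lemma zL_spec : IsPrimitiveRoot (zL p a) p :=
  IsPrimitiveRoot.of_map_of_injective (f := (LL p a).val) (zetaBar_spec p) (LL p a).val.injective

lemma isIntegral_zL : IsIntegral ℤ (zL p a) :=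
  (zL_spec (p := p) (a := a)).isIntegral (Fact.out : p.Prime).pos

variable (p a) in
/-- `ζ_p` as an element of `𝓞 L`. -/
noncomputable def zO : 𝓞 (LL p a) := ⟨zL p a, isIntegral_zL⟩

lemma zO_pow : (zO p a) ^ p = 1 := by
  apply RingOfIntegers.ext
  change algebraMap (𝓞 (LL p a)) (LL p a) (zO p a ^ p) = 1
  rw [map_pow]
  exact (zL_spec (p := p) (a := a)).pow_eq_one

lemma coe_smul (L : IntermediateField ℚ Qbar) [FiniteDimensional ℚ L] (g : L ≃ₐ[ℚ] L) (x : 𝓞 L) :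
    ((g • x : 𝓞 L) : L) = g (x : L) := rfl

lemma natCast_mem_PP (L : IntermediateField ℚ Qbar) [FiniteDimensional ℚ L]
    (A : ValuationSubring Qbar) {ℓ : ℕ} (hA : A.LiesOverPrime ℓ) : ((ℓ : ℕ) : 𝓞 L) ∈ PP L A := by
  rw [mem_PP]
  have h := hA
  unfold ValuationSubring.LiesOverPrime at h
  simpa using h

/-- Away from `p` the prime `ℓ` is a uniformiser of `L = ℚ(ζ, a)`. -/
lemma natCast_notMem_sq (h : KummerDatum p a) {ℓ : ℕ} (hℓ : ℓ.Prime)
    (hℓp : ℓ ≠ p) (A : ValuationSubring Qbar) (hA : A.LiesOverPrime ℓ) :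
    ((ℓ : ℕ) : 𝓞 (LL p a)) ∉ PP (LL p a) A ^ 2 := by
  have := isGalois h
  have hI : ∀ g ∈ (PP (LL p a) A).inertia (LL p a ≃ₐ[ℚ] LL p a), g = 1 := by
    intro g hg
    obtain ⟨σ, hσ, hσg⟩ := exists_lift_inertia (LL p a) A hℓ hA g (fun x hx => by
      have := hg ⟨x, hx⟩
      exact (mem_PP (LL p a) A).mp this)
    have h2 := h.unram ℓ hℓ hℓp A hA σ hσ
    have h1 : σ (zetaBar p) = zetaBar p := by
      have h3 : σ (zetaBar p) - zetaBar p ∈ A.nonunits := by
        have h4 := (mem_PP (LL p a) A).mp (hg (zO p a))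
        have h5 := hσg (zL p a)
        change σ (zetaBar p) = _ at h5
        rw [h5]
        exact h4
      have hz0 : zetaBar p ≠ 0 := (zetaBar_spec p).ne_zero (Fact.out : p.Prime).ne_zero
      have hzint : IsIntegral ℤ (zetaBar p)⁻¹ := by
        have : (zetaBar p)⁻¹ = zetaBar p ^ (p - 1) := by
          symm
          apply eq_inv_of_mul_eq_one_left
          rw [← pow_succ, Nat.sub_add_cancel (Fact.out : p.Prime).one_le]
          exact (zetaBar_spec p).pow_eq_one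
        rw [this]
        exact ((zetaBar_spec p).isIntegral (Fact.out : p.Prime).pos).pow _
      have h6 : σ (zetaBar p) * (zetaBar p)⁻¹ = 1 := by
        apply eq_one_of_sub_one_mem A hℓ hℓp hA
        · rw [mul_pow, ← map_pow, inv_pow, (zetaBar_spec p).pow_eq_one]
          simp
        · have e : σ (zetaBar p) * (zetaBar p)⁻¹ - 1 =
              (σ (zetaBar p) - zetaBar p) * (zetaBar p)⁻¹ := by
            field_simp
          rw [e]
          exact mul_mem_nonunits A h3 (mem_of_isIntegral A hzint)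
      field_simp at h6
      exact h6
    exact eq_one_of_lift g σ hσg h1 h2
  have hcard : Nat.card ((PP (LL p a) A).inertia (LL p a ≃ₐ[ℚ] LL p a)) = 1 := by
    rw [Nat.card_eq_one_iff_unique]
    refine ⟨⟨fun x y => ?_⟩, ⟨1⟩⟩
    apply Subtype.ext
    rw [hI x x.2, hI y y.2]
  rw [card_inertia (LL p a) A hℓ hA] at hcard
  intro hmem
  have := le_ramificationIdx (LL p a) A hℓ hA 2 hmem
  omega

end Kummer

end LocalUnits

open LocalUnits in
/-- [B2] -/
theorem KummerDatum.exists_unit_away {p : ℕ} [Fact p.Prime] {a : Qbar} (h : KummerDatum p a)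
    {ℓ : ℕ} (hℓ : ℓ.Prime)
    (hℓp : ℓ ≠ p) (A : ValuationSubring Qbar) (hA : A.LiesOverPrime ℓ) :
    ∃ j : ℤ, A.valuation (a * (ℓ : Qbar) ^ j) = 1 := by
  obtain ⟨j, hj⟩ := exists_unit (LL p a) A ((ℓ : ℕ) : 𝓞 (LL p a)) (natCast_mem_PP _ A hA)
    (natCast_notMem_sq h hℓ hℓp A hA) ⟨a, a_mem⟩ (by
      intro h0
      exact h.ne_zero (congrArg Subtype.val h0))
  refine ⟨j, ?_⟩
  simpa using hj

namespace LocalUnits
section Kummer
variable {p : ℕ} [Fact p.Prime] {a : Qbar}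

/-- `π = ζ - 1 ∈ PP`. -/
lemma pi_mem (A : ValuationSubring Qbar) (hA : A.LiesOverPrime p) :
    zO p a - 1 ∈ PP (LL p a) A := by
  have hp : p.Prime := Fact.out
  obtain ⟨r, hr⟩ := exists_add_pow_prime_eq hp (zO p a - 1) 1
  rw [sub_add_cancel, zO_pow, one_pow] at hr
  have h1 : (zO p a - 1) ^ p = - ((p : 𝓞 (LL p a)) * ((zO p a - 1) * 1 * r)) := by
    linear_combination -hr
  have h2 : (zO p a - 1) ^ p ∈ PP (LL p a) A := by
    rw [h1]
    exact neg_mem (Ideal.mul_mem_right _ _ (natCast_mem_PP _ A hA))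
  exact (instIsPrimePP (LL p a) A).mem_of_pow_mem p h2

lemma zO_spec : IsPrimitiveRoot (zO p a) p :=
  IsPrimitiveRoot.of_map_of_injective (f := algebraMap (𝓞 (LL p a)) (LL p a))
    (zL_spec (p := p) (a := a)) (RingOfIntegers.coe_injective)

/-- if `π ∈ PP ^ i` then `p ∈ PP ^ (i (p - 1))`. -/
lemma p_mem_pow (A : ValuationSubring Qbar) (i : ℕ)
    (h : zO p a - 1 ∈ PP (LL p a) A ^ i) : ((p : ℕ) : 𝓞 (LL p a)) ∈ PP (LL p a) A ^ (i * (p - 1)) := by
  have hp : p.Prime := Fact.out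
  obtain ⟨n, hn⟩ : ∃ n, p = n + 1 := ⟨p - 1, (Nat.sub_add_cancel hp.one_le).symm⟩
  have hz : IsPrimitiveRoot (zO p a) (n + 1) := hn ▸ zO_spec
  have hprod := hz.prod_one_sub_pow_eq_order
  have e : ((p : ℕ) : 𝓞 (LL p a)) = ∏ k ∈ Finset.range n, (1 - zO p a ^ (k + 1)) := by
    rw [hprod]
    have := congrArg (fun m : ℕ => (m : 𝓞 (LL p a))) hn
    simpa using this
  rw [e]
  have hn' : p - 1 = n := by omega
  rw [hn', pow_mul]
  have : ∏ k ∈ Finset.range n, (1 - zO p a ^ (k + 1)) ∈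
      ∏ _k ∈ Finset.range n, PP (LL p a) A ^ i := by
    apply Ideal.prod_mem_prod
    intro k _
    obtain ⟨c, hc⟩ := sub_dvd_pow_sub_pow (zO p a) 1 (k + 1)
    rw [one_pow] at hc
    have : 1 - zO p a ^ (k + 1) = (zO p a - 1) * (-c) := by
      linear_combination -hc
    rw [this]
    exact Ideal.mul_mem_right _ _ h
  rwa [Finset.prod_const, Finset.card_range] at this

/-- the decomposition group at `p` injects into `(ℤ/p)ˣ`. -/
lemma card_stabilizer_le (h : KummerDatum p a) (A : ValuationSubring Qbar)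
    (hA : A.LiesOverPrime p) :
    Nat.card (MulAction.stabilizer (LL p a ≃ₐ[ℚ] LL p a) (PP (LL p a) A)) ≤ p - 1 := by
  have hp : p.Prime := Fact.out
  have := isGalois h
  haveI : NeZero p := ⟨hp.ne_zero⟩
  let φ : (LL p a ≃ₐ[ℚ] LL p a) →* (ZMod p)ˣ := (zL_spec (p := p) (a := a)).autToPow ℚ
  have hinj : Function.Injective
      (φ.comp (MulAction.stabilizer (LL p a ≃ₐ[ℚ] LL p a) (PP (LL p a) A)).subtype) := by
    rw [injective_iff_map_eq_one]
    rintro ⟨g, hg⟩ hφ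
    apply Subtype.ext
    change g = 1
    have hφ' : φ g = 1 := hφ
    have hgz : g (zL p a) = zL p a := by
      have := (zL_spec (p := p) (a := a)).autToPow_spec ℚ g
      rw [← this]
      have h1 : ((zL_spec (p := p) (a := a)).autToPow ℚ g) = 1 := hφ'
      rw [h1]
      simp [ZMod.val_one]
    obtain ⟨σ, hσ, hσg⟩ := exists_lift_decomposition (LL p a) A hp hA g (fun x hx hxA => by
      let y : 𝓞 (LL p a) := ⟨x, hx⟩
      have h1 : y ∈ PP (LL p a) A := (mem_PP (LL p a) A).mpr hxA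
      have h2 : g • y ∈ g • PP (LL p a) A :=
        Ideal.smul_mem_pointwise_smul g _ _ h1
      rw [MulAction.mem_stabilizer_iff.mp hg] at h2
      exact (mem_PP (LL p a) A).mp h2)
    have h1 : σ (zetaBar p) = zetaBar p := by
      have := hσg (zL p a)
      rw [hgz] at this
      exact this
    exact eq_one_of_lift g σ hσg h1 (h.split A hA σ hσ h1)
  calc _ ≤ Nat.card (ZMod p)ˣ := Nat.card_le_card_of_injective _ hinj
    _ = p - 1 := by rw [Nat.card_eq_fintype_card, ZMod.card_units]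

lemma ram_inertia_at_p (h : KummerDatum p a) (A : ValuationSubring Qbar)
    (hA : A.LiesOverPrime p) :
    (PP (LL p a) A).ramificationIdx ℤ = p - 1 ∧ (PP (LL p a) A).inertiaDeg ℤ = 1 := by
  have hp : p.Prime := Fact.out
  have := isGalois h
  have h1 := card_stabilizer_le h A hA
  rw [card_stabilizer (LL p a) A hp hA] at h1
  have h2 : 1 * (p - 1) ≤ (PP (LL p a) A).ramificationIdx ℤ :=
    le_ramificationIdx (LL p a) A hp hA _ (p_mem_pow A 1 (by simpa using pi_mem A hA))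
  have h3 : 0 < (PP (LL p a) A).inertiaDeg ℤ := Ideal.inertiaDeg_pos _ _
  have hp2 := hp.two_le
  have h4 : (PP (LL p a) A).ramificationIdx ℤ ≤
      (PP (LL p a) A).ramificationIdx ℤ * (PP (LL p a) A).inertiaDeg ℤ :=
    Nat.le_mul_of_pos_right _ h3
  have he : (PP (LL p a) A).ramificationIdx ℤ = p - 1 := by omega
  refine ⟨he, ?_⟩
  by_contra hf
  have h5 : 2 ≤ (PP (LL p a) A).inertiaDeg ℤ := by omega
  have h6 : (PP (LL p a) A).ramificationIdx ℤ * 2 ≤
      (PP (LL p a) A).ramificationIdx ℤ * (PP (LL p a) A).inertiaDeg ℤ :=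
    Nat.mul_le_mul_left _ h5
  omega

lemma pi_notMem_sq (h : KummerDatum p a) (A : ValuationSubring Qbar)
    (hA : A.LiesOverPrime p) : zO p a - 1 ∉ PP (LL p a) A ^ 2 := by
  have hp : p.Prime := Fact.out
  intro hmem
  have h2 := le_ramificationIdx (LL p a) A hp hA _ (p_mem_pow A 2 hmem)
  rw [(ram_inertia_at_p h A hA).1] at h2
  have hp2 := hp.two_le
  omega

/-- the residue field at `p` is `𝔽_p`. -/
lemma exists_int_sub_mem (h : KummerDatum p a) (A : ValuationSubring Qbar)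
    (hA : A.LiesOverPrime p) (x : 𝓞 (LL p a)) : ∃ c : ℤ, x - (c : 𝓞 (LL p a)) ∈ PP (LL p a) A := by
  have hp : p.Prime := Fact.out
  have hlo := liesOver (LL p a) hp hA
  have hnorm : absNorm (PP (LL p a) A) = p := by
    rw [← Ideal.pow_inertiaDeg p (PP (LL p a) A), (ram_inertia_at_p h A hA).2, pow_one]
  have hcard : Nat.card (𝓞 (LL p a) ⧸ PP (LL p a) A) = p := by
    have : Nat.card (𝓞 (LL p a) ⧸ PP (LL p a) A) = absNorm (PP (LL p a) A) := by
      rw [Ideal.absNorm_apply, Submodule.cardQuot_apply]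
    exact this.trans hnorm
  have hfin : Finite (𝓞 (LL p a) ⧸ PP (LL p a) A) :=
    Nat.finite_of_card_ne_zero (by rw [hcard]; exact hp.ne_zero)
  let f : Fin p → 𝓞 (LL p a) ⧸ PP (LL p a) A :=
    fun i => Ideal.Quotient.mk _ (((i : ℕ) : ℤ) : 𝓞 (LL p a))
  have hinj : Function.Injective f := by
    intro i j hij
    have h1 : ((((i : ℕ) : ℤ) : 𝓞 (LL p a)) - (((j : ℕ) : ℤ) : 𝓞 (LL p a))) ∈ PP (LL p a) A :=
      Ideal.Quotient.eq.mp hij
    have h2 : (((i : ℕ) : ℤ) - ((j : ℕ) : ℤ)) ∈ (PP (LL p a) A).under ℤ := by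
      rw [Ideal.mem_comap]
      simpa using h1
    rw [← hlo.over, Ideal.mem_span_singleton] at h2
    have hi := i.2
    have hj := j.2
    apply Fin.ext
    obtain ⟨c, hc⟩ := h2
    have : c = 0 := by
      by_contra hc0
      have : 1 ≤ |c| := Int.one_le_abs hc0
      have h3 : |((i : ℕ) : ℤ) - ((j : ℕ) : ℤ)| = (p : ℤ) * |c| := by
        rw [hc, abs_mul]; simp
      have h4 : |((i : ℕ) : ℤ) - ((j : ℕ) : ℤ)| < p := by
        rw [abs_lt]; constructor <;> omega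
      nlinarith
    rw [this] at hc
    omega
  have hbij := hinj.bijective_of_nat_card_le (by rw [hcard]; simp)
  obtain ⟨i, hi⟩ := hbij.2 (Ideal.Quotient.mk _ x)
  exact ⟨((i : ℕ) : ℤ), Ideal.Quotient.eq.mp hi.symm⟩

end Kummer

end LocalUnits

open LocalUnits in
/-- [B2] -/
theorem KummerDatum.exists_unit_at_p {p : ℕ} [Fact p.Prime] {a : Qbar} (h : KummerDatum p a)
    (A : ValuationSubring Qbar) (hA : A.LiesOverPrime p) (w : Qbar)
    (hw : w ∈ IntermediateField.adjoin ℚ {zetaBar p, a}) (hw0 : w ≠ 0) :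
    ∃ j : ℤ, A.valuation (w * (zetaBar p - 1) ^ j) = 1 := by
  obtain ⟨j, hj⟩ := exists_unit (LL p a) A (zO p a - 1) (pi_mem A hA)
    (pi_notMem_sq h A hA) ⟨w, hw⟩ (by
      intro h0
      exact hw0 (congrArg Subtype.val h0))
  exact ⟨j, hj⟩

open LocalUnits in
/-- [B2] -/
theorem KummerDatum.residue_at_p {p : ℕ} [Fact p.Prime] {a : Qbar} (h : KummerDatum p a)
    (A : ValuationSubring Qbar) (hA : A.LiesOverPrime p) (w : Qbar)
    (hw : w ∈ IntermediateField.adjoin ℚ {zetaBar p, a}) (hwA : w ∈ A) :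
    ∃ c : ℤ, w - c ∈ A.nonunits := by
  have hp : p.Prime := Fact.out
  obtain ⟨y, s, hs, hws⟩ := exists_fraction_L (LL p a) A (zO p a - 1) (pi_mem A hA)
    (pi_notMem_sq h A hA) ⟨w, hw⟩ hwA
  obtain ⟨cy, hcy⟩ := exists_int_sub_mem h A hA y
  obtain ⟨cs, hcs⟩ := exists_int_sub_mem h A hA s
  have hpP : ((p : ℤ) : 𝓞 (LL p a)) ∈ PP (LL p a) A := by
    simpa using natCast_mem_PP (LL p a) A hA
  have hcs' : ¬ (p : ℤ) ∣ cs := by
    rintro ⟨k, rfl⟩
    apply hs
    have : s = (s - ((p * k : ℤ) : 𝓞 (LL p a))) + ((p : ℤ) : 𝓞 (LL p a)) * (k : 𝓞 (LL p a)) := by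
      push_cast; ring
    rw [this]
    exact add_mem hcs (Ideal.mul_mem_right _ _ hpP)
  have hcop : IsCoprime (p : ℤ) cs :=
    (Nat.prime_iff_prime_int.mp hp).irreducible.coprime_iff_not_dvd.mpr hcs'
  obtain ⟨v, u, huv⟩ := hcop
  refine ⟨u * cy, ?_⟩
  have hmem : y - ((u * cy : ℤ) : 𝓞 (LL p a)) * s ∈ PP (LL p a) A := by
    have e : y - ((u * cy : ℤ) : 𝓞 (LL p a)) * s =
        (y - (cy : 𝓞 (LL p a))) - ((u * cy : ℤ) : 𝓞 (LL p a)) * (s - (cs : 𝓞 (LL p a))) +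
          ((p : ℤ) : 𝓞 (LL p a)) * ((v * cy : ℤ) : 𝓞 (LL p a)) := by
      have h1 : ((v * p + u * cs : ℤ) : 𝓞 (LL p a)) = 1 := by rw [huv]; simp
      push_cast at h1 ⊢
      linear_combination (-(cy : 𝓞 (LL p a))) * h1
    rw [e]
    exact add_mem (sub_mem hcy (Ideal.mul_mem_left _ _ hcs)) (Ideal.mul_mem_right _ _ hpP)
  have hv1 := valuation_lt_one_of_mem (LL p a) A hmem
  have hv2 := valuation_eq_one_of_notMem (LL p a) A hs
  have hs0 : (((s : 𝓞 (LL p a)) : LL p a) : Qbar) ≠ 0 := by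
    intro h0
    rw [h0, map_zero] at hv2
    exact zero_ne_one hv2
  have hws' : w * (((s : 𝓞 (LL p a)) : LL p a) : Qbar) = (((y : 𝓞 (LL p a)) : LL p a) : Qbar) :=
    congrArg Subtype.val hws
  have e2 : (w - ((u * cy : ℤ) : Qbar)) * (((s : 𝓞 (LL p a)) : LL p a) : Qbar) =
      (((y - ((u * cy : ℤ) : 𝓞 (LL p a)) * s : 𝓞 (LL p a)) : LL p a) : Qbar) := by
    rw [sub_mul, hws']
    simp
  rw [ValuationSubring.mem_nonunits_iff]
  have e3 := congrArg A.valuation e2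
  rw [map_mul, hv2, mul_one] at e3
  rw [e3]
  exact hv1

end Fermat.Agent.S14
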