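import Mathlib

/-!
# S14, package UN : the abstract index argument

`M` is a torsion free abelian group with an endomorphism `g` killed by `1 + g + ... + g^(n-1)`,
and containing an element `u0` whose `g`-orbit generates a subgroup of finite index.  Then for
every `lam : ℕ` such that `p ^ 2 ∤ 1 + lam + ... + lam^(n-1)` the kernel of `g - lam` on `M / p M`
has at most `p` elements.
-/

set_option autoImplicit false

namespace Fermat.Agent.S14.UN

section Abstract

variable {M : Type*} [AddCommGroup M]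

/-- index juggling -/
lemma index_range_eq_relIndex (f : M →+ M) (hf : Function.Injective f) (N : AddSubgroup M)
    (hN : N.index ≠ 0) (hfN : N.map f ≤ N) : f.range.index = (N.map f).relIndex N := by
  have h1 : (N.map f).index = N.index * f.range.index := AddSubgroup.index_map_of_injective N hf
  have h2 : (N.map f).relIndex N * N.index = (N.map f).index := AddSubgroup.relIndex_mul_index hfN
  have h3 : N.index * f.range.index = N.index * (N.map f).relIndex N := by
    rw [← h1, ← h2, mul_comm]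
  exact Nat.eq_of_mul_eq_mul_left (Nat.pos_of_ne_zero hN) h3

/-- a subgroup `B ≤ N` such that `N` is generated modulo `B` by one element killed by `D`. -/
lemma relIndex_dvd_of_cyclic (B N : AddSubgroup M) (u0 : M) (hu0 : u0 ∈ N) (D : ℕ)
    (hgen : ∀ x ∈ N, ∃ k : ℤ, x - k • u0 ∈ B) (hD : D • u0 ∈ B) : B.relIndex N ∣ D := by
  rw [AddSubgroup.relIndex, AddSubgroup.index]
  set Q := N ⧸ B.addSubgroupOf N
  let x : Q := QuotientAddGroup.mk (⟨u0, hu0⟩ : N)
  have hx : ∀ y : Q, y ∈ AddSubgroup.zmultiples x := by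
    intro y
    induction y using QuotientAddGroup.induction_on with
    | H z =>
      obtain ⟨k, hk⟩ := hgen z z.2
      rw [AddSubgroup.mem_zmultiples_iff]
      refine ⟨k, ?_⟩
      have : (QuotientAddGroup.mk (k • (⟨u0, hu0⟩ : N)) : Q) = QuotientAddGroup.mk z := by
        rw [QuotientAddGroup.eq, AddSubgroup.mem_addSubgroupOf]
        have : ((-(k • (⟨u0, hu0⟩ : N)) + z : N) : M) = z - k • u0 := by
          push_cast
          abel
        rw [this]
        exact hk
      rw [← this]
      rfl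
  rw [← addOrderOf_eq_card_of_forall_mem_zmultiples hx]
  apply addOrderOf_dvd_of_nsmul_eq_zero
  have : (QuotientAddGroup.mk (D • (⟨u0, hu0⟩ : N)) : Q) = 0 := by
    rw [QuotientAddGroup.eq_zero_iff, AddSubgroup.mem_addSubgroupOf]
    simpa using hD
  rw [← this]
  rfl

/-- two independent elements of order `p` force `p ^ 2 ∣ card`. -/
lemma sq_dvd_card_of_notMem_zmultiples {A : Type*} [AddCommGroup A] (p : ℕ) (hp : p.Prime)
    (a b : A) (ha : a ≠ 0) (hpa : p • a = 0) (hpb : p • b = 0)
    (hb : b ∉ AddSubgroup.zmultiples a) : p ^ 2 ∣ Nat.card A := by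
  have := Fact.mk hp
  have h1 : Nat.card (AddSubgroup.zmultiples a) = p := by
    rw [Nat.card_zmultiples]
    exact addOrderOf_eq_prime hpa ha
  have h2 : p ∣ (AddSubgroup.zmultiples a).index := by
    rw [AddSubgroup.index]
    have h3 : addOrderOf (QuotientAddGroup.mk b : A ⧸ AddSubgroup.zmultiples a) = p := by
      apply addOrderOf_eq_prime
      · rw [← QuotientAddGroup.mk_nsmul, hpb]
        rfl
      · rwa [Ne, QuotientAddGroup.eq_zero_iff]
    rw [← h3]
    exact addOrderOf_dvd_natCard _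
  rw [← AddSubgroup.card_mul_index (AddSubgroup.zmultiples a), h1, pow_two]
  exact Nat.mul_dvd_mul_left p h2

theorem abstract_main (p : ℕ) (hp : p.Prime) (g : M →+ M) (n lam : ℕ)
    (htf : ∀ (k : ℕ) (x : M), k ≠ 0 → k • x = 0 → x = 0)
    (hfin : Finite (M ⧸ (nsmulAddMonoidHom (α := M) p).range))
    (hΨ : ∀ x : M, ∑ i ∈ Finset.range n, (⇑g)^[i] x = 0)
    (hD0 : ∑ i ∈ Finset.range n, lam ^ i ≠ 0)
    (hD : ¬ p ^ 2 ∣ ∑ i ∈ Finset.range n, lam ^ i)
    (u0 : M) (hu0 : (AddSubgroup.closure (Set.range fun i : ℕ => (⇑g)^[i] u0)).index ≠ 0)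
    (η u : M) (hη : ∃ y, g η - lam • η = p • y) (hu : ∃ y, g u - lam • u = p • y)
    (hη' : ¬ ∃ y, η = p • y) :
    ∃ (j : ℕ) (y : M), u = j • η + p • y := by
  classical
  set D := ∑ i ∈ Finset.range n, lam ^ i with hDdef
  let f : M →+ M := g - lam • AddMonoidHom.id M
  have hf_apply : ∀ x, f x = g x - lam • x := fun x => rfl
  -- injectivity
  have hinj : Function.Injective f := by
    rw [injective_iff_map_eq_zero]
    intro x hx
    have hgx : g x = lam • x := by
      rw [hf_apply, sub_eq_zero] at hx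
      exact hx
    have hit : ∀ i : ℕ, (⇑g)^[i] x = lam ^ i • x := by
      intro i
      induction i with
      | zero => simp
      | succ i ih =>
        rw [Function.iterate_succ_apply', ih, map_nsmul, hgx, smul_smul, pow_succ]
    have h0 := hΨ x
    simp_rw [hit] at h0
    rw [← Finset.sum_smul] at h0
    exact htf D x hD0 h0
  set N0 := AddSubgroup.closure (Set.range fun i : ℕ => (⇑g)^[i] u0) with hN0
  have hmem : ∀ i : ℕ, (⇑g)^[i] u0 ∈ N0 := fun i => AddSubgroup.subset_closure ⟨i, rfl⟩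
  have hgN : ∀ x ∈ N0, g x ∈ N0 := by
    have : N0 ≤ N0.comap g := by
      rw [hN0, AddSubgroup.closure_le]
      rintro _ ⟨i, rfl⟩
      show g ((⇑g)^[i] u0) ∈ N0
      have h := hmem (i + 1)
      rwa [Function.iterate_succ_apply'] at h
    exact fun x hx => this hx
  have hfN : N0.map f ≤ N0 := by
    rintro _ ⟨x, hx, rfl⟩
    rw [hf_apply]
    exact N0.sub_mem (hgN x hx) (N0.nsmul_mem hx _)
  set B := N0.map f with hB
  have hfB : ∀ x ∈ N0, f x ∈ B := fun x hx => ⟨x, hx, rfl⟩
  have hstep : ∀ i : ℕ, (⇑g)^[i] u0 - lam ^ i • u0 ∈ B := by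
    intro i
    induction i with
    | zero => simp
    | succ i ih =>
      have : (⇑g)^[i + 1] u0 - lam ^ (i + 1) • u0 =
          f ((⇑g)^[i] u0) + lam • ((⇑g)^[i] u0 - lam ^ i • u0) := by
        rw [hf_apply, Function.iterate_succ_apply', smul_sub, smul_smul, pow_succ, mul_comm lam]
        abel
      rw [this]
      exact B.add_mem (hfB _ (hmem i)) (B.nsmul_mem ih _)
  have hgen : ∀ x ∈ N0, ∃ k : ℤ, x - k • u0 ∈ B := by
    intro x hx
    induction hx using AddSubgroup.closure_induction with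
    | mem x hx =>
      obtain ⟨i, rfl⟩ := hx
      refine ⟨(lam ^ i : ℕ), ?_⟩
      rw [natCast_zsmul]
      exact hstep i
    | zero => exact ⟨0, by simp⟩
    | add x y _ _ hx hy =>
      obtain ⟨k, hk⟩ := hx
      obtain ⟨l, hl⟩ := hy
      refine ⟨k + l, ?_⟩
      have : x + y - (k + l) • u0 = (x - k • u0) + (y - l • u0) := by
        rw [add_smul]; abel
      rw [this]
      exact B.add_mem hk hl
    | neg x _ hx =>
      obtain ⟨k, hk⟩ := hx
      refine ⟨-k, ?_⟩
      have : -x - (-k) • u0 = -(x - k • u0) := by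
        rw [neg_smul]; abel
      rw [this]
      exact B.neg_mem hk
  have hDB : D • u0 ∈ B := by
    have h1 : D • u0 = -∑ i ∈ Finset.range n, ((⇑g)^[i] u0 - lam ^ i • u0) := by
      rw [Finset.sum_sub_distrib, hΨ u0, ← Finset.sum_smul, ← hDdef]
      simp
    rw [h1]
    exact B.neg_mem (B.sum_mem fun i _ => hstep i)
  have hidx : f.range.index ∣ D := by
    rw [index_range_eq_relIndex f hinj N0 hu0 hfN]
    exact relIndex_dvd_of_cyclic B N0 u0 (by simpa using hmem 0) D hgen hDB
  -- the quotient `V = M / p M`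
  set P := (nsmulAddMonoidHom (α := M) p).range with hP
  have hPmem : ∀ x : M, x ∈ P ↔ ∃ y, x = p • y := by
    intro x
    constructor
    · rintro ⟨y, rfl⟩
      exact ⟨y, rfl⟩
    · rintro ⟨y, rfl⟩
      exact ⟨y, rfl⟩
  have hPf : P ≤ P.comap f := by
    intro x hx
    obtain ⟨y, rfl⟩ := (hPmem x).1 hx
    exact (hPmem _).2 ⟨f y, map_nsmul f p y⟩
  let fb : (M ⧸ P) →+ (M ⧸ P) := QuotientAddGroup.map P P f hPf
  have hfb : ∀ x : M, fb (QuotientAddGroup.mk x) = QuotientAddGroup.mk (f x) := fun x => rfl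
  have hcard : Nat.card fb.ker ∣ D := by
    rw [← AddSubgroup.index_range]
    refine dvd_trans ?_ hidx
    rw [← AddSubgroup.index_comap_of_surjective fb.range (QuotientAddGroup.mk'_surjective P)]
    apply AddSubgroup.index_dvd_of_le
    rintro _ ⟨x, rfl⟩
    exact ⟨QuotientAddGroup.mk x, rfl⟩
  have hker : ∀ x : M, (∃ y, g x - lam • x = p • y) → (QuotientAddGroup.mk x : M ⧸ P) ∈ fb.ker := by
    intro x hx
    rw [AddMonoidHom.mem_ker, hfb, QuotientAddGroup.eq_zero_iff, hPmem]
    exact hx
  have hpV : ∀ x : M ⧸ P, p • x = 0 := by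
    intro x
    induction x using QuotientAddGroup.induction_on with
    | H z =>
      rw [← QuotientAddGroup.mk_nsmul, QuotientAddGroup.eq_zero_iff, hPmem]
      exact ⟨z, rfl⟩
  let a : fb.ker := ⟨_, hker η hη⟩
  let b : fb.ker := ⟨_, hker u hu⟩
  have ha : a ≠ 0 := by
    intro h
    have h' : (QuotientAddGroup.mk η : M ⧸ P) = 0 := congrArg Subtype.val h
    rw [QuotientAddGroup.eq_zero_iff, hPmem] at h'
    exact hη' h'
  have hb : b ∈ AddSubgroup.zmultiples a := by
    by_contra hb
    exact hD ((sq_dvd_card_of_notMem_zmultiples p hp a b ha (Subtype.ext (hpV _))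
      (Subtype.ext (hpV _)) hb).trans hcard)
  obtain ⟨k, hk⟩ := AddSubgroup.mem_zmultiples_iff.1 hb
  have hk' : (QuotientAddGroup.mk u : M ⧸ P) = QuotientAddGroup.mk (k • η) := by
    have := congrArg Subtype.val hk
    simpa [a, b] using this.symm
  rw [QuotientAddGroup.eq, hPmem] at hk'
  obtain ⟨y, hy⟩ := hk'
  -- `k = p * q + r`
  refine ⟨(k % p).toNat, (k / p) • η - y, ?_⟩
  have hp0 : (0 : ℤ) < p := by exact_mod_cast hp.pos
  have hr : ((k % p).toNat : ℤ) = k % p := Int.toNat_of_nonneg (Int.emod_nonneg _ hp0.ne')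
  have h1 : ((k % p).toNat) • η = (k % p) • η := by
    rw [← natCast_zsmul, hr]
  have h2 : k • η = (k % p) • η + p • ((k / p) • η) := by
    rw [← natCast_zsmul ((k / p) • η) p, smul_smul, ← add_smul, Int.emod_add_mul_ediv]
  have h3 : u = k • η - p • y := by
    rw [← hy]; abel
  rw [h3, h1, h2, smul_sub]
  abel

end Abstract

end Fermat.Agent.S14.UN
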