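import Fermat.Agent.S14.Defs
import Fermat.Agent.S14.UnitsAbs

/-!
# S14, package UN : the `ω²`-eigenspace of `E / ⟨ζ⟩ E^p` is at most one-dimensional
-/

set_option autoImplicit false

namespace Fermat.Agent.S14.UN

open NumberField NumberField.Units NumberField.Units.dirichletUnitTheorem NumberField.InfinitePlace
open Finset Module

section Arith

lemma exists_lam (p : ℕ) (hp : p.Prime) (c : ℕ) (hc : ¬ p ∣ c) :
    ∃ t : ℕ, ¬ p ^ 2 ∣ ∑ i ∈ range (p - 1), (c + p * t) ^ i := by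
  by_contra hcon
  push Not at hcon
  have h0 := hcon 0
  have h1 := hcon 1
  simp only [mul_zero, add_zero, mul_one] at h0 h1
  have key : ∀ x : ℕ, p ^ 2 ∣ ∑ i ∈ range (p - 1), x ^ i → ((x : ZMod (p ^ 2)) ^ (p - 1) = 1) := by
    intro x hx
    have h := geom_sum_mul (x : ZMod (p ^ 2)) (p - 1)
    have h2 : (∑ i ∈ range (p - 1), (x : ZMod (p ^ 2)) ^ i) = 0 := by
      have := (ZMod.natCast_eq_zero_iff _ _).2 hx
      push_cast at this
      exact this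
    rw [h2, zero_mul] at h
    exact (sub_eq_zero.1 h.symm)
  have e0 := key c h0
  have e1 := key (c + p) h1
  have hy : ((p : ZMod (p ^ 2))) ^ 2 = 0 := by
    have := (ZMod.natCast_eq_zero_iff (p ^ 2) (p ^ 2)).2 dvd_rfl
    push_cast at this
    exact this
  have h3 := Polynomial.eval_add_of_sq_eq_zero (Polynomial.X ^ (p - 1) : Polynomial (ZMod (p ^ 2)))
    (c : ZMod (p ^ 2)) (p : ZMod (p ^ 2)) hy
  simp only [Polynomial.eval_pow, Polynomial.eval_X, Polynomial.derivative_X_pow,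
    Polynomial.eval_mul, Polynomial.eval_C] at h3
  push_cast at e1
  rw [e1, e0] at h3
  have h4 : (((p - 1 : ℕ) * c ^ (p - 1 - 1) * p : ℕ) : ZMod (p ^ 2)) = 0 := by
    push_cast
    have := h3
    linear_combination -this
  rw [ZMod.natCast_eq_zero_iff, pow_two] at h4
  have h5 : p ∣ (p - 1) * c ^ (p - 1 - 1) := Nat.dvd_of_mul_dvd_mul_right hp.pos h4
  rcases (Nat.Prime.dvd_mul hp).1 h5 with h | h
  · have := Nat.le_of_dvd (by have := hp.two_le; omega) h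
    have := hp.two_le
    omega
  · exact hc (hp.dvd_of_dvd_pow h)

end Arith

section Action

variable {K : Type*} [Field K] [NumberField K]

/-- Galois action on units. -/
noncomputable def actU (σ : K ≃ₐ[ℚ] K) : (𝓞 K)ˣ →* (𝓞 K)ˣ :=
  Units.map (MulSemiringAction.toRingHom (K ≃ₐ[ℚ] K) (𝓞 K) σ : 𝓞 K →* 𝓞 K)

lemma coe_actU (σ : K ≃ₐ[ℚ] K) (u : (𝓞 K)ˣ) : (((actU σ u : (𝓞 K)ˣ) : 𝓞 K) : K) = σ ((u : 𝓞 K) : K) :=
  rfl

lemma actU_mul (σ τ : K ≃ₐ[ℚ] K) (u : (𝓞 K)ˣ) : actU (σ * τ) u = actU σ (actU τ u) := by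
  apply Units.ext
  apply RingOfIntegers.ext
  rfl

lemma actU_one (u : (𝓞 K)ˣ) : actU (1 : K ≃ₐ[ℚ] K) u = u := by
  apply Units.ext
  apply RingOfIntegers.ext
  rfl

lemma torsion_le_comap (σ : K ≃ₐ[ℚ] K) : torsion K ≤ (torsion K).comap (actU σ) := by
  intro x hx
  rw [Subgroup.mem_comap]
  exact (actU σ).isOfFinOrder hx

/-- units modulo torsion, additively -/
def MT (K : Type*) [Field K] [NumberField K] := Additive ((𝓞 K)ˣ ⧸ torsion K)

noncomputable instance : AddCommGroup (MT K) :=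
  inferInstanceAs (AddCommGroup (Additive ((𝓞 K)ˣ ⧸ torsion K)))

instance : AddGroup.FG (MT K) := by
  have h1 : Group.FG (𝓞 K)ˣ := Group.fg_iff_monoid_fg.2 inferInstance
  have h2 : Group.FG ((𝓞 K)ˣ ⧸ torsion K) := inferInstance
  exact GroupFG.iff_add_fg.1 h2

/-- the class of a unit -/
def cl (u : (𝓞 K)ˣ) : MT K := Additive.ofMul (QuotientGroup.mk u)

lemma cl_mul (u v : (𝓞 K)ˣ) : cl (u * v) = cl u + cl v := rfl

lemma cl_pow (u : (𝓞 K)ˣ) (n : ℕ) : cl (u ^ n) = n • cl u := rfl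

lemma cl_prod {ι : Type*} (s : Finset ι) (F : ι → (𝓞 K)ˣ) :
    cl (∏ i ∈ s, F i) = ∑ i ∈ s, cl (F i) := by
  classical
  induction s using Finset.induction_on with
  | empty => rfl
  | insert a s ha ih => rw [Finset.prod_insert ha, Finset.sum_insert ha, cl_mul, ih]

lemma cl_surj (x : MT K) : ∃ u, cl u = x := by
  obtain ⟨u, hu⟩ := QuotientGroup.mk_surjective (Additive.toMul x)
  exact ⟨u, by rw [cl, hu]; rfl⟩

lemma cl_eq_zero_iff (u : (𝓞 K)ˣ) : cl u = 0 ↔ u ∈ torsion K := by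
  rw [cl]
  constructor
  · intro h
    exact (QuotientGroup.eq_one_iff u).1 h
  · intro h
    exact (QuotientGroup.eq_one_iff u).2 h

lemma cl_eq_iff (u v : (𝓞 K)ˣ) : cl u = cl v ↔ ∃ t ∈ torsion K, u = v * t := by
  constructor
  · intro h
    have h' : (QuotientGroup.mk v : (𝓞 K)ˣ ⧸ torsion K) = QuotientGroup.mk u := h.symm
    rw [QuotientGroup.eq] at h'
    exact ⟨_, h', by group⟩
  · rintro ⟨t, ht, rfl⟩
    rw [cl_mul, (cl_eq_zero_iff t).2 ht, add_zero]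

/-- Galois action on units modulo torsion -/
noncomputable def actM (σ : K ≃ₐ[ℚ] K) : MT K →+ MT K :=
  MonoidHom.toAdditive (QuotientGroup.map (torsion K) (torsion K) (actU σ) (torsion_le_comap σ))

lemma actM_cl (σ : K ≃ₐ[ℚ] K) (u : (𝓞 K)ˣ) : actM σ (cl u) = cl (actU σ u) := rfl

lemma actM_iterate (σ : K ≃ₐ[ℚ] K) (i : ℕ) (u : (𝓞 K)ˣ) :
    (⇑(actM σ))^[i] (cl u) = cl (actU (σ ^ i) u) := by
  induction i with
  | zero => simp [actU_one]
  | succ i ih => rw [Function.iterate_succ_apply', ih, actM_cl, pow_succ', actU_mul]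

lemma prod_actU_mem_torsion [IsGalois ℚ K] (u : (𝓞 K)ˣ) :
    ∏ σ : K ≃ₐ[ℚ] K, actU σ u ∈ torsion K := by
  have h1 : (((∏ σ : K ≃ₐ[ℚ] K, actU σ u : (𝓞 K)ˣ) : 𝓞 K) : K) =
      algebraMap ℚ K (Algebra.norm ℚ ((u : 𝓞 K) : K)) := by
    rw [Algebra.norm_eq_prod_automorphisms]
    push_cast
    rfl
  have h2 : IsUnit (Algebra.norm ℤ (u : 𝓞 K)) := u.isUnit.map (Algebra.norm ℤ)
  have h3 : (Algebra.norm ℚ ((u : 𝓞 K) : K)) ^ 2 = 1 := by
    rw [← Algebra.coe_norm_int]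
    rcases Int.isUnit_iff.1 h2 with h | h <;> rw [h] <;> norm_num
  rw [torsion, CommGroup.mem_torsion, isOfFinOrder_iff_pow_eq_one]
  refine ⟨2, by norm_num, ?_⟩
  apply Units.ext
  apply RingOfIntegers.ext
  have h4 : ((((∏ σ : K ≃ₐ[ℚ] K, actU σ u) ^ 2 : (𝓞 K)ˣ) : 𝓞 K) : K) =
      (((∏ σ : K ≃ₐ[ℚ] K, actU σ u : (𝓞 K)ˣ) : 𝓞 K) : K) ^ 2 := by
    push_cast
    rfl
  rw [h4, h1, ← map_pow, h3, map_one]
  rfl

lemma sum_iterate_eq_zero [IsGalois ℚ K] (g : K ≃ₐ[ℚ] K) (hg : ∀ σ, σ ∈ Subgroup.zpowers g)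
    (x : MT K) : ∑ i ∈ range (Nat.card (K ≃ₐ[ℚ] K)), (⇑(actM g))^[i] x = 0 := by
  classical
  obtain ⟨u, rfl⟩ := cl_surj x
  simp_rw [actM_iterate]
  rw [← cl_prod, cl_eq_zero_iff]
  have h := prod_actU_mem_torsion u
  rw [← IsCyclic.image_range_card hg, Finset.prod_image] at h
  · exact h
  · intro i hi j hj hij
    rw [← orderOf_eq_card_of_forall_mem_zpowers hg] at hi hj
    exact pow_injOn_Iio_orderOf (by simpa using hi) (by simpa using hj) hij

lemma finite_quot (p : ℕ) (hp : p ≠ 0) :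
    Finite (MT K ⧸ (nsmulAddMonoidHom (α := MT K) p).range) := by
  apply AddCommGroup.finite_of_fg_isAddTorsion
  intro x
  rw [isOfFinAddOrder_iff_nsmul_eq_zero]
  refine ⟨p, Nat.pos_of_ne_zero hp, ?_⟩
  induction x using QuotientAddGroup.induction_on with
  | H z =>
    rw [← QuotientAddGroup.mk_nsmul, QuotientAddGroup.eq_zero_iff]
    exact ⟨z, rfl⟩

lemma torsionFree (k : ℕ) (x : MT K) (hk : k ≠ 0) (h : k • x = 0) : x = 0 := by
  obtain ⟨u, rfl⟩ := cl_surj x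
  rw [← cl_pow, cl_eq_zero_iff, torsion, CommGroup.mem_torsion] at h
  rw [cl_eq_zero_iff, torsion, CommGroup.mem_torsion]
  exact (isOfFinOrder_pow.1 h).resolve_right hk

end Action

section Minkowski

variable {K : Type*} [Field K] [NumberField K]

set_option backward.isDefEq.respectTransparency.types false in
/-- the independence argument in Mathlib's proof of Dirichlet's unit theorem, for any family. -/
lemma linearIndependent_logEmbedding
    (v : {w : InfinitePlace K // w ≠ w₀} → (𝓞 K)ˣ)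
    (hv : ∀ (w : {w : InfinitePlace K // w ≠ w₀}) (w' : InfinitePlace K), w' ≠ w.1 →
      Real.log (w' (v w)) < 0) :
    LinearIndependent ℝ (fun w => logEmbedding K (Additive.ofMul (v w))) := by
  classical
  let B := Pi.basisFun ℝ {w : InfinitePlace K // w ≠ w₀}
  let v' := fun w : { w : InfinitePlace K // w ≠ w₀ } ↦ logEmbedding K (Additive.ofMul (v w))
  suffices B.det v' ≠ 0 by
    rw [← isUnit_iff_ne_zero, ← Basis.is_basis_iff_det] at this
    exact this.1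
  rw [Basis.det_apply]
  refine det_ne_zero_of_sum_col_lt_diag (fun w ↦ ?_)
  simp_rw [Real.norm_eq_abs, B, Basis.coePiBasisFun.toMatrix_eq_transpose, Matrix.transpose_apply]
  rw [← sub_pos, sum_congr rfl (fun x hx ↦ abs_of_neg ?_), sum_neg_distrib, sub_neg_eq_add,
    sum_erase_eq_sub (mem_univ _), ← add_comm_sub]
  · refine add_pos_of_nonneg_of_pos ?_ ?_
    · rw [sub_nonneg]
      exact le_abs_self _
    · rw [sum_logEmbedding_component (v w)]
      refine mul_pos_of_neg_of_neg ?_ (hv w _ w.prop.symm)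
      rw [mult]; split_ifs <;> norm_num
  · refine mul_neg_of_pos_of_neg ?_ (hv w x ?_)
    · rw [mult]; split_ifs <;> norm_num
    · exact Subtype.ext_iff.not.mp (ne_of_mem_erase hx)

/-- a subgroup of the units containing such a family has finite index. -/
lemma index_ne_zero_of_family (H : Subgroup (𝓞 K)ˣ)
    (v : {w : InfinitePlace K // w ≠ w₀} → (𝓞 K)ˣ)
    (hv : ∀ (w : {w : InfinitePlace K // w ≠ w₀}) (w' : InfinitePlace K), w' ≠ w.1 →
      Real.log (w' (v w)) < 0) (hH : ∀ w, v w ∈ H) : H.index ≠ 0 := by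
  have h1 : IsMaxRank (fun i => v (equivFinRank K i)) :=
    (linearIndependent_logEmbedding v hv).comp _ (equivFinRank K).injective
  have h2 := isMaxRank_iff_closure_finiteIndex.1 h1
  have h3 : Subgroup.closure (Set.range fun i => v (equivFinRank K i)) ≤ H := by
    rw [Subgroup.closure_le]
    rintro _ ⟨i, rfl⟩
    exact hH _
  exact (Subgroup.finiteIndex_of_le h3).index_ne_zero

/-- Minkowski unit: the conjugates of a suitable unit generate a subgroup of finite index. -/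
lemma exists_minkowski_unit [IsGalois ℚ K] : ∃ u0 : (𝓞 K)ˣ, ∀ H : Subgroup (𝓞 K)ˣ,
    (∀ σ : K ≃ₐ[ℚ] K, Units.map (MulSemiringAction.toRingHom (K ≃ₐ[ℚ] K) (𝓞 K) σ : 𝓞 K →* 𝓞 K) u0 ∈ H) →
      H.index ≠ 0 := by
  obtain ⟨u0, hu0⟩ := exists_unit K (w₀ : InfinitePlace K)
  refine ⟨u0, fun H hH => ?_⟩
  have hσ : ∀ w : InfinitePlace K, ∃ σ : K ≃ₐ[ℚ] K, σ • (w₀ : InfinitePlace K) = w := fun w =>
    exists_smul_eq_of_comap_eq (Subsingleton.elim _ _)
  choose σ hσ using hσ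
  refine index_ne_zero_of_family H
    (fun w => Units.map (MulSemiringAction.toRingHom (K ≃ₐ[ℚ] K) (𝓞 K) (σ w.1) : 𝓞 K →* 𝓞 K) u0)
    ?_ (fun w => hH _)
  intro w w' hw'
  have h1 : w' ((Units.map (MulSemiringAction.toRingHom (K ≃ₐ[ℚ] K) (𝓞 K) (σ w.1) : 𝓞 K →* 𝓞 K) u0 :
      (𝓞 K)ˣ) : K) = ((σ w.1)⁻¹ • w') (u0 : K) := by
    rw [InfinitePlace.smul_apply]
    rfl
  rw [h1]
  apply hu0
  intro h
  apply hw'
  have h2 := hσ w.1
  rw [← h2]
  exact (inv_smul_eq_iff.1 h)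

end Minkowski

section Main

variable {p : ℕ} [Fact p.Prime] {K : Type*} [Field K] [NumberField K]
  [IsCyclotomicExtension {p} ℚ K] {ζ : K}

lemma index_closure_ne_zero [IsGalois ℚ K] (g : K ≃ₐ[ℚ] K) (hg : ∀ σ, σ ∈ Subgroup.zpowers g) :
    ∃ u0 : (𝓞 K)ˣ,
      (AddSubgroup.closure (Set.range fun i : ℕ => (⇑(actM g))^[i] (cl u0))).index ≠ 0 := by
  classical
  obtain ⟨u0, hu0⟩ := exists_minkowski_unit (K := K)
  refine ⟨u0, ?_⟩
  set N0 := AddSubgroup.closure (Set.range fun i : ℕ => (⇑(actM g))^[i] (cl u0)) with hN0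
  let H : Subgroup (𝓞 K)ˣ :=
    { carrier := {x | cl x ∈ N0}
      mul_mem' := fun {a b} ha hb => by
        show cl (a * b) ∈ N0
        rw [cl_mul]
        exact N0.add_mem ha hb
      one_mem' := N0.zero_mem
      inv_mem' := fun {a} ha => by
        show cl a⁻¹ ∈ N0
        have : cl a⁻¹ = - cl a := rfl
        rw [this]
        exact N0.neg_mem ha }
  have hH : H.index ≠ 0 := by
    apply hu0
    intro σ
    show cl (actU σ u0) ∈ N0
    have hσ : σ ∈ Finset.image (fun i => g ^ i) (range (Nat.card (K ≃ₐ[ℚ] K))) := by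
      rw [IsCyclic.image_range_card hg]
      exact Finset.mem_univ _
    obtain ⟨i, -, rfl⟩ := Finset.mem_image.1 hσ
    rw [← actM_iterate]
    exact AddSubgroup.subset_closure ⟨i, rfl⟩
  have hfin : Finite ((𝓞 K)ˣ ⧸ H) := Subgroup.index_ne_zero_iff_finite.1 hH
  rw [AddSubgroup.index_ne_zero_iff_finite]
  let F : (𝓞 K)ˣ ⧸ H → MT K ⧸ N0 := Quotient.map' cl (by
    intro a b hab
    rw [QuotientGroup.leftRel_apply] at hab
    rw [QuotientAddGroup.leftRel_apply]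
    exact hab)
  apply Finite.of_surjective F
  intro x
  induction x using QuotientAddGroup.induction_on with
  | H z =>
    obtain ⟨w, rfl⟩ := cl_surj z
    exact ⟨QuotientGroup.mk w, rfl⟩

omit [Fact p.Prime] [IsCyclotomicExtension {p} ℚ K] in
lemma eig_cl (hp0 : p ≠ 0) (g : K ≃ₐ[ℚ] K) (a0 t : ℕ) (hg : g ζ = ζ ^ a0) (w : (𝓞 K)ˣ)
    (hw : IsEig p ζ ((w : 𝓞 K) : K)) :
    ∃ y, actM g (cl w) - (a0 ^ 2 + p * t) • cl w = p • y := by
  obtain ⟨y, hy⟩ := hw g a0 hg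
  let z : (𝓞 K)ˣ := actU g w * (w ^ (a0 ^ 2))⁻¹
  have hz : actU g w = w ^ (a0 ^ 2) * z := by
    simp only [z]
    rw [mul_comm, inv_mul_cancel_right]
  have hwne : (((w ^ (a0 ^ 2) : (𝓞 K)ˣ) : 𝓞 K) : K) ≠ 0 := by
    rw [Ne, RingOfIntegers.coe_eq_zero_iff]
    exact Units.ne_zero _
  have hyz : y ^ p = ((z : 𝓞 K) : K) := by
    have h1 : (((actU g w : (𝓞 K)ˣ) : 𝓞 K) : K) =
        (((w ^ (a0 ^ 2) : (𝓞 K)ˣ) : 𝓞 K) : K) * ((z : 𝓞 K) : K) := by
      rw [hz]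
      push_cast
      rfl
    rw [coe_actU, hy] at h1
    have h2 : (((w ^ (a0 ^ 2) : (𝓞 K)ˣ) : 𝓞 K) : K) = ((w : 𝓞 K) : K) ^ (a0 ^ 2) := by
      push_cast
      rfl
    rw [← h2] at h1
    exact mul_left_cancel₀ hwne h1
  have hyint : IsIntegral ℤ y := by
    apply IsIntegral.of_pow (Nat.pos_of_ne_zero hp0)
    rw [hyz]
    exact RingOfIntegers.isIntegral_coe _
  let y' : 𝓞 K := ⟨y, hyint⟩
  have hy' : y' ^ p = (z : 𝓞 K) := by
    apply RingOfIntegers.ext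
    rw [← hyz]
    rfl
  have hunit : IsUnit y' := by
    rw [← isUnit_pow_iff hp0, hy']
    exact z.isUnit
  obtain ⟨v, hv⟩ := hunit
  have hvz : v ^ p = z := by
    apply Units.ext
    rw [← hy', ← hv]
    rfl
  refine ⟨cl v - t • cl w, ?_⟩
  rw [actM_cl, hz, ← hvz, cl_mul, cl_pow, cl_pow, add_smul, smul_sub, mul_smul]
  abel

lemma torsion_eq (hζ : IsPrimitiveRoot ζ p) (hp2 : p ≠ 2) (t : (𝓞 K)ˣ) (ht : t ∈ torsion K) :
    ∃ (r : ℕ) (e : (𝓞 K)ˣ), t = zU hζ ^ r * e ^ p := by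
  have hodd : Odd p := (Fact.out : p.Prime).odd_of_ne_two hp2
  have hfo : IsOfFinOrder ((t : 𝓞 K) : K) := by
    rw [torsion, CommGroup.mem_torsion] at ht
    have := ((algebraMap (𝓞 K) K : 𝓞 K →* K).comp (Units.coeHom (𝓞 K))).isOfFinOrder ht
    exact this
  obtain ⟨r, hr⟩ := hζ.exists_neg_pow_of_isOfFinOrder hodd hfo
  refine ⟨r, (-1) ^ r, ?_⟩
  apply Units.ext
  apply RingOfIntegers.ext
  rw [hr]
  have h1 : ((((zU hζ ^ r * ((-1) ^ r) ^ p : (𝓞 K)ˣ)) : 𝓞 K) : K) = ζ ^ r * ((-1) ^ r) ^ p := by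
    push_cast
    rfl
  rw [h1, ← pow_mul, mul_comm r p, pow_mul, hodd.neg_one_pow, neg_pow ζ r, mul_comm]

end Main

end Fermat.Agent.S14.UN

namespace Fermat.Agent.S14

open NumberField

variable {p : ℕ} [Fact p.Prime] {K : Type*} [Field K] [NumberField K]
  [IsCyclotomicExtension {p} ℚ K] {ζ : K}

/-- [UN] the `ω²`-eigenspace of `E / ⟨ζ⟩ E^p` is at most one-dimensional. -/
theorem eig_units_cyclic (hζ : IsPrimitiveRoot ζ p) (hp5 : 5 ≤ p) (η u : (𝓞 K)ˣ)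
    (hη : IsEig p ζ ((η : 𝓞 K) : K)) (hu : IsEig p ζ ((u : 𝓞 K) : K))
    (hη' : ∀ (i : ℕ) (v : (𝓞 K)ˣ), η ≠ zU hζ ^ i * v ^ p) :
    ∃ (j i : ℕ) (v : (𝓞 K)ˣ), u = η ^ j * zU hζ ^ i * v ^ p := by
  have hp : p.Prime := Fact.out
  have hp2 : p ≠ 2 := by omega
  have : NeZero p := ⟨hp.ne_zero⟩
  have : IsGalois ℚ K := IsCyclotomicExtension.isGalois {p} ℚ K
  have : IsCyclic (K ≃ₐ[ℚ] K) := isCyclic_of_injective (hζ.autToPow ℚ) (hζ.autToPow_injective ℚ)
  obtain ⟨g, hg⟩ := IsCyclic.exists_generator (α := K ≃ₐ[ℚ] K)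
  have hcard : Nat.card (K ≃ₐ[ℚ] K) = p - 1 := by
    rw [IsGalois.card_aut_eq_finrank,
      IsCyclotomicExtension.finrank K (Polynomial.cyclotomic.irreducible_rat hp.pos),
      Nat.totient_prime hp]
  set a0 := ex hζ g with ha0
  have hga : g ζ = ζ ^ a0 := ex_spec hζ g
  have hpa : ¬ p ∣ a0 ^ 2 := by
    intro h
    have h1 : p ∣ a0 := hp.dvd_of_dvd_pow h
    have h2 : ((a0 : ℕ) : ZMod p) = 0 := (ZMod.natCast_eq_zero_iff _ _).2 h1
    rw [ha0, ex, ZMod.natCast_val, ZMod.cast_id', id] at h2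
    exact Units.ne_zero _ h2
  obtain ⟨t, ht⟩ := UN.exists_lam p hp (a0 ^ 2) hpa
  obtain ⟨u0, hu0⟩ := UN.index_closure_ne_zero g hg
  have hD0 : ∑ i ∈ Finset.range (p - 1), (a0 ^ 2 + p * t) ^ i ≠ 0 := by
    intro h
    rw [h] at ht
    exact ht (dvd_zero _)
  have hnot : ¬ ∃ y, UN.cl η = p • y := by
    rintro ⟨y, hy⟩
    obtain ⟨v, rfl⟩ := UN.cl_surj y
    rw [← UN.cl_pow, UN.cl_eq_iff] at hy
    obtain ⟨t', ht', hy⟩ := hy
    obtain ⟨r, e, rfl⟩ := UN.torsion_eq hζ hp2 t' ht'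
    apply hη' r (v * e)
    rw [hy, mul_pow]
    exact mul_left_comm _ _ _
  obtain ⟨j, y, hy⟩ := UN.abstract_main p hp (UN.actM g) (p - 1) (a0 ^ 2 + p * t)
    UN.torsionFree (UN.finite_quot p hp.ne_zero)
    (fun x => hcard ▸ UN.sum_iterate_eq_zero g hg x) hD0 ht (UN.cl u0) hu0
    (UN.cl η) (UN.cl u) (UN.eig_cl hp.ne_zero g a0 t hga η hη)
    (UN.eig_cl hp.ne_zero g a0 t hga u hu) hnot
  obtain ⟨v, rfl⟩ := UN.cl_surj y
  rw [← UN.cl_pow, ← UN.cl_pow, ← UN.cl_mul, UN.cl_eq_iff] at hy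
  obtain ⟨t', ht', hy⟩ := hy
  obtain ⟨r, e, rfl⟩ := UN.torsion_eq hζ hp2 t' ht'
  refine ⟨j, r, v * e, ?_⟩
  rw [hy, mul_pow]
  simp only [mul_assoc]
  congr 1
  exact mul_left_comm _ _ _

end Fermat.Agent.S14
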