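import Fermat.Agent.S14.Basic
import Fermat.Agent.S14.Local
import Fermat.Agent.S14.Units

set_option autoImplicit false

namespace Fermat.Agent.S14

open NumberField Ideal
open scoped Pointwise nonZeroDivisors

variable {p : ℕ} [Fact p.Prime] {K : Type*} [Field K] [NumberField K]
  [IsCyclotomicExtension {p} ℚ K] {ζ : K}

open Glue

/-- [M2] -/
theorem theta_not_pow (hζ : IsPrimitiveRoot ζ p) (hp5 : 5 ≤ p) :
    ¬ ∃ y : K, ((theta hζ : 𝓞 K) : K) = y ^ p := by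
  obtain ⟨Λ₁, Λ₂, η, N, hθ, -, -, -, h2⟩ := exists_Lambda hζ hp5
  rintro ⟨y, hy⟩
  have hp0 : p ≠ 0 := (Fact.out : p.Prime).ne_zero
  have hπ : ((piO hζ : 𝓞 K) : K) ≠ 0 := by
    simpa using piO_ne_zero hζ
  set v : K := y / ((piO hζ : 𝓞 K) : K) ^ N with hv
  have hvp : v ^ p = ((η : 𝓞 K) : K) := by
    rw [hv, div_pow, ← hy, hθ]
    push_cast
    rw [← pow_mul, mul_comm N p]
    field_simp
  have hvint : IsIntegral ℤ v := by
    apply IsIntegral.of_pow (Nat.pos_of_ne_zero hp0)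
    rw [hvp]
    exact RingOfIntegers.isIntegral_coe _
  let v' : 𝓞 K := ⟨v, hvint⟩
  have hv' : v' ^ p = (η : 𝓞 K) := by
    apply RingOfIntegers.ext
    push_cast
    exact hvp
  have hu : IsUnit v' := by
    rw [← isUnit_pow_iff hp0, hv']
    exact η.isUnit
  have : η = hu.unit ^ p := by
    apply Units.ext
    rw [Units.val_pow_eq_pow_val, IsUnit.unit_spec, hv']
  apply h2
  rw [this, map_pow, mult_pow_p]

/-- [M2] -/
theorem unit_isPow (hζ : IsPrimitiveRoot ζ p) (hp5 : 5 ≤ p) (u : (𝓞 K)ˣ)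
    (hu : IsEig p ζ ((u : 𝓞 K) : K)) (c : ℤ) (hc : piO hζ ^ 3 ∣ (u : 𝓞 K) - c) :
    ∃ v : (𝓞 K)ˣ, u = v ^ p := by
  obtain ⟨Λ₁, Λ₂, η, N, hθ, hint, hz, h1, h2⟩ := exists_Lambda hζ hp5
  have hπ : ((piO hζ : 𝓞 K) : K) ≠ 0 := by
    simpa using piO_ne_zero hζ
  have hηeig : IsEig p ζ ((η : 𝓞 K) : K) := by
    have h0 := isEig_TO hζ hp5 (piO hζ) (piO_ne_zero hζ)
    refine IsEig.of_mul_pow (t := ((piO hζ : 𝓞 K) : K) ^ N) (pow_ne_zero _ hπ) ?_ h0
    change ((theta hζ : 𝓞 K) : K) = _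
    rw [hθ]
    push_cast
    rw [← pow_mul, mul_comm N p, mul_comm]
  have hη' : ∀ (i : ℕ) (v : (𝓞 K)ˣ), η ≠ zU hζ ^ i * v ^ p := by
    intro i v h
    have e1 : Λ₁ (zU hζ) ^ i = 1 := by
      have := congrArg Λ₁ h
      rw [h1, map_mul, map_pow, map_pow, mult_pow_p, mul_one] at this
      exact this.symm
    obtain ⟨i', rfl⟩ := dvd_of_mult_pow_eq_one hz e1
    rw [pow_mul, zU_pow_p, one_pow, one_mul] at h
    apply h2
    rw [h, map_pow, mult_pow_p]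
  obtain ⟨j, i, v, huv⟩ := eig_units_cyclic hζ hp5 η u hηeig hu hη'
  obtain ⟨l1, l2⟩ := hint u c hc
  have e1 : Λ₁ (zU hζ) ^ i = 1 := by
    rw [huv, map_mul, map_mul, map_pow, map_pow, map_pow, mult_pow_p, mul_one, h1, one_pow,
      one_mul] at l1
    exact l1
  obtain ⟨i', rfl⟩ := dvd_of_mult_pow_eq_one hz e1
  rw [pow_mul, zU_pow_p, one_pow, mul_one] at huv
  have e2 : Λ₂ η ^ j = 1 := by
    rw [huv, map_mul, map_pow, map_pow, mult_pow_p, mul_one] at l2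
    exact l2
  obtain ⟨j', rfl⟩ := dvd_of_mult_pow_eq_one h2 e2
  refine ⟨η ^ j' * v, ?_⟩
  rw [huv, mul_pow, ← pow_mul, mul_comm j' p]

end Fermat.Agent.S14
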