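import Fermat.Agent.S14.IdealPow
import Fermat.Agent.S14.LocalUnits

set_option autoImplicit false

namespace Fermat.Agent.S14

open NumberField Ideal
open Fermat.Agent.Lib.Frobenius (mem_of_isIntegral intCast_notMem_nonunits valuation_eq_one
  exists_liesOverPrime)

variable {p : ℕ} [Fact p.Prime]

namespace Normalise

/-- `π` is a uniformiser of `L` at `A`. -/
lemma div_pi_mem {a : Qbar} (h : KummerDatum p a) (A : ValuationSubring Qbar)
    (hA : A.LiesOverPrime p) (w : Qbar) (hw : w ∈ IntermediateField.adjoin ℚ {zetaBar p, a})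
    (hwA : w ∈ A.nonunits) : w / (zetaBar p - 1) ∈ A := by
  by_cases hw0 : w = 0
  · rw [hw0, zero_div]; exact A.zero_mem
  obtain ⟨j, hj⟩ := h.exists_unit_at_p A hA w hw hw0
  have hπ := val_pi_lt A hA
  have hπ0 : A.valuation (zetaBar p - 1) ≠ 0 := by
    rw [Valuation.ne_zero_iff]
    intro h0
    have := (zetaBar_spec p)
    rw [sub_eq_zero.mp h0] at this
    exact (Fact.out : p.Prime).one_lt.ne' (IsPrimitiveRoot.one_left_iff.mp this)
  rw [ValuationSubring.mem_nonunits_iff] at hwA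
  rw [map_mul, map_zpow₀] at hj
  rw [← ValuationSubring.valuation_le_one_iff, map_div₀]
  -- `v w = v π ^ (-j)` and `v w < 1` so `-j ≥ 1`
  have hw' : A.valuation w = A.valuation (zetaBar p - 1) ^ (-j) := by
    rw [zpow_neg, ← mul_eq_one_iff_eq_inv₀ (zpow_ne_zero _ hπ0)]
    exact hj
  have hj' : 1 ≤ -j := by
    by_contra hcon
    have hj0 : 0 ≤ j := by omega
    have : (1 : A.ValueGroup) ≤ A.valuation (zetaBar p - 1) ^ (-j) := by
      rw [zpow_neg]
      apply (one_le_inv₀ (zero_lt_iff.mpr (zpow_ne_zero _ hπ0))).mpr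
      lift j to ℕ using hj0
      rw [zpow_natCast]
      exact pow_le_one' hπ.le _
    rw [← hw'] at this
    exact absurd hwA (not_lt.mpr this)
  obtain ⟨m, hm⟩ : ∃ m : ℕ, -j = m + 1 := ⟨(-j - 1).toNat, by omega⟩
  rw [hw', hm, zpow_add_one₀ hπ0, mul_div_cancel_right₀ _ hπ0, zpow_natCast]
  exact pow_le_one' hπ.le _

/-- one step of the `π`-adic expansion -/
lemma exists_step {a : Qbar} (h : KummerDatum p a) (A : ValuationSubring Qbar)
    (hA : A.LiesOverPrime p) (w : Qbar) (hw : w ∈ IntermediateField.adjoin ℚ {zetaBar p, a})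
    (hwA : w ∈ A) : ∃ (c : ℤ) (w' : Qbar), w' ∈ IntermediateField.adjoin ℚ {zetaBar p, a} ∧
      w' ∈ A ∧ w = c + (zetaBar p - 1) * w' := by
  obtain ⟨c, hc⟩ := h.residue_at_p A hA w hw hwA
  have hζL : zetaBar p ∈ IntermediateField.adjoin ℚ {zetaBar p, a} :=
    IntermediateField.subset_adjoin ℚ _ (by simp)
  have hπL : zetaBar p - 1 ∈ IntermediateField.adjoin ℚ {zetaBar p, a} :=
    sub_mem hζL (one_mem _)
  have hwc : w - c ∈ IntermediateField.adjoin ℚ {zetaBar p, a} := sub_mem hw (intCast_mem _ c)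
  have hπ0 : zetaBar p - 1 ≠ 0 := by
    intro h0
    have := (zetaBar_spec p)
    rw [sub_eq_zero.mp h0] at this
    exact (Fact.out : p.Prime).one_lt.ne' (IsPrimitiveRoot.one_left_iff.mp this)
  refine ⟨c, (w - c) / (zetaBar p - 1), div_mem hwc hπL, div_pi_mem h A hA _ hwc hc, ?_⟩
  field_simp
  ring

lemma coe_zpow (x : Kp p) (j : ℤ) : ((x ^ j : Kp p) : Qbar) = (x : Qbar) ^ j :=
  map_zpow₀ (Kp p).val x j

end Normalise

open Normalise

/-- [B4] -/
theorem KummerDatum.exists_normalised (h3 : 3 ≤ p) {a : Qbar} (h : KummerDatum p a) :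
    ∃ (z : Kp p) (α : 𝓞 (Kp p)) (𝔞 : Ideal (𝓞 (Kp p))) (c : ℤ), z ≠ 0 ∧
      (((α : 𝓞 (Kp p)) : Kp p) : Qbar) = (a * z) ^ p ∧ span {α} = 𝔞 ^ p ∧
      piO (zetaK_spec p) ^ 3 ∣ α - c ∧ ¬ piO (zetaK_spec p) ∣ α := by
  have hpp : p.Prime := Fact.out
  obtain ⟨A, hA⟩ := exists_liesOverPrime hpp
  set L := IntermediateField.adjoin ℚ {zetaBar p, a} with hL
  have haL : a ∈ L := IntermediateField.subset_adjoin ℚ _ (by simp)
  have hζL : zetaBar p ∈ L := IntermediateField.subset_adjoin ℚ _ (by simp)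
  have hKL : ∀ x : Kp p, (x : Qbar) ∈ L := by
    intro x
    have : Kp p ≤ L := by
      apply IntermediateField.adjoin.mono
      simp
    exact this x.2
  have hπ0 : zetaBar p - 1 ≠ 0 := by
    intro h0
    have := (zetaBar_spec p)
    rw [sub_eq_zero.mp h0] at this
    exact hpp.one_lt.ne' (IsPrimitiveRoot.one_left_iff.mp this)
  have hπK0 : ((piO (zetaK_spec p) : 𝓞 (Kp p)) : Kp p) ≠ 0 := by
    simpa using piO_ne_zero (zetaK_spec p)
  obtain ⟨j, hj⟩ := h.exists_unit_at_p A hA a haL h.ne_zero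
  -- `x = (a π^j)^p ∈ K`
  obtain ⟨α0, hα0⟩ : ∃ α0 : Kp p, (α0 : Qbar) = a ^ p := ⟨⟨_, h.pow_mem⟩, rfl⟩
  set πK : Kp p := ((piO (zetaK_spec p) : 𝓞 (Kp p)) : Kp p) with hπK
  have hπKc : (πK : Qbar) = zetaBar p - 1 := coe_piO
  set x : Kp p := α0 * (πK ^ j) ^ p with hx
  have hxc : (x : Qbar) = (a * (zetaBar p - 1) ^ j) ^ p := by
    rw [hx]
    push_cast
    rw [hα0, coe_zpow, hπKc, mul_pow]
  have hxv : A.valuation (x : Qbar) = 1 := by rw [hxc, map_pow, hj, one_pow]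
  obtain ⟨t, y, ht, hty⟩ := exists_mul_mem_integers A hA x
    ((ValuationSubring.valuation_le_one_iff A _).mp hxv.le)
  have htv := val_eq_one_of_not_dvd A hA t ht
  have ht0 : (t : Kp p) ≠ 0 := by
    intro h0
    rw [h0] at htv
    simp at htv
  have hp1 : p = (p - 1) + 1 := by have := hpp.two_le; omega
  set z : Kp p := πK ^ j * t with hz
  have hz0 : z ≠ 0 := mul_ne_zero (zpow_ne_zero _ hπK0) ht0
  set α : 𝓞 (Kp p) := y * t ^ (p - 1) with hα
  have hαc : (((α : 𝓞 (Kp p)) : Kp p) : Qbar) = (a * z) ^ p := by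
    have e1 : ((α : 𝓞 (Kp p)) : Kp p) = x * (t : Kp p) ^ p := by
      rw [hα]
      push_cast
      have e : (t : Kp p) ^ p = t * (t : Kp p) ^ (p - 1) := by rw [← pow_succ', ← hp1]
      rw [e, ← mul_assoc, hty]
    rw [e1]
    push_cast
    rw [hxc, hz]
    push_cast
    rw [coe_zpow, hπKc]
    ring
  have hazv : A.valuation (a * z) = 1 := by
    rw [hz]
    push_cast
    rw [coe_zpow, hπKc, ← mul_assoc, map_mul, hj, htv, one_mul]
  have hαv : A.valuation (((α : 𝓞 (Kp p)) : Kp p) : Qbar) = 1 := by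
    rw [hαc, map_pow, hazv, one_pow]
  have hα0' : α ≠ 0 := by
    intro h0
    rw [h0] at hαv
    simp at hαv
  have hz0' : (z : Qbar) ≠ 0 := by simpa using hz0
  -- the ideal
  obtain ⟨𝔞, h𝔞⟩ := exists_ideal_pow α hα0' (by
    intro ℓ hℓ B hB
    by_cases hℓp : ℓ = p
    · subst hℓp
      obtain ⟨j', hj'⟩ := h.exists_unit_at_p B hB a haL h.ne_zero
      refine ⟨πK ^ j' / z, div_ne_zero (zpow_ne_zero _ hπK0) hz0, ?_⟩
      rw [hαc]
      push_cast
      rw [coe_zpow, hπKc, ← mul_pow, map_pow]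
      have : a * (z : Qbar) * ((zetaBar ℓ - 1) ^ j' / (z : Qbar)) = a * (zetaBar ℓ - 1) ^ j' := by
        field_simp
      rw [this, hj', one_pow]
    · obtain ⟨j', hj'⟩ := h.exists_unit_away hℓ hℓp B hB
      have hℓ0 : (ℓ : Kp p) ≠ 0 := by exact_mod_cast hℓ.ne_zero
      refine ⟨(ℓ : Kp p) ^ j' / z, div_ne_zero (zpow_ne_zero _ hℓ0) hz0, ?_⟩
      rw [hαc]
      push_cast
      rw [coe_zpow, ← mul_pow, map_pow]
      push_cast
      have : a * (z : Qbar) * ((ℓ : Qbar) ^ j' / (z : Qbar)) = a * (ℓ : Qbar) ^ j' := by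
        field_simp
      rw [this, hj', one_pow])
  -- the expansion
  have hazL : a * z ∈ L := mul_mem haL (hKL z)
  have hazA : a * z ∈ A := (ValuationSubring.valuation_le_one_iff A _).mp hazv.le
  obtain ⟨c0, w1, hw1L, hw1A, e0⟩ := exists_step h A hA _ hazL hazA
  obtain ⟨c1, w2, hw2L, hw2A, e1⟩ := exists_step h A hA _ hw1L hw1A
  obtain ⟨c2, w3, hw3L, hw3A, e2⟩ := exists_step h A hA _ hw2L hw2A
  set π := piO (zetaK_spec p) with hπ
  set a' : 𝓞 (Kp p) := c0 + π * c1 + π ^ 2 * c2 with ha'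
  have ha'c : (((a' : 𝓞 (Kp p)) : Kp p) : Qbar) =
      c0 + (zetaBar p - 1) * c1 + (zetaBar p - 1) ^ 2 * c2 := by
    rw [ha']
    push_cast
    rw [coe_piO]
    simp
  have hdiff : a * z - (((a' : 𝓞 (Kp p)) : Kp p) : Qbar) = (zetaBar p - 1) ^ 3 * w3 := by
    rw [ha'c, e0, e1, e2]
    ring
  have hd1 : π ^ 3 ∣ α - a' ^ p := by
    apply piO_pow_dvd_of_mem A hA
    push_cast
    rw [hαc]
    obtain ⟨q, hq⟩ : ∃ q ∈ A, (a * z) ^ p - (((a' : 𝓞 (Kp p)) : Kp p) : Qbar) ^ p =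
        (a * z - (((a' : 𝓞 (Kp p)) : Kp p) : Qbar)) * q := by
      refine ⟨∑ i ∈ Finset.range p, (a * z) ^ i * (((a' : 𝓞 (Kp p)) : Kp p) : Qbar) ^ (p - 1 - i),
        ?_, ?_⟩
      · exact sum_mem fun i _ => mul_mem (_root_.pow_mem hazA _) (_root_.pow_mem (coe_mem A a') _)
      · rw [← geom_sum₂_mul (a * (z : Qbar)) (((a' : 𝓞 (Kp p)) : Kp p) : Qbar) p]
        exact mul_comm _ _
    rw [hq.2, hdiff]
    have : (zetaBar p - 1) ^ 3 * w3 * q / (zetaBar p - 1) ^ 3 = w3 * q := by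
      field_simp
    rw [this]
    exact mul_mem hw3A hq.1
  have hd2 : π ^ 3 ∣ a' ^ p - (c0 : 𝓞 (Kp p)) ^ p := by
    refine (pow_dvd_pow _ h3).trans (Glue.piO_pow_dvd_pow_sub_pow (zetaK_spec p) ?_)
    refine ⟨c1 + π * c2, ?_⟩
    rw [ha']
    ring
  refine ⟨z, α, 𝔞, c0 ^ p, hz0, hαc, h𝔞, ?_, ?_⟩
  · have : α - ((c0 ^ p : ℤ) : 𝓞 (Kp p)) = (α - a' ^ p) + (a' ^ p - (c0 : 𝓞 (Kp p)) ^ p) := by
      push_cast
      ring
    rw [this]
    exact dvd_add hd1 hd2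
  · rintro ⟨s, hs⟩
    have : A.valuation (((α : 𝓞 (Kp p)) : Kp p) : Qbar) < 1 := by
      rw [hs]
      push_cast
      rw [coe_piO, map_mul]
      calc _ ≤ A.valuation (zetaBar p - 1) * 1 := by gcongr; exact val_coe_le A _
        _ < 1 := by rw [mul_one]; exact val_pi_lt A hA
    rw [hαv] at this
    exact lt_irrefl _ this

end Fermat.Agent.S14
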