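import Fermat.Agent.S14.PartialZetaCompare
import Fermat.Agent.S14.Zeta

/-!
# S14 / AN1d : assembly of `partialZeta_sub_bounded` from the weight and the unfolding
-/

set_option autoImplicit false

namespace Fermat.Agent.S14.PZ

open NumberField Ideal
open scoped nonZeroDivisors Classical

variable {K : Type*} [Field K] [NumberField K]

/-- the partial zeta function of an ideal class -/
noncomputable def pz (C : ClassGroup (𝓞 K)) (s : ℝ) : ℝ :=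
  ∑' I : (Ideal (𝓞 K))⁰,
    if ClassGroup.mk0 I = C then (absNorm (I : Ideal (𝓞 K)) : ℝ) ^ (-s) else 0

lemma pz_nonneg (C : ClassGroup (𝓞 K)) (s : ℝ) : 0 ≤ pz C s := by
  refine tsum_nonneg fun I => ?_
  split_ifs
  · exact Real.rpow_nonneg (Nat.cast_nonneg _) _
  · exact le_rfl

lemma pz_le_zetaR (C : ClassGroup (𝓞 K)) {s : ℝ} (hs : 1 < s) : pz C s ≤ zetaR K s := by
  have h1 := summable_absNorm_rpow K hs
  have h2 : ∀ I : (Ideal (𝓞 K))⁰,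
      (if ClassGroup.mk0 I = C then (absNorm (I : Ideal (𝓞 K)) : ℝ) ^ (-s) else 0) ≤
        (absNorm (I : Ideal (𝓞 K)) : ℝ) ^ (-s) := by
    intro I
    split_ifs
    · exact le_rfl
    · exact Real.rpow_nonneg (Nat.cast_nonneg _) _
  have h3 : ∀ I : (Ideal (𝓞 K))⁰,
      0 ≤ (if ClassGroup.mk0 I = C then (absNorm (I : Ideal (𝓞 K)) : ℝ) ^ (-s) else 0) := by
    intro I
    split_ifs
    · exact Real.rpow_nonneg (Nat.cast_nonneg _) _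
    · exact le_rfl
  exact (Summable.of_nonneg_of_le h3 h2 h1).tsum_le_tsum h2 h1

lemma rpow_sub_self_le {m s : ℝ} (hm : 1 ≤ m) (hs : 1 < s) (hs2 : s ≤ 2) :
    0 ≤ m ^ s - m ∧ m ^ s - m ≤ m ^ 2 * Real.log m * (s - 1) := by
  have hm0 : 0 < m := by linarith
  have hlog : 0 ≤ Real.log m := Real.log_nonneg hm
  have h1 : m ^ s = Real.exp (Real.log m * s) := Real.rpow_def_of_pos hm0 s
  have h2 : m = Real.exp (Real.log m * 1) := by rw [mul_one, Real.exp_log hm0]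
  have h3 := abs_exp_sub_exp_le (Real.log m * s) (Real.log m * 1)
  rw [← h1, ← h2] at h3
  have h4 : m ≤ m ^ s := by
    conv_lhs => rw [← Real.rpow_one m]
    exact Real.rpow_le_rpow_of_exponent_le hm hs.le
  have h5 : m ^ s ≤ m ^ 2 := by
    rw [← Real.rpow_natCast m 2]
    exact Real.rpow_le_rpow_of_exponent_le hm (by exact_mod_cast hs2)
  refine ⟨by linarith, ?_⟩
  rw [abs_of_nonneg (by linarith), max_eq_left h4, ← mul_sub,
    abs_of_nonneg (mul_nonneg hlog (by linarith))] at h3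
  refine h3.trans ?_
  rw [mul_assoc]
  exact mul_le_mul_of_nonneg_right h5 (mul_nonneg hlog (by linarith))

theorem partialZeta_sub_bounded_aux {W : K → ℝ} {κ : ℝ} (hW : IsWeight K W κ)
    (hunf : ∀ (J : (Ideal (𝓞 K))⁰) (C : ClassGroup (𝓞 K)), ClassGroup.mk0 J = C⁻¹ →
      ∀ s : ℝ, 1 < s → HasSum (fun x : (J : Ideal (𝓞 K)) => hfun W s ((x : 𝓞 K) : K))
        (κ * (absNorm (J : Ideal (𝓞 K)) : ℝ) ^ (-s) * pz C s))
    (C C' : ClassGroup (𝓞 K)) :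
    ∃ B : ℝ, ∀ s : ℝ, 1 < s → s ≤ 2 → |pz C s - pz C' s| ≤ B := by
  obtain ⟨J1, hJ1⟩ := ClassGroup.mk0_surjective C⁻¹
  obtain ⟨c, hc⟩ := ClassGroup.mk0_surjective (C * C'⁻¹)
  have hJ2 : ClassGroup.mk0 (J1 * c) = C'⁻¹ := by
    rw [map_mul, hJ1, hc, inv_mul_cancel_left]
  have hle : ((J1 * c : (Ideal (𝓞 K))⁰) : Ideal (𝓞 K)) ≤ (J1 : Ideal (𝓞 K)) := by
    rw [Submonoid.coe_mul]
    exact Ideal.mul_le_left (I := (J1 : Ideal (𝓞 K))) (J := (c : Ideal (𝓞 K)))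
  have hne : ((J1 * c : (Ideal (𝓞 K))⁰) : Ideal (𝓞 K)) ≠ ⊥ := nonZeroDivisors.coe_ne_zero _
  obtain ⟨m, B, hm, hB⟩ := compare_bound hW _ _ hle hne
  obtain ⟨c0, C0, -, hz⟩ := zetaR_bounds K
  have hκ := hW.kpos
  obtain ⟨n1, hn1⟩ : ∃ n1 : ℝ, n1 = (absNorm (J1 : Ideal (𝓞 K)) : ℝ) := ⟨_, rfl⟩
  obtain ⟨mm, hmm⟩ : ∃ mm : ℝ, mm = (m : ℝ) := ⟨_, rfl⟩
  have hn2 : (absNorm ((J1 * c : (Ideal (𝓞 K))⁰) : Ideal (𝓞 K)) : ℝ) = mm * n1 := by
    rw [← hm, hmm, hn1]; push_cast; ring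
  have hn1' : 1 ≤ n1 := by
    rw [hn1]
    exact_mod_cast Nat.one_le_iff_ne_zero.2 (absNorm_ne_zero_of_nonZeroDivisors J1)
  have hmm' : 1 ≤ mm := by
    rw [hmm]
    have : m ≠ 0 := by
      rintro rfl
      rw [zero_mul] at hm
      exact absNorm_ne_zero_of_nonZeroDivisors (J1 * c) hm.symm
    exact_mod_cast Nat.one_le_iff_ne_zero.2 this
  refine ⟨κ⁻¹ * n1 ^ 2 * (B + mm ^ 2 * Real.log mm * (κ * C0)), fun s hs hs2 => ?_⟩
  have hn10 : 0 < n1 := by linarith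
  have hmm0 : 0 < mm := by linarith
  have H1 := hunf J1 C hJ1 s hs
  have H2 := hunf (J1 * c) C' hJ2 s hs
  have hb := hB s hs hs2 _ _ H1 H2
  rw [hn2, ← hn1, ← hmm] at hb
  obtain ⟨P, hP⟩ : ∃ P, P = pz C s := ⟨_, rfl⟩
  obtain ⟨P', hP'⟩ : ∃ P', P' = pz C' s := ⟨_, rfl⟩
  have hP'0 : 0 ≤ P' := hP' ▸ pz_nonneg C' s
  have hP'1 : P' ≤ C0 / (s - 1) := hP' ▸ (pz_le_zetaR C' hs).trans (hz s hs hs2).2
  rw [← hP, ← hP'] at hb ⊢
  obtain ⟨Z1, hZ1⟩ : ∃ Z1, Z1 = κ * n1 ^ (-s) * P := ⟨_, rfl⟩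
  obtain ⟨Z2, hZ2⟩ : ∃ Z2, Z2 = κ * (mm * n1) ^ (-s) * P' := ⟨_, rfl⟩
  rw [← hZ1, ← hZ2] at hb
  have hns : 0 < n1 ^ s := Real.rpow_pos_of_pos hn10 s
  have hms : 0 < mm ^ s := Real.rpow_pos_of_pos hmm0 s
  have e1 : P = κ⁻¹ * n1 ^ s * Z1 := by
    rw [hZ1, Real.rpow_neg hn10.le]
    field_simp
  have e2 : P' = κ⁻¹ * n1 ^ s * (mm ^ s * Z2) := by
    rw [hZ2, Real.rpow_neg (mul_pos hmm0 hn10).le, Real.mul_rpow hmm0.le hn10.le]
    field_simp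
  have hZ2nn : 0 ≤ Z2 := by
    rw [hZ2]
    exact mul_nonneg (mul_nonneg hκ.le (Real.rpow_nonneg (mul_pos hmm0 hn10).le _)) hP'0
  have hZ2le : Z2 ≤ κ * (C0 / (s - 1)) := by
    rw [hZ2]
    have h1 : (mm * n1) ^ (-s) ≤ 1 :=
      Real.rpow_le_one_of_one_le_of_nonpos (by nlinarith) (by linarith)
    calc κ * (mm * n1) ^ (-s) * P' ≤ κ * 1 * P' := by gcongr
      _ = κ * P' := by ring
      _ ≤ κ * (C0 / (s - 1)) := by gcongr
  obtain ⟨r1, r2⟩ := rpow_sub_self_le hmm' hs hs2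
  have hs1 : 0 < s - 1 := by linarith
  have hprod : (mm ^ s - mm) * Z2 ≤ mm ^ 2 * Real.log mm * (κ * C0) := by
    calc (mm ^ s - mm) * Z2 ≤ (mm ^ 2 * Real.log mm * (s - 1)) * (κ * (C0 / (s - 1))) :=
          mul_le_mul r2 hZ2le hZ2nn (r1.trans r2)
      _ = mm ^ 2 * Real.log mm * (κ * C0) := by field_simp
  have hprod0 : 0 ≤ (mm ^ s - mm) * Z2 := mul_nonneg r1 hZ2nn
  have key : P - P' = κ⁻¹ * n1 ^ s * ((Z1 - mm * Z2) - (mm ^ s - mm) * Z2) := by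
    rw [e1, e2]; ring
  have hX : |(Z1 - mm * Z2) - (mm ^ s - mm) * Z2| ≤ B + mm ^ 2 * Real.log mm * (κ * C0) := by
    refine (abs_sub _ _).trans ?_
    rw [abs_of_nonneg hprod0]
    linarith
  have hn1s : n1 ^ s ≤ n1 ^ 2 := by
    rw [← Real.rpow_natCast n1 2]
    exact Real.rpow_le_rpow_of_exponent_le hn1' (by exact_mod_cast hs2)
  rw [key, abs_mul, abs_of_pos (mul_pos (inv_pos.2 hκ) hns)]
  exact mul_le_mul (mul_le_mul_of_nonneg_left hn1s (inv_pos.2 hκ).le) hX (abs_nonneg _)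
    (by positivity)

end Fermat.Agent.S14.PZ
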