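import Fermat.Agent.S14.PartialZetaEstimate

/-!
# S14 / AN1d : comparison of the lattice sums over `J₁ ⊇ J₂`
-/

set_option autoImplicit false

namespace Fermat.Agent.S14.PZ

open NumberField Ideal
open scoped nonZeroDivisors Classical

variable {K : Type*} [Field K] [NumberField K]

/-- coset representatives of `J₁ / J₂` -/
lemma exists_reps (J1 J2 : Ideal (𝓞 K)) (h : J2 ≤ J1) (h0 : J2 ≠ ⊥) :
    ∃ R : Finset (𝓞 K), R.card * absNorm J1 = absNorm J2 ∧ (∀ ρ ∈ R, ρ ∈ J1) ∧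
      ∀ x, x ∈ J1 → ∃ ρ ∈ R, x - ρ ∈ J2 ∧ ∀ ρ' ∈ R, x - ρ' ∈ J2 → ρ' = ρ := by
  have hfin : Finite (𝓞 K ⧸ J2) := (Ideal.absNorm_ne_zero_iff J2).1
    (by rw [Ne, Ideal.absNorm_eq_zero_iff]; exact h0)
  let _ : Fintype (𝓞 K ⧸ J2) := Fintype.ofFinite _
  have hout : ∀ q : 𝓞 K ⧸ J2, Submodule.Quotient.mk (p := J2) (Quotient.out q) = q :=
    fun q => Submodule.Quotient.mk_out q
  have hmem : ∀ q : 𝓞 K ⧸ J2, q ∈ Submodule.map J2.mkQ J1 ↔ Quotient.out q ∈ J1 := by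
    intro q
    constructor
    · rintro ⟨x, hx, rfl⟩
      have h1 : Submodule.Quotient.mk (p := J2) (Quotient.out (J2.mkQ x)) =
          Submodule.Quotient.mk (p := J2) x := hout _
      rw [Submodule.Quotient.eq] at h1
      have := J1.add_mem (h h1) hx
      simpa using this
    · intro hq
      exact ⟨_, hq, hout q⟩
  refine ⟨(Finset.univ.filter fun q : 𝓞 K ⧸ J2 => Quotient.out q ∈ J1).image Quotient.out,
    ?_, ?_, ?_⟩
  · rw [Finset.card_image_of_injective _ Quotient.out_injective]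
    have h1 := Submodule.card_quotient_mul_card_quotient J1 J2 h
    rw [Ideal.absNorm_apply, Ideal.absNorm_apply, Submodule.cardQuot_apply,
      Submodule.cardQuot_apply, ← h1]
    congr 1
    calc _ = Fintype.card {q : 𝓞 K ⧸ J2 // Quotient.out q ∈ J1} := (Fintype.card_subtype _).symm
      _ = Nat.card {q : 𝓞 K ⧸ J2 // Quotient.out q ∈ J1} := Nat.card_eq_fintype_card.symm
      _ = _ := Nat.card_congr (Equiv.subtypeEquivRight fun q => (hmem q).symm)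
  · intro ρ hρ
    obtain ⟨q, hq, rfl⟩ := Finset.mem_image.1 hρ
    exact (Finset.mem_filter.1 hq).2
  · intro x hx
    refine ⟨Quotient.out (Submodule.Quotient.mk (p := J2) x), ?_, ?_, ?_⟩
    · refine Finset.mem_image.2 ⟨_, Finset.mem_filter.2 ⟨Finset.mem_univ _, ?_⟩, rfl⟩
      exact (hmem _).1 ⟨x, hx, rfl⟩
    · rw [← Submodule.Quotient.eq, hout]
    · intro ρ' hρ' hx'
      obtain ⟨q, -, rfl⟩ := Finset.mem_image.1 hρ'
      rw [← Submodule.Quotient.eq, hout] at hx'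
      rw [hx']

omit [NumberField K] in
/-- decomposition of a sum over `J₁` into sums over the cosets of `J₂` -/
lemma hasSum_of_reps {J1 J2 : Ideal (𝓞 K)} (h : J2 ≤ J1) {R : Finset (𝓞 K)}
    (hR1 : ∀ ρ ∈ R, ρ ∈ J1)
    (hR2 : ∀ x, x ∈ J1 → ∃ ρ ∈ R, x - ρ ∈ J2 ∧ ∀ ρ' ∈ R, x - ρ' ∈ J2 → ρ' = ρ)
    (f : 𝓞 K → ℝ) (z : 𝓞 K → ℝ)
    (hz : ∀ ρ ∈ R, HasSum (fun y : 𝓞 K => if y ∈ J2 then f (y + ρ) else 0) (z ρ)) :
    HasSum (fun x : 𝓞 K => if x ∈ J1 then f x else 0) (∑ ρ ∈ R, z ρ) := by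
  have h1 : ∀ ρ ∈ R, HasSum (fun x : 𝓞 K => if x - ρ ∈ J2 then f x else 0) (z ρ) := by
    intro ρ hρ
    have := (Equiv.hasSum_iff (Equiv.subRight ρ)).2 (hz ρ hρ)
    convert this using 2 with x
    simp
  have h2 := hasSum_sum h1
  convert h2 using 2 with x
  by_cases hx : x ∈ J1
  · obtain ⟨ρ, hρ, hxρ, huniq⟩ := hR2 x hx
    rw [if_pos hx, Finset.sum_eq_single ρ, if_pos hxρ]
    · intro ρ' hρ' hne
      rw [if_neg]
      exact fun h' => hne (huniq ρ' hρ' h')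
    · exact fun h' => absurd hρ h'
  · rw [if_neg hx]
    symm
    refine Finset.sum_eq_zero fun ρ hρ => ?_
    rw [if_neg]
    intro h'
    apply hx
    have := J1.add_mem (h h') (hR1 ρ hρ)
    simpa using this

omit [NumberField K] in
lemma hasSum_ite_of_subtype {J : Ideal (𝓞 K)} {f : 𝓞 K → ℝ} {Z : ℝ}
    (h : HasSum (fun x : J => f (x : 𝓞 K)) Z) :
    HasSum (fun x : 𝓞 K => if x ∈ J then f x else 0) Z := by
  have := (hasSum_subtype_iff_indicator (f := f) (s := (J : Set (𝓞 K)))).1 h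
  convert this using 2 with x
  simp [Set.indicator_apply]

/-- [AN1d] comparison of the lattice sums over `J₂ ≤ J₁`. -/
theorem compare_bound {W : K → ℝ} {κ : ℝ} (hW : IsWeight K W κ) (J1 J2 : Ideal (𝓞 K))
    (h : J2 ≤ J1) (h0 : J2 ≠ ⊥) :
    ∃ (m : ℕ) (B : ℝ), m * absNorm J1 = absNorm J2 ∧ ∀ s : ℝ, 1 < s → s ≤ 2 → ∀ Z1 Z2 : ℝ,
      HasSum (fun x : J1 => hfun W s ((x : 𝓞 K) : K)) Z1 →
      HasSum (fun x : J2 => hfun W s ((x : 𝓞 K) : K)) Z2 → |Z1 - m * Z2| ≤ B := by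
  obtain ⟨R, hcard, hR1, hR2⟩ := exists_reps J1 J2 h h0
  choose g hg hgb using fun ρ : 𝓞 K => exists_summable_bound hW ρ
  refine ⟨R.card, ∑ ρ ∈ R, ∑' y, g ρ y, hcard, ?_⟩
  intro s hs hs2 Z1 Z2 hZ1 hZ2
  set f : 𝓞 K → ℝ := fun x => hfun W s (x : K) with hf
  have H1 : HasSum (fun x : 𝓞 K => if x ∈ J1 then f x else 0) Z1 := hasSum_ite_of_subtype hZ1
  have H2 : HasSum (fun x : 𝓞 K => if x ∈ J2 then f x else 0) Z2 := hasSum_ite_of_subtype hZ2
  set d : 𝓞 K → 𝓞 K → ℝ := fun ρ y => if y ∈ J2 then f (y + ρ) - f y else 0 with hd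
  have hdb : ∀ ρ y, ‖d ρ y‖ ≤ g ρ y := by
    intro ρ y
    have hb := hgb ρ s hs hs2 y
    simp only [hd]
    split_ifs
    · exact hb
    · rw [norm_zero]; exact (abs_nonneg _).trans hb
  have hds : ∀ ρ, Summable (d ρ) := fun ρ => Summable.of_norm_bounded (hg ρ) (hdb ρ)
  have hD : ∀ ρ, |∑' y, d ρ y| ≤ ∑' y, g ρ y := fun ρ =>
    tsum_of_norm_bounded (hg ρ).hasSum (hdb ρ)
  have hz : ∀ ρ ∈ R, HasSum (fun y : 𝓞 K => if y ∈ J2 then f (y + ρ) else 0)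
      (Z2 + ∑' y, d ρ y) := by
    intro ρ _
    have := H2.add (hds ρ).hasSum
    convert this using 2 with y
    simp only [hd]
    split_ifs <;> ring
  have H1' := hasSum_of_reps h hR1 hR2 f _ hz
  have heq := H1.unique H1'
  rw [heq, Finset.sum_add_distrib, Finset.sum_const, nsmul_eq_mul, add_sub_cancel_left]
  exact (Finset.abs_sum_le_sum_abs _ _).trans (Finset.sum_le_sum fun ρ _ => hD ρ)

end Fermat.Agent.S14.PZ
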