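import Mathlib

/-!
# S14 / AN1 : shared interface for the partial zeta function package

`IsWeight K W κ` : `W` is a "smooth partition of unity" for the action of the units on `K^×`.
`hfun W s x = W x * |N x|^(-s)`.
-/

set_option autoImplicit false

namespace Fermat.Agent.S14.PZ

open NumberField Ideal
open scoped nonZeroDivisors

variable (K : Type*) [Field K] [NumberField K]

/-- A weight function for unfolding sums over `(𝔟 ∖ 0) / units`. -/
structure IsWeight (W : K → ℝ) (κ : ℝ) : Prop where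
  kpos : 0 < κ
  nonneg : ∀ x, 0 ≤ W x
  le_one : ∀ x, W x ≤ 1
  hasSum_units : ∀ x : K, x ≠ 0 → HasSum (fun u : (𝓞 K)ˣ => W (((u : 𝓞 K) : K) * x)) κ
  supp : ∃ c : ℝ, 0 < c ∧ ∀ x : K, x ≠ 0 → W x ≠ 0 → ∀ v w : InfinitePlace K, c * w x ≤ v x
  lip : ∃ L : ℝ, 0 ≤ L ∧ ∀ x y : K, x ≠ 0 → y ≠ 0 → ∀ ε : ℝ,
    (∀ v : InfinitePlace K, |Real.log (v x) - Real.log (v y)| ≤ ε) → |W x - W y| ≤ L * ε

variable {K}

/-- the summand `W(x) |N x|^{-s}` (it vanishes at `x = 0` for `s ≠ 0`). -/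
noncomputable def hfun (W : K → ℝ) (s : ℝ) (x : K) : ℝ :=
  W x * |(Algebra.norm ℚ x : ℝ)| ^ (-s)

end Fermat.Agent.S14.PZ
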