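import Fermat.Agent.S14.PartialZetaDefs

/-!
# S14 / AN1c : the Lipschitz estimate for `hfun`
-/

set_option autoImplicit false

namespace Fermat.Agent.S14.PZ

open NumberField Ideal
open scoped nonZeroDivisors Classical

variable {K : Type*} [Field K] [NumberField K]

/-- sup norm over the infinite places -/
noncomputable def nrm (x : K) : ℝ := ‖mixedEmbedding K x‖

lemma place_le_nrm (v : InfinitePlace K) (x : K) : v x ≤ nrm x := by
  rw [nrm, mixedEmbedding.norm_eq_sup'_normAtPlace]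
  have := Finset.le_sup' (fun w => mixedEmbedding.normAtPlace w (mixedEmbedding K x))
    (Finset.mem_univ v)
  rwa [mixedEmbedding.normAtPlace_apply] at this

lemma exists_place_eq_nrm (x : K) : ∃ v : InfinitePlace K, v x = nrm x := by
  rw [nrm, mixedEmbedding.norm_eq_sup'_normAtPlace]
  obtain ⟨v, -, hv⟩ := Finset.exists_mem_eq_sup' (Finset.univ_nonempty (α := InfinitePlace K))
    (fun w => mixedEmbedding.normAtPlace w (mixedEmbedding K x))
  exact ⟨v, by rw [hv, mixedEmbedding.normAtPlace_apply]⟩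

lemma nrm_nonneg (x : K) : 0 ≤ nrm x := norm_nonneg _

lemma nrm_add_le (x y : K) : nrm (x + y) ≤ nrm x + nrm y := by
  unfold nrm; rw [map_add]; exact norm_add_le _ _

lemma nrm_pos {x : K} (hx : x ≠ 0) : 0 < nrm x := by
  unfold nrm
  rw [norm_pos_iff]
  exact (map_ne_zero_iff _ (mixedEmbedding_injective K)).2 hx

lemma abs_place_sub_le (v : InfinitePlace K) (x y : K) : |v (x + y) - v x| ≤ v y := by
  rw [← InfinitePlace.norm_embedding_eq, ← InfinitePlace.norm_embedding_eq v x,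
    ← InfinitePlace.norm_embedding_eq v y, map_add]
  simpa using abs_norm_sub_norm_le (v.embedding x + v.embedding y) (v.embedding x)

lemma absNorm_eq_prod (x : K) :
    |(Algebra.norm ℚ x : ℝ)| = ∏ w : InfinitePlace K, w x ^ w.mult := by
  rw [InfinitePlace.prod_eq_abs_norm, Rat.cast_abs]

lemma abs_exp_sub_exp_le (a b : ℝ) : |Real.exp a - Real.exp b| ≤ max (Real.exp a) (Real.exp b) * |a - b| := by
  wlog h : b ≤ a generalizing a b
  · have := this b a (le_of_not_ge h)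
    rwa [abs_sub_comm, max_comm, abs_sub_comm b a] at this
  have h1 : Real.exp b ≤ Real.exp a := Real.exp_le_exp.2 h
  rw [abs_of_nonneg (sub_nonneg.2 h1), abs_of_nonneg (sub_nonneg.2 h), max_eq_left h1]
  have h2 := Real.add_one_le_exp (b - a)
  have h3 : Real.exp b = Real.exp a * Real.exp (b - a) := by rw [← Real.exp_add]; ring_nf
  rw [h3]
  nlinarith [Real.exp_pos a]

lemma abs_log_sub_log_le {p q δ a : ℝ} (hδ : 0 < δ) (hp : δ ≤ p) (hq : δ ≤ q) (h : |p - q| ≤ a) :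
    |Real.log p - Real.log q| ≤ a / δ := by
  have hp0 : 0 < p := hδ.trans_le hp
  have hq0 : 0 < q := hδ.trans_le hq
  have ha : 0 ≤ a := (abs_nonneg _).trans h
  obtain ⟨h1, h2⟩ := abs_le.1 h
  rw [abs_le]
  constructor
  · have := Real.log_le_sub_one_of_pos (div_pos hq0 hp0)
    rw [Real.log_div hq0.ne' hp0.ne'] at this
    have h3 : q / p - 1 ≤ a / δ := by
      rw [div_sub_one hp0.ne']
      exact div_le_div₀ ha (by linarith) hδ hp
    linarith
  · have := Real.log_le_sub_one_of_pos (div_pos hp0 hq0)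
    rw [Real.log_div hp0.ne' hq0.ne'] at this
    have h3 : p / q - 1 ≤ a / δ := by
      rw [div_sub_one hq0.ne']
      exact div_le_div₀ ha (by linarith) hδ hq
    linarith

/-- `-s ∑ mult w log (w x)` -/
noncomputable def expo (s : ℝ) (x : K) : ℝ :=
  -s * ∑ w : InfinitePlace K, (w.mult : ℝ) * Real.log (w x)

lemma rpow_eq_exp {x : K} (hx : x ≠ 0) (s : ℝ) :
    |(Algebra.norm ℚ x : ℝ)| ^ (-s) = Real.exp (expo s x) := by
  have hpos : ∀ w : InfinitePlace K, 0 < w x := fun w => InfinitePlace.pos_iff.2 hx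
  rw [absNorm_eq_prod, Real.rpow_def_of_pos (Finset.prod_pos fun w _ => pow_pos (hpos w) _),
    Real.log_prod (fun w _ => (pow_pos (hpos w) _).ne'), expo]
  simp only [Real.log_pow]
  ring_nf

lemma sum_mult_cast : ∑ w : InfinitePlace K, (w.mult : ℝ) = Module.finrank ℚ K := by
  rw [← InfinitePlace.sum_mult_eq]; push_cast; rfl

lemma exp_expo_le {x : K} {δ s : ℝ} (hδ : 1 ≤ δ) (hs : 1 < s)
    (hxδ : ∀ v : InfinitePlace K, δ ≤ v x) :
    Real.exp (expo s x) ≤ (δ⁻¹) ^ (Module.finrank ℚ K) := by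
  have hδ0 : 0 < δ := by linarith
  have h1 : (Module.finrank ℚ K : ℝ) * Real.log δ ≤
      ∑ w : InfinitePlace K, (w.mult : ℝ) * Real.log (w x) := by
    rw [← sum_mult_cast, Finset.sum_mul]
    refine Finset.sum_le_sum fun w _ => ?_
    exact mul_le_mul_of_nonneg_left (Real.log_le_log hδ0 (hxδ w)) (Nat.cast_nonneg _)
  have h0 : 0 ≤ (Module.finrank ℚ K : ℝ) * Real.log δ :=
    mul_nonneg (Nat.cast_nonneg _) (Real.log_nonneg hδ)
  have h2 : expo s x ≤ (Module.finrank ℚ K : ℝ) * (- Real.log δ) := by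
    unfold expo
    nlinarith
  calc Real.exp (expo s x) ≤ Real.exp ((Module.finrank ℚ K : ℝ) * (- Real.log δ)) :=
        Real.exp_le_exp.2 h2
    _ = (δ⁻¹) ^ (Module.finrank ℚ K) := by
        rw [Real.exp_nat_mul, Real.exp_neg, Real.exp_log hδ0]

lemma abs_expo_sub_le {x y : K} {ε s : ℝ} (hs : 1 < s) (hs2 : s ≤ 2)
    (hε : ∀ v : InfinitePlace K, |Real.log (v x) - Real.log (v y)| ≤ ε) :
    |expo s x - expo s y| ≤ 2 * Module.finrank ℚ K * ε := by
  have hε0 : 0 ≤ ε := (abs_nonneg _).trans (hε (Classical.arbitrary _))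
  have h1 : expo s x - expo s y =
      -s * ∑ w : InfinitePlace K, (w.mult : ℝ) * (Real.log (w x) - Real.log (w y)) := by
    unfold expo
    rw [← mul_sub, ← Finset.sum_sub_distrib]
    simp only [mul_sub]
  have h2 : |∑ w : InfinitePlace K, (w.mult : ℝ) * (Real.log (w x) - Real.log (w y))| ≤
      (Module.finrank ℚ K : ℝ) * ε := by
    rw [← sum_mult_cast, Finset.sum_mul]
    refine (Finset.abs_sum_le_sum_abs _ _).trans (Finset.sum_le_sum fun w _ => ?_)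
    rw [abs_mul, abs_of_nonneg (Nat.cast_nonneg _ : (0 : ℝ) ≤ (w.mult : ℝ))]
    exact mul_le_mul_of_nonneg_left (hε w) (Nat.cast_nonneg _)
  rw [h1, abs_mul, abs_neg, abs_of_pos (by linarith : (0 : ℝ) < s)]
  have h3 : 0 ≤ (Module.finrank ℚ K : ℝ) * ε := mul_nonneg (Nat.cast_nonneg _) hε0
  nlinarith [abs_nonneg (∑ w : InfinitePlace K, (w.mult : ℝ) * (Real.log (w x) - Real.log (w y)))]

lemma hfun_sub_le {W : K → ℝ} {L : ℝ} (hW0 : ∀ x, 0 ≤ W x) (hW1 : ∀ x, W x ≤ 1)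
    (hlip : ∀ x y : K, x ≠ 0 → y ≠ 0 → ∀ ε : ℝ,
      (∀ v : InfinitePlace K, |Real.log (v x) - Real.log (v y)| ≤ ε) → |W x - W y| ≤ L * ε)
    {x y : K} (hx : x ≠ 0) (hy : y ≠ 0) {δ ε s : ℝ} (hδ : 1 ≤ δ) (hs : 1 < s) (hs2 : s ≤ 2)
    (hxδ : ∀ v : InfinitePlace K, δ ≤ v x) (hyδ : ∀ v : InfinitePlace K, δ ≤ v y)
    (hε : ∀ v : InfinitePlace K, |Real.log (v x) - Real.log (v y)| ≤ ε) :
    |hfun W s x - hfun W s y| ≤
      (L + 2 * Module.finrank ℚ K) * ε * (δ⁻¹) ^ (Module.finrank ℚ K) := by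
  have hε0 : 0 ≤ ε := (abs_nonneg _).trans (hε (Classical.arbitrary _))
  unfold hfun
  rw [rpow_eq_exp hx, rpow_eq_exp hy]
  set D := (δ⁻¹) ^ (Module.finrank ℚ K) with hD
  have hD0 : 0 ≤ D := by positivity
  have e1 := exp_expo_le hδ hs hxδ
  have e2 := exp_expo_le hδ hs hyδ
  have e3 := abs_expo_sub_le hs hs2 hε
  have e4 := abs_exp_sub_exp_le (expo s x) (expo s y)
  have e5 : |Real.exp (expo s x) - Real.exp (expo s y)| ≤ D * (2 * Module.finrank ℚ K * ε) :=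
    e4.trans (mul_le_mul (max_le e1 e2) e3 (abs_nonneg _) hD0)
  have e6 := hlip x y hx hy ε hε
  have key : W x * Real.exp (expo s x) - W y * Real.exp (expo s y) =
      (W x - W y) * Real.exp (expo s x) + W y * (Real.exp (expo s x) - Real.exp (expo s y)) := by
    ring
  rw [key]
  refine (abs_add_le _ _).trans ?_
  rw [abs_mul, abs_mul, abs_of_pos (Real.exp_pos _), abs_of_nonneg (hW0 y)]
  have f1 : |W x - W y| * Real.exp (expo s x) ≤ (L * ε) * D :=
    mul_le_mul e6 e1 (Real.exp_pos _).le ((abs_nonneg _).trans e6)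
  have f2 : W y * |Real.exp (expo s x) - Real.exp (expo s y)| ≤
      1 * (D * (2 * Module.finrank ℚ K * ε)) :=
    mul_le_mul (hW1 y) e5 (abs_nonneg _) zero_le_one
  calc _ ≤ (L * ε) * D + 1 * (D * (2 * Module.finrank ℚ K * ε)) := add_le_add f1 f2
    _ = _ := by ring

lemma hfun_nonneg {W : K → ℝ} (hW0 : ∀ x, 0 ≤ W x) (s : ℝ) (x : K) : 0 ≤ hfun W s x :=
  mul_nonneg (hW0 x) (Real.rpow_nonneg (abs_nonneg _) _)

lemma hfun_zero (W : K → ℝ) {s : ℝ} (hs : 0 < s) : hfun W s 0 = 0 := by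
  unfold hfun
  rw [Algebra.norm_zero, Rat.cast_zero, abs_zero, Real.zero_rpow (neg_ne_zero.2 hs.ne'), mul_zero]

lemma one_le_abs_norm {x : 𝓞 K} (hx : x ≠ 0) : 1 ≤ |(Algebra.norm ℚ (x : K) : ℝ)| := by
  rw [← Algebra.coe_norm_int x]
  have h : Algebra.norm ℤ x ≠ 0 := Algebra.norm_ne_zero_iff.2 hx
  have h1 : (1 : ℤ) ≤ |Algebra.norm ℤ x| := Int.one_le_abs h
  have h2 : ((1 : ℤ) : ℝ) ≤ ((|Algebra.norm ℤ x| : ℤ) : ℝ) := by exact_mod_cast h1
  simpa using h2

omit [NumberField K] in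
lemma coe_zero' : ((0 : 𝓞 K) : K) = 0 := map_zero (algebraMap (𝓞 K) K)

omit [NumberField K] in
lemma coe_add' (x y : 𝓞 K) : ((x + y : 𝓞 K) : K) = (x : K) + (y : K) :=
  map_add (algebraMap (𝓞 K) K) x y

lemma nrm_zero : nrm (0 : K) = 0 := by unfold nrm; rw [map_zero, norm_zero]

lemma nrm_neg (x : K) : nrm (-x) = nrm x := by unfold nrm; rw [map_neg, norm_neg]

lemma hfun_le_one {W : K → ℝ} (hW1 : ∀ x, W x ≤ 1) {s : ℝ} (hs : 0 < s)
    (x : 𝓞 K) : hfun W s (x : K) ≤ 1 := by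
  by_cases hx : x = 0
  · rw [hx, coe_zero', hfun_zero W hs]; exact zero_le_one
  · unfold hfun
    have h1 : |(Algebra.norm ℚ (x : K) : ℝ)| ^ (-s) ≤ 1 :=
      Real.rpow_le_one_of_one_le_of_nonpos (one_le_abs_norm hx) (by linarith)
    calc _ ≤ 1 * 1 := mul_le_mul (hW1 _) h1 (Real.rpow_nonneg (abs_nonneg _) _) zero_le_one
      _ = 1 := one_mul 1

lemma summable_nrm_inv_pow :
    Summable fun y : 𝓞 K => ((nrm (y : K))⁻¹) ^ (Module.finrank ℚ K + 1) := by
  have h1 := ZLattice.summable_norm_pow_inv (mixedEmbedding.integerLattice K)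
    (Module.finrank ℚ K + 1) (by
      rw [ZLattice.rank ℝ, mixedEmbedding.finrank]; exact Nat.lt_succ_self _)
  let φ : 𝓞 K → mixedEmbedding.integerLattice K := fun y =>
    ⟨mixedEmbedding K (y : K), ⟨y, rfl⟩⟩
  have hφ : Function.Injective φ := by
    intro y y' h
    have h' : mixedEmbedding K (y : K) = mixedEmbedding K (y' : K) := congrArg Subtype.val h
    exact RingOfIntegers.ext ((mixedEmbedding_injective K) h')
  exact (h1.comp_injective hφ).congr fun y => rfl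

lemma far_places {W : K → ℝ} {c : ℝ} (hcpos : 0 < c) (hc1 : c ≤ 1)
    (hsupp : ∀ x : K, x ≠ 0 → W x ≠ 0 → ∀ v : InfinitePlace K, c * nrm x ≤ v x)
    {y ρ : K} (hy : y ≠ 0) {δ : ℝ} (hδ : δ = c / 4 * nrm y) (hδR : nrm ρ + 1 < δ)
    (hzero : ¬ (W y = 0 ∧ W (y + ρ) = 0)) (v : InfinitePlace K) :
    δ ≤ v y ∧ δ ≤ v (y + ρ) := by
  have ha0 : 0 ≤ nrm ρ := nrm_nonneg _
  have hdiff : |v (y + ρ) - v y| ≤ nrm ρ := (abs_place_sub_le v _ _).trans (place_le_nrm v _)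
  obtain ⟨d1, d2⟩ := abs_le.1 hdiff
  have h6 : c * nrm y = 4 * δ := by rw [hδ]; ring
  by_cases hWy : W y = 0
  · have hWy' : W (y + ρ) ≠ 0 := fun h => hzero ⟨hWy, h⟩
    have hle : nrm y ≤ nrm (y + ρ) + nrm ρ := by
      have := nrm_add_le (y + ρ) (-ρ)
      rwa [nrm_neg, add_neg_cancel_right] at this
    have hy' : y + ρ ≠ 0 := by
      intro h
      rw [h, nrm_zero] at hle
      have : δ ≤ nrm y := by nlinarith [nrm_nonneg y]
      linarith
    have h3 := hsupp _ hy' hWy' v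
    have h4 : 3 * δ ≤ c * nrm (y + ρ) := by
      have h7 : c * (nrm y - nrm ρ) ≤ c * nrm (y + ρ) :=
        mul_le_mul_of_nonneg_left (by linarith) hcpos.le
      have h5 : c * nrm ρ ≤ nrm ρ := by nlinarith
      nlinarith
    constructor <;> linarith
  · have h3 := hsupp _ hy hWy v
    rw [h6] at h3
    constructor <;> linarith

lemma far_bound {W : K → ℝ} (hW0 : ∀ x, 0 ≤ W x) (hW1 : ∀ x, W x ≤ 1) {L c : ℝ} (hL : 0 ≤ L)
    (hcpos : 0 < c) (hc1 : c ≤ 1)
    (hsupp : ∀ x : K, x ≠ 0 → W x ≠ 0 → ∀ v : InfinitePlace K, c * nrm x ≤ v x)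
    (hlip : ∀ x y : K, x ≠ 0 → y ≠ 0 → ∀ ε : ℝ,
      (∀ v : InfinitePlace K, |Real.log (v x) - Real.log (v y)| ≤ ε) → |W x - W y| ≤ L * ε)
    {y ρ : K} (hy : y ≠ 0) {s : ℝ} (hs : 1 < s) (hs2 : s ≤ 2)
    (hfar : (4 * nrm ρ + 4) / c < nrm y) :
    |hfun W s (y + ρ) - hfun W s y| ≤
      (L + 2 * Module.finrank ℚ K) * (4 * nrm ρ / c) * (4 / c) ^ (Module.finrank ℚ K) *
        ((nrm y)⁻¹) ^ (Module.finrank ℚ K + 1) := by
  have ha0 : 0 ≤ nrm ρ := nrm_nonneg _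
  have htpos : 0 < nrm y := nrm_pos hy
  obtain ⟨δ, hδ⟩ : ∃ δ, δ = c / 4 * nrm y := ⟨_, rfl⟩
  have hδR : nrm ρ + 1 < δ := by
    have : c / 4 * ((4 * nrm ρ + 4) / c) = nrm ρ + 1 := by field_simp
    rw [← this, hδ]
    exact mul_lt_mul_of_pos_left hfar (by positivity)
  have hδ1 : 1 ≤ δ := by linarith
  have hδpos : 0 < δ := by linarith
  by_cases hzero : W y = 0 ∧ W (y + ρ) = 0
  · unfold hfun
    rw [hzero.1, hzero.2]
    simp only [zero_mul, sub_zero, abs_zero]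
    positivity
  have hboth := far_places hcpos hc1 hsupp hy hδ hδR hzero
  have hy' : y + ρ ≠ 0 := by
    intro h
    have := (hboth (Classical.arbitrary _)).2
    rw [h, map_zero] at this
    linarith
  have hε : ∀ v : InfinitePlace K, |Real.log (v (y + ρ)) - Real.log (v y)| ≤ nrm ρ / δ := fun v =>
    abs_log_sub_log_le hδpos (hboth v).2 (hboth v).1
      ((abs_place_sub_le v _ _).trans (place_le_nrm v _))
  have hmain := hfun_sub_le hW0 hW1 hlip hy' hy hδ1 hs hs2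
    (fun v => (hboth v).2) (fun v => (hboth v).1) hε
  refine hmain.trans (le_of_eq ?_)
  rw [hδ, pow_succ]
  have : (c / 4 * nrm y)⁻¹ = 4 / c * (nrm y)⁻¹ := by field_simp
  rw [this, mul_pow]
  field_simp

/-- [AN1c] -/
theorem exists_summable_bound {W : K → ℝ} {κ : ℝ} (hW : IsWeight K W κ) (ρ : 𝓞 K) :
    ∃ g : 𝓞 K → ℝ, Summable g ∧ ∀ s : ℝ, 1 < s → s ≤ 2 → ∀ y : 𝓞 K,
      |hfun W s ((y + ρ : 𝓞 K) : K) - hfun W s (y : K)| ≤ g y := by
  obtain ⟨c0, hc0, hsupp0⟩ := hW.supp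
  obtain ⟨L, hL, hlip⟩ := hW.lip
  obtain ⟨c, hc⟩ : ∃ c, c = min c0 1 := ⟨_, rfl⟩
  have hcpos : 0 < c := hc ▸ lt_min hc0 one_pos
  have hc1 : c ≤ 1 := hc ▸ min_le_right _ _
  have hsupp : ∀ x : K, x ≠ 0 → W x ≠ 0 → ∀ v : InfinitePlace K, c * nrm x ≤ v x := by
    intro x hx hWx v
    obtain ⟨w, hw⟩ := exists_place_eq_nrm x
    rw [← hw]
    refine le_trans ?_ (hsupp0 x hx hWx v w)
    exact mul_le_mul_of_nonneg_right (hc ▸ min_le_left _ _) (apply_nonneg w x)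
  have ha0 : 0 ≤ nrm (ρ : K) := nrm_nonneg _
  obtain ⟨R, hR⟩ : ∃ R, R = (4 * nrm (ρ : K) + 4) / c := ⟨_, rfl⟩
  have hRpos : 0 < R := by rw [hR]; positivity
  obtain ⟨C1, hC1⟩ : ∃ C1, C1 = 2 * R ^ (Module.finrank ℚ K + 1) := ⟨_, rfl⟩
  obtain ⟨C2, hC2⟩ : ∃ C2, C2 = (L + 2 * Module.finrank ℚ K) * (4 * nrm (ρ : K) / c) *
    (4 / c) ^ (Module.finrank ℚ K) := ⟨_, rfl⟩
  have hC1' : 0 ≤ C1 := by rw [hC1]; positivity
  have hC2' : 0 ≤ C2 := by rw [hC2]; positivity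
  refine ⟨fun y => (C1 + C2) * ((nrm (y : K))⁻¹) ^ (Module.finrank ℚ K + 1) +
      if y = 0 then 2 else 0,
    (summable_nrm_inv_pow.mul_left _).add (hasSum_ite_eq 0 2).summable, ?_⟩
  intro s hs hs2 y
  beta_reduce
  have hs0 : 0 < s := by linarith
  have htriv : |hfun W s ((y + ρ : 𝓞 K) : K) - hfun W s (y : K)| ≤ 1 := by
    rw [abs_le]
    have h1 := hfun_nonneg hW.nonneg s ((y + ρ : 𝓞 K) : K)
    have h2 := hfun_nonneg hW.nonneg s (y : K)
    have h3 := hfun_le_one hW.le_one hs0 (y + ρ)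
    have h4 := hfun_le_one hW.le_one hs0 y
    constructor <;> linarith
  have hti : 0 ≤ ((nrm (y : K))⁻¹) ^ (Module.finrank ℚ K + 1) :=
    pow_nonneg (inv_nonneg.2 (nrm_nonneg _)) _
  by_cases hy : y = 0
  · refine htriv.trans ?_
    rw [if_pos hy]
    have := mul_nonneg (add_nonneg hC1' hC2') hti
    linarith
  rw [if_neg hy, add_zero]
  have hyK : (y : K) ≠ 0 := by
    intro h; exact hy (RingOfIntegers.ext (by rw [h, coe_zero']))
  have htpos : 0 < nrm (y : K) := nrm_pos hyK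
  by_cases htR : nrm (y : K) ≤ R
  · have h1 : 1 ≤ (R * (nrm (y : K))⁻¹) ^ (Module.finrank ℚ K + 1) := by
      apply one_le_pow₀
      rw [← div_eq_mul_inv, one_le_div htpos]; exact htR
    rw [mul_pow] at h1
    calc _ ≤ 1 := htriv
      _ ≤ C1 * ((nrm (y : K))⁻¹) ^ (Module.finrank ℚ K + 1) := by rw [hC1]; linarith
      _ ≤ (C1 + C2) * ((nrm (y : K))⁻¹) ^ (Module.finrank ℚ K + 1) :=
        mul_le_mul_of_nonneg_right (by linarith) hti
  · push Not at htR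
    rw [hR] at htR
    have := far_bound hW.nonneg hW.le_one hL hcpos hc1 hsupp hlip hyK hs hs2 htR
    rw [coe_add']
    refine this.trans ?_
    rw [← hC2]
    exact mul_le_mul_of_nonneg_right (by linarith) hti

end Fermat.Agent.S14.PZ
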