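import Mathlib

/-!
# S14 / TH1-D : generic lemmas on Dedekind domains used in the proof of Thaine's relation
-/

set_option autoImplicit false

namespace Fermat.Agent.S14.Thaine

open Ideal UniqueFactorizationMonoid

section Dedekind

variable {R : Type*} [CommRing R] [IsDedekindDomain R]

omit [IsDedekindDomain R] in
lemma span_singleton_ne_bot {x : R} (hx : x ≠ 0) : span {x} ≠ (⊥ : Ideal R) := by
  simpa [span_singleton_eq_bot] using hx

lemma exists_emultiplicity_eq (P : Ideal R) [P.IsPrime] (hP : P ≠ ⊥) {J : Ideal R} (hJ : J ≠ ⊥) :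
    ∃ n : ℕ, emultiplicity P J = n := by
  classical
  exact ⟨_, emultiplicity_eq_count_normalizedFactors (prime_of_isPrime hP ‹_›).irreducible hJ⟩

lemma emultiplicity_span_eq_zero_iff (P : Ideal R) {x : R} :
    emultiplicity P (span {x}) = 0 ↔ x ∉ P := by
  rw [emultiplicity_eq_zero, dvd_span_singleton]

/-- [D1] -/
theorem exists_mul_eq_mul (P : Ideal R) [P.IsPrime] (hP : P ≠ ⊥) {x y : R} (hx : x ≠ 0)
    (hy : y ≠ 0) (h : emultiplicity P (span {x}) = emultiplicity P (span {y})) :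
    ∃ w w' : R, w ∉ P ∧ w' ∉ P ∧ w' * y = x * w := by
  have hPp : Prime P := prime_of_isPrime hP ‹_›
  obtain ⟨n, hn⟩ := exists_emultiplicity_eq P hP (span_singleton_ne_bot hx)
  have hn' : emultiplicity P (span {y}) = n := h ▸ hn
  obtain ⟨⟨X, hX⟩, hnx⟩ := emultiplicity_eq_coe.mp hn
  obtain ⟨hy1, -⟩ := emultiplicity_eq_coe.mp hn'
  have hXP : ¬ X ≤ P := by
    intro hle
    obtain ⟨Z, rfl⟩ := Ideal.dvd_iff_le.mpr hle
    exact hnx ⟨Z, by rw [hX, pow_succ, mul_assoc]⟩
  obtain ⟨w', hw'X, hw'P⟩ := SetLike.not_le_iff_exists.mp hXP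
  have hyn : y ∈ P ^ n := dvd_span_singleton.mp hy1
  have hmem : w' * y ∈ span {x} := by
    rw [hX, mul_comm (P ^ n) X]
    exact Ideal.mul_mem_mul hw'X hyn
  obtain ⟨w, hw⟩ := Ideal.mem_span_singleton'.mp hmem
  refine ⟨w, w', ?_, hw'P, by rw [← hw, mul_comm]⟩
  have h1 : emultiplicity P (span {w' * y}) = n := by
    rw [← span_singleton_mul_span_singleton, emultiplicity_mul hPp, hn',
      (emultiplicity_span_eq_zero_iff P).mpr hw'P, zero_add]
  have h2 : emultiplicity P (span {w' * y}) = emultiplicity P (span {w}) + n := by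
    rw [← hw, ← span_singleton_mul_span_singleton, emultiplicity_mul hPp, hn]
  rw [← emultiplicity_span_eq_zero_iff]
  rw [h1] at h2
  have h3 : (0 : ℕ∞) + n = emultiplicity P (span {w}) + n := by rw [zero_add]; exact h2
  exact (ENat.add_left_injective_of_ne_top (ENat.natCast_ne_top n) h3).symm

/-- [D2] -/
theorem sub_pow_mem_of_inertia (P : Ideal R) [P.IsPrime] (hP : P ≠ ⊥) (h : R ≃+* R)
    (hin : ∀ x, h x - x ∈ P) {lam sig eps y : R} (hlam : emultiplicity P (span {lam}) = 1)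
    (hsig : h lam = sig * lam) (hy : y ≠ 0) (hhy : h y = eps * y) (r : ℕ)
    (hr : emultiplicity P (span {y}) = r) : eps - sig ^ r ∈ P := by
  have hPp : Prime P := prime_of_isPrime hP ‹_›
  have hlam0 : lam ≠ 0 := by
    rintro rfl
    have : span {(0 : R)} = 0 := by simp
    rw [this, emultiplicity_zero] at hlam
    exact absurd hlam (by simp)
  have hlr : lam ^ r ≠ 0 := pow_ne_zero r hlam0
  have hm : emultiplicity P (span {lam ^ r}) = emultiplicity P (span {y}) := by
    rw [← span_singleton_pow, emultiplicity_pow hPp, hlam, hr, mul_one]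
  obtain ⟨w, w', hw, hw', hww⟩ := exists_mul_eq_mul P hP hlr hy hm
  have h1 : h w' * (eps * y) = (sig * lam) ^ r * h w := by
    rw [← hhy, ← hsig, ← map_mul, hww, map_mul, map_pow]
  have h2 : lam ^ r * (h w' * eps * w) = lam ^ r * (sig ^ r * h w * w') := by
    calc lam ^ r * (h w' * eps * w) = h w' * eps * (lam ^ r * w) := by ring
      _ = h w' * eps * (w' * y) := by rw [hww]
      _ = (h w' * (eps * y)) * w' := by ring
      _ = (sig * lam) ^ r * h w * w' := by rw [h1]
      _ = lam ^ r * (sig ^ r * h w * w') := by ring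
  have h3 : h w' * eps * w = sig ^ r * h w * w' := mul_left_cancel₀ hlr h2
  have h4 : (eps - sig ^ r) * (w * w') =
      sig ^ r * w' * (h w - w) - eps * w * (h w' - w') := by
    linear_combination h3
  have h5 : (eps - sig ^ r) * (w * w') ∈ P := by
    rw [h4]
    exact P.sub_mem (P.mul_mem_left _ (hin w)) (P.mul_mem_left _ (hin w'))
  rcases (‹P.IsPrime›.mem_or_mem h5) with h6 | h6
  · exact h6
  · rcases (‹P.IsPrime›.mem_or_mem h6) with h7 | h7
    · exact absurd h7 hw
    · exact absurd h7 hw'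

/-- [D3] -/
theorem exists_eq_prod_mul_pow {ι : Type*} [Fintype ι] (P : ι → Ideal R)
    (hPinj : Function.Injective P) (hP : ∀ i, (P i).IsPrime ∧ P i ≠ ⊥) (J : Ideal R) (hJ : J ≠ ⊥)
    (p : ℕ) (c : ι → ℕ) (hc : ∀ i, emultiplicity (P i) J = c i)
    (hdvd : ∀ Q : Ideal R, Q.IsPrime → Q ≠ ⊥ → (∀ i, Q ≠ P i) →
      ∃ k : ℕ, emultiplicity Q J = (p * k : ℕ)) :
    ∃ B : Ideal R, B ≠ ⊥ ∧ J = (∏ i, P i ^ c i) * B ^ p := by
  classical
  set F := (normalizedFactors J).toFinset with hF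
  set n : Ideal R → ℕ := fun Q => Multiset.count Q (normalizedFactors J) with hn
  have hcount : ∀ Q : Ideal R, Q.IsPrime → Q ≠ ⊥ → emultiplicity Q J = n Q := by
    intro Q hQ hQ0
    rw [emultiplicity_eq_count_normalizedFactors (prime_of_isPrime hQ0 hQ).irreducible hJ,
      normalize_eq]
  have hJprod : J = ∏ Q ∈ F, Q ^ n Q := by
    conv_lhs => rw [← Ideal.prod_normalizedFactors_eq_self hJ, Finset.prod_multiset_count]
  have hFprime : ∀ Q ∈ F, Q.IsPrime ∧ Q ≠ ⊥ := by
    intro Q hQ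
    have hQ' : Q ∈ normalizedFactors J := Multiset.mem_toFinset.mp hQ
    have hpr := prime_of_normalized_factor Q hQ'
    exact ⟨isPrime_of_prime hpr, hpr.ne_zero⟩
  set S : Finset (Ideal R) := Finset.univ.image P with hS
  have h1 : ∏ Q ∈ F with Q ∈ S, Q ^ n Q = ∏ i, P i ^ c i := by
    have e1 : ∏ Q ∈ F with Q ∈ S, Q ^ n Q = ∏ Q ∈ S, Q ^ n Q := by
      apply Finset.prod_subset
      · intro Q hQ
        exact (Finset.mem_filter.mp hQ).2
      · intro Q hQS hQF
        have : Q ∉ F := fun h => hQF (Finset.mem_filter.mpr ⟨h, hQS⟩)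
        have h0 : n Q = 0 := Multiset.count_eq_zero.mpr (fun h => this (Multiset.mem_toFinset.mpr h))
        rw [h0, pow_zero]
    rw [e1, hS, Finset.prod_image (fun i _ j _ hij => hPinj hij)]
    refine Finset.prod_congr rfl fun i _ => ?_
    have := hcount (P i) (hP i).1 (hP i).2
    rw [hc i] at this
    have h' : c i = n (P i) := by exact_mod_cast this
    rw [h']
  have h2 : ∏ Q ∈ F with ¬ Q ∈ S, Q ^ n Q = (∏ Q ∈ F with ¬ Q ∈ S, Q ^ (n Q / p)) ^ p := by
    rw [← Finset.prod_pow]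
    refine Finset.prod_congr rfl fun Q hQ => ?_
    obtain ⟨hQF, hQS⟩ := Finset.mem_filter.mp hQ
    obtain ⟨hQp, hQ0⟩ := hFprime Q hQF
    obtain ⟨k, hk⟩ := hdvd Q hQp hQ0 (fun i hi => hQS (hi ▸ Finset.mem_image_of_mem P (Finset.mem_univ i)))
    rw [hcount Q hQp hQ0] at hk
    have hk' : n Q = p * k := by exact_mod_cast hk
    rw [← pow_mul]
    congr 1
    rcases Nat.eq_zero_or_pos p with hp0 | hp0
    · simp [hk', hp0]
    · rw [hk', Nat.mul_div_cancel_left k hp0, mul_comm]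
  refine ⟨∏ Q ∈ F with ¬ Q ∈ S, Q ^ (n Q / p), ?_, ?_⟩
  · rw [← Ideal.zero_eq_bot, Finset.prod_ne_zero_iff]
    intro Q hQ
    exact pow_ne_zero _ (hFprime Q (Finset.mem_filter.mp hQ).1).2
  · rw [← h1, ← h2, Finset.prod_filter_mul_prod_filter_not]
    exact hJprod

end Dedekind

end Fermat.Agent.S14.Thaine
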